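import Fermat.Agent.GalRep.FieldLemma
import Fermat.Agent.MCurve.JFun
import Fermat.Agent.Eisenstein.Level
import Mathlib.RingTheory.Polynomial.Vieta

/-!
# The modular unit `p¹² Δ(pτ) / Δ(τ)`

It is integral over `ℤ̄[j]`; the Newton polygon of its equation at a place where `j` has a pole
leaves two possible valuations.
-/

set_option autoImplicit false
set_option linter.style.haveILetI false

noncomputable section

namespace Fermat.Agent.Mazur3

open UpperHalfPlane CongruenceSubgroup Polynomial Fermat.Agent.GalRep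
open Fermat.Agent.Period (jFun Coset baseCoset)
open scoped MatrixGroups Manifold

/-! ## Series with integral coefficients and given lowest term -/

/-- Laurent series with coefficients integral over `ℤ`. -/
def intLS : Subring (LaurentSeries ℂ) where
  carrier := {f | ∀ m, IsIntegral ℤ (f.coeff m)}
  mul_mem' {f g} hf hg m := by
    rw [HahnSeries.coeff_mul]
    exact IsIntegral.sum _ fun x _ => (hf _).mul (hg _)
  one_mem' m := by
    rw [HahnSeries.coeff_one]
    split_ifs
    · exact isIntegral_one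
    · exact isIntegral_zero
  add_mem' {f g} hf hg m := by rw [HahnSeries.coeff_add]; exact (hf _).add (hg _)
  zero_mem' m := by simpa using isIntegral_zero
  neg_mem' {f} hf m := by rw [HahnSeries.coeff_neg]; exact (hf _).neg

/-- `f` starts at degree `a` with coefficient `x`. -/
def Lead (f : LaurentSeries ℂ) (a : ℤ) (x : ℂ) : Prop :=
  (∀ m < a, f.coeff m = 0) ∧ f.coeff a = x

theorem Lead.mul {f g : LaurentSeries ℂ} {a b : ℤ} {x y : ℂ} (hf : Lead f a x) (hg : Lead g b y) :
    Lead (f * g) (a + b) (x * y) := by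
  refine ⟨fun m hm => ?_, ?_⟩
  · rw [HahnSeries.coeff_mul]
    refine Finset.sum_eq_zero fun ij hij => ?_
    simp only [Finset.mem_antidiagonal] at hij
    rcases lt_or_ge ij.1 a with h | h
    · rw [hf.1 _ h, zero_mul]
    · rw [hg.1 _ (by omega), mul_zero]
  · rw [HahnSeries.coeff_mul, Finset.sum_eq_single (a, b), hf.2, hg.2]
    · intro ij hij hne
      simp only [Finset.mem_antidiagonal] at hij
      rcases lt_trichotomy ij.1 a with h | h | h
      · rw [hf.1 _ h, zero_mul]
      · exact absurd (Prod.ext h (by dsimp only; omega)) hne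
      · rw [hg.1 _ (by omega), mul_zero]
    · intro hab
      simp only [Finset.mem_antidiagonal, HahnSeries.mem_support, not_and_or, not_not] at hab
      rcases hab with h | h | h
      · rw [h, zero_mul]
      · rw [h, mul_zero]
      · exact absurd trivial h

theorem Lead.prod {ι : Type*} (s : Finset ι) {f : ι → LaurentSeries ℂ} {a : ι → ℤ} {x : ι → ℂ}
    (h : ∀ i ∈ s, Lead (f i) (a i) (x i)) :
    Lead (∏ i ∈ s, f i) (∑ i ∈ s, a i) (∏ i ∈ s, x i) := by
  classical
  induction s using Finset.induction_on with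
  | empty => refine ⟨fun m hm => ?_, ?_⟩ <;> simp_all [HahnSeries.coeff_one, ne_of_lt]
  | insert i s hi ih =>
    rw [Finset.prod_insert hi, Finset.sum_insert hi, Finset.prod_insert hi]
    exact (h i (Finset.mem_insert_self i s)).mul (ih fun j hj => h j (Finset.mem_insert_of_mem hj))

theorem Lead.expand {f : LaurentSeries ℂ} {a : ℤ} {x : ℂ} (hf : Lead f a x) {k : ℕ} (hk : k ≠ 0) :
    Lead (GalRep.expand k hk f) (k * a) x := by
  refine ⟨fun m hm => ?_, by rw [expand_coeff_mul, hf.2]⟩
  by_cases hd : (k : ℤ) ∣ m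
  · obtain ⟨i, rfl⟩ := hd
    rw [expand_coeff_mul]
    exact hf.1 _ (lt_of_mul_lt_mul_left hm (by positivity))
  · exact expand_coeff_of_not_dvd k hk f m hd

theorem expand_mem_intLS {f : LaurentSeries ℂ} (hf : f ∈ intLS) {k : ℕ} (hk : k ≠ 0) :
    GalRep.expand k hk f ∈ intLS := fun m => by
  by_cases hd : (k : ℤ) ∣ m
  · obtain ⟨i, rfl⟩ := hd
    rw [expand_coeff_mul]; exact hf i
  · rw [expand_coeff_of_not_dvd k hk f m hd]; exact isIntegral_zero

theorem Lead.twist {f : LaurentSeries ℂ} {a : ℤ} {x : ℂ} (hf : Lead f a x) (ζ : ℂˣ) :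
    Lead (GalRep.twist ζ f) a (x * ((ζ ^ a : ℂˣ) : ℂ)) :=
  ⟨fun m hm => by rw [twist_coeff, hf.1 m hm, zero_mul], by rw [twist_coeff, hf.2]⟩

theorem isIntegral_zpow_of_pow_eq_one {ζ : ℂˣ} {n : ℕ} (hn : 0 < n) (h : ζ ^ n = 1) (m : ℤ) :
    IsIntegral ℤ ((ζ ^ m : ℂˣ) : ℂ) := by
  refine IsIntegral.of_pow hn ?_
  rw [← Units.val_pow_eq_pow_val, ← zpow_natCast, ← zpow_mul, mul_comm, zpow_mul, zpow_natCast, h,
    one_zpow, Units.val_one]
  exact isIntegral_one

theorem twist_mem_intLS {f : LaurentSeries ℂ} (hf : f ∈ intLS) {ζ : ℂˣ} {n : ℕ} (hn : 0 < n)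
    (h : ζ ^ n = 1) : GalRep.twist ζ f ∈ intLS := fun m => by
  rw [twist_coeff]
  exact (hf m).mul (isIntegral_zpow_of_pow_eq_one hn h m)

/-- The series of a complex power series with integer coefficients. -/
def intSer (P : PowerSeries ℤ) : LaurentSeries ℂ :=
  HahnSeries.ofPowerSeries ℤ ℂ (PowerSeries.map (Int.castRingHom ℂ) P)

theorem intSer_mem (P : PowerSeries ℤ) : intSer P ∈ intLS := fun m => by
  rw [intSer, HahnSeries.ofPowerSeries_apply]
  by_cases hm : 0 ≤ m
  · obtain ⟨k, rfl⟩ := Int.eq_ofNat_of_zero_le hm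
    rw [← HahnSeries.ofPowerSeries_apply, HahnSeries.ofPowerSeries_apply_coeff, PowerSeries.coeff_map]
    exact isIntegral_algebraMap
  · rw [HahnSeries.embDomain_of_notMem_range]
    · exact isIntegral_zero
    · rintro ⟨k, rfl⟩; exact hm (by simp)

theorem lead_intSer (P : PowerSeries ℤ) : Lead (intSer P) 0 (P.constantCoeff : ℂ) := by
  refine ⟨fun m hm => ?_, ?_⟩
  · rw [intSer, HahnSeries.ofPowerSeries_apply, HahnSeries.embDomain_of_notMem_range]
    rintro ⟨k, rfl⟩
    simp at hm
    omega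
  · rw [intSer, show (0 : ℤ) = ((0 : ℕ) : ℤ) from rfl, HahnSeries.ofPowerSeries_apply_coeff,
      PowerSeries.coeff_map, PowerSeries.coeff_zero_eq_constantCoeff]
    rfl

theorem lead_single (a : ℤ) (x : ℂ) : Lead (HahnSeries.single a x) a x :=
  ⟨fun m hm => HahnSeries.coeff_single_of_ne hm.ne, HahnSeries.coeff_single_same a x⟩

theorem single_mem_intLS (a : ℤ) : HahnSeries.single a (1 : ℂ) ∈ intLS := fun m => by
  by_cases h : m = a
  · subst h; simpa using isIntegral_one
  · rw [HahnSeries.coeff_single_of_ne h]; exact isIntegral_zero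

theorem hasQSeries_intSer {f : ℍ → ℂ} {P : PowerSeries ℤ}
    (h : MCurve.QExp 1 f (PowerSeries.map (Int.castRingHom ℂ) P)) :
    HasQSeries 1 f (intSer P) := by
  rw [hasQSeries_iff]
  refine .of_forall fun τ => ?_
  refine (Nat.cast_injective.hasSum_iff fun m hm => ?_).mp ?_
  · rw [intSer, HahnSeries.ofPowerSeries_apply, HahnSeries.embDomain_of_notMem_range, zero_mul]
    rintro ⟨k, hk⟩; exact hm ⟨k, hk⟩
  · simpa [intSer, Function.comp_def, qq_eq_qParam, HahnSeries.ofPowerSeries_apply_coeff] using h τ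

/-- The series of `Δ`. -/
def dSer : LaurentSeries ℂ := HahnSeries.single (1 : ℤ) 1 * intSer (ModularCurve.etaProd ^ 24)

/-- The series of `Δ⁻¹`. -/
def dInvSer : LaurentSeries ℂ :=
  HahnSeries.single (-1 : ℤ) 1 * intSer ModularCurve.dedekindEtaUnitInv

theorem lead_dSer : Lead dSer 1 1 := by
  have h : (ModularCurve.etaProd ^ 24).constantCoeff = 1 := by
    rw [map_pow, ModularCurve.constantCoeff_etaProd, one_pow]
  have H := (lead_single 1 1).mul (lead_intSer (ModularCurve.etaProd ^ 24))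
  rw [h, Int.cast_one, add_zero, mul_one] at H
  exact H

theorem lead_dInvSer : Lead dInvSer (-1) 1 := by
  have h : ModularCurve.dedekindEtaUnitInv.constantCoeff = 1 := by
    have := congrArg PowerSeries.constantCoeff ModularCurve.dedekindEtaUnit_mul_inv
    rw [map_mul, show ModularCurve.dedekindEtaUnit = ModularCurve.etaProd ^ 24 from rfl, map_pow,
      ModularCurve.constantCoeff_etaProd, one_pow, one_mul, map_one] at this
    exact this
  simpa [dInvSer, h] using (lead_single (-1) 1).mul (lead_intSer ModularCurve.dedekindEtaUnitInv)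

theorem dSer_mem : dSer ∈ intLS := intLS.mul_mem (single_mem_intLS 1) (intSer_mem _)

theorem dInvSer_mem : dInvSer ∈ intLS := intLS.mul_mem (single_mem_intLS (-1)) (intSer_mem _)

theorem qParam_one (τ : ℍ) : Function.Periodic.qParam 1 (τ : ℂ) = qq 1 τ := by
  rw [qq_eq_qParam]; simp

theorem hasQSeries_dSer : HasQSeries 1 ModularForm.discriminant dSer := by
  have h := MCurve.qExp_etaFn.pow 24
  rw [← map_pow] at h
  refine ((HasQSeries.single 1 1 1).mul (hasQSeries_intSer h)).congr (.of_forall fun τ => ?_)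
  simp only [Pi.mul_apply, Pi.pow_apply, one_mul, zpow_one, MCurve.discriminant_eq_qParam_mul,
    qParam_one]

theorem hasQSeries_dInvSer :
    HasQSeries 1 (fun τ => (ModularForm.discriminant τ)⁻¹) dInvSer := by
  refine ((HasQSeries.single 1 (-1) 1).mul (hasQSeries_intSer MCurve.qExp_etaInv)).congr
    (.of_forall fun τ => ?_)
  simp only [Pi.mul_apply, one_mul, zpow_neg, zpow_one, MCurve.discriminant_eq_qParam_mul,
    qParam_one, mul_inv]

theorem jq_mem_intLS : jq ∈ intLS := by
  have h : HasQSeries 1 jFun (HahnSeries.single (-1 : ℤ) 1 * intSer ModularCurve.jNum) := by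
    refine ((HasQSeries.single 1 (-1) 1).mul (hasQSeries_intSer MCurve.qExp_qParam_mul_jFn)).congr
      (.of_forall fun τ => ?_)
    simp only [Pi.mul_apply, one_mul, zpow_neg, zpow_one, qParam_one]
    rw [← mul_assoc, inv_mul_cancel₀ (qq_ne_zero 1 τ), one_mul]
    rfl
  rw [hasQSeries_jq.unique one_pos h]
  exact intLS.mul_mem (single_mem_intLS (-1)) (intSer_mem _)

/-! ## Polynomials in `j` -/

theorem coeff_aeval_jq_top {Q : ℂ[X]} {D : ℕ} (hD : Q.natDegree ≤ D) :
    (Polynomial.aeval jq Q).coeff (-(D : ℤ)) = Q.coeff D := by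
  have hpow : ∀ i : ℕ, Lead (jq ^ i) (-(i : ℤ)) 1 := fun i => by
    have h1 : Lead jq (-1) 1 := ⟨fun m hm => HahnSeries.coeff_eq_zero_of_lt_order
      (by rw [order_jq]; exact hm), coeff_jq_neg_one⟩
    simpa using Lead.prod (Finset.range i) (f := fun _ => jq) (a := fun _ => -1) (x := fun _ => 1)
      fun _ _ => h1
  rw [Polynomial.aeval_eq_sum_range' (Nat.lt_succ_of_le hD), HahnSeries.coeff_sum,
    Finset.sum_range_succ, Finset.sum_eq_zero, zero_add]
  · rw [Algebra.smul_def, HahnSeries.algebraMap_apply', PowerSeries.algebraMap_eq,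
      HahnSeries.ofPowerSeries_C, HahnSeries.C_apply, HahnSeries.coeff_single_zero_mul, (hpow D).2, mul_one]
  · intro i hi
    rw [Finset.mem_range] at hi
    rw [Algebra.smul_def, HahnSeries.algebraMap_apply', PowerSeries.algebraMap_eq,
      HahnSeries.ofPowerSeries_C, HahnSeries.C_apply, HahnSeries.coeff_single_zero_mul,
      (hpow i).1 _ (show -(D : ℤ) < -(i : ℤ) by omega), mul_zero]

theorem natDegree_le_of_coeff_aeval {Q : ℂ[X]} {D : ℕ}
    (h : ∀ m < -(D : ℤ), (Polynomial.aeval jq Q).coeff m = 0) : Q.natDegree ≤ D := by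
  by_contra hlt
  push Not at hlt
  have h0 := h (-(Q.natDegree : ℤ)) (by omega)
  rw [coeff_aeval_jq_top le_rfl] at h0
  have : Q = 0 := Polynomial.leadingCoeff_eq_zero.1 h0
  simp [this] at hlt

theorem isIntegral_coeff_of_aeval :
    ∀ (n : ℕ) (Q : ℂ[X]), Q.natDegree < n → Polynomial.aeval jq Q ∈ intLS →
      ∀ k, IsIntegral ℤ (Q.coeff k) := by
  intro n
  induction n with
  | zero => intro Q h; omega
  | succ n ih =>
    intro Q hQ hint k
    have hl : IsIntegral ℤ Q.leadingCoeff := by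
      rw [Polynomial.leadingCoeff, ← coeff_aeval_jq_top le_rfl]; exact hint _
    by_cases hk : k = Q.natDegree
    · rw [hk]; exact hl
    rcases Nat.eq_zero_or_pos Q.natDegree with h0 | hpos
    · rw [Polynomial.coeff_eq_zero_of_natDegree_lt (by omega)]; exact isIntegral_zero
    have he : Polynomial.aeval jq Q.eraseLead ∈ intLS := by
      have e := congrArg (Polynomial.aeval jq) Q.eraseLead_add_C_mul_X_pow
      simp only [map_add, map_mul, Polynomial.aeval_C, map_pow, Polynomial.aeval_X] at e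
      rw [← sub_eq_iff_eq_add.2 e.symm]
      refine intLS.sub_mem hint (intLS.mul_mem (fun m => ?_) (pow_mem jq_mem_intLS _))
      rw [HahnSeries.algebraMap_apply', PowerSeries.algebraMap_eq, HahnSeries.ofPowerSeries_C,
        HahnSeries.C_apply]
      by_cases hm : m = 0
      · subst hm; simpa using hl
      · rw [HahnSeries.coeff_single_of_ne hm]; exact isIntegral_zero
    have := ih Q.eraseLead (by have := Polynomial.eraseLead_natDegree_le Q; omega) he k
    rwa [Polynomial.eraseLead_coeff_of_ne k hk] at this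

/-! ## The function -/

attribute [local instance] Classical.decEq

variable (p : ℕ) [hp : Fact p.Prime]

local instance instNeZeroPrime : NeZero p := ⟨hp.out.ne_zero⟩

/-- `τ ↦ p¹² Δ(pτ) / Δ(τ)`. -/
def uFun (τ : ℍ) : ℂ :=
  (p : ℂ) ^ 12 * ModularForm.discriminant (posMat _ (det_diagN p) • τ) / ModularForm.discriminant τ

omit hp in
theorem disc_smul (γ : SL(2, ℤ)) (τ : ℍ) :
    ModularForm.discriminant (γ • τ) =
      denom γ (τ : ℂ) ^ (12 : ℤ) * ModularForm.discriminant τ :=
  SlashInvariantForm.slash_action_eqn'' CuspForm.discriminant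
    (show Matrix.SpecialLinearGroup.mapGL ℝ γ ∈ (Matrix.SpecialLinearGroup.mapGL ℝ).range
      from ⟨γ, rfl⟩) τ

theorem uFun_smul_of_eq (δ g : SL(2, ℤ)) {a d : ℕ} (b : ℤ) (ha : 0 < a) (hd : 0 < d)
    (had : a * d = p) (heq : !![(p : ℤ), 0; 0, 1] * (δ : Matrix (Fin 2) (Fin 2) ℤ) =
      (g : Matrix (Fin 2) (Fin 2) ℤ) * !![(a : ℤ), b; 0, (d : ℤ)]) (τ : ℍ) :
    uFun p (δ • τ) = (a : ℂ) ^ 12 *
      ModularForm.discriminant (posMat _ (det_upper_pos b ha hd) • τ) /
        ModularForm.discriminant τ := by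
  have hden : denom g ((posMat _ (det_upper_pos b ha hd) • τ : ℍ) : ℂ) * (d : ℂ) =
      denom δ (τ : ℂ) := by
    rw [ModularGroup.denom_apply, ModularGroup.denom_apply, coe_posMat_upper]
    have h0 := congrFun (congrFun heq 1) 0
    have h1 := congrFun (congrFun heq 1) 1
    simp [Matrix.mul_apply, Fin.sum_univ_two] at h0 h1
    have hd' : (d : ℂ) ≠ 0 := Nat.cast_ne_zero.2 hd.ne'
    rw [h0, h1]
    push_cast
    field_simp
    ring
  rw [uFun, posMat_smul_eq (det_diagN p) (det_upper_pos b ha hd) δ g heq τ,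
    disc_smul, disc_smul, ← hden, mul_zpow,
    show ((d : ℂ)) ^ (12 : ℤ) = (d : ℂ) ^ 12 by norm_cast,
    show (p : ℂ) = (a : ℂ) * d by rw [← had, Nat.cast_mul]]
  have := zpow_ne_zero (12 : ℤ) (denom_ne_zero g (posMat _ (det_upper_pos b ha hd) • τ : ℍ))
  have hd' : (d : ℂ) ≠ 0 := Nat.cast_ne_zero.2 hd.ne'
  have := ModularForm.discriminant_ne_zero τ
  field_simp

/-- The translates: the identity type and the others. -/
theorem uFun_cases (δ : SL(2, ℤ)) :
    (δ ∈ Gamma0 p ∧ ∃ b : ℤ, ∀ τ, uFun p (δ • τ) = (p : ℂ) ^ 12 *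
        ModularForm.discriminant (posMat _ (det_upper_pos b hp.out.pos one_pos) • τ) /
          ModularForm.discriminant τ) ∨
    ∃ b : ℤ, ∀ τ, uFun p (δ • τ) = (1 : ℂ) *
        ModularForm.discriminant (posMat _ (det_upper_pos b one_pos hp.out.pos) • τ) /
          ModularForm.discriminant τ := by
  have hdet : 0 < (!![(p : ℤ), 0; 0, 1] * (δ : Matrix (Fin 2) (Fin 2) ℤ)).det := by
    rw [Matrix.det_mul, δ.det_coe, mul_one]; exact det_diagN p
  obtain ⟨g, a, d, b, ha, hd, had, heq⟩ := exists_hermite _ hdet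
  rw [Matrix.det_mul, δ.det_coe, Matrix.det_fin_two_of] at had
  have hap : a * d = p := by
    have : ((a * d : ℕ) : ℤ) = (p : ℤ) := by push_cast; linarith
    exact_mod_cast this
  rcases (Nat.dvd_prime hp.out).1 (Dvd.intro_left a hap) with rfl | rfl
  · rw [mul_one] at hap
    subst hap
    refine Or.inl ⟨?_, b, fun τ => uFun_smul_of_eq a δ g b ha hd (mul_one a) heq τ⟩
    have h10 := congrFun (congrFun heq 1) 0
    simp [Matrix.mul_apply, Fin.sum_univ_two] at h10
    rw [Gamma0_mem, h10]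
    simp
  · have ha1 : a = 1 := Nat.eq_of_mul_eq_mul_right hd (by rw [hap, one_mul])
    subst ha1
    refine Or.inr ⟨b, fun τ => ?_⟩
    rw [uFun_smul_of_eq d δ g b one_pos hd (one_mul d) heq τ]
    simp

theorem isModFun_uFun : IsModFun (Gamma0 p) (uFun p) := by
  have hD : MDifferentiable 𝓘(ℂ) 𝓘(ℂ) (ModularForm.discriminant : ℍ → ℂ) :=
    CuspFormClass.holo CuspForm.discriminant
  refine ⟨?_, fun γ hγ τ => ?_, fun δ => ?_⟩
  · refine UpperHalfPlane.mdifferentiable_iff.mpr ?_
    exact ((UpperHalfPlane.mdifferentiable_iff.mp (mdifferentiable_comp_posMat hD _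
      (det_diagN p))).const_mul ((p : ℂ) ^ 12)).div (UpperHalfPlane.mdifferentiable_iff.mp hD)
        fun z _ => ModularForm.discriminant_ne_zero _
  · obtain ⟨k, hk⟩ : (p : ℤ) ∣ γ 1 0 :=
      (ZMod.intCast_zmod_eq_zero_iff_dvd _ p).mp (Gamma0_mem.mp hγ)
    have hdet : γ 0 0 * γ 1 1 - γ 0 1 * γ 1 0 = 1 := by
      rw [← Matrix.det_fin_two (γ : Matrix (Fin 2) (Fin 2) ℤ)]; exact γ.det_coe
    let g : SL(2, ℤ) := ⟨!![γ 0 0, (p : ℤ) * γ 0 1; k, γ 1 1],
      by rw [Matrix.det_fin_two_of]; linear_combination hdet + γ 0 1 * hk⟩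
    have heq : !![(p : ℤ), 0; 0, 1] * (γ : Matrix (Fin 2) (Fin 2) ℤ) =
        (g : Matrix (Fin 2) (Fin 2) ℤ) * !![(p : ℤ), 0; 0, ((1 : ℕ) : ℤ)] := by
      ext i j
      fin_cases i <;> fin_cases j <;> simp [g, Matrix.mul_apply, Fin.sum_univ_two] <;>
        linarith [hk]
    exact uFun_smul_of_eq p γ g 0 hp.out.pos one_pos (mul_one p) heq τ
  · rcases uFun_cases p δ with ⟨-, b, h⟩ | ⟨b, h⟩
    · refine ⟨1 * 1, _, one_pos, (((hasQSeries_dSer.comp_upper one_pos b hp.out.pos one_pos).mul
        hasQSeries_dInvSer).smul ((p : ℂ) ^ 12)).congr (.of_forall fun τ => ?_)⟩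
      simp only [h, Pi.mul_apply]; ring
    · refine ⟨1 * p, _, by simp [hp.out.pos], (((hasQSeries_dSer.comp_upper one_pos b one_pos
        hp.out.pos).mul (hasQSeries_dInvSer.refine_width one_pos p hp.out.ne_zero)).smul 1).congr
          (.of_forall fun τ => ?_)⟩
      simp only [h, Pi.mul_apply]; ring

/-- `uFun` as an element of `modFuns (Γ₀ p)`. -/
def uMF : modFuns (Gamma0 p) := ⟨uFun p, isModFun_uFun p⟩

theorem exists_series_conjugate (q : Coset p) :
    ∃ x : ℂ, serHom p (conjugate q (uMF p)) ∈ intLS ∧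
      ((q = baseCoset p ∧ Lead (serHom p (conjugate q (uMF p))) ((p : ℤ) * (p - 1)) x ∧
          x = (p : ℂ) ^ 12) ∨
        (q ≠ baseCoset p ∧ Lead (serHom p (conjugate q (uMF p))) (1 - p) x ∧ x ^ p = 1)) := by
  obtain ⟨g, rfl⟩ := QuotientGroup.mk_surjective q
  have hser : ∀ (F : ℍ → ℂ) (f : LaurentSeries ℂ), HasQSeries p F f →
      (∀ τ, uFun p (g⁻¹ • τ) = F τ) → serHom p (conjugate (g : Coset p) (uMF p)) = f := by
    intro F f hF he
    refine qser_eq hp.out.pos (hF.congr (.of_forall fun τ => ?_))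
    rw [conjugate_mk]; exact (he τ).symm
  have hbase : ((g : Coset p) = baseCoset p) ↔ g⁻¹ ∈ Gamma0 p := by
    rw [Period.baseCoset, QuotientGroup.eq, mul_one]
  rcases uFun_cases p g⁻¹ with ⟨hmem, b, h⟩ | ⟨b, h⟩
  · set ζ : ℂˣ := Units.mk0 (Complex.exp (2 * Real.pi * Complex.I * b / (1 * 1 : ℕ)))
      (Complex.exp_ne_zero _) with hζ
    have hζ1 : ζ = 1 := Units.ext (by
      simp only [hζ, Units.val_mk0, mul_one, Nat.cast_one, div_one, Units.val_one]
      rw [mul_comm]
      exact Complex.exp_int_mul_two_pi_mul_I b)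
    have hS := hser _ _ (((((hasQSeries_dSer.comp_upper one_pos b hp.out.pos one_pos).mul
      hasQSeries_dInvSer).smul ((p : ℂ) ^ 12)).refine_width (by norm_num) p hp.out.ne_zero |> fun h' =>
        (show (1 * 1 * p : ℕ) = p by ring) ▸ h'))
      (fun τ => show uFun p (g⁻¹ • τ) = (p : ℂ) ^ 12 * (ModularForm.discriminant
          (posMat _ (det_upper_pos b hp.out.pos one_pos) • τ) * (ModularForm.discriminant τ)⁻¹) by
        rw [h τ]; ring)
    rw [← hζ, hζ1] at hS
    rw [hS]
    refine ⟨(p : ℂ) ^ 12, expand_mem_intLS (intLS.mul_mem (fun m => ?_) (intLS.mul_mem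
      (expand_mem_intLS (twist_mem_intLS dSer_mem one_pos (one_pow 1)) _) dInvSer_mem)) _,
        Or.inl ⟨hbase.2 hmem, ?_, rfl⟩⟩
    · rw [HahnSeries.C_apply]
      by_cases hm : m = 0
      · subst hm; simpa using ((isIntegral_algebraMap (R := ℤ) (A := ℂ) (x := (p : ℤ))).pow 12)
      · rw [HahnSeries.coeff_single_of_ne hm]; exact isIntegral_zero
    · have h1 : Lead (HahnSeries.C ((p : ℂ) ^ 12)) 0 ((p : ℂ) ^ 12) := by
        rw [HahnSeries.C_apply]; exact lead_single 0 _
      have h2 := (h1.mul (((lead_dSer.twist 1).expand hp.out.ne_zero).mul lead_dInvSer)).expand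
        hp.out.ne_zero
      simp only [one_zpow, Units.val_one, mul_one] at h2
      convert h2 using 2
      ring
  · have hmem : g⁻¹ ∉ Gamma0 p := by
      intro hmem
      obtain ⟨b', h'⟩ : ∃ b' : ℤ, ∀ τ, uFun p (g⁻¹ • τ) = uFun p τ :=
        ⟨0, fun τ => (isModFun_uFun p).invariant _ hmem τ⟩
      set ζ : ℂˣ := Units.mk0 (Complex.exp (2 * Real.pi * Complex.I * b / (p * 1 : ℕ)))
        (Complex.exp_ne_zero _)
      have hA : HasQSeries p (fun τ => uFun p (g⁻¹ • τ))
          (HahnSeries.C 1 * (GalRep.expand 1 one_ne_zero (GalRep.twist ζ dSer) *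
            GalRep.expand p hp.out.ne_zero dInvSer)) := by
        have := (((hasQSeries_dSer.comp_upper one_pos b one_pos hp.out.pos).mul
          (hasQSeries_dInvSer.refine_width one_pos p hp.out.ne_zero)).smul 1)
        rw [one_mul] at this
        exact this.congr (.of_forall fun τ => by rw [h τ]; simp only [Pi.mul_apply]; ring)
      obtain ⟨f, hf⟩ := exists_hasQSeries_modFuns (N := p) (incl p (uMF p))
      have hB : HasQSeries p (uFun p) (HahnSeries.C 1 *
          (GalRep.expand 1 one_ne_zero (GalRep.twist ζ dSer) *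
            GalRep.expand p hp.out.ne_zero dInvSer)) :=
        hA.congr (.of_forall fun τ => h' τ)
      have hC : HasQSeries p (uFun p) (GalRep.expand p hp.out.ne_zero (HahnSeries.C ((p : ℂ) ^ 12) *
          (GalRep.expand p hp.out.ne_zero (GalRep.twist 1 dSer) * dInvSer))) := by
        have hd : HasQSeries 1 (fun τ => ModularForm.discriminant (posMat _ (det_diagN p) • τ))
            (GalRep.expand p hp.out.ne_zero (GalRep.twist 1 dSer)) := by
          have := hasQSeries_dSer.comp_affine one_pos p 1 hp.out.ne_zero one_pos 0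
            (fun τ => posMat _ (det_diagN p) • τ) (fun τ => by rw [coe_posMat_smul]; simp) 1 (by simp)
          rwa [mul_one] at this
        have := ((hd.mul hasQSeries_dInvSer).smul ((p : ℂ) ^ 12)).refine_width one_pos p
          hp.out.ne_zero
        rw [one_mul] at this
        exact this.congr (.of_forall fun τ => by simp only [Pi.mul_apply, uFun]; ring)
      have l1 : Lead (HahnSeries.C (1 : ℂ)) 0 1 := by rw [HahnSeries.C_apply]; exact lead_single 0 _
      have l2 : Lead (HahnSeries.C ((p : ℂ) ^ 12)) 0 ((p : ℂ) ^ 12) := by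
        rw [HahnSeries.C_apply]; exact lead_single 0 _
      have e1 := (l1.mul (((lead_dSer.twist ζ).expand one_ne_zero).mul
        (lead_dInvSer.expand hp.out.ne_zero))).2
      have e2 := ((l2.mul (((lead_dSer.twist 1).expand hp.out.ne_zero).mul lead_dInvSer)).expand
        hp.out.ne_zero).1
      rw [hB.unique hp.out.pos hC, e2 _ (by
        have := hp.out.two_le; push_cast; nlinarith)] at e1
      simp at e1
      exact Units.ne_zero ζ e1.symm
    set ζ : ℂˣ := Units.mk0 (Complex.exp (2 * Real.pi * Complex.I * b / (p * 1 : ℕ)))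
      (Complex.exp_ne_zero _) with hζ
    have hζp : ζ ^ p = 1 := by
      ext
      simp only [hζ, Units.val_pow_eq_pow_val, Units.val_mk0, mul_one, Units.val_one]
      rw [← Complex.exp_nat_mul, show (p : ℂ) * (2 * Real.pi * Complex.I * b / p) =
        b * (2 * Real.pi * Complex.I) by
          have : (p : ℂ) ≠ 0 := Nat.cast_ne_zero.2 hp.out.ne_zero
          field_simp]
      exact Complex.exp_int_mul_two_pi_mul_I b
    have hS := hser _ _ (((((hasQSeries_dSer.comp_upper one_pos b one_pos hp.out.pos).mul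
      (hasQSeries_dInvSer.refine_width one_pos p hp.out.ne_zero)).smul 1) |> fun h' =>
        (show (1 * p : ℕ) = p by ring) ▸ h'))
      (fun τ => show uFun p (g⁻¹ • τ) = (1 : ℂ) * (ModularForm.discriminant
          (posMat _ (det_upper_pos b one_pos hp.out.pos) • τ) * (ModularForm.discriminant τ)⁻¹) by
        rw [h τ]; ring)
    rw [← hζ] at hS
    rw [hS]
    refine ⟨((ζ ^ (1 : ℤ) : ℂˣ) : ℂ), intLS.mul_mem (fun m => ?_) (intLS.mul_mem
      (expand_mem_intLS (twist_mem_intLS dSer_mem hp.out.pos hζp) _) (expand_mem_intLS dInvSer_mem _)),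
        Or.inr ⟨mt hbase.1 hmem, ?_, ?_⟩⟩
    · rw [HahnSeries.C_apply]
      by_cases hm : m = 0
      · subst hm; simpa using isIntegral_one
      · rw [HahnSeries.coeff_single_of_ne hm]; exact isIntegral_zero
    · have h1 : Lead (HahnSeries.C (1 : ℂ)) 0 1 := by rw [HahnSeries.C_apply]; exact lead_single 0 _
      have h2 := h1.mul (((lead_dSer.twist ζ).expand one_ne_zero).mul
        (lead_dInvSer.expand hp.out.ne_zero))
      convert h2 using 1
      · push_cast; ring
      · simp
    · rw [zpow_one, ← Units.val_pow_eq_pow_val, hζp, Units.val_one]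

local instance instFintypeCosetPrime : Fintype (Coset p) := Fintype.ofFinite _

theorem card_coset_prime : Fintype.card (Coset p) = p + 1 := by
  rw [← Fintype.card_congr (Eisenstein.cosetEquiv p), Fintype.card_option, ZMod.card]

/-- The series of the conjugates. -/
def cSer (q : Coset p) : LaurentSeries ℂ := serHom p (conjugate q (uMF p))

/-- The lowest degrees. -/
def cOrd (q : Coset p) : ℤ :=
  open scoped Classical in if q = baseCoset p then (p : ℤ) * (p - 1) else 1 - p

theorem cOrd_ge (q : Coset p) : (1 : ℤ) - p ≤ cOrd p q := by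
  have := hp.out.two_le
  unfold cOrd
  split_ifs <;> nlinarith

theorem exists_lead_cSer (q : Coset p) : ∃ x : ℂ, cSer p q ∈ intLS ∧ Lead (cSer p q) (cOrd p q) x ∧
    ((q = baseCoset p ∧ x = (p : ℂ) ^ 12) ∨ (q ≠ baseCoset p ∧ x ^ p = 1)) := by
  obtain ⟨x, hint, h⟩ := exists_series_conjugate p q
  rcases h with ⟨rfl, hl, hx⟩ | ⟨hne, hl, hx⟩
  · exact ⟨x, hint, by simpa [cOrd, cSer] using hl, Or.inl ⟨rfl, hx⟩⟩
  · exact ⟨x, hint, by simpa [cOrd, cSer, hne] using hl, Or.inr ⟨hne, hx⟩⟩

/-- The coefficient polynomials. -/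
def uCoeff (i : ℕ) : ℂ[X] := (orbitPoly (uMF p)).coeff (p + 1 - i)

theorem expand_aeval_uCoeff {i : ℕ} (hi : i ≤ p + 1) :
    GalRep.expand p hp.out.ne_zero (Polynomial.aeval jq (uCoeff p i)) =
      (-1) ^ i * ∑ t ∈ (Finset.univ : Finset (Coset p)).powersetCard i, ∏ q ∈ t, cSer p q := by
  have hh : (Polynomial.C (1 : ℂ)) ≠ 0 := by simp
  have hser : ∀ Q : ℂ[X], serHom p (evJ (Gamma p) Q) =
      GalRep.expand p hp.out.ne_zero (Polynomial.aeval jq Q) := fun Q => by
    refine qser_eq hp.out.pos ?_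
    have := ((hasQSeries_aeval_jFun Q).refine_width one_pos p hp.out.ne_zero)
    rw [one_mul] at this
    exact this.congr (.of_forall fun τ => (evJ_apply _ Q τ).symm)
  rw [uCoeff, ← hser]
  change ((serHom p).comp (evJ (Gamma p)).toRingHom) ((orbitPoly (uMF p)).coeff (p + 1 - i)) = _
  rw [← Polynomial.coeff_map, ← Polynomial.map_map, map_orbitPoly]
  rw [Lagrange.nodal_eq, Polynomial.map_prod]
  simp only [Polynomial.map_sub, Polynomial.map_X, Polynomial.map_C]
  have hk : p + 1 - i ≤ Multiset.card ((Finset.univ : Finset (Coset p)).val.map (cSer p)) := by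
    rw [Multiset.card_map, Finset.card_val, Finset.card_univ, card_coset_prime]; omega
  have := Multiset.prod_X_sub_C_coeff ((Finset.univ : Finset (Coset p)).val.map (cSer p)) hk
  rw [Multiset.card_map, Finset.card_val, Finset.card_univ, card_coset_prime,
    show p + 1 - (p + 1 - i) = i by omega, Finset.esymm_map_val, Multiset.map_map] at this
  exact this

theorem uCoeff_spec {i : ℕ} (hi : i ≤ p + 1) :
    (∀ k, IsIntegral ℤ ((uCoeff p i).coeff k)) ∧ p * (uCoeff p i).natDegree ≤ i * (p - 1) := by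
  have hexp := expand_aeval_uCoeff p hi
  have h2 := hp.out.two_le
  have hint : GalRep.expand p hp.out.ne_zero (Polynomial.aeval jq (uCoeff p i)) ∈ intLS := by
    rw [hexp]
    refine intLS.mul_mem (pow_mem (neg_mem (one_mem _)) _) (intLS.sum_mem fun t _ =>
      intLS.prod_mem fun q _ => ?_)
    exact (exists_lead_cSer p q).choose_spec.1
  have hint' : Polynomial.aeval jq (uCoeff p i) ∈ intLS := fun m => by
    have := hint ((p : ℤ) * m)
    rwa [expand_coeff_mul] at this
  refine ⟨isIntegral_coeff_of_aeval ((uCoeff p i).natDegree + 1) _ (Nat.lt_succ_self _) hint', ?_⟩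
  have hlow : ∀ m : ℤ, (p : ℤ) * m < -((i : ℤ) * (p - 1)) →
      (Polynomial.aeval jq (uCoeff p i)).coeff m = 0 := by
    intro m hm
    rw [← expand_coeff_mul p hp.out.ne_zero, hexp]
    rcases neg_one_pow_eq_or (LaurentSeries ℂ) i with e | e <;>
      rw [e] <;> simp only [one_mul, neg_one_mul, HahnSeries.coeff_neg, neg_eq_zero,
        HahnSeries.coeff_sum] <;>
    · refine Finset.sum_eq_zero fun t ht => ?_
      choose x hx using exists_lead_cSer p
      refine (Lead.prod t fun q _ => (hx q).2.1).1 _ (lt_of_lt_of_le hm ?_)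
      calc -((i : ℤ) * (p - 1)) = ∑ _q ∈ t, ((1 : ℤ) - p) := by
            rw [Finset.sum_const, (Finset.mem_powersetCard.1 ht).2, nsmul_eq_mul]; ring
        _ ≤ _ := Finset.sum_le_sum fun q _ => cOrd_ge p q
  by_contra hlt
  push Not at hlt
  have hne : uCoeff p i ≠ 0 := fun h => by simp [h] at hlt
  have := hlow (-((uCoeff p i).natDegree : ℤ)) (by
    have : ((i * (p - 1) : ℕ) : ℤ) < ((p * (uCoeff p i).natDegree : ℕ) : ℤ) := by exact_mod_cast hlt
    push_cast [Nat.cast_sub hp.out.one_le] at this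
    linarith)
  rw [coeff_aeval_jq_top le_rfl] at this
  exact hne (Polynomial.leadingCoeff_eq_zero.1 this)

theorem prod_erase_lead : ∃ x : ℂ, x ^ p = 1 ∧
    Lead (∏ q ∈ (Finset.univ : Finset (Coset p)).erase (baseCoset p), cSer p q)
      (-((p : ℤ) * (p - 1))) x := by
  choose x hx using exists_lead_cSer p
  have hcard : ((Finset.univ : Finset (Coset p)).erase (baseCoset p)).card = p := by
    rw [Finset.card_erase_of_mem (Finset.mem_univ _), Finset.card_univ, card_coset_prime]; omega
  refine ⟨∏ q ∈ (Finset.univ : Finset (Coset p)).erase (baseCoset p), x q, ?_, ?_⟩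
  · rw [← Finset.prod_pow]
    refine Finset.prod_eq_one fun q hq => ?_
    rcases (hx q).2.2 with ⟨e, -⟩ | ⟨-, e⟩
    · exact absurd e (Finset.mem_erase.1 hq).1
    · exact e
  · have := Lead.prod ((Finset.univ : Finset (Coset p)).erase (baseCoset p)) fun q _ => (hx q).2.1
    rwa [Finset.sum_congr rfl (fun q hq => (by simp [cOrd, (Finset.mem_erase.1 hq).1] :
      cOrd p q = 1 - p)), Finset.sum_const, hcard, nsmul_eq_mul,
      show (p : ℤ) * (1 - p) = -((p : ℤ) * (p - 1)) by ring] at this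

theorem uCoeff_p : ∃ x : ℂ, x ^ (2 * p) = 1 ∧ (uCoeff p p).coeff (p - 1) = x := by
  obtain ⟨x, hx, hl⟩ := prod_erase_lead p
  have h2 := hp.out.two_le
  have hdeg : (uCoeff p p).natDegree ≤ p - 1 :=
    Nat.le_of_mul_le_mul_left (uCoeff_spec p (Nat.le_succ p)).2 hp.out.pos
  refine ⟨(-1) ^ p * x, by rw [mul_pow, ← pow_mul, mul_comm 2 p, pow_mul x, hx,
    show p * (p * 2) = 2 * (p * p) by ring, pow_mul, neg_one_sq, one_pow, one_pow, one_mul], ?_⟩
  rw [← coeff_aeval_jq_top hdeg, ← expand_coeff_mul p hp.out.ne_zero,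
    expand_aeval_uCoeff p (Nat.le_succ p), show ((-1 : LaurentSeries ℂ)) ^ p =
      HahnSeries.C ((-1 : ℂ) ^ p) by rw [map_pow, map_neg, map_one], HahnSeries.C_apply, HahnSeries.coeff_single_zero_mul,
    HahnSeries.coeff_sum, Finset.sum_eq_single ((Finset.univ : Finset (Coset p)).erase (baseCoset p))]
  · rw [show (p : ℤ) * -((p - 1 : ℕ) : ℤ) = -((p : ℤ) * (p - 1)) by
      push_cast [Nat.cast_sub hp.out.one_le]; ring, hl.2]
  · intro t ht hne
    have htc := (Finset.mem_powersetCard.1 ht).2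
    have hbase : baseCoset p ∈ t := by
      by_contra hb
      refine hne (Finset.eq_of_subset_of_card_le
        (fun q hq => Finset.mem_erase.2 ⟨fun e => hb (e ▸ hq), Finset.mem_univ q⟩) ?_)
      rw [Finset.card_erase_of_mem (Finset.mem_univ _), Finset.card_univ, card_coset_prime, htc]
      omega
    choose y hy using exists_lead_cSer p
    refine (Lead.prod t fun q _ => (hy q).2.1).1 _ ?_
    rw [← Finset.add_sum_erase _ _ hbase]
    have hb : cOrd p (baseCoset p) = (p : ℤ) * (p - 1) := by simp [cOrd]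
    have hr : ((p - 1 : ℕ) : ℤ) * (1 - p) ≤ ∑ q ∈ t.erase (baseCoset p), cOrd p q := by
      calc ((p - 1 : ℕ) : ℤ) * (1 - p) = ∑ _q ∈ t.erase (baseCoset p), ((1 : ℤ) - p) := by
            rw [Finset.sum_const, Finset.card_erase_of_mem hbase, htc, nsmul_eq_mul]
        _ ≤ _ := Finset.sum_le_sum fun q _ => cOrd_ge p q
    push_cast [Nat.cast_sub hp.out.one_le] at hr ⊢
    nlinarith
  · intro h
    exact absurd (Finset.mem_powersetCard.2 ⟨Finset.subset_univ _, by
      rw [Finset.card_erase_of_mem (Finset.mem_univ _), Finset.card_univ, card_coset_prime]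
      omega⟩) h

theorem uCoeff_succ : (uCoeff p (p + 1)).natDegree = 0 ∧
    ∃ x : ℂ, x ^ (2 * p) = 1 ∧ (uCoeff p (p + 1)).coeff 0 = (p : ℂ) ^ 12 * x := by
  obtain ⟨x, hx, hl⟩ := prod_erase_lead p
  obtain ⟨y, -, hy, hy'⟩ := exists_lead_cSer p (baseCoset p)
  have hyv : y = (p : ℂ) ^ 12 := (hy'.resolve_right fun h => h.1 rfl).2
  subst hyv
  have hall : Lead (∏ q : Coset p, cSer p q) 0 ((p : ℂ) ^ 12 * x) := by
    rw [← Finset.mul_prod_erase _ _ (Finset.mem_univ (baseCoset p))]
    have := hy.mul hl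
    simpa [cOrd] using this
  have hexp := expand_aeval_uCoeff p (le_refl (p + 1))
  rw [show p + 1 = (Finset.univ : Finset (Coset p)).card by
    rw [Finset.card_univ, card_coset_prime], Finset.powersetCard_self, Finset.sum_singleton,
    Finset.card_univ, card_coset_prime, show ((-1 : LaurentSeries ℂ)) ^ (p + 1) =
      HahnSeries.C ((-1 : ℂ) ^ (p + 1)) by rw [map_pow, map_neg, map_one]] at hexp
  have hdeg : (uCoeff p (p + 1)).natDegree ≤ 0 := natDegree_le_of_coeff_aeval fun m hm => by
    rw [← expand_coeff_mul p hp.out.ne_zero, hexp, HahnSeries.C_apply,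
      HahnSeries.coeff_single_zero_mul, hall.1 _ (by
        have := hp.out.pos; simp at hm; nlinarith), mul_zero]
  refine ⟨Nat.le_zero.1 hdeg, (-1) ^ (p + 1) * x, ?_, ?_⟩
  · rw [mul_pow, ← pow_mul, mul_comm 2 p, pow_mul x, hx, show (p + 1) * (p * 2) =
      2 * ((p + 1) * p) by ring, pow_mul, neg_one_sq, one_pow, one_pow, one_mul]
  · rw [← coeff_aeval_jq_top hdeg, ← expand_coeff_mul p hp.out.ne_zero, hexp, HahnSeries.C_apply,
      HahnSeries.coeff_single_zero_mul, Nat.cast_zero, neg_zero, mul_zero, hall.2]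
    ring

/-- The equation of `uFun` over `ℂ[j]`. -/
theorem uFun_equation (τ : ℍ) :
    ∑ i ∈ Finset.range (p + 2), (uCoeff p i).eval (jFun τ) * uFun p τ ^ (p + 1 - i) = 0 := by
  have h0 : (((orbitPoly (uMF p)).map (evJ (Gamma p)).toRingHom).eval (incl p (uMF p))) = 0 := by
    rw [map_orbitPoly, Lagrange.eval_nodal, Finset.prod_eq_zero (Finset.mem_univ (baseCoset p))]
    rw [conjugate_baseCoset, sub_self]
  rw [Polynomial.eval_eq_sum_range' (n := p + 2) (lt_of_le_of_lt Polynomial.natDegree_map_le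
    (by rw [natDegree_orbitPoly, idx, Nat.card_eq_fintype_card, card_coset_prime]; omega))] at h0
  have h1 := congrFun (congrArg Subtype.val h0) τ
  rw [← Finset.sum_range_reflect]
  simp only [AddSubmonoidClass.coe_finsetSum, Finset.sum_apply, MulMemClass.coe_mul,
    SubmonoidClass.coe_pow, Pi.mul_apply, Pi.pow_apply, Polynomial.coeff_map,
    ZeroMemClass.coe_zero, Pi.zero_apply] at h1
  rw [← h1]
  refine Finset.sum_congr rfl fun i hi => ?_
  rw [Finset.mem_range] at hi
  rw [uCoeff, show p + 1 - (p + 2 - 1 - i) = i by omega, AlgHom.toRingHom_eq_coe, RingHom.coe_coe,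
    evJ_apply]
  rfl

end Fermat.Agent.Mazur3
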