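/-
Inertia at a place above `η` acts on bounded characters of level `η ^ K` through the cyclotomic
character.

Translations fixing the Gauss place of the field of bounded Kummer functions commute with inertia,
because both are trivial on the base and inertia is trivial on the residues, which are separable
over the line of `j`. The difference of the two actions is then a character whose function is close
to a modular function, hence trivial.
-/
import Fermat.Agent.Mazur3.Inertia.Cover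
import Fermat.Agent.GalRep.Model.WildReduction

set_option autoImplicit false

noncomputable section

namespace Fermat.Agent.Mazur3

open GalRep IsLocalRing Inertia
open Fermat.Agent.Galois (GQ)
open UpperHalfPlane CongruenceSubgroup
open scoped MatrixGroups Manifold

local notation "ℚb" => AlgebraicClosure ℚ

namespace Inertia

variable {N n : ℕ} [NeZero N] [NeZero n] {A : ValuationSubring (AlgebraicClosure ℚ)}
  {Kc : IntermediateField ℚ (AlgebraicClosure ℚ)} {ζ : AlgebraicClosure ℚ}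
  {η : ℕ} {ϖ : AlgebraicClosure ℚ}

theorem exists_zeta (n : ℕ) [NeZero n] :
    ∃ ζ : ℚb, ζ ^ n = 1 ∧ ∀ a : ZMod n, qbarToC ζ ^ a.val = ZMod.stdAddChar a := by
  have h1 : ZMod.stdAddChar (1 : ZMod n) ^ n = 1 := by
    rw [← AddChar.map_nsmul_eq_pow, nsmul_one, ZMod.natCast_self, AddChar.map_zero_eq_one]
  have hint : _root_.IsIntegral ℚ (ZMod.stdAddChar (1 : ZMod n)) :=
    IsIntegral.of_pow (NeZero.pos n) (by rw [h1]; exact isIntegral_one)
  obtain ⟨ζ, hζ⟩ := exists_qbarToC_eq hint.isAlgebraic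
  refine ⟨ζ, qbarToC_injective (by rw [map_pow, hζ, h1, map_one]), fun a => ?_⟩
  rw [hζ, ← AddChar.map_nsmul_eq_pow, nsmul_one, ZMod.natCast_zmod_val]

theorem exists_incA_of_mem (hη : η.Prime) (hA : A.LiesOverPrime η) (hϖ : IsUnif η A Kc ϖ)
    {f : LaurentSeries ℚb} (hb : f ∈ bddSer A Kc) (hg : f ∈ gaussRing A) :
    ∃ a : LaurentSeries A, incA A a = f := by
  rcases eq_or_ne f 0 with rfl | hf0
  · exact ⟨0, map_zero _⟩
  obtain ⟨m, u, hu, -, he⟩ := exists_factor hη hA hϖ hb hf0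
  set π : A := ⟨ϖ, (A.valuation_le_one_iff _).mp hϖ.lt_one.le⟩
  rcases le_or_gt 0 m with hm | hm
  · obtain ⟨i, rfl⟩ := Int.eq_ofNat_of_zero_le hm
    exact ⟨HahnSeries.C (π ^ i) * u, by rw [he, map_mul, incA_C, zpow_natCast]; rfl⟩
  exfalso
  obtain ⟨a, b, hb', hab⟩ := hg
  obtain ⟨i, hi⟩ : ∃ i : ℕ, m = -((i + 1 : ℕ) : ℤ) := ⟨(-m - 1).toNat, by omega⟩
  have h1 : u * b = HahnSeries.C (π ^ (i + 1)) * a := by
    refine incA_injective A ?_
    rw [map_mul, map_mul, incA_C, ← hab, he, hi, zpow_neg, zpow_natCast, ← mul_assoc, ← mul_assoc,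
      ← map_mul HahnSeries.C, show ((π ^ (i + 1) : A) : ℚb) = ϖ ^ (i + 1) from rfl,
      mul_inv_cancel₀ (pow_ne_zero _ (hϖ.ne_zero hη hA)), map_one, one_mul]
  refine mul_ne_zero hu hb' ?_
  rw [← map_mul, h1, map_mul, redA, lmap_C, map_pow, (residue_eq_zero_iff π).mpr
    ((A.valuation_lt_one_iff π).mpr hϖ.lt_one), zero_pow (by omega), map_zero, zero_mul]

theorem coverAct_rep (hζ : HasZeta n Kc ζ) (γ : Gamma0 N) (r : coverRing N n A Kc)
    {ψ : ParHom N (ZMod n)} {F : ℍ → ℂ} (hF : IsKummerRep N n ψ F)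
    (hf : HasQSeries 1 F (seriesToC (r : LaurentSeries ℚb))) :
    coverAct hζ γ (algebraMap _ (CoverField N n A Kc) r) =
      coverC (pow_mem hζ.mem ((ψ : Additive (Gamma0 N) →+ ZMod n) (Additive.ofMul γ⁻¹)).val) *
        algebraMap _ _ r := by
  rw [coverAct_algebraMap, coverC, ← map_mul]
  exact congrArg _ (Subtype.ext (transpHom_rep hζ γ r hF hf))

/-- `j` in the ring of the cover. -/
def jElt : coverRing N n A Kc := ⟨_, jqModC_mem_coverRing⟩

theorem coverAct_j (hζ : HasZeta n Kc ζ) (γ : Gamma0 N) :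
    coverAct hζ γ (algebraMap (coverRing N n A Kc) (CoverField N n A Kc) jElt) =
      algebraMap (coverRing N n A Kc) (CoverField N n A Kc) jElt := by
  have hj : IsModFun (Gamma0 N) Period.jFun := modFuns_anti le_top isModFun_jFun
  rw [coverAct_algebraMap]
  congr 1
  show transpFun hζ γ⁻¹ _ = _
  exact transpFun_eq hζ ⟨Period.jFun, hj.holo, hj.cusps, hasQSeries_jqModC,
    hasQSeries_jqModC.congr (.of_forall fun τ => (hj.invariant _ (γ⁻¹ : Gamma0 N).2 τ).symm)⟩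

theorem fieldConj_coverC {σ : GQ} (h : EC.ActsInertially A σ) (hK : ∀ x ∈ Kc, σ x ∈ Kc)
    {x : ℚb} (hx : x ∈ Kc) :
    fieldConj h hK (coverC hx : CoverField N n A Kc) = coverC (hK x hx) := by
  rw [coverC, fieldConj_algebraMap]
  exact congrArg _ (Subtype.ext (lmap_C σ.toRingEquiv.toRingHom x))

theorem fieldConj_j {σ : GQ} (h : EC.ActsInertially A σ) (hK : ∀ x ∈ Kc, σ x ∈ Kc) :
    fieldConj h hK (algebraMap (coverRing N n A Kc) (CoverField N n A Kc) jElt) =
      algebraMap (coverRing N n A Kc) (CoverField N n A Kc) jElt := by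
  rw [fieldConj_algebraMap]
  exact congrArg _ (Subtype.ext (lmap_jqModC σ.toRingEquiv.toRingHom))

theorem fieldConj_fieldConj {σ τ : GQ} (h : EC.ActsInertially A σ) (h' : EC.ActsInertially A τ)
    (hK : ∀ x ∈ Kc, σ x ∈ Kc) (hK' : ∀ x ∈ Kc, τ x ∈ Kc) (hτσ : ∀ x, τ (σ x) = x)
    (z : CoverField N n A Kc) : fieldConj h' hK' (fieldConj h hK z) = z := by
  refine coverEmb_injective ?_
  rw [coverEmb_fieldConj, coverEmb_fieldConj]
  ext m
  exact hτσ _

/-- Translations fixing the Gauss place commute with inertia. -/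
theorem fieldConj_comm [Fact η.Prime] (hA : A.LiesOverPrime η) (hϖ : IsUnif η A Kc ϖ)
    (hlift : ∀ r : ResidueField A, ∃ x : A, (x : ℚb) ∈ Kc ∧ residue A x = r)
    (hζ : HasZeta n Kc ζ) {σ : GQ} (hσ : EC.ActsInertially A σ) (hK : ∀ x ∈ Kc, σ x ∈ Kc)
    (hK' : ∀ x ∈ Kc, σ.symm x ∈ Kc) {γ : Gamma0 N}
    (hγ : ∀ z ∈ (coverV : Subring (CoverField N n A Kc)), coverAct hζ γ z ∈ coverV)
    (hγ' : ∀ z ∈ (coverV : Subring (CoverField N n A Kc)), coverAct hζ γ⁻¹ z ∈ coverV)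
    (w : CoverField N n A Kc) :
    fieldConj hσ hK (coverAct hζ γ w) = coverAct hζ γ (fieldConj hσ hK w) := by
  have hη : η.Prime := Fact.out
  have := charP_residue hη hA
  have := Model.residue_isAlgClosed A
  set G := coverGauss (N := N) (n := n) hη hA hϖ
  have hcongr : ∀ δ : Gamma0 N, ∀ hδ : ∀ z ∈ G.V, coverAct hζ δ z ∈ G.V, ∀ u v : G.V,
      G.ρ u = G.ρ v → G.ρ ⟨_, hδ u u.2⟩ = G.ρ ⟨_, hδ v v.2⟩ := fun δ hδ u v he =>
    G.ρ_congr (coverAct hζ δ).toRingHom hδ (coverAct_coverC hζ δ hϖ.mem) he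
  let Θ : CoverField N n A Kc →+* CoverField N n A Kc :=
    (coverAct hζ γ).toRingHom.comp ((fieldConj hσ hK).comp
      ((coverAct hζ γ⁻¹).toRingHom.comp (fieldConj hσ.symm hK')))
  have hinv : ∀ z : CoverField N n A Kc, coverAct hζ γ (coverAct hζ γ⁻¹ z) = z := fun z => by
    rw [← RingAut.mul_apply, ← map_mul, mul_inv_cancel, map_one, RingAut.one_apply]
  have hinv' : ∀ z : CoverField N n A Kc, coverAct hζ γ⁻¹ (coverAct hζ γ z) = z := fun z => by
    rw [← RingAut.mul_apply, ← map_mul, inv_mul_cancel, map_one, RingAut.one_apply]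
  have hΘ : ∀ z, Θ z = coverAct hζ γ (fieldConj hσ hK (coverAct hζ γ⁻¹ (fieldConj hσ.symm hK' z))) :=
    fun _ => rfl
  have hc : ∀ (x : ℚb) (hx : x ∈ Kc), Θ (coverC hx) = coverC hx := fun x hx => by
    rw [hΘ, fieldConj_coverC, coverAct_coverC, fieldConj_coverC, coverAct_coverC]
    congr 1
    exact σ.apply_symm_apply x
  have hV : ∀ z : G.V, ∃ hm : Θ z ∈ G.V, G.ρ ⟨_, hm⟩ = G.ρ z := fun z => by
    obtain ⟨h1, e1⟩ := fieldConj_mem hσ.symm hK' (z : (coverV : Subring (CoverField N n A Kc)))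
    have h2 := hγ' _ h1
    obtain ⟨h3, e3⟩ := fieldConj_mem hσ hK ⟨_, h2⟩
    refine ⟨hγ _ h3, (hcongr γ hγ ⟨_, h3⟩ ⟨_, hγ' _ z.2⟩
      (e3.trans (hcongr γ⁻¹ hγ' ⟨_, h1⟩ z e1))).trans ?_⟩
    exact congrArg G.ρ (Subtype.ext (hinv _))
  have hJV : algebraMap _ (CoverField N n A Kc) (jElt : coverRing N n A Kc) ∈
      (coverV : Subring (CoverField N n A Kc)) := by
    refine Subring.mem_comap.mpr ?_
    rw [coverEmb_algebraMap, show ((jElt : coverRing N n A Kc) : LaurentSeries ℚb) =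
      incA A (ModularCurve.jqModC A) from (lmap_jqModC _).symm]
    exact incA_mem_gaussRing _
  have hJρ : G.ρ ⟨_, hJV⟩ = ModularCurve.jqModC (ResidueField A) := by
    refine (coverRed_eq ⟨_, hJV⟩ (a := ModularCurve.jqModC A) (b := 1)
      (by rw [map_one]; exact one_ne_zero) ?_).trans ?_
    · rw [map_one, mul_one, coverEmb_algebraMap]; exact (lmap_jqModC _).symm
    · rw [map_one, div_one]; exact lmap_jqModC _
  have hid := eq_self_of_residue_eq (η := η) G (fun a => IsAlgClosed.exists_pow_nat_eq a hη.pos) Θ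
    (fun z hz => (hV ⟨z, hz⟩).1) (fun z => (hV z).2) (hc ϖ hϖ.mem) ⟨_, hJV⟩
    (by rw [hJρ]; exact order_jqModC_field _)
    (by show Θ (algebraMap _ _ _) = _
        rw [hΘ, fieldConj_j, coverAct_j, fieldConj_j, coverAct_j])
    (fun r => by
      obtain ⟨x, hx, rfl⟩ := hlift r
      exact ⟨⟨_, coverC_mem_coverV hx x.2⟩, coverRed_coverC hx x.2, hc _ hx⟩)
    (fun z => by
      obtain ⟨P, hP, hP0⟩ := exists_relation (z : CoverField N n A Kc)
      obtain ⟨Q, hQ, hQ0⟩ := exists_red_relation ⟨_, z.2⟩ hP hP0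
      exact ⟨Q, hQ, by rw [hJρ]; exact hQ0⟩)
  have h1 := hid (fieldConj hσ hK (coverAct hζ γ w))
  rw [hΘ, fieldConj_fieldConj hσ hσ.symm hK hK' σ.symm_apply_apply, hinv'] at h1
  exact h1.symm

/-- The twisted difference of a character and its conjugate dies on the stabiliser. -/
theorem eval_eq_zero_of_stab [Fact η.Prime] (hA : A.LiesOverPrime η) (hϖ : IsUnif η A Kc ϖ)
    (hlift : ∀ r : ResidueField A, ∃ x : A, (x : ℚb) ∈ Kc ∧ residue A x = r)
    (hζ : HasZeta n Kc ζ) {σ : GQ} (hσ : EC.ActsInertially A σ) (hK : ∀ x ∈ Kc, σ x ∈ Kc)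
    (hK' : ∀ x ∈ Kc, σ.symm x ∈ Kc) {c : ZMod n} (hσζ : σ ζ = ζ ^ c.val)
    {χ χs : ParHom N (ZMod n)} {F F' : ℍ → ℂ} (r : coverRing N n A Kc)
    (hF : IsKummerRep N n χ F) (hf : HasQSeries 1 F (seriesToC (r : LaurentSeries ℚb)))
    (hF' : IsKummerRep N n χs F')
    (hf' : HasQSeries 1 F' (seriesToC ((ringConj hσ hK r : coverRing N n A Kc) : LaurentSeries ℚb)))
    {γ : Gamma0 N} (hγ : ∀ z ∈ (coverV : Subring (CoverField N n A Kc)), coverAct hζ γ z ∈ coverV)
    (hγ' : ∀ z ∈ (coverV : Subring (CoverField N n A Kc)), coverAct hζ γ⁻¹ z ∈ coverV) :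
    ((χs + (-c).val • χ : ParHom N (ZMod n)) : Additive (Gamma0 N) →+ ZMod n)
      (Additive.ofMul γ⁻¹) = 0 := by
  have h1 := fieldConj_comm hA hϖ hlift hζ hσ hK hK' hγ hγ'
    (algebraMap (coverRing N n A Kc) (CoverField N n A Kc) r)
  rw [coverAct_rep hζ γ r hF hf, map_mul, fieldConj_coverC, fieldConj_algebraMap,
    coverAct_rep hζ γ (ringConj hσ hK r) hF' hf'] at h1
  have hr0 : algebraMap _ (CoverField N n A Kc) (ringConj hσ hK r) ≠ 0 :=
    (map_ne_zero_iff _ (IsFractionRing.injective _ _)).mpr fun h0 =>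
      Base.rep_series_ne_zero hF' hf' (congrArg Subtype.val h0)
  have h2 := congrArg coverEmb (mul_right_cancel₀ hr0 h1)
  rw [coverEmb_coverC, coverEmb_coverC] at h2
  have h3 := congrArg qbarToC (HahnSeries.C_injective h2)
  rw [map_pow σ, hσζ, ← pow_mul, map_pow, map_pow, hζ.pow_eq] at h3
  rw [mul_comm c.val, pow_mul, hζ.pow_eq, ← AddChar.map_nsmul_eq_pow] at h3
  have h4 := ZMod.injective_stdAddChar h3
  rw [nsmul_eq_mul, ZMod.natCast_zmod_val] at h4
  rw [Submodule.coe_add, AddMonoidHom.add_apply, AddSubmonoidClass.coe_nsmul,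
    AddMonoidHom.nsmul_apply, nsmul_eq_mul, ZMod.natCast_zmod_val, ← h4]
  ring

/-- A series fixed by the stabiliser is congruent to a quotient of invariant series. -/
theorem exists_fixed_close [Fact η.Prime] (hA : A.LiesOverPrime η) (hϖ : IsUnif η A Kc ϖ)
    (hlift : ∀ r : ResidueField A, ∃ x : A, (x : ℚb) ∈ Kc ∧ residue A x = r)
    (hζ : HasZeta n Kc ζ) (hζn : ζ ^ n = 1) (M : ℕ)
    {ψ : ParHom N (ZMod n)} {Fx : ℍ → ℂ} (xS : coverRing N n A Kc) (hFx : IsKummerRep N n ψ Fx)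
    (hfx : HasQSeries 1 Fx (seriesToC (xS : LaurentSeries ℚb))) {u : LaurentSeries A}
    (hxu : (xS : LaurentSeries ℚb) = incA A u)
    (hker : ∀ γ : Gamma0 N,
      (∀ z ∈ (coverV : Subring (CoverField N n A Kc)), coverAct hζ γ z ∈ coverV) →
      (∀ z ∈ (coverV : Subring (CoverField N n A Kc)), coverAct hζ γ⁻¹ z ∈ coverV) →
      (ψ : Additive (Gamma0 N) →+ ZMod n) (Additive.ofMul γ⁻¹) = 0) :
    ∃ (P Q : coverRing N n A Kc) (W : LaurentSeries ℚb), Q ≠ 0 ∧
      (∀ γ, transpHom hζ γ P = P) ∧ (∀ γ, transpHom hζ γ Q = Q) ∧ W ∈ gaussRing A ∧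
      (P : LaurentSeries ℚb) = (incA A u + HahnSeries.C (ϖ ^ M) * W) * (Q : LaurentSeries ℚb) := by
  classical
  have hη : η.Prime := Fact.out
  set x : CoverField N n A Kc := algebraMap _ _ xS with hxdef
  -- an invariant element close to it
  set G := coverGauss (N := N) (n := n) hη hA hϖ
  let H := (coverAct (N := N) (A := A) hζ).range
  have : Finite H := finite_range_coverAct hζ
  have := Model.residue_isAlgClosed A
  have hfix : ∀ h : H, h • (G.ϖ : CoverField N n A Kc) = G.ϖ := by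
    rintro ⟨_, γ, rfl⟩
    exact coverAct_coverC hζ γ hϖ.mem
  have hconst : ∀ T : Finset (LaurentSeries (ResidueField A)), ∃ c : G.V,
      (∀ h : H, h • (c : CoverField N n A Kc) = c) ∧ G.ρ c ≠ 0 ∧ G.ρ c ∉ T := by
    intro T
    obtain ⟨q, hq⟩ := Infinite.exists_notMem_finset
      (insert 0 (T.preimage _ (HahnSeries.C_injective (R := ResidueField A) (Γ := ℤ)).injOn))
    obtain ⟨y, hy, rfl⟩ := hlift q
    rw [Finset.mem_insert, Finset.mem_preimage, not_or] at hq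
    refine ⟨⟨_, coverC_mem_coverV hy y.2⟩, ?_, ?_, ?_⟩
    · rintro ⟨_, γ, rfl⟩
      exact coverAct_coverC hζ γ hy
    · exact ne_of_eq_of_ne (coverRed_coverC hy y.2)
        ((map_ne_zero_iff _ HahnSeries.C_injective).mpr hq.1)
    · exact fun hT => hq.2 ((coverRed_coverC (N := N) (n := n) hy y.2) ▸ hT)
  have hζA : ζ ∈ A := Galois.integralClosure_le A ⟨ζ, IsIntegral.of_pow
    (NeZero.pos n) (by rw [hζn]; exact isIntegral_one)⟩
  have hxV : ∀ h : H, h • x ∈ G.V := by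
    rintro ⟨_, γ, rfl⟩
    show coverAct hζ γ x ∈ coverV
    rw [coverAct_rep hζ γ xS hFx hfx]
    refine mul_mem (coverC_mem_coverV _ (pow_mem hζA _)) (Subring.mem_comap.mpr ?_)
    rw [coverEmb_algebraMap, hxu]
    exact incA_mem_gaussRing _
  have hxs : ∀ d ∈ (G.stab : Subgroup H), d • x = x := by
    rintro ⟨_, γ, rfl⟩ hd
    have hd' := Subgroup.inv_mem _ hd
    show coverAct hζ γ x = x
    have h0 := hker γ hd fun z hz => by
      rw [map_inv]
      exact hd' z hz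
    rw [coverAct_rep hζ γ xS hFx hfx]
    refine (congrArg (· * x) (coverEmb_injective ?_)).trans (one_mul x)
    rw [coverEmb_coverC, h0, ZMod.val_zero, pow_zero, map_one, map_one]
  obtain ⟨y, hy, w, hw⟩ := G.exists_fixed_approx hfix hconst hxV hxs M
  obtain ⟨P, Q, hQ, hPfix, hQfix, hyPQ⟩ := exists_fixed_div hζ (z := y) fun γ =>
    hy ⟨coverAct hζ γ, γ, rfl⟩
  refine ⟨P, Q, coverEmb (w : CoverField N n A Kc), hQ, hPfix, hQfix, w.2, ?_⟩
  have h := congrArg coverEmb hyPQ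
  rw [map_mul, coverEmb_algebraMap, coverEmb_algebraMap] at h
  rw [← h, sub_eq_iff_eq_add'.mp hw, map_add, map_mul, map_pow, hxdef, coverEmb_algebraMap, hxu,
    map_pow HahnSeries.C]
  congr 4
  exact coverEmb_coverC hϖ.mem

/-- A bounded character killed by the stabiliser of the Gauss place is trivial. -/
theorem char_eq_zero_of_stab [Fact η.Prime] (hA : A.LiesOverPrime η) (hηN : ¬ η ∣ N)
    (hϖ : IsUnif η A Kc ϖ)
    (hlift : ∀ r : ResidueField A, ∃ x : A, (x : ℚb) ∈ Kc ∧ residue A x = r)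
    (hζ : HasZeta n Kc ζ) (hζn : ζ ^ n = 1) {M : ℕ} (hM0 : M ≠ 0)
    (hM : A.valuation ϖ ^ M ≤ A.valuation ((n : ℚb) ^ 2 * (η : ℚb) ^ 2))
    {ψ : ParHom N (ZMod n)} {F₀ : ℍ → ℂ} (r : coverRing N n A Kc) (hF₀ : IsKummerRep N n ψ F₀)
    (hf₀ : HasQSeries 1 F₀ (seriesToC (r : LaurentSeries ℚb)))
    (hker : ∀ γ : Gamma0 N,
      (∀ z ∈ (coverV : Subring (CoverField N n A Kc)), coverAct hζ γ z ∈ coverV) →
      (∀ z ∈ (coverV : Subring (CoverField N n A Kc)), coverAct hζ γ⁻¹ z ∈ coverV) →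
      (ψ : Additive (Gamma0 N) →+ ZMod n) (Additive.ofMul γ⁻¹) = 0) : ψ = 0 := by
  classical
  have hη : η.Prime := Fact.out
  have hϖ0 := hϖ.ne_zero hη hA
  obtain ⟨m, u, hu, -, hru⟩ :=
    exists_factor hη hA hϖ (coverRing_le r.2) (Base.rep_series_ne_zero hF₀ hf₀)
  have hscale : ∀ (f : LaurentSeries ℚb) (m : ℤ) (u : LaurentSeries A),
      f = HahnSeries.C (ϖ ^ m) * incA A u → incA A u = HahnSeries.C (ϖ ^ (-m)) * f := by
    intro f m u he
    rw [he, ← mul_assoc, ← map_mul, ← zpow_add₀ hϖ0, neg_add_cancel, zpow_zero, map_one, one_mul]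
  set xS : coverRing N n A Kc :=
    ⟨HahnSeries.C (ϖ ^ (-m)), C_mem_coverRing (zpow_mem hϖ.mem _)⟩ * r
  have hxu : (xS : LaurentSeries ℚb) = incA A u := (hscale _ m u hru).symm
  set Fx : ℍ → ℂ := fun τ => qbarToC (ϖ ^ (-m)) * F₀ τ
  have hFx : IsKummerRep N n ψ Fx := hF₀.const_mul ((map_ne_zero _).mpr (zpow_ne_zero _ hϖ0))
  have hfx : HasQSeries 1 Fx (seriesToC (xS : LaurentSeries ℚb)) := by
    rw [Subring.coe_mul, seriesToC_eq_lmap, map_mul, lmap_C]
    exact hf₀.smul _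
  obtain ⟨P, Q, W, hQ, hPfix, hQfix, hW, hPQ⟩ :=
    exists_fixed_close hA hϖ hlift hζ hζn M xS hFx hfx hxu hker
  obtain ⟨mQ, uQ, huQ, -, hQu⟩ := exists_factor hη hA hϖ (coverRing_le Q.2)
    fun h0 => hQ (Subtype.ext h0)
  set cQ : coverRing N n A Kc :=
    ⟨HahnSeries.C (ϖ ^ (-mQ)), C_mem_coverRing (zpow_mem hϖ.mem _)⟩
  have hQ' : ((cQ * Q : coverRing N n A Kc) : LaurentSeries ℚb) = incA A uQ :=
    (hscale _ mQ uQ hQu).symm
  have hcQ : ∀ γ : Gamma0 N, transpHom hζ γ cQ = cQ := fun γ => transpHom_C hζ γ (zpow_mem hϖ.mem (-mQ))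
  obtain ⟨GQ', hGQ, hgQ⟩ := exists_modFun_of_fixed hζ (cQ * Q) fun γ => by
    rw [map_mul, hcQ, hQfix]
  obtain ⟨V₀, hV₀, hv₀⟩ := exists_modFun_of_fixed hζ (cQ * P) fun γ => by
    rw [map_mul, hcQ, hPfix]
  -- the two series
  set π : A := ⟨ϖ, (A.valuation_le_one_iff _).mp hϖ.lt_one.le⟩ with hπ
  set P' : coverRing N n A Kc := cQ * P
  set D : LaurentSeries ℚb := W * incA A uQ with hD
  have hDP : (P' : LaurentSeries ℚb) = incA A (u * uQ) + HahnSeries.C (ϖ ^ M) * D := by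
    rw [show (P' : LaurentSeries ℚb) = (cQ : LaurentSeries ℚb) * P from rfl, hPQ, map_mul, hD,
      ← hQ', Subring.coe_mul]
    ring
  obtain ⟨e, he⟩ := exists_incA_of_mem hη hA hϖ (f := D) (by
    have h : D = HahnSeries.C (ϖ ^ M)⁻¹ * ((P' - xS * (cQ * Q) : coverRing N n A Kc) :
        LaurentSeries ℚb) := by
      rw [AddSubgroupClass.coe_sub, Subring.coe_mul _ xS, hQ', hxu, hDP, map_mul, add_sub_cancel_left,
        ← mul_assoc, ← map_mul, inv_mul_cancel₀ (pow_ne_zero _ hϖ0), map_one, one_mul]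
    rw [h]
    exact mul_mem (C_mem_bddSer (inv_mem (pow_mem hϖ.mem _))) (coverRing_le (SetLike.coe_mem _)))
    (mul_mem hW (incA_mem_gaussRing _))
  have hPe : (P' : LaurentSeries ℚb) = incA A (u * uQ + HahnSeries.C (π ^ M) * e) := by
    rw [hDP, ← he, map_add, map_mul (incA A) (HahnSeries.C _), incA_C]
    rfl
  have hred : redA A (u * uQ + HahnSeries.C (π ^ M) * e) ≠ 0 := by
    rw [map_add, map_mul, map_mul, redA, lmap_C, map_pow, (residue_eq_zero_iff π).mpr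
      ((A.valuation_lt_one_iff π).mpr hϖ.lt_one), zero_pow hM0, map_zero, zero_mul, add_zero]
    exact mul_ne_zero hu huQ
  have hGQ0 : GQ' ≠ 0 := fun h0 => huQ (by
    have h1 : incA A uQ = 0 := by
      rw [← hQ']
      refine seriesToC_injective (hgQ.unique one_pos ?_)
      rw [seriesToC_eq_lmap, map_zero, h0]
      exact HasQSeries.zero 1
    rw [incA_injective A (h1.trans (map_zero _).symm), map_zero])
  refine Model.kummerReduction_near hη hηN hA (h := Fx * GQ') (v := V₀) (hq := incA A (u * uQ))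
    (vq := incA A (u * uQ + HahnSeries.C (π ^ M) * e)) ?_ ?_ hV₀ (hPe ▸ hv₀) ?_ ?_ ?_ ?_
  · have := hFx.mul (isKummerRep_zero_of_modFun (n := n) hGQ hGQ0)
    rwa [add_zero] at this
  · rw [map_mul, ← hxu, ← hQ']
    exact hasQSeries_mul_seriesToC hfx hgQ
  · rw [← map_pow]
    exact mem_intSeriesA.mp ⟨_, rfl⟩
  · exact mem_intSeriesA.mp ⟨_, rfl⟩
  · by_contra hall
    push Not at hall
    refine hred ?_
    ext k
    exact (residue_eq_zero_iff _).mpr (ValuationSubring.coe_mem_nonunits_iff.mp (hall k))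
  · obtain ⟨q, hq⟩ : HahnSeries.C (π ^ M) ∣
        (u * uQ) ^ n - (u * uQ + HahnSeries.C (π ^ M) * e) ^ n :=
      dvd_trans ⟨-e, by ring⟩ (sub_dvd_pow_sub_pow _ _ _)
    intro k
    rw [← map_pow, ← map_pow, ← HahnSeries.coeff_sub, ← map_sub, hq, map_mul, incA_C,
      coeff_C_mul_series, ← A.valuation_le_one_iff, map_div₀,
      show ((π ^ M : A) : ℚb) = ϖ ^ M from rfl, map_mul A.valuation, map_pow]
    have hden : (0 : A.ValueGroup) < A.valuation ((n : ℚb) ^ 2 * (η : ℚb) ^ 2) :=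
      zero_lt_iff.mpr ((map_ne_zero _).mpr (mul_ne_zero
        (pow_ne_zero _ (Nat.cast_ne_zero.mpr (NeZero.ne n)))
        (pow_ne_zero _ (Nat.cast_ne_zero.mpr hη.ne_zero))))
    rw [div_le_one₀ hden]
    exact (mul_le_of_le_one_right' ((A.valuation_le_one_iff _).mpr (q.coeff k).2)).trans hM

end Inertia

/-- Inertia acts on bounded characters through the cyclotomic character. -/
theorem boundedInertia (p η : ℕ) [NeZero p] [Fact η.Prime] (hηp : ¬ η ∣ p) :
    BoundedInertia p η := by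
  intro K A hA σ hσmem χ hχ
  have hη : η.Prime := Fact.out
  have hσ := EC.actsInertially_of_mem hσmem
  obtain ⟨ζ, hζn, hζpow⟩ := exists_zeta (η ^ K)
  obtain ⟨L, hLfin, hLnorm, hζL, hLser⟩ := exists_normal_field p (η ^ K) ζ
  obtain ⟨ϖ, hϖ⟩ := exists_isUnif (A := A) hη hA L
  have hK : ∀ x ∈ bigK η L, σ x ∈ bigK η L := fun _ => map_mem_bigK σ
  have hK' : ∀ x ∈ bigK η L, σ.symm x ∈ bigK η L := fun _ => map_mem_bigK σ.symm
  have hζ : HasZeta (η ^ K) (bigK η L) ζ := ⟨le_bigK hζL, hζpow⟩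
  have hlift := fun q => exists_residue_lift hη hA L q
  set a : ZMod (η ^ K) := (cyc η σ).val.toZModPow K
  have hσζ : σ ζ = ζ ^ a.val := cyc_spec η σ ζ hζn
  obtain ⟨F, r, hF⟩ := exists_algebraic_rep χ
  obtain ⟨c, hc, hcr⟩ := exists_bound_of_isBoundedChar hη hA hχ hF
  have hrb : r ∈ bddSer A (bigK η L) := mem_bddSer_of_bound
    (mem_LSer.mpr fun k => le_bigK (mem_LSer.mp (hLser χ F r hF) k)) hc hcr
  let rS : coverRing p (η ^ K) A (bigK η L) := ⟨r, rep_mem_coverRing hrb hF.rep hF.series⟩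
  obtain ⟨F', hF', hf'⟩ := (kummerGalois p (η ^ K)).galois_spec σ χ F r hF.rep hF.series
  set χs := (kummerGalois p (η ^ K)).galois σ χ
  obtain ⟨N₀, hN₀⟩ := hϖ.le
  have hN₀0 : N₀ ≠ 0 := fun h0 => by
    rw [h0, pow_zero] at hN₀
    exact absurd hN₀ (not_le.mpr (valuation_ell_lt_one hA))
  have hM : A.valuation ϖ ^ (N₀ * (2 * K + 2)) ≤
      A.valuation (((η ^ K : ℕ) : ℚb) ^ 2 * (η : ℚb) ^ 2) := by
    rw [pow_mul, Nat.cast_pow, ← pow_mul (η : ℚb), ← pow_add, map_pow, mul_comm K 2]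
    exact pow_le_pow_left₀ zero_le hN₀ _
  have hser : HasQSeries 1 (F' * F ^ (-a).val) (seriesToC
      ((ringConj hσ hK rS * rS ^ (-a).val : coverRing p (η ^ K) A (bigK η L)) :
        LaurentSeries ℚb)) := by
    rw [Subring.coe_mul, Subring.coe_pow]
    exact hasQSeries_mul_seriesToC hf' (hasQSeries_pow_seriesToC hF.series _)
  have h0 : χs + (-a).val • χ = 0 :=
    char_eq_zero_of_stab hA hηp hϖ hlift hζ hζn (Nat.mul_ne_zero hN₀0 (by omega)) hM _
      (hF'.mul (hF.rep.pow _)) hser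
      fun γ hγ hγ' => eval_eq_zero_of_stab hA hϖ hlift hζ hσ hK hK' hσζ rS hF.rep hF.series hF' hf'
        hγ hγ'
  refine Subtype.ext (AddMonoidHom.ext fun x => ?_)
  have h1 := congrArg (fun ψ : ParHom p (ZMod (η ^ K)) =>
    (ψ : Additive (Gamma0 p) →+ ZMod (η ^ K)) x) h0
  rw [Submodule.coe_add, AddMonoidHom.add_apply, AddSubmonoidClass.coe_nsmul,
    AddMonoidHom.nsmul_apply, nsmul_eq_mul, ZMod.natCast_zmod_val, ZeroMemClass.coe_zero,
    AddMonoidHom.zero_apply] at h1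
  rw [AddSubmonoidClass.coe_nsmul, AddMonoidHom.nsmul_apply, nsmul_eq_mul, ZMod.natCast_zmod_val]
  linear_combination h1

end Fermat.Agent.Mazur3
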