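import Fermat.Agent.Mazur3.Base
import Fermat.Agent.GalRep.KummerGalois

/-!
# Unit parts of Kummer classes

To a class of level `n` we attach the unit part of the `n`-th power of a representative, up to
`n`-th powers.
-/

set_option autoImplicit false
set_option linter.unusedSectionVars false

noncomputable section

namespace Fermat.Agent.Mazur3

open GalRep PowerSeries IsLocalRing
open Fermat.Agent.Galois (GQ)
open UpperHalfPlane CongruenceSubgroup

local notation "ℚb" => AlgebraicClosure ℚ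

theorem exists_inverse {O : Type*} [CommRing O] {u : O⟦X⟧} (hu : constantCoeff u = 1) :
    ∃ w : O⟦X⟧, constantCoeff w = 1 ∧ u * w = 1 := by
  obtain ⟨w, hw⟩ := (isUnit_iff_constantCoeff.mpr (hu ▸ isUnit_one) : IsUnit u).exists_right_inv
  have := congrArg constantCoeff hw
  rw [map_mul, hu, one_mul, map_one] at this
  exact ⟨w, this, hw⟩

variable {N n : ℕ} [NeZero N] [NeZero n]

/-- Every class has a representative over `L`. -/
def HasField (N n : ℕ) [NeZero N] [NeZero n] (L : IntermediateField ℚ (AlgebraicClosure ℚ)) :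
    Prop :=
  ∀ χ : ParHom N (ZMod n), ∃ (F : ℍ → ℂ) (f : LaurentSeries ℚb),
    IsKummerRep N n χ F ∧ HasQSeries 1 F (seriesToC f) ∧ f ∈ LSer L

/-- A power of a representative represents the class at lower level. -/
theorem isKummerRep_cast {k : ℕ} [NeZero (n * k)] {ψ : ParHom N (ZMod (n * k))}
    {χ : ParHom N (ZMod n)} {F : ℍ → ℂ} (hF : IsKummerRep N (n * k) ψ F)
    (hc : IsCastHom (Dvd.intro k rfl) ψ χ) : IsKummerRep N n χ (F ^ k) where
  holo := (hF.pow k).holo
  ne_zero := (hF.pow k).ne_zero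
  cusps := (hF.pow k).cusps
  equivariant γ τ := by
    show F _ ^ k = _ * F τ ^ k
    rw [hF.equivariant, mul_pow, hc]
    congr 1
    show ZMod.stdAddChar _ ^ k =
      ZMod.stdAddChar ((ZMod.castHom (Dvd.intro k rfl) (ZMod n)) _)
    generalize (ψ : Additive (Gamma0 N) →+ ZMod (n * k)) (Additive.ofMul γ) = a
    obtain ⟨j, rfl⟩ := ZMod.intCast_surjective a
    rw [map_intCast (ZMod.castHom (Dvd.intro k rfl) (ZMod n)), ZMod.stdAddChar_coe,
      ZMod.stdAddChar_coe, ← Complex.exp_nat_mul]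
    congr 1
    have hk : (k : ℂ) ≠ 0 := Nat.cast_ne_zero.mpr fun h0 => NeZero.ne (n * k) (by simp [h0])
    have : (n : ℂ) ≠ 0 := Nat.cast_ne_zero.mpr (NeZero.ne n)
    push_cast
    field_simp

theorem exists_hasField (N n : ℕ) [NeZero N] [NeZero n] :
    ∃ L₀ : IntermediateField ℚ ℚb, FiniteDimensional ℚ L₀ ∧
      ∀ L, L₀ ≤ L → HasField N n L := by
  obtain ⟨L₀, hfin, h⟩ := exists_finite_level (N := N) (n := n)
  refine ⟨L₀, hfin, fun L hL χ => ?_⟩
  obtain ⟨F, f, hF⟩ := exists_algebraic_rep χ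
  refine ⟨F, f, hF.rep, hF.series, mem_LSer.mpr fun k => hL ?_⟩
  have hn : seriesToC f = normalSeries χ :=
    hF.series_unique (exists_isNormal_normalSeries χ).choose_spec
  rw [← InfiniteGalois.fixedField_fixingSubgroup L₀]
  intro s
  have h1 := lmap_normalSeries (liftAut (s : GQ)) χ
  rw [h s (fun x hx => s.2 ⟨x, hx⟩) χ, ← hn, lmap_seriesToC (liftAut_spec (s : GQ))] at h1
  exact congrArg (fun g : LaurentSeries ℚb => g.coeff k) (seriesToC_injective h1)

namespace Base

variable {η : ℕ} {A : ValuationSubring (AlgebraicClosure ℚ)}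
  {L : IntermediateField ℚ (AlgebraicClosure ℚ)} (B : Base η A L)

/-- `u` is, up to `n`-th powers, the unit part of the `n`-th power of a representative of `χ`. -/
def Part (χ : ParHom N (ZMod n)) (u : B.O⟦X⟧) : Prop :=
  ∃ (F : ℍ → ℂ) (f : LaurentSeries ℚb) (u₀ y : B.O⟦X⟧), IsKummerRep N n χ F ∧
    HasQSeries 1 F (seriesToC f) ∧ f ∈ LSer L ∧ B.SPart (f ^ n) u₀ ∧ constantCoeff y = 1 ∧
      u = u₀ * y ^ n

/-- The class of the unit part is trivial. -/
def Connected (χ : ParHom N (ZMod n)) : Prop := B.Part χ 1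

/-- Some unit part reduces to one. -/
def ResOne (χ : ParHom N (ZMod n)) : Prop :=
  ∃ u, B.Part χ u ∧ u.map (residue B.O) = 1

variable {B} {χ χ' : ParHom N (ZMod n)} {u u' : B.O⟦X⟧}

theorem Part.constantCoeff_eq (h : B.Part χ u) : constantCoeff u = 1 := by
  obtain ⟨F, f, u₀, y, -, -, -, hu₀, hy, rfl⟩ := h
  rw [map_mul, map_pow, hu₀.constantCoeff_eq, hy, one_mul, one_pow]

theorem Part.scale (h : B.Part χ u) {y : B.O⟦X⟧} (hy : constantCoeff y = 1) :
    B.Part χ (u * y ^ n) := by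
  obtain ⟨F, f, u₀, y₀, hF, hf, hL, hu₀, hy₀, rfl⟩ := h
  exact ⟨F, f, u₀, y₀ * y, hF, hf, hL, hu₀, by simp [hy, hy₀], by rw [mul_pow, mul_assoc]⟩

theorem Part.add (h : B.Part χ u) (h' : B.Part χ' u') : B.Part (χ + χ') (u * u') := by
  obtain ⟨F, f, u₀, y, hF, hf, hL, hu₀, hy, rfl⟩ := h
  obtain ⟨F', f', u₀', y', hF', hf', hL', hu₀', hy', rfl⟩ := h'
  exact ⟨F * F', f * f', u₀ * u₀', y * y', hF.mul hF', hasQSeries_mul_seriesToC hf hf',
    mul_mem hL hL', by rw [mul_pow]; exact hu₀.mul hu₀', by simp [hy, hy'], by ring⟩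

theorem Part.zero : B.Part (0 : ParHom N (ZMod n)) 1 :=
  ⟨1, 1, 1, 1, IsKummerRep.one, by rw [seriesToC_eq_lmap, map_one]; exact HasQSeries.one 1,
    one_mem _, by rw [one_pow]; exact SPart.one, map_one _, by simp⟩

theorem Part.nsmul (h : B.Part χ u) : ∀ k : ℕ, B.Part (k • χ) (u ^ k)
  | 0 => by rw [zero_smul, pow_zero]; exact Part.zero
  | k + 1 => by rw [succ_nsmul, pow_succ]; exact (h.nsmul k).add h

theorem Part.neg (h : B.Part χ u) {w : B.O⟦X⟧} (hw : constantCoeff w = 1) (huw : u * w = 1) :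
    B.Part (-χ) w := by
  rw [show -χ = (n - 1) • χ from neg_eq_of_add_eq_zero_right (add_pred_nsmul_eq_zero χ)]
  convert (h.nsmul (n - 1)).scale hw using 1
  calc w = (u * w) ^ (n - 1) * w := by rw [huw, one_pow, one_mul]
    _ = u ^ (n - 1) * w ^ n := by
      obtain ⟨d, hd⟩ := Nat.exists_eq_succ_of_ne_zero (NeZero.ne n)
      rw [hd, Nat.succ_sub_one, pow_succ w d, mul_pow]
      ring

theorem Part.sub (h : B.Part χ u) (h' : B.Part χ' u') {w : B.O⟦X⟧} (hw : constantCoeff w = 1)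
    (huw : u' * w = 1) : B.Part (χ - χ') (u * w) := by
  rw [sub_eq_add_neg]
  exact h.add (h'.neg hw huw)

theorem rep_series_ne_zero {F : ℍ → ℂ} {f : LaurentSeries ℚb} (hF : IsKummerRep N n χ F)
    (hf : HasQSeries 1 F (seriesToC f)) : f ≠ 0 := fun h0 => by
  rw [h0, seriesToC_eq_lmap, map_zero] at hf
  exact hF.ne_zero (eq_of_hasQSeries hF.holo mdifferentiable_const hf (HasQSeries.zero 1))

theorem canNormalise_of_modFun (hη : η.Prime) (hA : A.LiesOverPrime η) {F : ℍ → ℂ}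
    {f : LaurentSeries ℚb} (hF : IsModFun (Gamma0 N) F) (hf : HasQSeries 1 F (seriesToC f))
    (hf0 : f ≠ 0) : CanNormalise A f := by
  obtain ⟨c, -, h1, h2⟩ := exists_modFun_normalisation hη hA hF hf hf0
  exact ⟨c, mem_intSeriesA.mp h1, h2⟩

theorem canNormalise_rep (hη : η.Prime) (hA : A.LiesOverPrime η) {F : ℍ → ℂ}
    {f : LaurentSeries ℚb} (hF : IsKummerRep N n χ F) (hf : HasQSeries 1 F (seriesToC f)) :
    CanNormalise A (f ^ n) :=
  canNormalise_of_modFun hη hA (isModFun_pow_rep hF hf).1 (isModFun_pow_rep hF hf).2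
    (pow_ne_zero _ (rep_series_ne_zero hF hf))

variable (B)

theorem exists_part_of_rep (hη : η.Prime) (hA : A.LiesOverPrime η) {F : ℍ → ℂ}
    {f : LaurentSeries ℚb} (hF : IsKummerRep N n χ F) (hf : HasQSeries 1 F (seriesToC f))
    (hL : f ∈ LSer L) : ∃ u, B.SPart (f ^ n) u ∧ B.Part χ u := by
  obtain ⟨u, hu⟩ := B.exists_sPart (pow_mem hL n) (canNormalise_rep hη hA hF hf)
  exact ⟨u, hu, F, f, u, 1, hF, hf, hL, hu, map_one _, by rw [one_pow, mul_one]⟩

theorem exists_part (hη : η.Prime) (hA : A.LiesOverPrime η) (hL : HasField N n L)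
    (χ : ParHom N (ZMod n)) : ∃ u, B.Part χ u := by
  obtain ⟨F, f, hF, hf, hfL⟩ := hL χ
  obtain ⟨u, -, hu⟩ := B.exists_part_of_rep hη hA hF hf hfL
  exact ⟨u, hu⟩

variable {B}

/-- The class of the unit part depends only on the character. -/
theorem Part.unique (hη : η.Prime) (hA : A.LiesOverPrime η) (h : B.Part χ u) (h' : B.Part χ u') :
    ∃ y, constantCoeff y = 1 ∧ u' * y ^ n = u := by
  obtain ⟨F, f, u₀, y, hF, hf, hL, hu₀, hy, rfl⟩ := h
  obtain ⟨F', f', u₀', y', hF', hf', hL', hu₀', hy', rfl⟩ := h'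
  have hmod : IsModFun (Gamma0 N) (F * F' ^ (n - 1)) := by
    have := hF.mul (hF'.pow (n - 1))
    rw [add_pred_nsmul_eq_zero] at this
    exact this.isModFun
  obtain ⟨z, hz⟩ := B.exists_sPart (mul_mem hL (pow_mem hL' (n - 1)))
    (canNormalise_of_modFun hη hA hmod (hasQSeries_mul_seriesToC hf (hasQSeries_pow_seriesToC hf' _))
      (mul_ne_zero (rep_series_ne_zero hF hf) (pow_ne_zero _ (rep_series_ne_zero hF' hf'))))
  have hzn : z ^ n = u₀ * u₀' ^ (n - 1) := by
    refine (hz.pow n).unique ?_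
    rw [mul_pow, ← pow_mul, mul_comm (n - 1), pow_mul]
    exact hu₀.mul (hu₀'.pow _)
  obtain ⟨w, hw0, hw⟩ := exists_inverse hu₀'.constantCoeff_eq
  obtain ⟨w', hw'0, hw'⟩ := exists_inverse hy'
  refine ⟨z * w * w' * y, by simp [hz.constantCoeff_eq, hw0, hw'0, hy], ?_⟩
  calc u₀' * y' ^ n * (z * w * w' * y) ^ n = u₀' * w ^ n * z ^ n * (y' * w') ^ n * y ^ n := by ring
    _ = u₀ * (u₀' * u₀' ^ (n - 1)) * w ^ n * y ^ n := by rw [hzn, hw', one_pow, mul_one]; ring
    _ = u₀ * (u₀' * w) ^ n * y ^ n := by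
      rw [← pow_succ', Nat.sub_add_cancel (NeZero.pos n)]; ring
    _ = u₀ * y ^ n := by rw [hw, one_pow, mul_one]

theorem connected_of_part (h : B.Part χ u) {y : B.O⟦X⟧} (hy : constantCoeff y = 1)
    (hyu : y ^ n = u) : B.Connected χ := by
  obtain ⟨w, hw0, hw⟩ := exists_inverse hy
  have := h.scale hw0
  rwa [← hyu, ← mul_pow, hw, one_pow] at this

theorem Connected.resOne (h : B.Connected χ) : B.ResOne χ := ⟨1, h, map_one _⟩

theorem Connected.add (h : B.Connected χ) (h' : B.Connected χ') : B.Connected (χ + χ') := by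
  simpa only [Base.Connected, mul_one] using Part.add h h'

theorem Connected.zero : B.Connected (0 : ParHom N (ZMod n)) := Part.zero

theorem Connected.neg (h : B.Connected χ) : B.Connected (-χ) :=
  Part.neg h (map_one _) (mul_one 1)

/-- Lowering the level keeps the unit part. -/
theorem Part.cast {k : ℕ} [NeZero (n * k)] {χk : ParHom N (ZMod (n * k))} {v : B.O⟦X⟧}
    (h : B.Part χk v) (hc : IsCastHom (Dvd.intro k rfl) χk χ) : B.Part χ v := by
  obtain ⟨F, f, u₀, y, hF, hf, hL, hu₀, hy, rfl⟩ := h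
  refine ⟨F ^ k, f ^ k, u₀, y ^ k, isKummerRep_cast hF hc, hasQSeries_pow_seriesToC hf k,
    pow_mem hL k, by rwa [← pow_mul, mul_comm k], by rw [map_pow, hy, one_pow], by
    rw [← pow_mul, mul_comm k]⟩

end Base

end Fermat.Agent.Mazur3
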