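import Fermat.Agent.GalRep.KummerGalois
import Fermat.Agent.GalRep.KummerIntegral
import Fermat.Agent.GalRep.KummerHecke
import Fermat.Agent.GalRep.Embeddings
import Fermat.Agent.Mazur3.Parts

/-!
# Leading values of Kummer representatives at a rational point

At a point with rational `(j, j(Nτ))` at which `j(Nτ)` is a simple root of the modular polynomial,
the Taylor series in `j - j(τ₀)` of a modular function commutes with automorphisms of `ℂ`. So the
leading coefficient of a representative at that point gives, for each automorphism, a root of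
unity: the Kummer class of the point.
-/

set_option autoImplicit false
set_option linter.unusedSectionVars false

noncomputable section

namespace Fermat.Agent.Mazur3

open GalRep
open Fermat.Agent.Galois (GQ)
open UpperHalfPlane CongruenceSubgroup Filter Topology
open Fermat.Agent.Period (jFun)
open scoped MatrixGroups Manifold

local notation "ℚb" => AlgebraicClosure ℚ

/-- The leading coefficient. -/
def lead (f : PowerSeries ℂ) : ℂ := PowerSeries.constantCoeff f.divXPowOrder

theorem lead_mul (f g : PowerSeries ℂ) : lead (f * g) = lead f * lead g := by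
  rw [lead, PowerSeries.divXPowOrder_mul, map_mul]; rfl

theorem lead_one : lead 1 = 1 := by rw [lead, PowerSeries.divXPowOrder_one, map_one]

theorem lead_pow (f : PowerSeries ℂ) : ∀ k : ℕ, lead (f ^ k) = lead f ^ k
  | 0 => by rw [pow_zero, pow_zero, lead_one]
  | k + 1 => by rw [pow_succ, pow_succ, lead_mul, lead_pow f k]

theorem lead_ne_zero {f : PowerSeries ℂ} (hf : f ≠ 0) : lead f ≠ 0 :=
  fun h => hf (PowerSeries.constantCoeff_divXPowOrder_eq_zero_iff.mp h)

theorem lead_map (σ : ℂ ≃+* ℂ) (f : PowerSeries ℂ) :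
    lead (PowerSeries.map σ.toRingHom f) = σ (lead f) := by
  rw [lead, lead, PowerSeries.constantCoeff_divXPowOrder, PowerSeries.constantCoeff_divXPowOrder,
    order_powerSeries_map (φ := σ.toRingHom) σ.injective, PowerSeries.coeff_map]
  rfl

/-- A point with rational coordinates at which `j(Nτ)` is a simple root. -/
structure RatPoint (N : ℕ) [NeZero N] : Type where
  τ : ℍ
  a : ℚ
  b : ℚ
  hj : jFun τ = (a : ℂ)
  hjN : jNFun N τ = (b : ℂ)
  simple : biEval (a : ℂ) (b : ℂ) (Polynomial.derivative (modPoly N)) ≠ 0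

namespace RatPoint

variable {N : ℕ} [NeZero N] (x : RatPoint N)

/-- The coordinate at the point in which `j` is `a + t^e`. -/
def coord : ℂ → ℂ := (exists_jCoord N x.τ).choose

theorem coord_analytic : AnalyticAt ℂ x.coord 0 := (exists_jCoord N x.τ).choose_spec.choose

theorem coord_mem : x.coord 0 ∈ upperHalfPlaneSet :=
  (exists_jCoord N x.τ).choose_spec.choose_spec.choose

theorem coord_zero : x.coord 0 = (x.τ : ℂ) :=
  (exists_jCoord N x.τ).choose_spec.choose_spec.choose_spec.1

theorem coord_deriv : deriv x.coord 0 ≠ 0 :=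
  (exists_jCoord N x.τ).choose_spec.choose_spec.choose_spec.2.1

theorem localAlg_jMF : localAlg N x.coord_analytic x.coord_mem (jMF (Gamma N)) =
    PowerSeries.C (x.a : ℂ) + PowerSeries.X ^ eOf (x.a : ℂ) := by
  rw [← x.hj]
  exact (exists_jCoord N x.τ).choose_spec.choose_spec.choose_spec.2.2

/-- The Taylor series of a function at the point. -/
def tay (F : ℍ → ℂ) : PowerSeries ℂ := taylorSeries ((F ∘ ofComplex) ∘ x.coord)

/-- The leading value of a function at the point. -/
def val (F : ℍ → ℂ) : ℂ := lead (x.tay F)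

theorem analyticAt_comp {F : ℍ → ℂ} (hF : MDifferentiable 𝓘(ℂ) 𝓘(ℂ) F) :
    AnalyticAt ℂ ((F ∘ ofComplex) ∘ x.coord) 0 :=
  (((UpperHalfPlane.mdifferentiable_iff.mp hF).analyticOnNhd isOpen_upperHalfPlaneSet) _
    x.coord_mem).comp x.coord_analytic

theorem tay_mul {F G : ℍ → ℂ} (hF : MDifferentiable 𝓘(ℂ) 𝓘(ℂ) F)
    (hG : MDifferentiable 𝓘(ℂ) 𝓘(ℂ) G) : x.tay (F * G) = x.tay F * x.tay G :=
  taylorSeries_mul (x.analyticAt_comp hF) (x.analyticAt_comp hG)

theorem tay_one : x.tay 1 = 1 := by
  show taylorSeries (fun _ => (1 : ℂ)) = 1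
  rw [taylorSeries_const, map_one]

theorem val_mul {F G : ℍ → ℂ} (hF : MDifferentiable 𝓘(ℂ) 𝓘(ℂ) F)
    (hG : MDifferentiable 𝓘(ℂ) 𝓘(ℂ) G) : x.val (F * G) = x.val F * x.val G := by
  rw [val, x.tay_mul hF hG, lead_mul]; rfl

theorem val_pow {F : ℍ → ℂ} (hF : MDifferentiable 𝓘(ℂ) 𝓘(ℂ) F) :
    ∀ k : ℕ, x.val (F ^ k) = x.val F ^ k
  | 0 => by rw [pow_zero, pow_zero, val, x.tay_one, lead_one]
  | k + 1 => by rw [pow_succ, pow_succ, x.val_mul (hF.pow k) hF, val_pow hF k]

theorem val_ne_zero {F : ℍ → ℂ} (hF : MDifferentiable 𝓘(ℂ) 𝓘(ℂ) F) (hF0 : F ≠ 0) :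
    x.val F ≠ 0 := by
  refine lead_ne_zero fun h => ?_
  have h1 := order_taylorSeries (x.analyticAt_comp hF)
  rw [show taylorSeries ((F ∘ ofComplex) ∘ x.coord) = x.tay F from rfl, h, PowerSeries.order_zero,
    analyticOrderAt_comp_of_deriv_ne_zero x.coord_analytic x.coord_deriv] at h1
  exact analyticOrderAt_modFun_ne_top hF hF0 x.coord_mem h1.symm

/-- At a point where the function does not vanish the leading value is the value. -/
theorem val_eq_apply {F : ℍ → ℂ} (h : F x.τ ≠ 0) : x.val F = F x.τ := by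
  have h0 : PowerSeries.constantCoeff (x.tay F) = F x.τ := by
    rw [← PowerSeries.coeff_zero_eq_constantCoeff_apply]
    simp [tay, taylorSeries, x.coord_zero]
  have hne : PowerSeries.constantCoeff (x.tay F) ≠ 0 := h0 ▸ h
  have hord : (x.tay F).order = 0 :=
    le_antisymm (PowerSeries.order_le 0 (by rwa [PowerSeries.coeff_zero_eq_constantCoeff_apply]))
      zero_le
  rw [val, lead, PowerSeries.constantCoeff_divXPowOrder, hord]
  simp [h0]

/-- The Taylor map on functions of level `Γ₀(N)`. -/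
def tayAlg : modFuns (Gamma0 N) →ₐ[ℂ] PowerSeries ℂ :=
  (localAlg N x.coord_analytic x.coord_mem).comp (incl N)

theorem tayAlg_apply (g : modFuns (Gamma0 N)) : x.tayAlg g = x.tay (g : ℍ → ℂ) := rfl

theorem tayAlg_jMF : x.tayAlg (jMF (Gamma0 N)) =
    PowerSeries.C (x.a : ℂ) + PowerSeries.X ^ eOf (x.a : ℂ) := x.localAlg_jMF

theorem constantCoeff_tayAlg_jNMF :
    PowerSeries.constantCoeff (x.tayAlg (jNMF N)) = (x.b : ℂ) := by
  rw [← PowerSeries.coeff_zero_eq_constantCoeff_apply, tayAlg_apply, ← x.hjN]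
  simp [tay, taylorSeries, x.coord_zero]
  rfl

theorem constantCoeff_biEval (s r : PowerSeries ℂ) (P : Polynomial (Polynomial ℂ)) :
    PowerSeries.constantCoeff (biEval s r P) =
      biEval (PowerSeries.constantCoeff s) (PowerSeries.constantCoeff r) P := by
  suffices h : PowerSeries.constantCoeff.comp (biEval s r) =
      biEval (PowerSeries.constantCoeff s) (PowerSeries.constantCoeff r) from
    RingHom.congr_fun h P
  refine Polynomial.ringHom_ext (fun c => ?_) (by simp [biEval])
  simp only [RingHom.comp_apply, biEval, Polynomial.coe_eval₂RingHom, Polynomial.eval₂_C,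
    AlgHom.toRingHom_eq_coe, RingHom.coe_coe, Polynomial.aeval_def, Polynomial.hom_eval₂]
  congr 1

theorem isUnit_biEval_derivative {r : PowerSeries ℂ}
    (hr : PowerSeries.constantCoeff r = (x.b : ℂ)) :
    IsUnit (biEval (x.tayAlg (jMF (Gamma0 N))) r (Polynomial.derivative (modPoly N))) := by
  refine PowerSeries.isUnit_iff_constantCoeff.mpr (isUnit_iff_ne_zero.mpr ?_)
  rw [constantCoeff_biEval, hr, tayAlg_jMF, map_add, PowerSeries.constantCoeff_C, map_pow,
    PowerSeries.constantCoeff_X, zero_pow (eOf_pos _).ne', add_zero]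
  exact x.simple

/-- The series of `j(Nτ)` at the point is fixed by automorphisms. -/
theorem map_tayAlg_jNMF (σ : ℂ ≃+* ℂ) :
    PowerSeries.map σ.toRingHom (x.tayAlg (jNMF N)) = x.tayAlg (jNMF N) := by
  set s := x.tayAlg (jMF (Gamma0 N)) with hs
  set r := x.tayAlg (jNMF N) with hr
  set r' := PowerSeries.map σ.toRingHom r with hr'
  have hσs : PowerSeries.map σ.toRingHom s = s := by
    rw [hs, tayAlg_jMF, map_add, PowerSeries.map_C, map_pow, PowerSeries.map_X]
    simp
  have hroot : biEval s r (modPoly N) = 0 := by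
    rw [hs, hr, ← map_biEval, modPoly, biEval_orbitPoly_self, map_zero]
  have hroot' : biEval s r' (modPoly N) = 0 := by
    have h := congrArg (PowerSeries.map σ.toRingHom) hroot
    rwa [map_zero, map_biEval_semilinear σ _ (fun c => by simp) s r, hσs, gmap_modPoly] at h
  have hc' : PowerSeries.constantCoeff r' = (x.b : ℂ) := by
    rw [hr', ← PowerSeries.coeff_zero_eq_constantCoeff_apply, PowerSeries.coeff_map,
      PowerSeries.coeff_zero_eq_constantCoeff_apply, hr, x.constantCoeff_tayAlg_jNMF]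
    simp
  set P := (modPoly N).map (Polynomial.aeval s).toRingHom
  obtain ⟨k, hk⟩ := Polynomial.binomExpansion P r (r' - r)
  rw [add_sub_cancel, ← biEval_apply, ← biEval_apply, hroot, hroot', zero_add] at hk
  have hu : IsUnit (P.derivative.eval r + k * (r' - r)) := by
    refine PowerSeries.isUnit_iff_constantCoeff.mpr ?_
    have h1 := PowerSeries.isUnit_iff_constantCoeff.mp
      (x.isUnit_biEval_derivative x.constantCoeff_tayAlg_jNMF)
    rw [biEval_apply, ← Polynomial.derivative_map] at h1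
    rw [map_add, map_mul, map_sub, hc', hr, x.constantCoeff_tayAlg_jNMF, sub_self, mul_zero,
      add_zero]
    exact h1
  have h0 : (P.derivative.eval r + k * (r' - r)) * (r' - r) = 0 := by rw [hk]; ring
  exact sub_eq_zero.mp (hu.mul_right_eq_zero.mp h0)

/-- Taylor series of modular functions commute with automorphisms. -/
theorem map_tay_modFun (σ : ℂ ≃+* ℂ) {G G' : ℍ → ℂ} {g : LaurentSeries ℂ}
    (hG : IsModFun (Gamma0 N) G) (hG' : IsModFun (Gamma0 N) G') (hg : HasQSeries 1 G g)
    (hg' : HasQSeries 1 G' (lmap σ.toRingHom g)) :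
    PowerSeries.map σ.toRingHom (x.tay G) = x.tay G' := by
  set φ : modFuns (Gamma0 N) := ⟨G, hG⟩
  set φ' : modFuns (Gamma0 N) := ⟨G', hG'⟩
  have hj : HasQSeries 1 ((jNMF N : modFuns (Gamma0 N)) : ℍ → ℂ) (expand N (NeZero.ne N) jq) :=
    hasQSeries_jNFun N
  obtain ⟨P, -, hP⟩ := exists_interp φ
  have h1 : g * biEval jq (expand N (NeZero.ne N) jq) (Polynomial.derivative (modPoly N)) =
      biEval jq (expand N (NeZero.ne N) jq) P :=
    ((hg.mul (hasQSeries_biEval hj _)).congr (.of_forall fun τ =>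
      congrFun (congrArg Subtype.val hP) τ)).unique one_pos (hasQSeries_biEval hj P)
  have h2 := congrArg (lmap σ.toRingHom) h1
  rw [map_mul, lmap_biEval, lmap_biEval, lmap_jq, lmap_expand, lmap_jq, gmap_derivative_modPoly]
    at h2
  have hP' : φ' * biEval (jMF (Gamma0 N)) (jNMF N) (Polynomial.derivative (modPoly N)) =
      biEval (jMF (Gamma0 N)) (jNMF N) (gmap σ P) := Subtype.ext
    (eq_of_hasQSeries (φ' * biEval (jMF (Gamma0 N)) (jNMF N) _).2.holo
      (biEval (jMF (Gamma0 N)) (jNMF N) (gmap σ P)).2.holo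
      (h2 ▸ hg'.mul (hasQSeries_biEval hj _)) (hasQSeries_biEval hj (gmap σ P)))
  have hT := congrArg x.tayAlg hP
  have hT' := congrArg x.tayAlg hP'
  rw [map_mul, map_biEval, map_biEval] at hT hT'
  have h3 := congrArg (PowerSeries.map σ.toRingHom) hT
  have hσj : PowerSeries.map σ.toRingHom (x.tayAlg (jMF (Gamma0 N))) =
      x.tayAlg (jMF (Gamma0 N)) := by
    rw [tayAlg_jMF, map_add, PowerSeries.map_C, map_pow, PowerSeries.map_X]
    simp
  rw [map_mul, map_biEval_semilinear σ _ (fun c => by simp) _ _,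
    map_biEval_semilinear σ _ (fun c => by simp) _ _, hσj, x.map_tayAlg_jNMF σ,
    gmap_derivative_modPoly, ← hT'] at h3
  exact (x.isUnit_biEval_derivative x.constantCoeff_tayAlg_jNMF).mul_right_cancel h3

theorem val_modFun (σ : ℂ ≃+* ℂ) {G G' : ℍ → ℂ} {g : LaurentSeries ℂ}
    (hG : IsModFun (Gamma0 N) G) (hG' : IsModFun (Gamma0 N) G') (hg : HasQSeries 1 G g)
    (hg' : HasQSeries 1 G' (lmap σ.toRingHom g)) : σ (x.val G) = x.val G' := by
  rw [val, val, ← x.map_tay_modFun σ hG hG' hg hg', lead_map]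

end RatPoint

end Fermat.Agent.Mazur3
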