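import Fermat.Agent.GalRep.Glue
import Fermat.Agent.Mazur3.Value

/-!
# The Kummer classes of a rational point

For an automorphism `σ` and a character `χ`, the leading values at the point of the normalised
representatives of `χ` and of its conjugate differ by a root of unity. These exponents form a
cocycle in `σ`, additive in `χ` and compatible in the level, hence a functional on the lattice.
-/

set_option autoImplicit false

noncomputable section

namespace Fermat.Agent.Mazur3

open GalRep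
open Fermat.Agent.Galois (GQ)
open UpperHalfPlane CongruenceSubgroup
open scoped MatrixGroups Manifold

local notation "ℚb" => AlgebraicClosure ℚ

variable {N n : ℕ} [NeZero N] [NeZero n]

/-- A normalised representative. -/
def normalRep (χ : ParHom N (ZMod n)) : ℍ → ℂ := (exists_isNormal_normalSeries χ).choose

theorem normalRep_spec (χ : ParHom N (ZMod n)) : IsNormal χ (normalRep χ) (normalSeries χ) :=
  (exists_isNormal_normalSeries χ).choose_spec

/-- Roots of unity are values of the standard additive character. -/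
theorem exists_stdAddChar_eq {r : ℂ} (hr : r ^ n = 1) : ∃ a : ZMod n, ZMod.stdAddChar a = r := by
  obtain ⟨i, -, hi⟩ := (Complex.isPrimitiveRoot_exp n (NeZero.ne n)).eq_pow_of_pow_eq_one hr
  refine ⟨((i : ℤ) : ZMod n), ?_⟩
  rw [ZMod.stdAddChar_coe, ← hi, ← Complex.exp_nat_mul]
  congr 1
  push_cast
  ring

theorem stdAddChar_pow_val {n : ℕ} [NeZero n] (b m : ZMod n) :
    ZMod.stdAddChar b ^ m.val = ZMod.stdAddChar (m * b) := by
  rw [← AddChar.map_nsmul_eq_pow, nsmul_eq_mul, ZMod.natCast_zmod_val]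

theorem stdAddChar_pow_cast {k : ℕ} [NeZero (n * k)] (a : ZMod (n * k)) :
    ZMod.stdAddChar a ^ k =
      ZMod.stdAddChar (ZMod.castHom (Dvd.intro k rfl : n ∣ n * k) (ZMod n) a) := by
  obtain ⟨j, rfl⟩ := ZMod.intCast_surjective a
  rw [map_intCast (ZMod.castHom (Dvd.intro k rfl) (ZMod n)), ZMod.stdAddChar_coe,
    ZMod.stdAddChar_coe, ← Complex.exp_nat_mul]
  congr 1
  have hk : (k : ℂ) ≠ 0 := Nat.cast_ne_zero.mpr fun h0 => NeZero.ne (n * k) (by simp [h0])
  have : (n : ℂ) ≠ 0 := Nat.cast_ne_zero.mpr (NeZero.ne n)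
  push_cast
  field_simp

namespace RatPoint

variable (x : RatPoint N)

theorem exists_kClass (σ : ℂ ≃+* ℂ) (χ : ParHom N (ZMod n)) :
    ∃ a : ZMod n, x.val (normalRep (autChar σ χ)) * ZMod.stdAddChar a =
      σ (x.val (normalRep χ)) := by
  have h := normalRep_spec χ
  have h' := normalRep_spec (autChar σ χ)
  have hG := x.val_modFun σ h.rep.isModFun_pow h'.rep.isModFun_pow (h.series.pow n)
    (by rw [map_pow, lmap_normalSeries]; exact h'.series.pow n)
  rw [x.val_pow h.rep.holo, x.val_pow h'.rep.holo, map_pow] at hG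
  have h0 : x.val (normalRep (autChar σ χ)) ≠ 0 := x.val_ne_zero h'.rep.holo h'.rep.ne_zero
  obtain ⟨a, ha⟩ := exists_stdAddChar_eq
    (r := σ (x.val (normalRep χ)) / x.val (normalRep (autChar σ χ))) (n := n)
    (by rw [div_pow, hG, div_self (pow_ne_zero _ h0)])
  exact ⟨a, by rw [ha, mul_div_cancel₀ _ h0]⟩

/-- The exponent of the root of unity. -/
def kClass (σ : ℂ ≃+* ℂ) (χ : ParHom N (ZMod n)) : ZMod n := (x.exists_kClass σ χ).choose

theorem kClass_spec (σ : ℂ ≃+* ℂ) (χ : ParHom N (ZMod n)) :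
    x.val (normalRep (autChar σ χ)) * ZMod.stdAddChar (x.kClass σ χ) = σ (x.val (normalRep χ)) :=
  (x.exists_kClass σ χ).choose_spec

/-- The exponent is computed by any representative. -/
theorem kClass_spec_rep {σ : ℂ ≃+* ℂ} {χ χ' : ParHom N (ZMod n)} {F F' : ℍ → ℂ}
    {f : LaurentSeries ℂ} (hF : IsKummerRep N n χ F) (hf : HasQSeries 1 F f)
    (hF' : IsKummerRep N n χ' F') (hf' : HasQSeries 1 F' (lmap σ.toRingHom f)) :
    x.val F' * ZMod.stdAddChar (x.kClass σ χ) = σ (x.val F) := by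
  obtain rfl := eq_autChar σ hF hf hF' hf'
  have h := normalRep_spec χ
  have h' := normalRep_spec (autChar σ χ)
  have hmod : ∀ {ψ : ParHom N (ZMod n)} {G G₀ : ℍ → ℂ}, IsKummerRep N n ψ G →
      IsKummerRep N n ψ G₀ → IsModFun (Gamma0 N) (G * G₀ ^ (n - 1)) := fun hG hG₀ => by
    have := hG.mul (hG₀.pow (n - 1))
    rw [add_pred_nsmul_eq_zero] at this
    exact this.isModFun
  have hV := x.val_modFun σ (hmod hF h.rep) (hmod hF' h'.rep) (hf.mul (h.series.pow _))
    (by rw [map_mul, map_pow, lmap_normalSeries]; exact hf'.mul (h'.series.pow _))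
  rw [x.val_mul hF.holo (h.rep.holo.pow _), x.val_pow h.rep.holo, map_mul, map_pow,
    ← x.kClass_spec σ χ, x.val_mul hF'.holo (h'.rep.holo.pow _), x.val_pow h'.rep.holo, mul_pow,
    mul_left_comm, mul_comm (x.val F')] at hV
  have h1 := mul_left_cancel₀
    (pow_ne_zero _ (x.val_ne_zero h'.rep.holo h'.rep.ne_zero)) hV
  have hψ : ZMod.stdAddChar (x.kClass σ χ) ^ (n - 1) * ZMod.stdAddChar (x.kClass σ χ) =
      (1 : ℂ) := by
    rw [← pow_succ, Nat.sub_add_cancel (NeZero.pos n), ← AddChar.map_nsmul_eq_pow,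
      nsmul_eq_mul, ZMod.natCast_self, zero_mul, AddChar.map_zero_eq_one]
  calc x.val F' * ZMod.stdAddChar (x.kClass σ χ)
      = σ (x.val F) * (ZMod.stdAddChar (x.kClass σ χ) ^ (n - 1) *
          ZMod.stdAddChar (x.kClass σ χ)) := by rw [← h1]; ring
    _ = σ (x.val F) := by rw [hψ, mul_one]

theorem kClass_unique {σ : ℂ ≃+* ℂ} {χ χ' : ParHom N (ZMod n)} {F F' : ℍ → ℂ}
    {f : LaurentSeries ℂ} (hF : IsKummerRep N n χ F) (hf : HasQSeries 1 F f)
    (hF' : IsKummerRep N n χ' F') (hf' : HasQSeries 1 F' (lmap σ.toRingHom f)) {a : ZMod n}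
    (ha : x.val F' * ZMod.stdAddChar a = σ (x.val F)) : x.kClass σ χ = a :=
  ZMod.injective_stdAddChar (mul_left_cancel₀ (x.val_ne_zero hF'.holo hF'.ne_zero)
    ((x.kClass_spec_rep hF hf hF' hf').trans ha.symm))

theorem kClass_add (σ : ℂ ≃+* ℂ) (χ χ' : ParHom N (ZMod n)) :
    x.kClass σ (χ + χ') = x.kClass σ χ + x.kClass σ χ' := by
  have a := normalRep_spec χ
  have a' := normalRep_spec (autChar σ χ)
  have b := normalRep_spec χ'
  have b' := normalRep_spec (autChar σ χ')
  refine x.kClass_unique (a.rep.mul b.rep) (a.series.mul b.series) (a'.rep.mul b'.rep)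
    (by rw [map_mul, lmap_normalSeries, lmap_normalSeries]; exact a'.series.mul b'.series) ?_
  rw [x.val_mul a.rep.holo b.rep.holo, x.val_mul a'.rep.holo b'.rep.holo, map_mul,
    AddChar.map_add_eq_mul, ← x.kClass_spec σ χ, ← x.kClass_spec σ χ']
  ring

/-- The classes as an additive map. -/
def kClassHom (σ : ℂ ≃+* ℂ) : ParHom N (ZMod n) →+ ZMod n :=
  AddMonoidHom.mk' (x.kClass σ) (x.kClass_add σ)

@[simp] theorem kClassHom_apply (σ : ℂ ≃+* ℂ) (χ : ParHom N (ZMod n)) :
    x.kClassHom σ χ = x.kClass σ χ := rfl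

theorem kClass_trans {σ τ : ℂ ≃+* ℂ} {m : ZMod n}
    (hm : ∀ b : ZMod n, σ (ZMod.stdAddChar b) = ZMod.stdAddChar (m * b))
    (χ : ParHom N (ZMod n)) :
    x.kClass (τ.trans σ) χ = x.kClass σ (autChar τ χ) + m * x.kClass τ χ := by
  have h := normalRep_spec χ
  have h1 := normalRep_spec (autChar τ χ)
  have h2 := normalRep_spec (autChar σ (autChar τ χ))
  refine x.kClass_unique h.rep h.series h2.rep ?_ ?_
  · rw [show lmap (τ.trans σ).toRingHom (normalSeries χ) =
        lmap σ.toRingHom (lmap τ.toRingHom (normalSeries χ)) by rw [lmap_lmap]; rfl,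
      lmap_normalSeries, lmap_normalSeries]
    exact h2.series
  · rw [RingEquiv.trans_apply, ← x.kClass_spec τ χ, map_mul, ← x.kClass_spec σ (autChar τ χ), hm,
      AddChar.map_add_eq_mul]
    ring

theorem isAlgebraic_val_normalRep (χ : ParHom N (ZMod n)) :
    IsAlgebraic ℚ (x.val (normalRep χ)) := by
  refine isAlgebraic_of_finite_orbit ((Set.finite_range fun c : ParHom N (ZMod n) × ZMod n =>
    x.val (normalRep c.1) * ZMod.stdAddChar c.2).subset ?_)
  rintro _ ⟨σ, rfl⟩
  exact ⟨(autChar σ χ, x.kClass σ χ), x.kClass_spec σ χ⟩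

theorem kClass_eq_of_agree {σ τ : ℂ ≃+* ℂ} (h : ∀ y, σ (qbarToC y) = τ (qbarToC y))
    (χ : ParHom N (ZMod n)) : x.kClass σ χ = x.kClass τ χ := by
  have hs := x.kClass_spec τ χ
  obtain ⟨y, hy⟩ := exists_qbarToC_eq (x.isAlgebraic_val_normalRep χ)
  rw [← autChar_eq_of_agree h χ, ← hy, ← h y, hy] at hs
  exact x.kClass_unique (normalRep_spec χ).rep (normalRep_spec χ).series
    (normalRep_spec (autChar σ χ)).rep
    (by rw [lmap_normalSeries]; exact (normalRep_spec _).series) hs

theorem exists_kClass_level :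
    ∃ L : IntermediateField ℚ (AlgebraicClosure ℚ), FiniteDimensional ℚ L ∧
      ∀ s : GQ, (∀ y ∈ L, s y = y) → ∀ χ : ParHom N (ZMod n), x.kClass (liftAut s) χ = 0 := by
  obtain ⟨L₀, hfin, hL₀⟩ := exists_finite_level (N := N) (n := n)
  choose y hy using fun χ : ParHom N (ZMod n) =>
    exists_qbarToC_eq (x.isAlgebraic_val_normalRep χ)
  have := hfin
  have : FiniteDimensional ℚ (IntermediateField.adjoin ℚ (Set.range y)) :=
    haveI : Finite (Set.range y) := (Set.finite_range y).to_subtype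
    IntermediateField.finiteDimensional_adjoin fun z _ =>
      (Algebra.IsAlgebraic.isAlgebraic z).isIntegral
  refine ⟨L₀ ⊔ IntermediateField.adjoin ℚ (Set.range y), inferInstance, fun s hs χ => ?_⟩
  have hχ := hL₀ s (fun z hz => hs z ((le_sup_left : L₀ ≤ _) hz)) χ
  refine x.kClass_unique (normalRep_spec χ).rep (normalRep_spec χ).series (normalRep_spec χ).rep
    (by rw [lmap_normalSeries, hχ]; exact (normalRep_spec χ).series) ?_
  rw [AddChar.map_zero_eq_one, mul_one, ← hy, liftAut_spec,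
    hs _ ((le_sup_right : IntermediateField.adjoin ℚ (Set.range y) ≤ _)
      (IntermediateField.subset_adjoin ℚ _ ⟨χ, rfl⟩))]

theorem kClass_cast {m : ℕ} [NeZero m] (hmn : m ∣ n) (σ : ℂ ≃+* ℂ) {ψ : ParHom N (ZMod n)}
    {χ : ParHom N (ZMod m)} (hc : IsCastHom hmn ψ χ) :
    ZMod.castHom hmn (ZMod m) (x.kClass σ ψ) = x.kClass σ χ := by
  obtain ⟨k, rfl⟩ := hmn
  have h := normalRep_spec ψ
  have h' := normalRep_spec (autChar σ ψ)
  have hr := isKummerRep_cast h.rep hc
  have hψ' : IsCastHom (Dvd.intro k rfl) (autChar σ ψ)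
      ((parMap (ZMod.castHom (Dvd.intro k rfl : m ∣ m * k) (ZMod m)).toAddMonoidHom)
        (autChar σ ψ)) := rfl
  have hr' := isKummerRep_cast h'.rep hψ'
  symm
  refine x.kClass_unique hr (h.series.pow k) hr'
    (by rw [map_pow, lmap_normalSeries]; exact h'.series.pow k) ?_
  rw [x.val_pow h.rep.holo, x.val_pow h'.rep.holo, map_pow, ← x.kClass_spec σ ψ, mul_pow,
    stdAddChar_pow_cast]

end RatPoint

/-! ## Galois automorphisms and the lattice -/

variable (η : ℕ) [Fact η.Prime]

/-- The cyclotomic character modulo `η^k`. -/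
def cycMod (k : ℕ) (s : GQ) : ZMod (η ^ k) := (cyc η s).val.toZModPow k

theorem liftAut_stdAddChar {k : ℕ} (s : GQ) (b : ZMod (η ^ k)) :
    liftAut s (ZMod.stdAddChar b) = ZMod.stdAddChar (cycMod η k s * b) := by
  have hb : ZMod.stdAddChar b ^ (η ^ k) = (1 : ℂ) := by
    rw [← AddChar.map_nsmul_eq_pow, nsmul_eq_mul, ZMod.natCast_self, zero_mul,
      AddChar.map_zero_eq_one]
  have halg : IsAlgebraic ℚ (ZMod.stdAddChar b : ℂ) :=
    (IsIntegral.of_pow (NeZero.pos (η ^ k)) (by rw [hb]; exact isIntegral_one)).isAlgebraic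
  obtain ⟨t, ht⟩ := exists_qbarToC_eq halg
  rw [← stdAddChar_pow_val, ← ht, liftAut_spec, ← map_pow,
    cyc_spec η s t (qbarToC.injective (by rw [map_pow, ht, hb, map_one]))]
  rfl

namespace RatPoint

variable {η} (x : RatPoint N)

theorem kClass_mul {k : ℕ} (s t : GQ) (χ : ParHom N (ZMod (η ^ k))) :
    x.kClass (liftAut (s * t)) χ = x.kClass (liftAut s) ((kummerGalois N (η ^ k)).galois t χ) +
      cycMod η k s * x.kClass (liftAut t) χ := by
  rw [x.kClass_eq_of_agree (σ := liftAut (s * t)) (τ := (liftAut t).trans (liftAut s))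
    (fun y => by rw [RingEquiv.trans_apply, liftAut_spec, liftAut_spec, liftAut_spec]; rfl) χ,
    x.kClass_trans (liftAut_stdAddChar η s)]
  rfl

theorem exists_latClass (s : GQ) (v : Lat N η) :
    ∃ z : ℤ_[η], ∀ k, PadicInt.toZModPow k z = x.kClass (liftAut s) (redPow k v) :=
  exists_padic_of_compatible _ fun _ _ h => x.kClass_cast _ _ (redPow_isCast h v)

/-- The Kummer class of the point as a functional on the lattice. -/
def latClass (s : GQ) : Lat N η →ₗ[ℤ_[η]] ℤ_[η] where
  toFun v := (x.exists_latClass s v).choose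
  map_add' v w := PadicInt.ext_of_toZModPow.mp fun k => by
    rw [map_add, (x.exists_latClass s _).choose_spec, (x.exists_latClass s _).choose_spec,
      (x.exists_latClass s _).choose_spec, map_add, x.kClass_add]
  map_smul' c v := PadicInt.ext_of_toZModPow.mp fun k => by
    rw [RingHom.id_apply, smul_eq_mul, map_mul, (x.exists_latClass s _).choose_spec,
      (x.exists_latClass s _).choose_spec, redPow_smul, ← x.kClassHom_apply, map_nsmul,
      x.kClassHom_apply, nsmul_eq_mul, ZMod.natCast_zmod_val]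

theorem toZModPow_latClass (s : GQ) (v : Lat N η) (k : ℕ) :
    PadicInt.toZModPow k (x.latClass s v) = x.kClass (liftAut s) (redPow k v) :=
  (x.exists_latClass s v).choose_spec k

theorem latClass_mul (s t : GQ) (v : Lat N η) :
    x.latClass (s * t) v =
      x.latClass s (latGalois (fun k => kummerGalois N (η ^ k)) (kummerCompat N) t v) +
        (cyc η s).val * x.latClass t v :=
  PadicInt.ext_of_toZModPow.mp fun k => by
    rw [map_add, map_mul, x.toZModPow_latClass, x.toZModPow_latClass, x.toZModPow_latClass,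
      redPow_latGalois, x.kClass_mul]
    rfl

theorem latClass_continuous (k : ℕ) :
    ∃ F : IntermediateField ℚ (AlgebraicClosure ℚ), FiniteDimensional ℚ F ∧
      ∀ s : GQ, (∀ y ∈ F, s y = y) → ∀ v : Lat N η, (η : ℤ_[η]) ^ k ∣ x.latClass s v := by
  obtain ⟨F, hF, h⟩ := x.exists_kClass_level (n := η ^ k)
  refine ⟨F, hF, fun s hs v => ?_⟩
  rw [← Ideal.mem_span_singleton, ← PadicInt.ker_toZModPow, RingHom.mem_ker,
    x.toZModPow_latClass, h s hs]

end RatPoint

end Fermat.Agent.Mazur3
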