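import Fermat.Agent.Mazur3.Parts
import Fermat.Agent.GalRep.KummerCongr
import Mathlib.RingTheory.DiscreteValuationRing.Basic

/-!
# Connected classes

The transfer at `η` acts on unit parts as the norm times the substitution `X ↦ X^η`, so on a
module on which it is injective a class whose unit part reduces to one has trivial unit part.
Inertia moves every class, and the congruence relation every class, into those classes.
-/

set_option autoImplicit false
set_option linter.unusedSectionVars false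

noncomputable section

namespace Fermat.Agent.Mazur3

open GalRep PowerSeries IsLocalRing
open Fermat.Agent.Galois (GQ)
open UpperHalfPlane CongruenceSubgroup

local notation "ℚb" => AlgebraicClosure ℚ

local instance instFintypeRootsConn (k : ℕ) [NeZero k] (R : Type) [Field R] :
    Fintype (rootsOfUnity k R) :=
  Fintype.ofFinite _

theorem heckeSeriesA_mul (ℓ : ℕ) [NeZero ℓ] (f g : LaurentSeries ℚb) :
    heckeSeriesA ℓ (f * g) = heckeSeriesA ℓ f * heckeSeriesA ℓ g := by
  simp only [heckeSeriesA, map_mul, Finset.prod_mul_distrib]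
  ring

theorem expand_C_series {K : Type*} [Field K] (a : ℕ) (ha : a ≠ 0) (c : K) :
    expand a ha (HahnSeries.C c) = HahnSeries.C c := by
  ext j
  by_cases hj : (a : ℤ) ∣ j
  · obtain ⟨i, rfl⟩ := hj
    rw [expand_coeff_mul]
    simp [HahnSeries.coeff_single, ha]
  · rw [expand_coeff_of_not_dvd _ _ _ _ hj, HahnSeries.C_apply, HahnSeries.coeff_single_of_ne]
    rintro rfl
    exact hj (dvd_zero _)

theorem twist_C_series {K : Type*} [Field K] (ζ : Kˣ) (c : K) :
    twist ζ (HahnSeries.C c) = HahnSeries.C c := by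
  ext j
  rw [twist_coeff]
  rcases eq_or_ne j 0 with rfl | hj
  · simp
  · simp [HahnSeries.coeff_single_of_ne hj]

theorem heckeSeriesA_C (ℓ : ℕ) [NeZero ℓ] (c : ℚb) :
    heckeSeriesA ℓ (HahnSeries.C c) = HahnSeries.C (c * c ^ ℓ) := by
  simp only [heckeSeriesA, twist_C_series, expand_C_series, Finset.prod_const, Finset.card_univ]
  rw [← Nat.card_eq_fintype_card, HasEnoughRootsOfUnity.natCard_rootsOfUnity, map_mul, map_pow]

variable {η : ℕ} [Fact η.Prime] {L : IntermediateField ℚ (AlgebraicClosure ℚ)}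

theorem rootsOfUnity_mem {ζ : ℚb} (hζ : IsPrimitiveRoot ζ η) (hζL : ζ ∈ L)
    (ω : rootsOfUnity η ℚb) : ((ω : ℚbˣ) : ℚb) ∈ L := by
  obtain ⟨i, -, hi⟩ := hζ.eq_pow_of_pow_eq_one (ξ := ((ω : ℚbˣ) : ℚb))
    (by rw [← Units.val_pow_eq_pow_val, (mem_rootsOfUnity η _).mp ω.2, Units.val_one])
  exact hi ▸ pow_mem hζL i

theorem heckeSeriesA_mem_LSer {ζ : ℚb} (hζ : IsPrimitiveRoot ζ η) (hζL : ζ ∈ L)
    {f : LaurentSeries ℚb} (hf : f ∈ LSer L) : heckeSeriesA η f ∈ LSer L :=
  mul_mem (expand_mem_LSer _ (expand_mem_LSer _ hf))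
    (prod_mem fun ω _ => twist_mem_LSer (rootsOfUnity_mem hζ hζL ω) hf)

variable {N n : ℕ} [NeZero N] [NeZero n] {A : ValuationSubring (AlgebraicClosure ℚ)}

/-- The series of the transfer of a representative. -/
theorem exists_transfer_series (hg : GoodIndex N η) {χ : ParHom N (ZMod n)} {F : ℍ → ℂ}
    {f : LaurentSeries ℚb} (hF : IsKummerRep N n χ F) (hf : HasQSeries 1 F (seriesToC f)) :
    ∃ w : LaurentSeries ℚb, IsKummerRep N n (heckeHom hg χ) (heckeProd hg F) ∧
      HasQSeries 1 (heckeProd hg F) (seriesToC w) ∧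
      expand η (NeZero.ne η) w = heckeSeriesA η f := by
  have hTh := heckeProd_rep hg hF (isHeckeTransfer_heckeHom hg χ)
  obtain ⟨wC, hwC, -⟩ := hTh.exists_series_one
  have hexp : expand η (NeZero.ne η) wC = seriesToC (heckeSeriesA η f) := by
    have := hwC.refine_width one_pos η (NeZero.ne η)
    rw [one_mul] at this
    rw [seriesToC_heckeSeriesA]
    exact this.unique (NeZero.pos η) (hasQSeries_heckeProd hg hf)
  obtain ⟨w, rfl⟩ : ∃ w, seriesToC w = wC := exists_seriesToC_eq fun j => by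
    rw [← expand_coeff_mul η (NeZero.ne η) wC j, hexp]
    exact (Algebra.IsAlgebraic.isAlgebraic _).algHom qbarToC.toRatAlgHom
  exact ⟨w, hTh, hwC,
    seriesToC_injective (by rw [← hexp, seriesToC_eq_lmap, lmap_expand]; rfl)⟩

namespace Base

variable {B : Base η A L}

theorem exists_zeta (B : Base η A L) {ζ : ℚb} (hζ : IsPrimitiveRoot ζ η) (hζL : ζ ∈ L) :
    ∃ z : B.O, IsPrimitiveRoot z η ∧ B.φ z = qbarToC ζ ∧ z - 1 ∈ maximalIdeal B.O := by
  have hζA : ζ ∈ A := Galois.integralClosure_le A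
    ⟨ζ, hζ.isIntegral (Nat.pos_of_ne_zero (NeZero.ne η))⟩
  obtain ⟨z, hz, -⟩ := B.lift ζ hζL hζA
  have hzp : IsPrimitiveRoot z η :=
    IsPrimitiveRoot.of_map_of_injective (f := B.φ) (show IsPrimitiveRoot (B.φ z) η by
      rw [hz]
      exact hζ.map_of_injective qbarToC.injective) B.injective
  refine ⟨z, hzp, hz, (residue_eq_zero_iff _).mp ?_⟩
  haveI : CharP (ResidueField B.O) η :=
    (CharP.charP_iff_prime_eq_zero (Fact.out : η.Prime)).mpr
      (by rw [← map_natCast (residue B.O), residue_eq_zero_iff]; exact B.natCast_mem)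
  refine eq_zero_of_pow_eq_zero (n := η) ?_
  rw [map_sub, sub_pow_char, ← map_pow, ← map_pow, hzp.pow_eq_one, one_pow, sub_self]

/-- The unit part of a transfer. -/
theorem SPart.transfer {ζ : ℚb} (hζ : IsPrimitiveRoot ζ η) {z : B.O} (hzp : IsPrimitiveRoot z η)
    (hz : B.φ z = qbarToC ζ) {g w : LaurentSeries ℚb} {u x : B.O⟦X⟧} (hu : B.SPart g u)
    (hw : expand η (NeZero.ne η) w = heckeSeriesA η g) (hx : B.SPart w x) :
    x = normPow η z u * subPow η u := by
  haveI := B.isHausdorff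
  refine subPow_injective η ?_
  have hζC : IsPrimitiveRoot (qbarToC ζ) η := hζ.map_of_injective qbarToC.injective
  have hζ0 : qbarToC ζ ≠ 0 := hζC.ne_zero (NeZero.ne η)
  set zC : ℂˣ := Units.mk0 _ hζ0
  have hzC : IsPrimitiveRoot zC η := IsPrimitiveRoot.coe_units_iff.mp hζC
  let e : Fin η → rootsOfUnity η ℂ := fun b => ⟨zC ^ (b : ℕ), by
    rw [mem_rootsOfUnity, ← pow_mul, mul_comm, pow_mul, hzC.pow_eq_one, one_pow]⟩
  have he : Function.Bijective e := by
    rw [Fintype.bijective_iff_injective_and_card]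
    refine ⟨fun a b h => Fin.ext (hzC.pow_inj a.2 b.2 (congrArg Subtype.val h)), ?_⟩
    rw [Fintype.card_fin]
    rw [← Nat.card_eq_fintype_card]
    exact (Complex.card_rootsOfUnity η).symm
  have hprod : ∏ ω : rootsOfUnity η ℂ, twist (ω : ℂˣ) (seriesToC g) =
      ∏ b ∈ Finset.range η, twist (zC ^ b) (seriesToC g) := by
    rw [← Fin.prod_univ_eq_prod_range fun b => twist (zC ^ b) (seriesToC g)]
    exact (Fintype.prod_bijective e he _ _ fun b => rfl).symm
  have h1 : HasUnitPart B.φ (∏ ω : rootsOfUnity η ℂ, twist (ω : ℂˣ) (seriesToC g))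
      (twistProd η z u) := by
    rw [hprod, twistProd_apply]
    refine HasUnitPart.prod _ fun b _ => ?_
    have hzu : IsUnit (z ^ b) := (hzp.isUnit (NeZero.ne η)).pow b
    have := HasUnitPart.twist_of B.injective hu (ζ := zC ^ b) hzu.unit (by
      rw [IsUnit.unit_spec, map_pow, hz, Units.val_pow_eq_pow_val]; rfl)
    rwa [IsUnit.unit_spec] at this
  have h2 : HasUnitPart B.φ (expand η (NeZero.ne η) (seriesToC w))
      (subPow η (subPow η u) * twistProd η z u) := by
    have h3 := (HasUnitPart.expand_of (HasUnitPart.expand_of hu (η := η)) (η := η)).mul h1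
    rw [show expand η (NeZero.ne η) (seriesToC w) = heckeSeries η (seriesToC g) by
      rw [← seriesToC_heckeSeriesA, ← hw, seriesToC_eq_lmap, seriesToC_eq_lmap, lmap_expand]]
    exact h3
  rw [(HasUnitPart.expand_of hx (η := η)).unique B.injective h2, map_mul, subPow_normPow hzp,
    mul_comm]

/-- The unit part of the transfer of a class. -/
theorem Part.transfer (hA : A.LiesOverPrime η) {ζ : ℚb} (hζ : IsPrimitiveRoot ζ η) (hζL : ζ ∈ L)
    {z : B.O} (hzp : IsPrimitiveRoot z η) (hz : B.φ z = qbarToC ζ) (hg : GoodIndex N η)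
    {χ : ParHom N (ZMod n)} {u : B.O⟦X⟧} (h : B.Part χ u) :
    B.Part (heckeHom hg χ) (normPow η z u * subPow η u) := by
  obtain ⟨F, f, u₀, y, hF, hf, hL, hu₀, hy, rfl⟩ := h
  obtain ⟨w, hw, hwf, hwe⟩ := exists_transfer_series hg hF hf
  have hwL : w ∈ LSer L :=
    of_expand_mem_LSer (NeZero.ne η) (hwe ▸ heckeSeriesA_mem_LSer hζ hζL hL)
  obtain ⟨x, hx, hxp⟩ := B.exists_part_of_rep Fact.out hA hw hwf hwL
  have hxe := SPart.transfer hζ hzp hz hu₀ (w := w ^ n)
    (by rw [map_pow, hwe, heckeSeriesA_pow]) hx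
  have := hxp.scale (y := normPow η z y * subPow η y)
    (by simp [constantCoeff_normPow, constantCoeff_subPow, hy])
  convert this using 1
  rw [hxe, normPow_mul hzp, map_mul, map_pow, normPow_pow hzp, _root_.mul_pow]
  ring

theorem map_residue_normPow {z : B.O} (hzp : IsPrimitiveRoot z η)
    (hz1 : z - 1 ∈ maximalIdeal B.O) {u : B.O⟦X⟧} (hu : u.map (residue B.O) = 1) :
    (normPow η z u * subPow η u).map (residue B.O) = 1 := by
  have hsub : (subPow η u).map (residue B.O) = 1 := by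
    rw [← map_one (subPow (O := ResidueField B.O) η), ← hu]
    exact PowerSeries.ext fun k => by
      rw [coeff_map]
      by_cases hk : η ∣ k
      · obtain ⟨i, rfl⟩ := hk
        rw [coeff_subPow_mul, coeff_subPow_mul, coeff_map]
      · rw [coeff_subPow_of_not_dvd η _ hk, coeff_subPow_of_not_dvd η _ hk, map_zero]
  obtain ⟨π, hπ⟩ := IsDiscreteValuationRing.exists_irreducible B.O
  have hm : ∀ x, x ∈ maximalIdeal B.O ↔ π ∣ x := fun x => by
    rw [hπ.maximalIdeal_eq, Ideal.mem_span_singleton]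
  rw [map_mul, hsub, mul_one]
  refine PowerSeries.ext fun k => ?_
  have h1 := (hm _).mpr (dvd_coeff_normPow_sub hzp ((hm _).mp hz1) u k)
  rw [← residue_eq_zero_iff, map_sub, sub_eq_zero] at h1
  rw [coeff_map, h1, ← coeff_map, map_pow, hu, one_pow, coeff_one, coeff_one]
  simp [(Fact.out : η.Prime).ne_zero]

theorem ResOne.transfer (hA : A.LiesOverPrime η) {ζ : ℚb} (hζ : IsPrimitiveRoot ζ η)
    (hζL : ζ ∈ L) (hg : GoodIndex N η) {χ : ParHom N (ZMod n)} (h : B.ResOne χ) :
    B.ResOne (heckeHom hg χ) := by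
  obtain ⟨u, hu, hu1⟩ := h
  obtain ⟨z, hzp, hz, hz1⟩ := B.exists_zeta hζ hζL
  exact ⟨_, hu.transfer hA hζ hζL hzp hz hg, map_residue_normPow hzp hz1 hu1⟩

theorem resOne_sub_of_eq {χ χ' : ParHom N (ZMod n)} {u u' : B.O⟦X⟧} (hu : B.Part χ u)
    (hu' : B.Part χ' u') (h : u.map (residue B.O) = u'.map (residue B.O)) : B.ResOne (χ - χ') := by
  obtain ⟨w, hw0, hw⟩ := exists_inverse hu'.constantCoeff_eq
  exact ⟨u * w, hu.sub hu' hw0 hw, by rw [map_mul, h, ← map_mul, hw, map_one]⟩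

/-- Inertia moves classes into the classes reducing to one. -/
theorem resOne_inertia [Normal ℚ L] (B : Base η A L) (hA : A.LiesOverPrime η) (hL : HasField N n L)
    {σ : GQ} (hσ : σ ∈ A.inertiaSubgroupIn ℚ) (χ : ParHom N (ZMod n)) :
    B.ResOne ((kummerGalois N n).galois σ χ - χ) := by
  obtain ⟨⟨σ, hσ'⟩, hker, rfl⟩ := hσ
  obtain ⟨F, f, hF, hf, hfL⟩ := hL χ
  obtain ⟨F', hF', hf'⟩ := (kummerGalois N n).galois_spec σ χ F f hF hf
  have hfL' := seriesConj_mem_LSer σ hfL
  obtain ⟨u, hu, hup⟩ := B.exists_part_of_rep Fact.out hA hF hf hfL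
  obtain ⟨u', hu', hup'⟩ := B.exists_part_of_rep Fact.out hA hF' hf' hfL'
  obtain ⟨c, hcL, hc, hn⟩ :=
    (canNormalise_rep Fact.out hA hF hf).exists_in_LSer (pow_mem hfL n)
  obtain ⟨Φ, hΦ⟩ := exists_hasRed (mem_intSeriesA.mpr hn.1)
  have hred : HasRed A (seriesConj σ (HahnSeries.C c * f ^ n)) Φ := by
    have h := hΦ.conj hσ' (ρ := RingHom.id _) fun x =>
      RingEquiv.congr_fun (MonoidHom.mem_ker.mp hker) x
    rwa [show lmap (RingHom.id (IsLocalRing.ResidueField A)) Φ = Φ by ext; rfl] at h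
  have hg := mul_mem (C_mem_LSer hcL) (pow_mem hfL n)
  have hσu : B.SPart (seriesConj σ (HahnSeries.C c * f ^ n)) u' := by
    rw [seriesConj_eq_lmap, map_mul, map_pow, lmap_C, ← seriesConj_eq_lmap]
    exact hu'.const_mul ((map_ne_zero _).mpr hc)
  exact resOne_sub_of_eq hup' hup (B.map_residue_sPart_eq hg (seriesConj_mem_LSer σ hg) hn
    hred.integral (hΦ.congr hred) (hu.const_mul hc) hσu).symm

set_option maxHeartbeats 400000 in
/-- The congruence relation moves classes into the classes reducing to one. -/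
theorem resOne_frobenius [Normal ℚ L] (B : Base η A L) (hA : A.LiesOverPrime η)
    (hL : HasField N n L) {ζ : ℚb} (hζ : IsPrimitiveRoot ζ η) (hζL : ζ ∈ L) (hg : GoodIndex N η)
    {σ : GQ} (hσ : A.IsFrobeniusAt σ η) (χ : ParHom N (ZMod n)) :
    B.ResOne ((kummerGalois N n).galois σ ((kummerGalois N n).galois σ χ) + η • χ -
      heckeHom hg ((kummerGalois N n).galois σ χ)) := by
  have hη : η.Prime := Fact.out
  haveI := charP_residue hη hA
  obtain ⟨hdec, hfrob⟩ := hσ
  obtain ⟨F, f, hF, hf, hfL⟩ := hL χ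
  obtain ⟨F1, hF1, hf1⟩ := (kummerGalois N n).galois_spec σ χ F f hF hf
  obtain ⟨F2, hF2, hf2⟩ := (kummerGalois N n).galois_spec σ _ F1 _ hF1 hf1
  have hfL1 := seriesConj_mem_LSer σ hfL
  have hfL2 := seriesConj_mem_LSer σ hfL1
  obtain ⟨w, hw, hwf, hwe⟩ := exists_transfer_series hg hF1 hf1
  have hwL : w ∈ LSer L :=
    of_expand_mem_LSer (NeZero.ne η) (hwe ▸ heckeSeriesA_mem_LSer hζ hζL hfL1)
  obtain ⟨x, hx, hxp⟩ := B.exists_part_of_rep hη hA hw hwf hwL
  obtain ⟨u, hu, hup⟩ := B.exists_part_of_rep hη hA (hF2.mul (hF.pow η))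
    (hasQSeries_mul_seriesToC hf2 (hasQSeries_pow_seriesToC hf η)) (mul_mem hfL2 (pow_mem hfL η))
  obtain ⟨c, hcL, hc, hn⟩ := (canNormalise_rep hη hA hF hf).exists_in_LSer (pow_mem hfL n)
  obtain ⟨Φ, hΦ⟩ := exists_hasRed (mem_intSeriesA.mpr hn.1)
  set g := HahnSeries.C c * f ^ n with hgdef
  set Fr := frobenius (IsLocalRing.ResidueField A) η with hFr
  have hconj : ∀ {a : LaurentSeries ℚb} {Ψ : LaurentSeries (IsLocalRing.ResidueField A)},
      HasRed A a Ψ → HasRed A (seriesConj σ a) (lmap Fr Ψ) := fun h =>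
    h.conj hdec (ρ := Fr) fun x => by rw [hfrob, hFr, frobenius_def]
  set U := lmap Fr (lmap Fr Φ) * Φ ^ η with hU
  have hred1 : HasRed A (seriesConj σ (seriesConj σ g) * g ^ η) U :=
    (hconj (hconj hΦ)).mul (hΦ.pow η)
  set a := σ c * σ c ^ η
  have ha : a ≠ 0 := mul_ne_zero ((map_ne_zero _).mpr hc) (pow_ne_zero _ ((map_ne_zero _).mpr hc))
  have hexp : expand η (NeZero.ne η) (HahnSeries.C a * w ^ n) = heckeSeriesA η (seriesConj σ g) := by
    rw [map_mul, expand_C_series, map_pow, hwe, ← heckeSeriesA_pow, hgdef]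
    simp only [seriesConj_eq_lmap, map_mul, lmap_C, map_pow, heckeSeriesA_mul, heckeSeriesA_C, a]
    rfl
  have hred2 : HasRed A (HahnSeries.C a * w ^ n) U := by
    refine HasRed.of_expand η (NeZero.ne η) ?_
    rw [hexp]
    have h := (hconj hΦ).heckeSeriesA η
    rw [pow_char_eq_expand (lmap Fr Φ)] at h
    rwa [hU, mul_comm (lmap Fr (lmap Fr Φ)), map_mul, pow_char_eq_expand Φ]
  have hU0 : U ≠ 0 := by
    have hΦ0 : Φ ≠ 0 := fun h0 => by
      obtain ⟨k, hk⟩ := hn.2
      obtain ⟨hk1, hk2⟩ := hΦ k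
      refine hk (ValuationSubring.coe_mem_nonunits_iff.mpr
        ((IsLocalRing.residue_eq_zero_iff (R := A) ⟨_, hk1⟩).mp ?_))
      rw [hk2, h0, HahnSeries.coeff_zero]
    have hi := lmap_injective (φ := Fr) Fr.injective
    refine mul_ne_zero (fun h => hΦ0 (hi (hi (h.trans ?_)))) (pow_ne_zero _ hΦ0)
    rw [map_zero, map_zero]
  have hgL : g ∈ LSer L := mul_mem (C_mem_LSer hcL) (pow_mem hfL n)
  have hb : σ (σ c) * c ^ η ≠ 0 :=
    mul_ne_zero ((map_ne_zero _).mpr ((map_ne_zero _).mpr hc)) (pow_ne_zero _ hc)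
  have hsu : B.SPart (seriesConj σ (seriesConj σ g) * g ^ η) u := by
    convert hu.const_mul hb using 1
    simp only [hgdef, seriesConj_eq_lmap, map_mul, map_pow, lmap_C, _root_.mul_pow, ← pow_mul,
      mul_comm η n]
    show HahnSeries.C (σ (σ c)) * _ * _ = _
    ring
  refine resOne_sub_of_eq hup hxp (B.map_residue_sPart_eq
    (mul_mem (seriesConj_mem_LSer σ (seriesConj_mem_LSer σ hgL)) (pow_mem hgL η)) ?_
    ⟨hred1.integral, hred1.exists_unit hU0⟩ hred2.integral (hred1.congr hred2) hsu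
    (hx.const_mul ha))
  refine mul_mem (C_mem_LSer ?_) (pow_mem hwL n)
  have hσc : σ c ∈ L := by
    have := mem_LSer.mp (seriesConj_mem_LSer σ (C_mem_LSer hcL)) 0
    simpa [seriesConj, HahnSeries.C_apply] using this
  exact mul_mem hσc (pow_mem hσc η)

end Base

/-- On a module on which the transfer is injective, the classes reducing to one are connected. -/
theorem Base.connected_of_injective {K : ℕ} [NeZero (η ^ K)] (B : Base η A L)
    (hA : A.LiesOverPrime η) {ζ : ℚb} (hζ : IsPrimitiveRoot ζ η) (hζL : ζ ∈ L)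
    (hg : GoodIndex N η) (M : Submodule ℤ (ParHom N (ZMod (η ^ K))))
    (hM : ∀ χ ∈ M, heckeHom hg χ ∈ M) (hinj : ∀ χ ∈ M, heckeHom hg χ = 0 → χ = 0)
    {χ : ParHom N (ZMod (η ^ K))} (hχ : χ ∈ M) (h1 : B.ResOne χ) : B.Connected χ := by
  haveI := B.charZero
  let S : Type := {χ : ParHom N (ZMod (η ^ K)) // χ ∈ M ∧ B.ResOne χ}
  let T : S → S := fun s => ⟨heckeHom hg s.1, hM _ s.2.1, Base.ResOne.transfer hA hζ hζL hg s.2.2⟩
  have hT : Function.Surjective T := Finite.injective_iff_surjective.mp fun s t h => by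
    refine Subtype.ext (sub_eq_zero.mp (hinj _ (M.sub_mem s.2.1 t.2.1) ?_))
    rw [map_sub, sub_eq_zero]
    exact congrArg Subtype.val h
  choose v hv hv1 using fun s : S => s.2.2
  obtain ⟨z, hzp, hz, -⟩ := B.exists_zeta hζ hζL
  obtain ⟨π, hπ⟩ := IsDiscreteValuationRing.exists_irreducible B.O
  have hπd : ∀ x ∈ maximalIdeal B.O, π ∣ x := fun x hx => by
    rwa [hπ.maximalIdeal_eq, Ideal.mem_span_singleton] at hx
  obtain ⟨e, he⟩ := IsDiscreteValuationRing.associated_pow_irreducible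
    (show (η : B.O) ≠ 0 from Nat.cast_ne_zero.mpr (NeZero.ne η)) hπ
  have h : (η : B.O) ^ (2 * K + 1) ∣ π ^ (e * (2 * K + 1)) := by
    rw [pow_mul]
    exact (he.pow_pow).dvd
  have h1' : ∀ (s : S) (k : ℕ), π ∣ coeff k (v s - 1) := fun s k =>
    hπd _ ((residue_eq_zero_iff _).mp (by rw [← coeff_map, map_sub, hv1 s, map_one, sub_self,
      map_zero]))
  obtain ⟨y, hy, hyv⟩ := exists_root_of_surjective hzp (hπd _ B.natCast_mem) h T hT v
    (fun s => (hv s).constantCoeff_eq) h1'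
    (fun s => Base.Part.unique Fact.out hA ((hv s).transfer hA hζ hζL hzp hz hg) (hv (T s)))
    ⟨χ, hχ, h1⟩
  exact Base.connected_of_part (hv ⟨χ, hχ, h1⟩) hy hyv

end Fermat.Agent.Mazur3
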