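import Fermat.Agent.Mazur3.Bounded
import Fermat.Agent.Mazur3.Parts
import Fermat.Agent.GalRep.Model.Reduction
import Fermat.Agent.GalRep.Model.WildSeries

/-!
# Zeros in the disc at infinity of Kummer series

The zeros in the disc of the series of the `n`-th power of a representative are expansions at
points of the upper half plane, so their multiplicities are divisible by `n`. Hence a class with
trivial unit part has a series which is a constant times an integral series: it is bounded.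
-/

set_option autoImplicit false
set_option linter.unusedSectionVars false

noncomputable section

namespace Fermat.Agent.Mazur3

open GalRep PowerSeries IsLocalRing
open Fermat.Agent.Galois (GQ)
open UpperHalfPlane CongruenceSubgroup
open scoped MatrixGroups Manifold

local notation "ℚb" => AlgebraicClosure ℚ

/-! ## Substitution of powers of the variable -/

theorem rootMultiplicity_expand_of_ne_zero (P : Polynomial ℂ) {M : ℕ} (hM : M ≠ 0) {w : ℂ}
    (hw : w ≠ 0) :
    (Polynomial.expand ℂ M P).rootMultiplicity w = P.rootMultiplicity (w ^ M) := by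
  rcases eq_or_ne P 0 with rfl | hP
  · simp
  obtain ⟨q, hq, hq0⟩ :=
    Polynomial.exists_eq_pow_rootMultiplicity_mul_and_not_dvd P hP (w ^ M)
  set m := P.rootMultiplicity (w ^ M)
  obtain ⟨g, hg⟩ : (Polynomial.X - Polynomial.C w) ∣
      Polynomial.X ^ M - Polynomial.C (w ^ M) := Polynomial.dvd_iff_isRoot.mpr (by simp)
  have hg0 : g.eval w ≠ 0 := by
    have h1 := congrArg (fun R => (Polynomial.derivative R).eval w) hg
    simp only [Polynomial.derivative_sub, Polynomial.derivative_X_pow, Polynomial.derivative_C,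
      sub_zero, Polynomial.derivative_mul, Polynomial.derivative_X, Polynomial.eval_mul,
      Polynomial.eval_C, Polynomial.eval_pow, Polynomial.eval_X, Polynomial.eval_add,
      Polynomial.eval_sub, sub_self, zero_mul, add_zero, one_mul] at h1
    exact h1 ▸ mul_ne_zero (Nat.cast_ne_zero.mpr hM) (pow_ne_zero _ hw)
  have hq1 : (Polynomial.expand ℂ M q).eval w ≠ 0 := by
    rw [Polynomial.expand_eval]
    exact fun h => hq0 (Polynomial.dvd_iff_isRoot.mpr h)
  have hr : (g ^ m * Polynomial.expand ℂ M q).eval w ≠ 0 := by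
    rw [Polynomial.eval_mul, Polynomial.eval_pow]
    exact mul_ne_zero (pow_ne_zero _ hg0) hq1
  have heq : Polynomial.expand ℂ M P =
      (Polynomial.X - Polynomial.C w) ^ m * (g ^ m * Polynomial.expand ℂ M q) := by
    conv_lhs => rw [hq]
    rw [map_mul, map_pow, map_sub, Polynomial.expand_X, Polynomial.expand_C, hg, mul_pow,
      mul_assoc]
  rw [heq, Polynomial.rootMultiplicity_mul (heq ▸ (by
      simpa [Polynomial.expand_eq_zero (Nat.pos_of_ne_zero hM)] using hP)),
    Polynomial.rootMultiplicity_X_sub_C_pow,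
    Polynomial.rootMultiplicity_eq_zero hr, add_zero]

variable {O K : Type*} [CommRing O] [Field K] (φ : O →+* K)

theorem expand_toLaurent_nat {M : ℕ} (hM : M ≠ 0) (g : O⟦X⟧) :
    GalRep.expand M hM (toLaurent φ g) = toLaurent φ (PowerSeries.expand M hM g) := by
  ext j
  by_cases hj : (M : ℤ) ∣ j
  · obtain ⟨i, rfl⟩ := hj
    rw [GalRep.expand_coeff_mul]
    rcases lt_or_ge i 0 with hi | hi
    · rw [coeff_toLaurent_neg φ _ hi, coeff_toLaurent_neg φ _
        (mul_neg_of_pos_of_neg (by exact_mod_cast Nat.pos_of_ne_zero hM) hi)]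
    · obtain ⟨i, rfl⟩ := Int.eq_ofNat_of_zero_le hi
      rw [coeff_toLaurent_nat, ← Nat.cast_mul, coeff_toLaurent_nat, PowerSeries.coeff_expand_mul]
  · rw [GalRep.expand_coeff_of_not_dvd _ _ _ _ hj]
    rcases lt_or_ge j 0 with hi | hi
    · rw [coeff_toLaurent_neg φ _ hi]
    · obtain ⟨i, rfl⟩ := Int.eq_ofNat_of_zero_le hi
      rw [coeff_toLaurent_nat,
        PowerSeries.coeff_expand_of_not_dvd _ _ _ (fun h => hj (by exact_mod_cast h)), map_zero]

theorem expand_polynomial_coe {M : ℕ} (hM : M ≠ 0) (P : Polynomial O) :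
    PowerSeries.expand M hM (P : O⟦X⟧) = (Polynomial.expand O M P : Polynomial O) := by
  refine PowerSeries.ext fun i => ?_
  rw [Polynomial.coeff_coe, Polynomial.coeff_expand (Nat.pos_of_ne_zero hM)]
  split_ifs with h
  · obtain ⟨j, rfl⟩ := h
    rw [PowerSeries.coeff_expand_mul, Polynomial.coeff_coe,
      Nat.mul_div_cancel_left _ (Nat.pos_of_ne_zero hM)]
  · rw [PowerSeries.coeff_expand_of_not_dvd _ _ _ h]

theorem expand_single_nat {M : ℕ} (hM : M ≠ 0) (a : ℤ) (c : K) :
    GalRep.expand M hM (HahnSeries.single a c) = HahnSeries.single ((M : ℤ) * a) c := by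
  ext j
  by_cases hj : (M : ℤ) ∣ j
  · obtain ⟨i, rfl⟩ := hj
    rw [GalRep.expand_coeff_mul]
    rcases eq_or_ne i a with rfl | h
    · rw [HahnSeries.coeff_single_same, HahnSeries.coeff_single_same]
    · rw [HahnSeries.coeff_single_of_ne h, HahnSeries.coeff_single_of_ne fun h' =>
        h (mul_left_cancel₀ (Int.natCast_ne_zero.mpr hM) h')]
  · rw [GalRep.expand_coeff_of_not_dvd _ _ _ _ hj, HahnSeries.coeff_single_of_ne]
    rintro rfl
    exact hj (dvd_mul_right _ _)

theorem isDistinguishedAt_expand_nat [IsLocalRing O] {M : ℕ} (hM : M ≠ 0) {P : Polynomial O}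
    (hP : P.IsDistinguishedAt (maximalIdeal O)) :
    (Polynomial.expand O M P).IsDistinguishedAt (maximalIdeal O) := by
  refine ⟨⟨fun {i} hi => ?_⟩, hP.monic.expand (Nat.pos_of_ne_zero hM)⟩
  rw [Polynomial.natDegree_expand] at hi
  rw [Polynomial.coeff_expand (Nat.pos_of_ne_zero hM)]
  split_ifs with h
  · obtain ⟨j, rfl⟩ := h
    rw [Nat.mul_div_cancel_left _ (Nat.pos_of_ne_zero hM)]
    exact hP.mem (by
      rw [mul_comm P.natDegree] at hi
      exact Nat.lt_of_mul_lt_mul_left hi)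
  · exact zero_mem _

/-! ## Zeros on the sheet at infinity -/

theorem dvd_rootMultiplicity_infinity {O : Type*} [CommRing O] [IsDomain O]
    [IsDiscreteValuationRing O] [IsAdicComplete (maximalIdeal O) O] {M : ℕ} [NeZero M]
    (L : Model.Lev M) (C : Model.Cyc O M) (x : Model.holRing C) (Kx : ℕ) {P : Polynomial O}
    (hP : P.IsDistinguishedAt (maximalIdeal O)) {h : O⟦X⟧} (hh : IsUnit h)
    (hx : Model.serAt C 1 (x : Model.lvlField C) *
      algebraMap O⟦X⟧ (Model.SeriesField O) (PowerSeries.X ^ Kx) =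
        algebraMap O⟦X⟧ (Model.SeriesField O) ((P : O⟦X⟧) * h))
    {n : ℕ} (hord : ∀ τ : ℍ,
      n ∣ (analyticOrderAt ((Model.toMF C x : ℍ → ℂ) ∘ ofComplex) (τ : ℂ)).toNat)
    {w : ℂ} (hw : w ≠ 0) : n ∣ (P.map C.φ).rootMultiplicity w := by
  by_cases hroot : (P.map C.φ).IsRoot w
  swap
  · rw [Polynomial.rootMultiplicity_eq_zero hroot]; exact dvd_zero n
  let Z : Model.DiscZero O C.φ := ⟨P, hP, w, hroot⟩
  have hic : L.IsCusp 2 (1 : SL(2, ℤ)) := by
    simpa [Model.cuspMat] using L.isCusp_cuspMat 2 L.valid2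
  have hJ : (2 : Fin 4) ∈ L.J := L.mem_J.mpr ⟨L.valid2, by decide⟩
  obtain ⟨U, hU⟩ := L.serAt_w_finite C hJ hic
  have hX : ∀ N k, ∀ {U : O⟦X⟧}, IsUnit U → IsUnit (Z.ev N (PowerSeries.X ^ k * U)) :=
    fun N k U hU => Z.isUnit_ev_X_pow_mul hw N k hU
  refine L.dvd_rootMultiplicity C (Model.serAt C 1) (Model.serAt_algebraMap C 1) Z PowerSeries.X
    (fun N => by simpa using hX N 1 isUnit_one) (fun y hy => ?_) (fun k hk => ?_)
    ⟨_, Or.inl hU, fun N => Z.isUnit_ev_deriv hw N _ (L.isUnit_e C) U.isUnit⟩ x Kx h hh hx hord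
  · obtain ⟨g', hg'⟩ := hy.2.1 2 hJ 1 hic
    exact ⟨0, g', by rw [pow_zero, map_one, mul_one, hg']⟩
  · refine ⟨0, PowerSeries.C (L.cval C 2 - L.cval C k) + PowerSeries.X ^ L.e * (U : O⟦X⟧),
      ?_, fun N => ?_⟩
    · rw [pow_zero, map_one, mul_one, map_sub, Model.serAt_algebraMap, hU, ← map_sub,
        map_sub PowerSeries.C]
      congr 1
      ring
    · by_cases hki : (2 : Fin 4) = k
      · subst hki
        rw [sub_self, map_zero, zero_add]
        exact hX N L.e U.isUnit
      · exact (PowerSeries.isUnit_iff_constantCoeff.mpr (by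
          simpa [zero_pow L.e_pos.ne'] using L.isUnit_cval_sub C hJ hk hki)).map _

/-! ## Classes -/

variable {N n : ℕ} [NeZero N] [NeZero n] {ℓ : ℕ}
  {A : ValuationSubring (AlgebraicClosure ℚ)} {L : IntermediateField ℚ (AlgebraicClosure ℚ)}

namespace Base

variable (B : Base ℓ A L)

theorem mem_of_φ_eq {x : ℚb} (hx : x ∈ L) {o : B.O} (h : B.φ o = qbarToC x) : x ∈ A := by
  by_contra hxA
  have hxi := (A.mem_or_inv_mem x).resolve_left hxA
  obtain ⟨o', ho', hiff⟩ := B.lift x⁻¹ (inv_mem hx) hxi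
  have hnu : x⁻¹ ∈ A.nonunits := by
    rw [A.mem_nonunits_iff, map_inv₀]
    exact inv_lt_one_of_one_lt₀ (not_le.mp fun h' => hxA ((A.valuation_le_one_iff x).mp h'))
  have hx0 : x ≠ 0 := fun h0 => hxA (h0 ▸ zero_mem A)
  have h1 : o * o' = 1 := B.injective (by
    rw [map_mul, h, ho', ← map_mul, mul_inv_cancel₀ hx0, map_one, map_one])
  exact (maximalIdeal.isMaximal B.O).ne_top
    ((Ideal.eq_top_iff_one _).mpr (h1 ▸ Ideal.mul_mem_left _ o (hiff.mp hnu)))

/-- Some representative has all multiplicities in the punctured disc divisible by `n`. -/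
def MultDvd (χ : ParHom N (ZMod n)) : Prop :=
  ∃ (F : ℍ → ℂ) (f : LaurentSeries ℚb) (a : ℤ) (c : ℂ) (u : B.O⟦X⟧) (P : Polynomial B.O),
    IsKummerRep N n χ F ∧ HasQSeries 1 F (seriesToC f) ∧ f ∈ LSer L ∧ c ≠ 0 ∧
    constantCoeff u = 1 ∧ P.IsDistinguishedAt (maximalIdeal B.O) ∧
    seriesToC (f ^ n) = HahnSeries.single a c * toLaurent B.φ ((P : B.O⟦X⟧) * u) ∧
    ∀ z : ℂ, z ≠ 0 → n ∣ (P.map B.φ).rootMultiplicity z

variable {B} {χ : ParHom N (ZMod n)}

/-- With an `n`-th root of the unit part, a representative is a constant times an integral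
series. -/
theorem MultDvd.exists_root_series (h : B.MultDvd χ)
    (hy : ∀ u, B.Part χ u → ∃ y, constantCoeff y = 1 ∧ y ^ n = u) :
    ∃ (F : ℍ → ℂ) (f : LaurentSeries ℚb) (t : ℚb) (b : ℤ) (g : B.O⟦X⟧),
      IsKummerRep N n χ F ∧ HasQSeries 1 F (seriesToC f) ∧ f ∈ LSer L ∧ t ∈ L ∧ t ≠ 0 ∧
      g.map (residue B.O) ≠ 0 ∧
      seriesToC f = HahnSeries.single b (qbarToC t) * toLaurent B.φ g := by
  classical
  have := B.charZero
  obtain ⟨F, f, a, c, u, P, hF, hf, hfL, hc, hu, hP, heq, hmult⟩ := h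
  obtain ⟨y, hy0, hyn⟩ := hy u ⟨F, f, u, 1, hF, hf, hfL, ⟨hu, c, a, P, hc, hP, heq⟩, map_one _,
    by rw [one_pow, mul_one]⟩
  obtain ⟨P0, hP0, hP00⟩ :=
    Polynomial.exists_eq_pow_rootMultiplicity_mul_and_not_dvd P hP.monic.ne_zero 0
  set m := P.rootMultiplicity 0
  rw [map_zero, sub_zero] at hP0 hP00
  have hP0m : P0.Monic := (Polynomial.monic_X_pow m).of_mul_monic_left (hP0 ▸ hP.monic)
  have hP0z : B.φ (P0.coeff 0) ≠ 0 := (map_ne_zero_iff _ B.injective).mpr fun h0 =>
    hP00 (Polynomial.X_dvd_iff.mpr h0)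
  have hdiv : ∀ z : ℂ, n ∣ (P0.map B.φ).rootMultiplicity z := fun z => by
    rcases eq_or_ne z 0 with rfl | hz
    · rw [Polynomial.rootMultiplicity_eq_zero (by
        rwa [Polynomial.IsRoot, ← Polynomial.coeff_zero_eq_eval_zero, Polynomial.coeff_map])]
      exact dvd_zero n
    · have := hmult z hz
      rwa [hP0, Polynomial.map_mul, Polynomial.map_pow, Polynomial.map_X,
        Polynomial.rootMultiplicity_mul (mul_ne_zero (pow_ne_zero _ Polynomial.X_ne_zero)
          (hP0m.map B.φ).ne_zero), Polynomial.rootMultiplicity_eq_zero (by simp [hz]),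
        zero_add] at this
  obtain ⟨Q, hQ⟩ := Model.exists_monic_root_charZero (NeZero.ne n) B.φ B.injective hP0m hdiv
  have heq' : seriesToC f ^ n =
      HahnSeries.single (a + m) c * toLaurent B.φ ((P0 : B.O⟦X⟧) * u) := by
    rw [seriesToC_eq_lmap, ← map_pow, ← seriesToC_eq_lmap, heq, hP0, Polynomial.coe_mul,
      Polynomial.coe_pow, Polynomial.coe_X, mul_assoc (PowerSeries.X ^ m : B.O⟦X⟧),
      map_mul (toLaurent B.φ) (PowerSeries.X ^ m), toLaurent_X_pow, ← mul_assoc,
      HahnSeries.single_mul_single, mul_one]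
  set b := (seriesToC f).order
  have hb : (n : ℤ) * b = a + m := by
    set V := toLaurent B.φ ((P0 : B.O⟦X⟧) * u)
    have hV : V.coeff 0 ≠ 0 := by
      rw [show (0 : ℤ) = ((0 : ℕ) : ℤ) from rfl, coeff_toLaurent_nat,
        coeff_zero_eq_constantCoeff_apply, map_mul, hu, mul_one, Polynomial.constantCoeff_coe]
      exact hP0z
    have hVo : V.order = 0 := le_antisymm (HahnSeries.order_le_of_coeff_ne_zero hV)
      ((HahnSeries.le_order_iff_forall (fun h0 => hV (by rw [h0, HahnSeries.coeff_zero]))).mpr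
        fun j hj => coeff_toLaurent_neg B.φ _ hj)
    have := congrArg HahnSeries.order heq'
    rwa [HahnSeries.order_pow, HahnSeries.order_mul (by simp [hc])
      (fun h0 => hV (by rw [h0, HahnSeries.coeff_zero])), HahnSeries.order_single hc, hVo,
      add_zero, nsmul_eq_mul] at this
  obtain ⟨c', hc'⟩ := IsAlgClosed.exists_pow_nat_eq c (NeZero.pos n)
  set g₀ : B.O⟦X⟧ := (Q : B.O⟦X⟧) * y with hg₀
  have hg₀n : g₀ ^ n = (P0 : B.O⟦X⟧) * u := by rw [hg₀, mul_pow, hyn, ← hQ, Polynomial.coe_pow]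
  have hres : g₀.map (residue B.O) ≠ 0 := fun h0 => by
    have h1 := congrArg (PowerSeries.map (residue B.O)) hg₀n
    rw [map_pow, h0, zero_pow (NeZero.ne n), map_mul, eq_comm, mul_eq_zero,
      ← Polynomial.polynomial_map_coe, Polynomial.coe_eq_zero_iff] at h1
    rcases h1 with h1 | h1
    · exact (hP0m.map _).ne_zero h1
    · exact ((constantCoeff_isUnit hu).map (PowerSeries.map (residue B.O))).ne_zero h1
  have hcand : (HahnSeries.single b c' * toLaurent B.φ g₀) ^ n = seriesToC f ^ n := by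
    rw [heq', mul_pow, HahnSeries.single_pow, nsmul_eq_mul, hb, hc', ← map_pow, hg₀n]
  have hc'0 : c' ≠ 0 := fun h0 => hc (by rw [← hc', h0, zero_pow (NeZero.ne n)])
  obtain ⟨ω, -, hω⟩ := exists_root_unity_of_pow_eq (n := n) (a := seriesToC f)
    (mul_ne_zero (by simp [hc'0]) (fun h0 => hres (by
      rw [toLaurent_injective B.injective (h0.trans (map_zero _).symm), map_zero]))) hcand.symm
  rw [← mul_assoc, HahnSeries.C_apply, HahnSeries.single_mul_single, zero_add] at hω
  obtain ⟨k, hk⟩ : ∃ k, residue B.O (coeff k g₀) ≠ 0 := by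
    by_contra hall
    push Not at hall
    exact hres (PowerSeries.ext fun i => by rw [coeff_map, hall i, map_zero])
  obtain ⟨e, he⟩ := (residue_ne_zero_iff_isUnit _).mp hk
  refine ⟨F, f, f.coeff ((k : ℤ) + b), b, C ((e⁻¹ : B.Oˣ) : B.O) * g₀, hF, hf, hfL,
    mem_LSer.mp hfL _, ?_, fun h0 => ?_, ?_⟩
  · intro h0
    have := congrArg (fun s : LaurentSeries ℂ => s.coeff ((k : ℤ) + b)) hω
    rw [HahnSeries.coeff_single_mul_add, coeff_toLaurent_nat] at this
    change qbarToC (f.coeff ((k : ℤ) + b)) = _ at this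
    rw [h0, map_zero, ← he, eq_comm, mul_eq_zero] at this
    rcases this with h1 | h1
    · rw [h1, HahnSeries.single_eq_zero, zero_mul] at hω
      exact rep_series_ne_zero hF hf (seriesToC_injective (hω.trans (by
        rw [seriesToC_eq_lmap, map_zero])))
    · exact e.isUnit.ne_zero (B.injective (h1.trans (map_zero _).symm))
  · rw [map_mul, mul_eq_zero] at h0
    rcases h0 with h0 | h0
    · exact ((e⁻¹).isUnit.map (C (R := B.O))).map (PowerSeries.map (residue B.O)) |>.ne_zero h0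
    · exact hres h0
  · rw [map_mul, toLaurent_C, ← mul_assoc, HahnSeries.C_apply, HahnSeries.single_mul_single,
      add_zero]
    have h1 := congrArg (fun s : LaurentSeries ℂ => s.coeff ((k : ℤ) + b)) hω
    rw [HahnSeries.coeff_single_mul_add, coeff_toLaurent_nat] at h1
    change qbarToC (f.coeff ((k : ℤ) + b)) = _ at h1
    rw [h1, ← he, mul_assoc, ← map_mul, Units.mul_inv, map_one, mul_one, ← hω]

/-- A connected class is bounded. -/
theorem MultDvd.isBoundedChar (h : B.MultDvd χ) (hℓ : ℓ.Prime) (hA : A.LiesOverPrime ℓ)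
    (hconn : B.Connected χ) : IsBoundedChar N n A χ := by
  obtain ⟨F, f, t, b, g, hF, hf, hfL, htL, ht, -, hfg⟩ := h.exists_root_series fun u hu => by
    obtain ⟨y, hy, hyu⟩ := hu.unique hℓ hA hconn
    exact ⟨y, hy, by rw [← hyu, one_mul]⟩
  have hint : HahnSeries.C t⁻¹ * f ∈ intSeriesA A := by
    refine mem_intSeriesA.mpr fun k => ?_
    rw [coeff_C_mul_series]
    have hk : qbarToC (f.coeff k) = qbarToC t * (toLaurent B.φ g).coeff (k - b) := by
      have := congrArg (fun s : LaurentSeries ℂ => s.coeff k) hfg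
      rwa [HahnSeries.coeff_single_mul] at this
    rcases lt_or_ge (k - b) 0 with hlt | hge
    · rw [coeff_toLaurent_neg _ _ hlt, mul_zero, ← map_zero qbarToC] at hk
      rw [qbarToC_injective hk, mul_zero]
      exact zero_mem A
    · obtain ⟨i, hi⟩ := Int.eq_ofNat_of_zero_le hge
      refine B.mem_of_φ_eq (o := coeff i g) (mul_mem (inv_mem htL) (mem_LSer.mp hfL k)) ?_
      rw [map_mul, hk, hi, coeff_toLaurent_nat, map_inv₀,
        inv_mul_cancel_left₀ ((map_ne_zero _).mpr ht)]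
  refine ⟨F, f, hF, hf, ?_⟩
  have hC : (HahnSeries.C t : LaurentSeries ℚb) ∈ fracSeries A := by
    rcases A.mem_or_inv_mem t with h1 | h1
    · refine Subfield.subset_closure (mem_intSeriesA.mpr fun k => ?_)
      by_cases hk : k = 0
      · subst hk; simpa using h1
      · simp [HahnSeries.coeff_single_of_ne hk]
    · rw [show (HahnSeries.C t : LaurentSeries ℚb) = (HahnSeries.C t⁻¹)⁻¹ by
        rw [map_inv₀, inv_inv]]
      refine inv_mem (Subfield.subset_closure (mem_intSeriesA.mpr fun k => ?_))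
      by_cases hk : k = 0
      · subst hk; simpa using h1
      · simp [HahnSeries.coeff_single_of_ne hk]
  have := mul_mem hC (Subfield.subset_closure hint)
  rwa [← mul_assoc, ← map_mul, mul_inv_cancel₀ ht, map_one, one_mul] at this

/-- For `n` prime to the residue characteristic every class has a representative which is a
constant times an integral series. -/
theorem MultDvd.exists_series_of_unit (h : B.MultDvd χ) (hn : IsUnit (n : B.O)) :
    ∃ (F : ℍ → ℂ) (f : LaurentSeries ℚb) (t : ℚb) (b : ℤ) (g : B.O⟦X⟧),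
      IsKummerRep N n χ F ∧ HasQSeries 1 F (seriesToC f) ∧ f ∈ LSer L ∧ t ∈ L ∧ t ≠ 0 ∧
      g.map (residue B.O) ≠ 0 ∧
      seriesToC f = HahnSeries.single b (qbarToC t) * toLaurent B.φ g := by
  refine h.exists_root_series fun u hu => ?_
  obtain ⟨y, hy, hy1⟩ := HenselianRing.is_henselian
    (I := Ideal.span {(PowerSeries.X : B.O⟦X⟧)})
    (Polynomial.X ^ n - Polynomial.C u) (Polynomial.monic_X_pow_sub_C u (NeZero.ne n)) 1
    (Ideal.mem_span_singleton.mpr (PowerSeries.X_dvd_iff.mpr (by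
      simp [hu.constantCoeff_eq])))
    (IsUnit.map _ (by
      simpa [Polynomial.derivative_X_pow] using hn.map (PowerSeries.C (R := B.O))))
  rw [Ideal.mem_span_singleton, PowerSeries.X_dvd_iff, map_sub, map_one, sub_eq_zero] at hy1
  exact ⟨y, hy1, by simpa [sub_eq_zero] using hy⟩

end Base

/-! ## The fields -/

theorem exists_multDvd_field (hℓ : ℓ.Prime) (hA : A.LiesOverPrime ℓ) (hℓN : ¬ ℓ ∣ N) :
    ∃ L₀ : IntermediateField ℚ ℚb, FiniteDimensional ℚ L₀ ∧
      ∀ L, L₀ ≤ L → ∀ (B : Base ℓ A L) (χ : ParHom N (ZMod n)), B.MultDvd χ := by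
  classical
  obtain ⟨k, hk, hℓk, ⟨Lv⟩⟩ := Model.exists_lev (M := N) hℓ hℓN
  have : NeZero (N * k) := ⟨mul_ne_zero (NeZero.ne N) hk.ne'⟩
  set M := N * k
  have hM : M ≠ 0 := NeZero.ne M
  have hle : Gamma M ≤ Gamma0 N := fun γ hγ => by
    rw [Gamma_mem] at hγ
    rw [Gamma0_mem]
    simpa using congrArg (ZMod.castHom (dvd_mul_right N k) (ZMod N)) hγ.2.2.1
  obtain ⟨L₁, hL₁, hfield⟩ := exists_hasField N n
  choose F f hF hf hfL using fun χ => hfield L₁ le_rfl χ
  choose c hc using fun χ => Base.canNormalise_rep hℓ hA (hF χ) (hf χ)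
  have hw : ∀ χ, HasQSeries M (fun τ => qbarToC (c χ) * F χ τ ^ n)
      (seriesToC (GalRep.expand M hM (HahnSeries.C (c χ) * f χ ^ n))) := fun χ => by
    have h1 := (((hf χ).pow n).smul (qbarToC (c χ))).refine_width one_pos M hM
    rw [one_mul] at h1
    convert h1 using 2
    · rfl
    · rw [seriesToC_eq_lmap, seriesToC_eq_lmap, lmap_expand, map_mul, map_pow, lmap_C]
  let H : ParHom N (ZMod n) → modFuns (Gamma M) := fun χ =>
    ⟨fun τ => qbarToC (c χ) * F χ τ ^ n, modFuns_anti hle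
      (mem_modFuns.mp ((modFuns (Gamma0 N)).mul_mem
        ((modFuns (Gamma0 N)).algebraMap_mem (qbarToC (c χ)))
        (mem_modFuns.mpr (hF χ).isModFun_pow)))⟩
  have hHs : ∀ χ, serHom M (H χ) =
      seriesToC (GalRep.expand M hM (HahnSeries.C (c χ) * f χ ^ n)) := fun χ =>
    (hasQSeries_serHom (H χ)).unique (NeZero.pos M) (hw χ)
  choose S hS using fun χ => Lv.exists_descent (H χ) fun j => ⟨_, by rw [hHs]; rfl⟩
  have := hL₁
  have : Fintype (ParHom N (ZMod n)) := Fintype.ofFinite _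
  set s : Finset ℚb :=
    insert (Model.cycBar M).ζ ((Finset.univ : Finset (ParHom N (ZMod n))).biUnion S ∪
      (Finset.univ : Finset (ParHom N (ZMod n))).image c) with hs
  have : FiniteDimensional ℚ (IntermediateField.adjoin ℚ (s : Set ℚb)) :=
    IntermediateField.finiteDimensional_adjoin fun x _ => Algebra.IsIntegral.isIntegral x
  refine ⟨L₁ ⊔ IntermediateField.adjoin ℚ (s : Set ℚb), inferInstance, fun L hL B χ => ?_⟩
  have := B.charZero
  have hsub : ∀ x ∈ s, x ∈ L := fun x hx =>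
    hL ((le_sup_right : IntermediateField.adjoin ℚ (s : Set ℚb) ≤ _)
      (IntermediateField.subset_adjoin _ _ hx))
  have hζ : (Model.cycBar M).ζ ∈ L := hsub _ (Finset.mem_insert_self _ _)
  have hζA : (Model.cycBar M).ζ ∈ A :=
    Galois.integralClosure_le A ⟨_, (Model.cycBar M).isPrimitiveRoot.isIntegral (NeZero.pos M)⟩
  obtain ⟨ζO, hζO, -⟩ := B.lift _ hζ hζA
  let C : Model.Cyc B.O M := ⟨B.φ, B.injective, ζO, hζO.trans (Model.cycBar M).map_ζ,
    Model.isUnit_natCast_of_not_dvd hℓ B.natCast_mem hℓk⟩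
  have hkC : ∀ x ∈ L, qbarToC x ∈ C.kC := fun x hx => by
    rcases A.mem_or_inv_mem x with h1 | h1
    · obtain ⟨o, ho, -⟩ := B.lift x hx h1
      exact Subfield.subset_closure ⟨o, ho⟩
    · obtain ⟨o, ho, -⟩ := B.lift x⁻¹ (inv_mem hx) h1
      rw [← inv_inv x, map_inv₀]
      exact inv_mem (Subfield.subset_closure ⟨o, ho⟩)
  have hHC := hS χ B.O C fun x hx => hkC x (hsub x (Finset.mem_insert_of_mem
    (Finset.mem_union_left _ (Finset.mem_biUnion.mpr ⟨χ, Finset.mem_univ _, hx⟩))))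
  let x : Model.holRing C := ⟨⟨_, hHC⟩, H χ, rfl⟩
  have hfL' : f χ ∈ LSer L :=
    mem_LSer.mpr fun j => hL ((le_sup_left : L₁ ≤ _) (mem_LSer.mp (hfL χ) j))
  have hg : HahnSeries.C (c χ) * f χ ^ n ∈ LSer L :=
    mul_mem (C_mem_LSer (hsub _ (Finset.mem_insert_of_mem (Finset.mem_union_right _
      (Finset.mem_image_of_mem _ (Finset.mem_univ _)))))) (pow_mem hfL' n)
  set g := HahnSeries.C (c χ) * f χ ^ n with hgdef
  set K₀ := (-g.order).toNat
  have hg0 : ∀ j < -(K₀ : ℤ), g.coeff j = 0 := fun j hj =>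
    HahnSeries.coeff_eq_zero_of_lt_order (by omega)
  obtain ⟨G, hG, hG'⟩ := B.exists_series hg (hc χ).1 hg0
  obtain ⟨P, h, hfac⟩ := PowerSeries.exists_isWeierstrassFactorization
    (B.series_residue (hc χ) hg0 fun i => (hG' i).2)
  obtain ⟨e, he⟩ := isUnit_iff_constantCoeff.mp hfac.isUnit
  have hc0 : c χ ≠ 0 := fun h0 => by
    obtain ⟨-, j, hj⟩ := hc χ
    rw [h0, map_zero, zero_mul, HahnSeries.coeff_zero] at hj
    exact hj (by rw [A.mem_nonunits_iff, map_zero]; exact zero_lt_one)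
  have hser : Model.serAt C 1 (x : Model.lvlField C) *
      algebraMap B.O⟦X⟧ (Model.SeriesField B.O) (PowerSeries.X ^ (M * K₀)) =
        algebraMap B.O⟦X⟧ (Model.SeriesField B.O)
          (((Polynomial.expand B.O M P : Polynomial B.O) : B.O⟦X⟧) *
            PowerSeries.expand M hM h) := C.toC.injective (by
    rw [map_mul, Model.toC_serAt, C.toC_algebraMap, C.toC_algebraMap, C.gC_X_pow,
      Model.wShift_one, show ((x : Model.lvlField C) : Model.WFld M) =
        algebraMap (modFuns (Gamma M)) (Model.WFld M) (H χ) from rfl,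
      Model.wSer_algebraMap, hHs, ← expand_polynomial_coe, ← map_mul, ← hfac.eq_mul,
      seriesToC_eq_lmap, lmap_expand, ← seriesToC_eq_lmap, hG, map_mul, expand_single_nat,
      expand_toLaurent_nat, mul_right_comm, HahnSeries.single_mul_single,
      show (M : ℤ) * -(K₀ : ℤ) + ((M * K₀ : ℕ) : ℤ) = 0 by push_cast; ring, mul_one]
    show HahnSeries.single (0 : ℤ) (1 : ℂ) * _ = _
    rw [HahnSeries.single_zero_one, one_mul]
    rfl)
  refine ⟨F χ, f χ, -(K₀ : ℤ), qbarToC (c χ)⁻¹ * B.φ e,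
    PowerSeries.C ((e⁻¹ : B.Oˣ) : B.O) * h, P, hF χ, hf χ, hfL',
    mul_ne_zero ((map_ne_zero _).mpr (inv_ne_zero hc0))
      ((map_ne_zero_iff _ B.injective).mpr e.isUnit.ne_zero), ?_, hfac.isDistinguishedAt, ?_,
    fun z hz => ?_⟩
  · rw [map_mul, constantCoeff_C, ← he, Units.inv_mul]
  · rw [show f χ ^ n = HahnSeries.C (c χ)⁻¹ * g by
      rw [hgdef, ← mul_assoc, ← map_mul, inv_mul_cancel₀ hc0, map_one, one_mul],
      seriesToC_eq_lmap, map_mul, lmap_C, ← seriesToC_eq_lmap, hG, hfac.eq_mul]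
    simp only [map_mul, toLaurent_C]
    rw [HahnSeries.C_apply, HahnSeries.C_apply, ← mul_assoc (HahnSeries.single 0 _),
      HahnSeries.single_mul_single, zero_add, mul_one]
    have hee : HahnSeries.single (0 : ℤ) (B.φ ((e⁻¹ : B.Oˣ) : B.O)) *
        HahnSeries.single (-(K₀ : ℤ)) (qbarToC (c χ)⁻¹ * B.φ e) =
          HahnSeries.single (-(K₀ : ℤ)) (qbarToC (c χ)⁻¹) := by
      rw [HahnSeries.single_mul_single, zero_add, mul_left_comm, ← map_mul, Units.inv_mul,
        map_one, mul_one]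
    rw [← hee]
    ring
  · obtain ⟨w, hw⟩ := IsAlgClosed.exists_pow_nat_eq z (Nat.pos_of_ne_zero hM)
    have hw0 : w ≠ 0 := fun h0 => hz (by rw [← hw, h0, zero_pow hM])
    rw [← hw, ← rootMultiplicity_expand_of_ne_zero _ hM hw0, ← Polynomial.map_expand]
    refine dvd_rootMultiplicity_infinity Lv C x (M * K₀)
      (isDistinguishedAt_expand_nat hM hfac.isDistinguishedAt)
      (hfac.isUnit.map (PowerSeries.expand M hM)) hser (fun τ => ?_) hw0
    rw [Model.toMF_eq C (f := H χ) rfl]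
    have ha : AnalyticAt ℂ (F χ ∘ ofComplex) (τ : ℂ) := analyticAt_comp_ofComplex (hF χ).holo τ
    rw [show (((H χ : modFuns (Gamma M)) : ℍ → ℂ) ∘ ofComplex) =
        (fun _ => qbarToC (c χ)) * ((F χ ∘ ofComplex) ^ n) from rfl,
      analyticOrderAt_mul analyticAt_const (ha.pow n),
      analyticAt_const.analyticOrderAt_eq_zero.mpr ((map_ne_zero _).mpr hc0), zero_add,
      analyticOrderAt_pow ha, nsmul_eq_mul, ENat.toNat_mul, ENat.toNat_natCast]
    exact dvd_mul_right n _

end Fermat.Agent.Mazur3
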