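import Fermat.Agent.GalRep.Model.LocalRoots
import Fermat.Agent.GalRep.KummerAut
import Fermat.Prelude.Def_ModularCurve_X0
import Mathlib.RingTheory.LaurentSeries

/-!
# Evaluating series at a rational point near infinity

Let `a` be rational with `1/a` in the maximal ideal of a complete base. Rewriting a series in `q`
as a series in `1/j`, and substituting `1/j = 1/(a + T)`, gives a homomorphism to `ℂ⟦T⟧` which
sends the series of `j` to `a + T` and commutes with automorphisms as soon as the values are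
algebraic.
-/

set_option autoImplicit false
set_option linter.unusedSectionVars false

noncomputable section

namespace Fermat.Agent.Mazur3

open PowerSeries IsLocalRing
open GalRep (lmap)

/-! ## The inverse of `j` as a series and its inverse series -/

/-- The unit `q j` inverted. -/
def jInvUnitZ : PowerSeries ℤ := invOfUnit ModularCurve.jNum 1

theorem jNum_mul_jInvUnitZ : ModularCurve.jNum * jInvUnitZ = 1 :=
  mul_invOfUnit _ _ (by simp)

/-- The series of `1/j`. -/
def jInvZ : PowerSeries ℤ := PowerSeries.X * jInvUnitZ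

theorem constantCoeff_jInvZ : constantCoeff jInvZ = 0 := by simp [jInvZ]

theorem coeff_one_jInvZ : coeff 1 jInvZ = 1 := by
  rw [jInvZ, coeff_succ_X_mul, coeff_zero_eq_constantCoeff_apply]
  have := congrArg constantCoeff jNum_mul_jInvUnitZ
  rwa [map_mul, ModularCurve.constantCoeff_jNum, one_mul, map_one] at this

/-- `q` as a series in `1/j`. -/
def qInJInvZ : PowerSeries ℤ := substInvOfIsUnit jInvZ (coeff_one_jInvZ ▸ isUnit_one)

theorem constantCoeff_qInJInvZ : constantCoeff qInJInvZ = 0 :=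
  constantCoeff_substInvOfIsUnit _ _

theorem subst_qInJInvZ_jInvZ : jInvZ.subst qInJInvZ = X :=
  subst_substInvOfIsUnit_right _ constantCoeff_jInvZ _

variable {R : Type*} [CommRing R]

/-- Cast of an integral series. -/
def zSer (P : PowerSeries ℤ) : R⟦X⟧ := PowerSeries.map (Int.castRingHom R) P

theorem map_zSer {S : Type*} [CommRing S] (f : R →+* S) (P : PowerSeries ℤ) :
    PowerSeries.map f (zSer P : R⟦X⟧) = zSer P := by
  refine PowerSeries.ext fun m => ?_
  simp [zSer]

theorem hasSubst_zSer {P : PowerSeries ℤ} (hP : constantCoeff P = 0) :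
    HasSubst (zSer P : R⟦X⟧) := by
  refine HasSubst.of_constantCoeff_zero' ?_
  rw [← coeff_zero_eq_constantCoeff_apply, zSer, coeff_map, coeff_zero_eq_constantCoeff_apply, hP,
    map_zero]

variable (R) in
/-- Rewriting a series in `q` as a series in `1/j`. -/
def subQ : R⟦X⟧ →+* R⟦X⟧ :=
  (substAlgHom (hasSubst_zSer (R := R) constantCoeff_qInJInvZ)).toRingHom

theorem subQ_apply (f : R⟦X⟧) : subQ R f = f.subst (zSer qInJInvZ : R⟦X⟧) := by
  rw [subQ, AlgHom.toRingHom_eq_coe, RingHom.coe_coe, coe_substAlgHom]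

theorem subQ_jInv : subQ R (zSer jInvZ) = X := by
  rw [subQ_apply, zSer, zSer]
  have h := congrArg (PowerSeries.map (Int.castRingHom R)) subst_qInJInvZ_jInvZ
  rw [map_X] at h
  exact (map_subst (h := Int.castRingHom R)
    (HasSubst.of_constantCoeff_zero' constantCoeff_qInJInvZ) jInvZ).symm.trans h

theorem map_subQ {S : Type*} [CommRing S] (f : R →+* S) (g : R⟦X⟧) :
    PowerSeries.map f (subQ R g) = subQ S (PowerSeries.map f g) := by
  rw [subQ_apply, subQ_apply]
  have h := map_subst (h := f) (hasSubst_zSer (R := R) constantCoeff_qInJInvZ) g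
  rw [show MvPowerSeries.map f (zSer qInJInvZ : R⟦X⟧) = (zSer qInJInvZ : S⟦X⟧) from
    map_zSer f qInJInvZ] at h
  exact h

/-! ## The point -/

/-- A rational `a` with `1/a` in the maximal ideal. -/
structure EvalPoint (O : Type) [CommRing O] [IsDomain O] [IsDiscreteValuationRing O]
    [IsAdicComplete (maximalIdeal O) O] : Type where
  φ : O →+* ℂ
  injective : Function.Injective φ
  a : ℚ
  t₀ : O
  mem : t₀ ∈ maximalIdeal O
  mul_eq : φ t₀ * (a : ℂ) = 1

variable {O : Type} [CommRing O] [IsDomain O] [IsDiscreteValuationRing O]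
  [IsAdicComplete (maximalIdeal O) O]

namespace EvalPoint

variable (x : EvalPoint O)

theorem map_injective : Function.Injective (PowerSeries.map x.φ) :=
  PowerSeries.map_injective _ x.injective

theorem dist_lin : (Polynomial.X - Polynomial.C x.t₀).IsDistinguishedAt (maximalIdeal O) := by
  refine ⟨⟨fun {i} hi => ?_⟩, Polynomial.monic_X_sub_C _⟩
  rw [Polynomial.natDegree_X_sub_C] at hi
  obtain rfl : i = 0 := by omega
  simpa using neg_mem x.mem

/-- The zero `1/a` in the disc. -/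
def zero : GalRep.Model.DiscZero O x.φ where
  P := Polynomial.X - Polynomial.C x.t₀
  dist := x.dist_lin
  z := x.φ x.t₀
  root := by simp

theorem polyShift_zero (r : Polynomial O) :
    GalRep.Model.polyShift x.φ x.zero.z r =
      PowerSeries.map x.φ (Polynomial.eval₂ (C (R := O)) (C x.t₀ + X) r) := by
  suffices h : GalRep.Model.polyShift x.φ x.zero.z =
      (PowerSeries.map x.φ).comp (Polynomial.eval₂RingHom (C (R := O)) (C x.t₀ + X)) from
    RingHom.congr_fun h r
  refine Polynomial.ringHom_ext (fun c => ?_) ?_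
  · simp [GalRep.Model.polyShift]
  · simp [GalRep.Model.polyShift, zero]

theorem exists_shift (g : O⟦X⟧) : ∃ h : O⟦X⟧, ∀ N,
    x.zero.ev N g = Ideal.Quotient.mk _ (PowerSeries.map x.φ h) := by
  choose r hr using fun N => x.zero.exists_poly N g
  set s : ℕ → O⟦X⟧ := fun N => Polynomial.eval₂ (C (R := O)) (C x.t₀ + X) (r N)
  have hs : ∀ N, x.zero.ev N g = Ideal.Quotient.mk _ (PowerSeries.map x.φ (s N)) := fun N => by
    rw [x.zero.ev_eq_of_dvd N (hr N), x.polyShift_zero]
  refine ⟨PowerSeries.mk fun k => coeff k (s k), fun N => ?_⟩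
  rw [hs, GalRep.Model.Jet.mk_eq_mk_iff, X_pow_dvd_iff]
  intro k hk
  rw [map_sub, coeff_map, coeff_map, coeff_mk, sub_eq_zero]
  -- the coefficient does not depend on the truncation
  have hk' : ((x.zero.P ^ (k + 1) : Polynomial O) : O⟦X⟧) ∣ g - (r N : O⟦X⟧) :=
    (map_dvd (Polynomial.coeToPowerSeries.ringHom (R := O))
      (pow_dvd_pow x.zero.P (show k + 1 ≤ N + 1 by omega))).trans (hr N)
  have h1 := (x.zero.ev_eq_of_dvd k hk').symm.trans (hs k)
  rw [x.polyShift_zero, GalRep.Model.Jet.mk_eq_mk_iff, X_pow_dvd_iff] at h1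
  have h2 := h1 k (Nat.lt_succ_self k)
  rwa [map_sub, coeff_map, coeff_map, sub_eq_zero] at h2

/-- The expansion at `1/a`. -/
def shiftFun (g : O⟦X⟧) : O⟦X⟧ := (x.exists_shift g).choose

theorem ev_shiftFun (g : O⟦X⟧) (N : ℕ) :
    x.zero.ev N g = Ideal.Quotient.mk _ (PowerSeries.map x.φ (x.shiftFun g)) :=
  (x.exists_shift g).choose_spec N

theorem eq_shiftFun {g h : O⟦X⟧}
    (hh : ∀ N, x.zero.ev N g = Ideal.Quotient.mk _ (PowerSeries.map x.φ h)) :
    x.shiftFun g = h := by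
  refine x.map_injective (PowerSeries.ext fun k => ?_)
  have h1 := (x.ev_shiftFun g k).symm.trans (hh k)
  rw [GalRep.Model.Jet.mk_eq_mk_iff, X_pow_dvd_iff] at h1
  exact sub_eq_zero.mp (by rw [← map_sub]; exact h1 k (Nat.lt_succ_self k))

/-- The expansion at `1/a` as a homomorphism. -/
def shift : O⟦X⟧ →+* O⟦X⟧ where
  toFun := x.shiftFun
  map_one' := x.eq_shiftFun fun N => by simp
  map_zero' := x.eq_shiftFun fun N => by simp
  map_mul' f g := x.eq_shiftFun fun N => by
    rw [map_mul, x.ev_shiftFun, x.ev_shiftFun, map_mul (PowerSeries.map x.φ), map_mul]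
  map_add' f g := x.eq_shiftFun fun N => by
    rw [map_add, x.ev_shiftFun, x.ev_shiftFun, map_add (PowerSeries.map x.φ), map_add]

theorem shift_C (o : O) : x.shift (C o) = C o :=
  x.eq_shiftFun fun N => by rw [GalRep.Model.DiscZero.ev_C, map_C]

theorem shift_X : x.shift X = C x.t₀ + X :=
  x.eq_shiftFun fun N => by
    rw [GalRep.Model.DiscZero.ev_X, map_add (PowerSeries.map x.φ), map_C, map_X]; rfl

/-- `(1 + t₀ T)⁻¹`. -/
def geom : O⟦X⟧ := invOfUnit (1 + C x.t₀ * X) 1

theorem mul_geom : (1 + C x.t₀ * X) * x.geom = 1 := mul_invOfUnit _ _ (by simp)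

theorem constantCoeff_geom : constantCoeff x.geom = 1 := by
  have := congrArg constantCoeff x.mul_geom
  simpa using this

/-- `1/(a + T) - 1/a`. -/
def coordShift : O⟦X⟧ := C x.t₀ * (x.geom - 1)

theorem hasSubst_coordShift : HasSubst x.coordShift :=
  HasSubst.of_constantCoeff_zero' (by simp [coordShift, x.constantCoeff_geom])

/-- Evaluation in the coordinate `T` with `1/j = 1/(a + T)`. -/
def atT : O⟦X⟧ →+* O⟦X⟧ := (substAlgHom x.hasSubst_coordShift).toRingHom.comp x.shift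

theorem atT_C (o : O) : x.atT (C o) = C o := by
  rw [atT, RingHom.comp_apply, x.shift_C, AlgHom.toRingHom_eq_coe, RingHom.coe_coe,
    show (C o : O⟦X⟧) = algebraMap O O⟦X⟧ o from rfl, AlgHom.commutes]

theorem atT_X : x.atT X = C x.t₀ * x.geom := by
  rw [atT, RingHom.comp_apply, x.shift_X, AlgHom.toRingHom_eq_coe, RingHom.coe_coe, map_add,
    substAlgHom_X, show (C x.t₀ : O⟦X⟧) = algebraMap O O⟦X⟧ x.t₀ from rfl, AlgHom.commutes,
    coordShift]
  show C x.t₀ + C x.t₀ * (x.geom - 1) = C x.t₀ * x.geom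
  ring

theorem map_t₀_geom_mul : (C (x.a : ℂ) + X) * PowerSeries.map x.φ (C x.t₀ * x.geom) = 1 := by
  have h := congrArg (PowerSeries.map x.φ) x.mul_geom
  rw [map_mul, map_add, map_mul, map_one, map_C, map_X] at h
  rw [map_mul, map_C, ← mul_assoc, add_mul, ← map_mul C, mul_comm (x.a : ℂ), x.mul_eq, map_one,
    mul_comm X]
  exact h

/-- Evaluation of a series in `q`. -/
def evalO : O⟦X⟧ →+* O⟦X⟧ := x.atT.comp (subQ O)

/-- Evaluation of a series in `q`, over `ℂ`. -/
def evalC : O⟦X⟧ →+* ℂ⟦X⟧ := (PowerSeries.map x.φ).comp x.evalO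

theorem evalC_C (o : O) : x.evalC (C o) = C (x.φ o) := by
  rw [evalC, RingHom.comp_apply, evalO, RingHom.comp_apply, subQ_apply, subst_C]
  show PowerSeries.map x.φ (x.atT (C o)) = _
  rw [x.atT_C, map_C]

theorem evalC_jInv_mul : (C (x.a : ℂ) + X) * x.evalC (zSer jInvZ) = 1 := by
  rw [evalC, RingHom.comp_apply, evalO, RingHom.comp_apply, subQ_jInv, x.atT_X]
  exact x.map_t₀_geom_mul

theorem zSer_jInvZ : (zSer jInvZ : O⟦X⟧) = X * zSer jInvUnitZ := by
  rw [zSer, jInvZ, map_mul, map_X]; rfl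

theorem zSer_jNum_mul : (zSer ModularCurve.jNum : O⟦X⟧) * zSer jInvUnitZ = 1 := by
  rw [zSer, zSer, ← map_mul, jNum_mul_jInvUnitZ, map_one]

theorem evalC_X_eq : x.evalC X = x.evalC (zSer jInvZ) * x.evalC (zSer ModularCurve.jNum) := by
  rw [← map_mul, zSer_jInvZ, mul_assoc, mul_comm (zSer jInvUnitZ), zSer_jNum_mul, mul_one]

theorem isUnit_evalC_X : IsUnit (x.evalC X) := by
  rw [evalC_X_eq]
  exact (IsUnit.of_mul_eq_one _ ((mul_comm _ _).trans x.evalC_jInv_mul)).mul
    ((IsUnit.of_mul_eq_one _ zSer_jNum_mul).map _)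

/-- Evaluation of a Laurent series. -/
def evalL : LaurentSeries O →+* ℂ⟦X⟧ :=
  IsLocalization.lift (M := Submonoid.powers (X : O⟦X⟧)) (g := x.evalC) (by
    rintro ⟨_, k, rfl⟩
    rw [map_pow]
    exact x.isUnit_evalC_X.pow k)

theorem evalL_ofPowerSeries (g : O⟦X⟧) :
    x.evalL (HahnSeries.ofPowerSeries ℤ O g) = x.evalC g :=
  IsLocalization.lift_eq _ g

theorem evalL_C (o : O) : x.evalL (HahnSeries.C o) = C (x.φ o) := by
  rw [← HahnSeries.ofPowerSeries_C, x.evalL_ofPowerSeries, x.evalC_C]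

variable (O) in
/-- The series of `j` over `O`. -/
def jSerO : LaurentSeries O :=
  HahnSeries.single (-1 : ℤ) 1 * HahnSeries.ofPowerSeries ℤ O (zSer ModularCurve.jNum)

theorem jSerO_mul : jSerO O * HahnSeries.ofPowerSeries ℤ O (zSer jInvZ) = 1 := by
  rw [jSerO, zSer_jInvZ, map_mul, mul_mul_mul_comm, ← map_mul, zSer_jNum_mul,
    HahnSeries.ofPowerSeries_X, HahnSeries.single_mul_single, map_one, mul_one, mul_one]
  rfl

theorem evalL_jSerO : x.evalL (jSerO O) = C (x.a : ℂ) + X := by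
  have h := congrArg x.evalL (jSerO_mul (O := O))
  rw [map_mul, map_one, x.evalL_ofPowerSeries] at h
  calc x.evalL (jSerO O)
      = x.evalL (jSerO O) * ((C (x.a : ℂ) + X) * x.evalC (zSer jInvZ)) := by
        rw [x.evalC_jInv_mul, mul_one]
    _ = x.evalL (jSerO O) * x.evalC (zSer jInvZ) * (C (x.a : ℂ) + X) := by ring
    _ = C (x.a : ℂ) + X := by rw [h, one_mul]

/-! ## Automorphisms -/

variable (σ : ℂ →+* ℂ) (Lc : Subfield ℂ)

/-- `f'` is the conjugate of `f`, whose coefficients are in `Lc`. -/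
def Conj (f f' : O⟦X⟧) : Prop :=
  PowerSeries.map x.φ f ∈ (PowerSeries.map Lc.subtype).range ∧
    PowerSeries.map σ (PowerSeries.map x.φ f) = PowerSeries.map x.φ f'

variable {x σ Lc}

theorem Conj.mul {f f' g g' : O⟦X⟧} (hf : x.Conj σ Lc f f') (hg : x.Conj σ Lc g g') :
    x.Conj σ Lc (f * g) (f' * g') := by
  refine ⟨?_, by simp only [map_mul, hf.2, hg.2]⟩
  rw [map_mul]
  exact mul_mem hf.1 hg.1

theorem Conj.add {f f' g g' : O⟦X⟧} (hf : x.Conj σ Lc f f') (hg : x.Conj σ Lc g g') :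
    x.Conj σ Lc (f + g) (f' + g') := by
  refine ⟨?_, by simp only [map_add, hf.2, hg.2]⟩
  rw [map_add]
  exact add_mem hf.1 hg.1

theorem Conj.one : x.Conj σ Lc 1 1 :=
  ⟨by rw [map_one]; exact one_mem _, by simp⟩

theorem Conj.pow {f f' : O⟦X⟧} (hf : x.Conj σ Lc f f') : ∀ k : ℕ,
    x.Conj σ Lc (f ^ k) (f' ^ k)
  | 0 => by rw [pow_zero, pow_zero]; exact Conj.one
  | k + 1 => by rw [pow_succ, pow_succ]; exact (hf.pow k).mul hf

theorem Conj.sum {ι : Type*} (s : Finset ι) {f f' : ι → O⟦X⟧}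
    (h : ∀ i ∈ s, x.Conj σ Lc (f i) (f' i)) :
    x.Conj σ Lc (∑ i ∈ s, f i) (∑ i ∈ s, f' i) := by
  classical
  induction s using Finset.induction_on with
  | empty => exact ⟨by simp, by simp⟩
  | insert i s hi ih =>
    rw [Finset.sum_insert hi, Finset.sum_insert hi]
    exact (h i (Finset.mem_insert_self i s)).add
      (ih fun j hj => h j (Finset.mem_insert_of_mem hj))

theorem Conj.coeff_mem {f f' : O⟦X⟧} (hf : x.Conj σ Lc f f') (k : ℕ) :
    x.φ (coeff k f) ∈ Lc := by
  obtain ⟨g, hg⟩ := hf.1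
  rw [← coeff_map, ← hg, coeff_map]
  exact (coeff k g).2

theorem Conj.coeff_eq {f f' : O⟦X⟧} (hf : x.Conj σ Lc f f') (k : ℕ) :
    σ (x.φ (coeff k f)) = x.φ (coeff k f') := by
  rw [← coeff_map, ← coeff_map σ, hf.2, coeff_map]

theorem conj_of_coeff {f f' : O⟦X⟧} (h : ∀ k, x.φ (coeff k f) ∈ Lc)
    (h' : ∀ k, σ (x.φ (coeff k f)) = x.φ (coeff k f')) : x.Conj σ Lc f f' :=
  ⟨⟨PowerSeries.mk fun k => ⟨_, h k⟩, PowerSeries.ext fun k => by simp⟩,
    PowerSeries.ext fun k => by simpa using h' k⟩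

theorem Conj.C_of {o o' : O} (h : x.φ o ∈ Lc) (h' : σ (x.φ o) = x.φ o') :
    x.Conj σ Lc (C o) (C o') :=
  conj_of_coeff (fun k => by
    rw [coeff_C]
    split_ifs
    · exact h
    · rw [map_zero]; exact zero_mem _) fun k => by
    rw [coeff_C, coeff_C]
    split_ifs
    · exact h'
    · simp

theorem conj_zSer (P : PowerSeries ℤ) : x.Conj σ Lc (zSer P) (zSer P) :=
  ⟨⟨zSer P, by rw [map_zSer, map_zSer]⟩, by rw [map_zSer, map_zSer]⟩

theorem Conj.subQ {f f' : O⟦X⟧} (hf : x.Conj σ Lc f f') :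
    x.Conj σ Lc (subQ O f) (Mazur3.subQ O f') := by
  obtain ⟨g, hg⟩ := hf.1
  refine ⟨⟨Mazur3.subQ Lc g, ?_⟩, ?_⟩
  · rw [map_subQ, map_subQ, hg]
  · rw [map_subQ, map_subQ, map_subQ, hf.2]

theorem map_rat_t₀ : x.φ x.t₀ = ((x.a⁻¹ : ℚ) : ℂ) := by
  rw [Rat.cast_inv]
  exact eq_inv_of_mul_eq_one_left x.mul_eq

theorem conj_C_t₀ : x.Conj σ Lc (C x.t₀) (C x.t₀) :=
  Conj.C_of (by rw [map_rat_t₀]; exact SubfieldClass.ratCast_mem Lc _)
    (by rw [map_rat_t₀, map_ratCast])

theorem conj_geom : x.Conj σ Lc x.geom x.geom := by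
  set d : Lc⟦X⟧ := 1 + C (⟨x.φ x.t₀, by rw [map_rat_t₀]; exact SubfieldClass.ratCast_mem Lc _⟩ : Lc)
    * X with hd
  have hd1 : PowerSeries.map Lc.subtype d = PowerSeries.map x.φ (1 + C x.t₀ * X) := by
    simp [hd, map_C, map_X]
  have h1 : PowerSeries.map x.φ (1 + C x.t₀ * X) * PowerSeries.map x.φ x.geom = 1 := by
    rw [← map_mul, x.mul_geom, map_one]
  refine ⟨⟨invOfUnit d 1, ?_⟩, ?_⟩
  · refine (left_inv_eq_right_inv ?_ h1)
    rw [← hd1, ← map_mul, invOfUnit_mul d 1 (by simp [hd]), map_one]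
  · refine (left_inv_eq_right_inv ?_ h1)
    have h2 := congrArg (PowerSeries.map σ) ((mul_comm _ _).trans h1)
    rwa [map_mul, map_one, map_add, map_mul, map_one, map_C, map_X, map_add, map_mul, map_one,
      map_C, map_X, map_rat_t₀, map_ratCast, ← map_rat_t₀, ← map_C, ← map_X x.φ, ← map_mul,
      ← map_one (PowerSeries.map x.φ), ← map_add, map_one (PowerSeries.map x.φ)] at h2

/-- Automorphisms commute with the evaluation when the values are algebraic. -/
theorem Conj.evalO {g g' : O⟦X⟧} (hg : x.Conj σ Lc g g')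
    (hlift : ∀ o, x.φ o ∈ Lc → ∃ o', σ (x.φ o) = x.φ o')
    (hval : ∀ k, x.φ (coeff k (x.evalO g)) ∈ Lc) : x.Conj σ Lc (x.evalO g) (x.evalO g') := by
  refine conj_of_coeff hval fun k => ?_
  obtain ⟨o, ho⟩ := hlift _ (hval k)
  rw [ho]
  congr 1
  have hh := hg.subQ
  set h := Mazur3.subQ O g
  set h' := Mazur3.subQ O g'
  have hT : x.Conj σ Lc (C x.t₀ * x.geom) (C x.t₀ * x.geom) := conj_C_t₀.mul conj_geom
  have key : ∀ N, o - coeff k (x.evalO g') ∈ maximalIdeal O ^ N := by
    intro N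
    have hsplit : ∀ f : O⟦X⟧, ∃ r, x.atT f =
        (∑ m ∈ Finset.range N, C (coeff m f) * (C x.t₀ * x.geom) ^ m) + C (x.t₀ ^ N) * r := by
      intro f
      obtain ⟨f₁, hf₁⟩ : (X : O⟦X⟧) ^ N ∣ f - ∑ m ∈ Finset.range N, C (coeff m f) * X ^ m := by
        rw [X_pow_dvd_iff]
        intro m hm
        rw [map_sub, map_sum, Finset.sum_eq_single m]
        · simp
        · intro j _ hj
          simp [coeff_X_pow, hj.symm]
        · intro h0
          exact absurd (Finset.mem_range.mpr hm) h0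
      refine ⟨x.geom ^ N * x.atT f₁, ?_⟩
      rw [sub_eq_iff_eq_add'] at hf₁
      conv_lhs => rw [hf₁]
      rw [map_add, map_sum, map_mul, map_pow x.atT, x.atT_X, mul_pow, map_pow C]
      simp only [map_mul, map_pow, x.atT_C, x.atT_X]
      ring
    obtain ⟨r, hr⟩ := hsplit h
    obtain ⟨r', hr'⟩ := hsplit h'
    set u := ∑ m ∈ Finset.range N, C (coeff m h) * (C x.t₀ * x.geom) ^ m
    set u' := ∑ m ∈ Finset.range N, C (coeff m h') * (C x.t₀ * x.geom) ^ m
    have hu : x.Conj σ Lc u u' := Conj.sum _ fun m _ =>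
      (Conj.C_of (hh.coeff_mem m) (hh.coeff_eq m)).mul (hT.pow m)
    have e : coeff k (x.evalO g) = coeff k u + x.t₀ ^ N * coeff k r := by
      show coeff k (x.atT h) = _
      rw [hr, map_add, coeff_C_mul]
    have e' : coeff k (x.evalO g') = coeff k u' + x.t₀ ^ N * coeff k r' := by
      show coeff k (x.atT h') = _
      rw [hr', map_add, coeff_C_mul]
    have hc : x.φ (coeff k r) = (x.φ (coeff k (x.evalO g)) - x.φ (coeff k u)) * (x.a : ℂ) ^ N := by
      rw [e, map_add, add_sub_cancel_left, map_mul, map_pow, mul_right_comm, ← mul_pow, x.mul_eq,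
        one_pow, one_mul]
    obtain ⟨d, hd⟩ := hlift (coeff k r) (by
      rw [hc]
      exact mul_mem (sub_mem (hval k) (hu.coeff_mem k))
        (pow_mem (SubfieldClass.ratCast_mem Lc _) N))
    have ho' : o = coeff k u' + x.t₀ ^ N * d := x.injective (by
      rw [← ho, e, map_add, map_add, hu.coeff_eq, map_mul, map_pow, map_mul, map_pow, hd,
        map_add, map_mul, map_pow, map_rat_t₀, map_ratCast])
    rw [ho', e', add_sub_add_left_eq_sub, ← mul_sub]
    exact Ideal.mul_mem_right _ _ (Ideal.pow_mem_pow x.mem N)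
  have := IsHausdorff.haus (IsAdicComplete.toIsHausdorff (I := maximalIdeal O) (M := O))
    (o - coeff k (x.evalO g')) fun N => by
      rw [SModEq.zero, smul_eq_mul, Ideal.mul_top]; exact key N
  exact sub_eq_zero.mp this

theorem map_evalC_conj {g g' : O⟦X⟧} (hg : x.Conj σ Lc g g')
    (hlift : ∀ o, x.φ o ∈ Lc → ∃ o', σ (x.φ o) = x.φ o')
    (hval : x.evalC g ∈ (PowerSeries.map Lc.subtype).range) :
    PowerSeries.map σ (x.evalC g) = x.evalC g' :=
  (hg.evalO hlift fun k => by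
    obtain ⟨v, hv⟩ := hval
    rw [← coeff_map]
    show coeff k (x.evalC g) ∈ Lc
    rw [← hv, coeff_map]
    exact (coeff k v).2).2

/-- Automorphisms commute with the evaluation of Laurent series. -/
theorem map_evalL_conj {f f' : LaurentSeries O} (hf : ∀ m, x.φ (f.coeff m) ∈ Lc)
    (hf' : ∀ m, σ (x.φ (f.coeff m)) = x.φ (f'.coeff m))
    (hlift : ∀ o, x.φ o ∈ Lc → ∃ o', σ (x.φ o) = x.φ o')
    (hval : x.evalL f ∈ (PowerSeries.map Lc.subtype).range) :
    PowerSeries.map σ (x.evalL f) = x.evalL f' := by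
  set K := (-f.order).toNat
  have hzero : ∀ j < -(K : ℤ), f.coeff j = 0 ∧ f'.coeff j = 0 := fun j hj => by
    have h0 : f.coeff j = 0 := HahnSeries.coeff_eq_zero_of_lt_order (by omega)
    refine ⟨h0, x.injective ?_⟩
    rw [← hf', h0, map_zero, map_zero]
  have hmk : ∀ e : LaurentSeries O, (∀ j < -(K : ℤ), e.coeff j = 0) →
      e * HahnSeries.ofPowerSeries ℤ O (X ^ K) =
        HahnSeries.ofPowerSeries ℤ O (PowerSeries.mk fun i => e.coeff ((i : ℤ) - K)) := by
    intro e he
    rw [HahnSeries.ofPowerSeries_X_pow]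
    ext j
    rw [mul_comm, HahnSeries.coeff_single_mul, one_mul]
    rcases lt_or_ge j 0 with hj | hj
    · rw [he _ (by omega), HahnSeries.ofPowerSeries_apply, HahnSeries.embDomain_of_notMem_range]
      rintro ⟨i, hi⟩
      change (i : ℤ) = j at hi
      omega
    · obtain ⟨i, rfl⟩ := Int.eq_ofNat_of_zero_le hj
      rw [HahnSeries.ofPowerSeries_apply_coeff, coeff_mk]
  set g := PowerSeries.mk (fun i => f.coeff ((i : ℤ) - K)) * zSer jInvUnitZ ^ K with hg
  set g' := PowerSeries.mk (fun i => f'.coeff ((i : ℤ) - K)) * zSer jInvUnitZ ^ K with hg'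
  have hJ : ∀ {e : LaurentSeries O}, (∀ j < -(K : ℤ), e.coeff j = 0) →
      x.evalC (PowerSeries.mk (fun i => e.coeff ((i : ℤ) - K)) * zSer jInvUnitZ ^ K) =
        x.evalL e * x.evalC (zSer jInvZ) ^ K := fun {e} he => by
    rw [← x.evalL_ofPowerSeries, map_mul (HahnSeries.ofPowerSeries ℤ O), ← hmk e he, mul_assoc,
      ← map_mul, ← mul_pow, ← zSer_jInvZ, map_mul, map_pow, map_pow, x.evalL_ofPowerSeries]
  have hc : x.Conj σ Lc g g' := (conj_of_coeff (fun k => by rw [coeff_mk]; exact hf _)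
    fun k => by rw [coeff_mk, coeff_mk]; exact hf' _).mul ((conj_zSer _).pow K)
  have hinv : x.Conj σ Lc (x.evalO (zSer jInvZ)) (x.evalO (zSer jInvZ)) := by
    rw [EvalPoint.evalO, RingHom.comp_apply, subQ_jInv, x.atT_X]
    exact conj_C_t₀.mul conj_geom
  have hg1 := hJ fun j hj => (hzero j hj).1
  have hg1' := hJ fun j hj => (hzero j hj).2
  have h1 := map_evalC_conj hc hlift (by
    rw [hg, hg1]
    exact mul_mem hval (pow_mem hinv.1 K))
  rw [hg, hg', hg1, hg1', map_mul, map_pow] at h1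
  rw [show PowerSeries.map σ (x.evalC (zSer jInvZ)) = x.evalC (zSer jInvZ) from hinv.2] at h1
  exact ((IsUnit.of_mul_eq_one _ ((mul_comm _ _).trans x.evalC_jInv_mul)).pow K).mul_right_cancel h1

end EvalPoint

end Fermat.Agent.Mazur3
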