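import Fermat.Agent.Mazur3.Branch
import Fermat.Agent.Mazur3.EvalSeries
import Fermat.Agent.Mazur3.Disc

/-!
# Evaluation of modular functions near infinity

At a rational point on the branch through infinity, evaluating the series of a modular function
with coefficients in the base gives its Taylor series at the point.
-/

set_option autoImplicit false
set_option linter.unusedSectionVars false

noncomputable section

namespace Fermat.Agent.Mazur3

open GalRep
open IsLocalRing
open UpperHalfPlane CongruenceSubgroup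
open Fermat.Agent.Period (jFun)
open scoped MatrixGroups Manifold

/-! ## Series over a base -/

variable {O : Type} [CommRing O] {K : Type*} [Field K]

theorem toLaurent_eq_lmap (φ : O →+* K) (g : PowerSeries O) :
    toLaurent φ g = lmap φ (HahnSeries.ofPowerSeries ℤ O g) := by
  ext j
  rw [lmap_coeff]
  rcases lt_or_ge j 0 with hj | hj
  · rw [coeff_toLaurent_neg φ _ hj, HahnSeries.ofPowerSeries_apply,
      HahnSeries.embDomain_of_notMem_range, map_zero]
    rintro ⟨i, hi⟩
    change (i : ℤ) = j at hi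
    omega
  · obtain ⟨i, rfl⟩ := Int.eq_ofNat_of_zero_le hj
    rw [coeff_toLaurent_nat, HahnSeries.ofPowerSeries_apply_coeff]

theorem lmap_single_nat (φ : O →+* K) (a : ℤ) (c : O) :
    lmap φ (HahnSeries.single a c) = HahnSeries.single a (φ c) := by
  ext j
  rw [lmap_coeff]
  rcases eq_or_ne j a with rfl | h
  · rw [HahnSeries.coeff_single_same, HahnSeries.coeff_single_same]
  · rw [HahnSeries.coeff_single_of_ne h, HahnSeries.coeff_single_of_ne h, map_zero]

theorem jq_eq_intSer : jq = HahnSeries.single (-1 : ℤ) 1 * intSer ModularCurve.jNum := by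
  refine hasQSeries_jq.unique one_pos (((HasQSeries.single 1 (-1) 1).mul
    (hasQSeries_intSer MCurve.qExp_qParam_mul_jFn)).congr (.of_forall fun τ => ?_))
  simp only [Pi.mul_apply, one_mul, zpow_neg, zpow_one, qParam_one]
  rw [← mul_assoc, inv_mul_cancel₀ (qq_ne_zero 1 τ), one_mul]
  rfl

theorem intSer_eq_toLaurent (φ : O →+* ℂ) (P : PowerSeries ℤ) :
    intSer P = toLaurent φ (zSer P) := by
  rw [intSer, toLaurent, RingHom.comp_apply, map_zSer]
  rfl

/-! ## The evaluation -/

variable [IsDomain O] [IsDiscreteValuationRing O] [IsAdicComplete (maximalIdeal O) O]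

variable (O) in
/-- The series of `j(pτ)` over the base. -/
def jpSerO (p : ℕ) [NeZero p] : LaurentSeries O :=
  HahnSeries.single (-(p : ℤ)) 1 *
    HahnSeries.ofPowerSeries ℤ O (PowerSeries.expand p (NeZero.ne p) (zSer ModularCurve.jNum))

namespace EvalPoint

variable (e : EvalPoint O) {p : ℕ} [NeZero p]

theorem lmap_jSerO : lmap e.φ (jSerO O) = jq := by
  rw [jSerO, map_mul, lmap_single_nat, map_one, ← toLaurent_eq_lmap, ← intSer_eq_toLaurent,
    jq_eq_intSer]

theorem lmap_jpSerO : lmap e.φ (jpSerO O p) = GalRep.expand p (NeZero.ne p) jq := by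
  rw [jpSerO, map_mul, lmap_single_nat, map_one, ← toLaurent_eq_lmap, jq_eq_intSer, map_mul,
    expand_single_nat, intSer_eq_toLaurent e.φ, expand_toLaurent_nat, mul_neg_one]

/-- The value of `j(pτ)` at the point. -/
def jpVal (p : ℕ) [NeZero p] : PowerSeries ℂ := e.evalL (jpSerO O p)

/-- Two-variable evaluation over the base. -/
def evO (p : ℕ) [NeZero p] : Polynomial (Polynomial O) →+* LaurentSeries O :=
  Polynomial.eval₂RingHom (Polynomial.eval₂RingHom HahnSeries.C (jSerO O)) (jpSerO O p)

/-- The coefficientwise image of a polynomial. -/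
def mapP : Polynomial (Polynomial O) →+* Polynomial (Polynomial ℂ) :=
  Polynomial.mapRingHom (Polynomial.mapRingHom e.φ)

theorem lmap_evO (Q : Polynomial (Polynomial O)) :
    lmap e.φ (evO p Q) = biEval jq (GalRep.expand p (NeZero.ne p) jq) (e.mapP Q) := by
  suffices h : (lmap e.φ).comp (evO (O := O) p) =
      (biEval jq (GalRep.expand p (NeZero.ne p) jq)).comp e.mapP from RingHom.congr_fun h Q
  refine Polynomial.ringHom_ext' (Polynomial.ringHom_ext (fun c => ?_) ?_) ?_
  · simp [evO, mapP, biEval, HahnSeries.algebraMap_apply']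
    rw [← HahnSeries.C_apply, lmap_C, HahnSeries.C_apply]
  · simp [evO, mapP, biEval, e.lmap_jSerO]
  · simp [evO, mapP, biEval, e.lmap_jpSerO]

theorem evalL_evO (Q : Polynomial (Polynomial O)) :
    e.evalL (evO p Q) =
      biEval (PowerSeries.C (e.a : ℂ) + PowerSeries.X) (e.jpVal p) (e.mapP Q) := by
  suffices h : e.evalL.comp (evO (O := O) p) =
      (biEval (PowerSeries.C (e.a : ℂ) + PowerSeries.X) (e.jpVal p)).comp e.mapP from
    RingHom.congr_fun h Q
  refine Polynomial.ringHom_ext' (Polynomial.ringHom_ext (fun c => ?_) ?_) ?_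
  · simp [evO, mapP, biEval]
    rw [← HahnSeries.C_apply, e.evalL_C]
  · simp [evO, mapP, biEval, e.evalL_jSerO]
  · simp [evO, mapP, biEval, jpVal]

/-- The modular polynomial over the base. -/
def phiO (O : Type) [CommRing O] (p : ℕ) [Fact p.Prime] [NeZero p] : Polynomial (Polynomial O) :=
  (exists_modPolyInt p).choose.map (Polynomial.mapRingHom (Int.castRingHom O))

theorem mapP_phiO [Fact p.Prime] : e.mapP (phiO O p) = modPoly p := by
  rw [phiO, mapP, Polynomial.coe_mapRingHom, Polynomial.map_map, Polynomial.mapRingHom_comp,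
    RingHom.eq_intCast' (e.φ.comp (Int.castRingHom O))]
  exact (exists_modPolyInt p).choose_spec

theorem biEval_jq_modPoly [Fact p.Prime] :
    biEval jq (GalRep.expand p (NeZero.ne p) jq) (modPoly p) = 0 := by
  refine (((hasQSeries_biEval (F := jNMF p) (hasQSeries_jNFun p) (modPoly p))).congr
    (G := 0) (.of_forall fun τ => ?_)).eq_zero one_pos
  rw [biEval_modPoly_base]
  rfl

theorem biEval_jpVal [Fact p.Prime] :
    biEval (PowerSeries.C (e.a : ℂ) + PowerSeries.X) (e.jpVal p) (modPoly p) = 0 := by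
  have h0 : evO p (phiO O p) = 0 := lmap_injective e.injective (by
    rw [e.lmap_evO, e.mapP_phiO, biEval_jq_modPoly, map_zero])
  have := congrArg e.evalL h0
  rwa [e.evalL_evO, e.mapP_phiO, map_zero] at this

/-- The data comparing the evaluation with a point. -/
structure Fits (x : RatPoint p) : Prop where
  a_eq : e.a = x.a
  jp : x.tayAlg (jNMF p) = e.jpVal p
  j : x.tayAlg (jMF (Gamma0 p)) = PowerSeries.C (x.a : ℂ) + PowerSeries.X

theorem exists_valuationSubring (q : ℕ) (hq : (q : O) ∈ maximalIdeal O) :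
    ∃ B : ValuationSubring ℂ, (q : ℂ) ∈ B.nonunits ∧ (∀ o, e.φ o ∈ B) ∧
      ∀ o, IsUnit o → B.valuation (e.φ o) = 1 := by
  let I : Ideal e.φ.range := (maximalIdeal O).map e.φ.rangeRestrict
  have hb : Function.Bijective e.φ.rangeRestrict :=
    ⟨fun a b h => e.injective (congrArg Subtype.val h), RingHom.rangeRestrict_surjective _⟩
  have hI : I ≠ ⊤ := fun h => (maximalIdeal.isMaximal O).ne_top (by
    rw [← Ideal.comap_map_of_bijective _ hb (I := maximalIdeal O)]
    show Ideal.comap e.φ.rangeRestrict I = ⊤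
    rw [h, Ideal.comap_top])
  obtain ⟨B, hle, hB⟩ := Ideal.image_subset_nonunits_valuationSubring I hI
  have hmem : ∀ o, e.φ o ∈ B := fun o => hle ⟨o, rfl⟩
  refine ⟨B, hB ⟨_, Ideal.mem_map_of_mem _ hq, by simp⟩, hmem, fun o ho => ?_⟩
  obtain ⟨o', ho'⟩ := ho.exists_right_inv
  refine le_antisymm ((B.valuation_le_one_iff _).mpr (hmem o)) ?_
  have h := congrArg (fun z => B.valuation (e.φ z)) ho'
  simp only [map_mul, map_one] at h
  rw [← h]
  exact mul_le_of_le_one_right zero_le ((B.valuation_le_one_iff _).mpr (hmem o'))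

theorem constantCoeff_evalC_unit {g : PowerSeries O} (hg : IsUnit g) :
    ∃ o, IsUnit o ∧ PowerSeries.constantCoeff (e.evalC g) = e.φ o := by
  refine ⟨PowerSeries.constantCoeff (e.evalO g),
    PowerSeries.isUnit_iff_constantCoeff.mp (hg.map _), ?_⟩
  rw [← PowerSeries.coeff_zero_eq_constantCoeff_apply, EvalPoint.evalC, RingHom.comp_apply,
    PowerSeries.coeff_map, PowerSeries.coeff_zero_eq_constantCoeff_apply]

variable {e}

/-- The evaluation fits every point on the branch through infinity. -/
theorem fits_of_branch [Fact p.Prime] {q : ℕ} [Fact q.Prime] (hq : (q : O) ∈ maximalIdeal O)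
    (x : RatPoint p) (hea : e.a = x.a) (ha : padicValRat q x.a < 0)
    (hb : padicValRat q x.b = p * padicValRat q x.a) : e.Fits x := by
  obtain ⟨B, hB, hmem, hunit⟩ := e.exists_valuationSubring q hq
  have hr0 := val_q_pos B hB
  have hr1 := val_q_lt_one B hB
  have ha0 : x.a ≠ 0 := fun h => by simp [h] at ha
  have h1728 : x.a ≠ 1728 := fun h => by
    rw [h, show (1728 : ℚ) = ((1728 : ℕ) : ℚ) by norm_num, padicValRat.of_nat] at ha
    omega
  have he : eOf (x.a : ℂ) = 1 := by
    rw [eOf, if_neg (by exact_mod_cast ha0), if_neg (by exact_mod_cast h1728)]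
  have hj : x.tayAlg (jMF (Gamma0 p)) = PowerSeries.C (x.a : ℂ) + PowerSeries.X := by
    rw [RatPoint.tayAlg_jMF, he, pow_one]
  refine ⟨hea, ?_, hj⟩
  have hwa : B.valuation (x.a : ℂ) = B.valuation (q : ℂ) ^ padicValRat q x.a :=
    val_ratCast B hB ha0
  have hgt : 1 < B.valuation (x.a : ℂ) := by
    rw [hwa]; exact one_lt_zpow_of_neg₀ hr0 hr1 ha
  have hb0 : x.b ≠ 0 := fun h => by
    rw [h, padicValRat.zero] at hb
    rcases mul_eq_zero.mp hb.symm with h' | h'
    · exact NeZero.ne p (by exact_mod_cast h')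
    · exact ha.ne h'
  have hwb : B.valuation (x.b : ℂ) = B.valuation (x.a : ℂ) ^ p := by
    rw [hwa, val_ratCast B hB hb0, hb, ← zpow_natCast, ← zpow_mul, mul_comm]
  -- the constant term of the evaluation of `j(pτ)`
  have hX : B.valuation (PowerSeries.constantCoeff (e.evalC PowerSeries.X)) =
      (B.valuation (x.a : ℂ))⁻¹ := by
    obtain ⟨o, ho, hoc⟩ := e.constantCoeff_evalC_unit
      (IsUnit.of_mul_eq_one _ (zSer_jNum_mul (O := O)))
    rw [e.evalC_X_eq, map_mul, map_mul, hoc, hunit o ho, mul_one]
    have h := congrArg (fun s => B.valuation (PowerSeries.constantCoeff s)) e.evalC_jInv_mul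
    simp only [map_mul, map_add, PowerSeries.constantCoeff_C, PowerSeries.constantCoeff_X,
      add_zero, map_one] at h
    rw [← hea]
    exact eq_inv_of_mul_eq_one_right h
  have hprod : e.jpVal p * e.evalC PowerSeries.X ^ p =
      e.evalC (PowerSeries.expand p (NeZero.ne p) (zSer ModularCurve.jNum)) := by
    rw [jpVal, ← map_pow, ← e.evalL_ofPowerSeries, ← map_mul, jpSerO, mul_right_comm,
      HahnSeries.ofPowerSeries_X_pow, HahnSeries.single_mul_single, mul_one, neg_add_cancel,
      ← e.evalL_ofPowerSeries]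
    simp
  have hc : B.valuation (PowerSeries.constantCoeff (e.jpVal p)) = B.valuation (x.a : ℂ) ^ p := by
    obtain ⟨o, ho, hoc⟩ := e.constantCoeff_evalC_unit (g := PowerSeries.expand p (NeZero.ne p)
      (zSer ModularCurve.jNum)) ((IsUnit.of_mul_eq_one _ (zSer_jNum_mul (O := O))).map _)
    have h := congrArg (fun s => B.valuation (PowerSeries.constantCoeff s)) hprod
    simp only [map_mul, map_pow, hX, hoc, hunit o ho] at h
    rw [inv_pow] at h
    exact (eq_inv_of_mul_eq_one_left h).trans (inv_inv _)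
  have hroot := e.biEval_jpVal (p := p)
  rw [hea] at hroot
  have hc0 : biEval (x.a : ℂ) (PowerSeries.constantCoeff (e.jpVal p)) (modPoly p) = 0 := by
    have h := congrArg PowerSeries.constantCoeff hroot
    rwa [RatPoint.constantCoeff_biEval, map_add, PowerSeries.constantCoeff_C,
      PowerSeries.constantCoeff_X, add_zero, map_zero] at h
  have hxb : biEval (x.a : ℂ) (x.b : ℂ) (modPoly p) = 0 := by
    rw [← x.hj, ← x.hjN]; exact biEval_modPoly_apply x.τ
  have hcb : PowerSeries.constantCoeff (e.jpVal p) = (x.b : ℂ) :=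
    (branch_root (p := p) B hgt hwb hxb).2 _ hc hc0
  -- uniqueness of the series
  set s := x.tayAlg (jMF (Gamma0 p))
  set r := x.tayAlg (jNMF p)
  have hr : biEval s r (modPoly p) = 0 := by
    rw [← map_biEval, biEval_modPoly_base, map_zero]
  have hr' : biEval s (e.jpVal p) (modPoly p) = 0 := by rw [hj]; exact hroot
  set P := (modPoly p).map (Polynomial.aeval s).toRingHom
  obtain ⟨k, hk⟩ := Polynomial.binomExpansion P r (e.jpVal p - r)
  rw [add_sub_cancel, ← biEval_apply, ← biEval_apply, hr, hr', zero_add] at hk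
  have hu : IsUnit (P.derivative.eval r + k * (e.jpVal p - r)) := by
    refine PowerSeries.isUnit_iff_constantCoeff.mpr ?_
    have h1 := PowerSeries.isUnit_iff_constantCoeff.mp
      (x.isUnit_biEval_derivative x.constantCoeff_tayAlg_jNMF)
    rw [biEval_apply, ← Polynomial.derivative_map] at h1
    rw [map_add, map_mul, map_sub, hcb, x.constantCoeff_tayAlg_jNMF, sub_self, mul_zero, add_zero]
    exact h1
  have h0 : (P.derivative.eval r + k * (e.jpVal p - r)) * (e.jpVal p - r) = 0 := by rw [hk]; ring
  exact (sub_eq_zero.mp (hu.mul_right_eq_zero.mp h0)).symm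

/-- The image of the fractions of the base. -/
def fracField (e : EvalPoint O) : Subfield ℂ :=
  (IsFractionRing.lift (K := FractionRing O) e.injective).fieldRange

theorem exists_div_of_mem_fracField {z : ℂ} (hz : z ∈ e.fracField) :
    ∃ u d, d ≠ 0 ∧ e.φ d * z = e.φ u := by
  obtain ⟨f, rfl⟩ := hz
  obtain ⟨u, d, hd, rfl⟩ := IsFractionRing.div_surjective (A := O) f
  refine ⟨u, d, nonZeroDivisors.ne_zero hd, ?_⟩
  rw [map_div₀, IsFractionRing.lift_algebraMap, IsFractionRing.lift_algebraMap, mul_div_cancel₀ _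
    ((map_ne_zero_iff _ e.injective).mpr (nonZeroDivisors.ne_zero hd))]

theorem φ_mem_fracField (o : O) : e.φ o ∈ e.fracField :=
  ⟨algebraMap O _ o, IsFractionRing.lift_algebraMap _ _⟩

/-- Evaluation computes the Taylor series of a modular function. -/
theorem evalL_eq_tay [Fact p.Prime] {x : RatPoint p} (hx : e.Fits x) {G : ℍ → ℂ}
    (hG : IsModFun (Gamma0 p) G) {g : LaurentSeries O} (hg : HasQSeries 1 G (lmap e.φ g)) :
    e.evalL g = x.tay G := by
  set K := e.fracField
  set J := GalRep.expand p (NeZero.ne p) jq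
  obtain ⟨π, hπ⟩ := LinearMap.exists_leftInverse_of_injective (Algebra.linearMap K ℂ)
    (LinearMap.ker_eq_bot.mpr Subtype.val_injective)
  have hπK : ∀ k : ℂ, k ∈ K → ((π k : K) : ℂ) = k := fun k hk => by
    have := LinearMap.congr_fun hπ ⟨k, hk⟩
    exact congrArg Subtype.val this
  have hπmul : ∀ (k c : ℂ), k ∈ K → ((π (k * c) : K) : ℂ) = k * ((π c : K) : ℂ) := fun k c hk => by
    rw [show k * c = (⟨k, hk⟩ : K) • c from rfl, LinearMap.map_smul]
    rfl
  -- projection of the coefficients
  have hproj : ∀ P : Polynomial (Polynomial ℂ), ∃ (d : O) (Q : Polynomial (Polynomial O)), d ≠ 0 ∧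
      ∀ m, e.φ d * ((π ((biEval jq J P).coeff m) : K) : ℂ) =
        (biEval jq J (e.mapP Q)).coeff m := by
    intro P
    induction P using Polynomial.induction_on' with
    | add P₁ P₂ h1 h2 =>
      obtain ⟨d₁, Q₁, hd₁, hQ₁⟩ := h1
      obtain ⟨d₂, Q₂, hd₂, hQ₂⟩ := h2
      refine ⟨d₁ * d₂, Polynomial.C (Polynomial.C d₂) * Q₁ + Polynomial.C (Polynomial.C d₁) * Q₂,
        mul_ne_zero hd₁ hd₂, fun m => ?_⟩
      simp only [map_add, map_mul, HahnSeries.coeff_add, Subfield.coe_add]
      rw [show ∀ d : O, biEval jq J (e.mapP (Polynomial.C (Polynomial.C d))) =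
        HahnSeries.C (e.φ d) from fun d => by
          simp [mapP, biEval, HahnSeries.algebraMap_apply', HahnSeries.C_apply]]
      rw [show ∀ d : O, biEval jq J (e.mapP (Polynomial.C (Polynomial.C d))) =
        HahnSeries.C (e.φ d) from fun d => by
          simp [mapP, biEval, HahnSeries.algebraMap_apply', HahnSeries.C_apply]]
      rw [HahnSeries.C_apply, HahnSeries.C_apply, HahnSeries.coeff_single_zero_mul,
        HahnSeries.coeff_single_zero_mul, ← hQ₁, ← hQ₂]
      ring
    | monomial k a =>
      induction a using Polynomial.induction_on' with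
      | add a₁ a₂ h1 h2 =>
        obtain ⟨d₁, Q₁, hd₁, hQ₁⟩ := h1
        obtain ⟨d₂, Q₂, hd₂, hQ₂⟩ := h2
        refine ⟨d₁ * d₂,
          Polynomial.C (Polynomial.C d₂) * Q₁ + Polynomial.C (Polynomial.C d₁) * Q₂,
          mul_ne_zero hd₁ hd₂, fun m => ?_⟩
        simp only [map_add, map_mul, HahnSeries.coeff_add, Subfield.coe_add]
        rw [show ∀ d : O, biEval jq J (e.mapP (Polynomial.C (Polynomial.C d))) =
          HahnSeries.C (e.φ d) from fun d => by
            simp [mapP, biEval, HahnSeries.algebraMap_apply', HahnSeries.C_apply]]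
        rw [show ∀ d : O, biEval jq J (e.mapP (Polynomial.C (Polynomial.C d))) =
          HahnSeries.C (e.φ d) from fun d => by
            simp [mapP, biEval, HahnSeries.algebraMap_apply', HahnSeries.C_apply]]
        rw [HahnSeries.C_apply, HahnSeries.C_apply, HahnSeries.coeff_single_zero_mul,
          HahnSeries.coeff_single_zero_mul, ← hQ₁, ← hQ₂]
        ring
      | monomial i c =>
        obtain ⟨u, d, hd, hu⟩ := exists_div_of_mem_fracField (π c).2
        refine ⟨d, Polynomial.monomial k (Polynomial.monomial i u), hd, fun m => ?_⟩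
        have hsplit : ∀ c : ℂ, biEval jq J (Polynomial.monomial k (Polynomial.monomial i c)) =
            HahnSeries.C c * biEval jq J (e.mapP (Polynomial.monomial k (Polynomial.monomial i 1))) :=
          fun c => by
            simp [mapP, biEval, Polynomial.aeval_monomial, HahnSeries.algebraMap_apply',
              HahnSeries.C_apply]
            simp only [← HahnSeries.C_mul_eq_smul]
            ring
        rw [show e.mapP (Polynomial.monomial k (Polynomial.monomial i u)) =
          Polynomial.monomial k (Polynomial.monomial i (e.φ u)) by simp [mapP],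
          hsplit c, hsplit (e.φ u), ← e.lmap_evO, HahnSeries.C_apply, HahnSeries.C_apply,
          HahnSeries.coeff_single_zero_mul, HahnSeries.coeff_single_zero_mul, lmap_coeff,
          mul_comm c, hπmul _ _ (e.φ_mem_fracField _), ← hu]
        ring
  obtain ⟨P, -, hP⟩ := exists_interp (⟨G, hG⟩ : modFuns (Gamma0 p))
  have hj := hasQSeries_jNFun p
  set D := Polynomial.derivative (phiO O p)
  have hD : e.mapP D = Polynomial.derivative (modPoly p) := by
    rw [← e.mapP_phiO, mapP, Polynomial.coe_mapRingHom, Polynomial.derivative_map]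
  have hser : lmap e.φ (g * evO p D) = biEval jq J P := by
    rw [map_mul, e.lmap_evO, hD]
    exact (((hg.mul (hasQSeries_biEval (F := jNMF p) hj _))).congr (.of_forall fun τ =>
      congrFun (congrArg Subtype.val hP) τ)).unique one_pos (hasQSeries_biEval hj P)
  obtain ⟨d, Q, hd, hQ⟩ := hproj P
  have heq : HahnSeries.C d * (g * evO p D) = evO p Q := lmap_injective e.injective (by
    ext m
    rw [map_mul, lmap_C, HahnSeries.C_apply, HahnSeries.coeff_single_zero_mul, e.lmap_evO, ← hQ m,
      ← hser, hπK _ (by rw [lmap_coeff]; exact e.φ_mem_fracField _)])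
  have hE := congrArg e.evalL heq
  rw [map_mul, map_mul, e.evalL_C, e.evalL_evO, e.evalL_evO, hD] at hE
  have hfun : algebraMap ℂ (modFuns (Gamma0 p)) (e.φ d) * (⟨G, hG⟩ *
      biEval (jMF (Gamma0 p)) (jNMF p) (Polynomial.derivative (modPoly p))) =
        biEval (jMF (Gamma0 p)) (jNMF p) (e.mapP Q) := by
    refine Subtype.ext (eq_of_hasQSeries (algebraMap ℂ (modFuns (Gamma0 p)) (e.φ d) * (⟨G, hG⟩ *
      biEval (jMF (Gamma0 p)) (jNMF p) (Polynomial.derivative (modPoly p)))).2.holo
      (biEval (jMF (Gamma0 p)) (jNMF p) (e.mapP Q)).2.holo ?_ (hasQSeries_biEval hj _))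
    rw [← e.lmap_evO, ← heq, map_mul, lmap_C, map_mul, e.lmap_evO, hD]
    exact (hg.mul (hasQSeries_biEval (F := jNMF p) hj _)).smul (e.φ d)
  have hT := congrArg x.tayAlg hfun
  rw [map_mul, map_mul, AlgHom.commutes, map_biEval, map_biEval, hx.jp, hx.j] at hT
  rw [← hx.a_eq] at hT
  rw [← hT] at hE
  have hCd : IsUnit (PowerSeries.C (e.φ d) : PowerSeries ℂ) :=
    (isUnit_iff_ne_zero.mpr ((map_ne_zero_iff _ e.injective).mpr hd)).map _
  have h1 := hCd.mul_left_cancel (hE.trans (by rfl))
  have hu := x.isUnit_biEval_derivative x.constantCoeff_tayAlg_jNMF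
  rw [hx.jp, hx.j, ← hx.a_eq] at hu
  exact hu.mul_right_cancel h1

end EvalPoint

end Fermat.Agent.Mazur3
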