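import Fermat.Agent.Mazur3.EvalModFun
import Fermat.Agent.Mazur3.Class
import Fermat.Agent.Mazur3.Descent.Basic

/-!
# The class of a point near infinity at a place

At a place over `q` where the point is on the branch through infinity, a class with a
representative having an integral series has a canonical value at the point: the value of the
series. It differs from the leading value by a root of unity, and the Kummer class of the point
becomes the coboundary of these exponents on the decomposition group.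
-/

set_option autoImplicit false
set_option linter.unusedSectionVars false

noncomputable section

namespace Fermat.Agent.Mazur3

open GalRep IsLocalRing
open Fermat.Agent.Galois (GQ)
open UpperHalfPlane CongruenceSubgroup
open scoped MatrixGroups Manifold

local notation "ℚb" => AlgebraicClosure ℚ

/-! ## Generalities -/

theorem lead_C (c : ℂ) : lead (PowerSeries.C c) = c := by
  rcases eq_or_ne c 0 with rfl | hc
  · rw [map_zero, lead, PowerSeries.divXPowOrder_zero, map_zero]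
  · rw [lead, PowerSeries.constantCoeff_divXPowOrder,
      PowerSeries.order_zero_of_unit ((isUnit_iff_ne_zero.mpr hc).map _)]
    simp

theorem exists_root_unity_powerSeries {n : ℕ} [NeZero n] {a b : PowerSeries ℂ} (hb : b ≠ 0)
    (h : a ^ n = b ^ n) : ∃ ω : ℂ, ω ^ n = 1 ∧ a = PowerSeries.C ω * b := by
  obtain ⟨ω, hω, h'⟩ := exists_root_unity_of_pow_eq (n := n)
    (a := HahnSeries.ofPowerSeries ℤ ℂ a) (b := HahnSeries.ofPowerSeries ℤ ℂ b)
    ((map_ne_zero_iff _ HahnSeries.ofPowerSeries_injective).mpr hb)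
    (by rw [← map_pow, ← map_pow, h])
  refine ⟨ω, hω, HahnSeries.ofPowerSeries_injective (Γ := ℤ) ?_⟩
  rw [map_mul, HahnSeries.ofPowerSeries_C]
  exact h'

variable {L : IntermediateField ℚ (AlgebraicClosure ℚ)}

/-- The image of a number field in `ℂ`. -/
def imC (L : IntermediateField ℚ (AlgebraicClosure ℚ)) : Subfield ℂ :=
  (qbarToC.comp (L.val : L →+* AlgebraicClosure ℚ)).fieldRange

theorem mem_imC {z : ℂ} : z ∈ imC L ↔ ∃ y ∈ L, qbarToC y = z :=
  ⟨fun ⟨y, hy⟩ => ⟨y, y.2, hy⟩, fun ⟨y, hy, h⟩ => ⟨⟨y, hy⟩, h⟩⟩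

/-- A number fixed by the automorphisms fixing `L` lies in `L`. -/
theorem mem_imC_of_fixed [FiniteDimensional ℚ L] {z : ℂ}
    (h : ∀ σ : ℂ ≃+* ℂ, (∀ y ∈ L, σ (qbarToC y) = qbarToC y) → σ z = z) : z ∈ imC L := by
  classical
  let Φ : (ℂ ≃+* ℂ) → (L →ₐ[ℚ] ℂ) := fun σ =>
    (σ.toRingHom.comp (qbarToC.comp (L.val : L →+* ℚb))).toRatAlgHom
  have hΦ : ∀ σ τ : ℂ ≃+* ℂ, Φ σ = Φ τ → σ z = τ z := fun σ τ hστ => by
    have h1 := h (σ.trans τ.symm) fun y hy => by
      rw [RingEquiv.trans_apply, RingEquiv.symm_apply_eq]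
      exact AlgHom.congr_fun hστ ⟨y, hy⟩
    rwa [RingEquiv.trans_apply, RingEquiv.symm_apply_eq] at h1
  have hfin : (Set.range fun σ : ℂ ≃+* ℂ => σ z).Finite := by
    refine (Set.finite_range fun g : L →ₐ[ℚ] ℂ =>
      if hg : ∃ σ, Φ σ = g then hg.choose z else 0).subset ?_
    rintro _ ⟨σ, rfl⟩
    have hσ : ∃ τ, Φ τ = Φ σ := ⟨σ, rfl⟩
    exact ⟨Φ σ, by simp only [dif_pos hσ]; exact hΦ _ _ hσ.choose_spec⟩
  obtain ⟨y, hy⟩ := exists_qbarToC_eq (isAlgebraic_of_finite_orbit hfin)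
  refine mem_imC.mpr ⟨y, ?_, hy⟩
  rw [← InfiniteGalois.fixedField_fixingSubgroup L]
  intro s
  refine qbarToC_injective ?_
  show qbarToC ((s : GQ) y) = qbarToC y
  rw [← liftAut_spec, hy]
  exact h _ fun w hw => by rw [liftAut_spec]; exact congrArg qbarToC (s.2 ⟨w, hw⟩)

theorem lmap_seriesToC_eq_self {σ : ℂ ≃+* ℂ} (hσ : ∀ y ∈ L, σ (qbarToC y) = qbarToC y)
    {g : LaurentSeries ℚb} (hg : g ∈ LSer L) :
    lmap σ.toRingHom (seriesToC g) = seriesToC g := by
  ext m
  exact hσ _ (mem_LSer.mp hg m)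

variable {N n : ℕ} [NeZero N] [NeZero n]

/-- The field contains what is needed at level `n` for the point. -/
structure Rich (x : RatPoint N) (n : ℕ) [NeZero n]
    (L : IntermediateField ℚ (AlgebraicClosure ℚ)) : Prop where
  root : ∀ a : ZMod n, ZMod.stdAddChar a ∈ imC L
  val : ∀ χ : ParHom N (ZMod n), x.val (normalRep χ) ∈ imC L
  series : ∀ χ : ParHom N (ZMod n), ∃ f ∈ LSer L, seriesToC f = normalSeries χ

theorem exists_rich (x : RatPoint N) (n : ℕ) [NeZero n] :
    ∃ L₀ : IntermediateField ℚ ℚb, FiniteDimensional ℚ L₀ ∧ ∀ L, L₀ ≤ L → Rich x n L := by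
  obtain ⟨L₁, hL₁, h₁⟩ := exists_finite_level (N := N) (n := n)
  choose y hy using fun χ : ParHom N (ZMod n) =>
    exists_qbarToC_eq (x.isAlgebraic_val_normalRep χ)
  have hz : ∀ a : ZMod n, IsAlgebraic ℚ (ZMod.stdAddChar a : ℂ) := fun a =>
    (IsIntegral.of_pow (NeZero.pos n) (by
      rw [← AddChar.map_nsmul_eq_pow, nsmul_eq_mul, ZMod.natCast_self, zero_mul,
        AddChar.map_zero_eq_one]
      exact isIntegral_one)).isAlgebraic
  choose r hr using fun a : ZMod n => exists_qbarToC_eq (hz a)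
  set S := Set.range y ∪ Set.range r
  have : FiniteDimensional ℚ (IntermediateField.adjoin ℚ S) :=
    haveI : Finite S := ((Set.finite_range y).union (Set.finite_range r)).to_subtype
    IntermediateField.finiteDimensional_adjoin fun w _ =>
      (Algebra.IsAlgebraic.isAlgebraic w).isIntegral
  refine ⟨L₁ ⊔ IntermediateField.adjoin ℚ S, inferInstance, fun L hL => ?_⟩
  have hS : S ⊆ L := fun w hw => hL ((le_sup_right : IntermediateField.adjoin ℚ S ≤ _)
    (IntermediateField.subset_adjoin ℚ S hw))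
  refine ⟨fun a => mem_imC.mpr ⟨r a, hS (.inr ⟨a, rfl⟩), hr a⟩,
    fun χ => mem_imC.mpr ⟨y χ, hS (.inl ⟨χ, rfl⟩), hy χ⟩, fun χ => ?_⟩
  obtain ⟨F, f, hF⟩ := exists_algebraic_rep χ
  have hn : seriesToC f = normalSeries χ := hF.series_unique (normalRep_spec χ)
  refine ⟨f, mem_LSer.mpr fun k => hL ((le_sup_left : L₁ ≤ _) ?_), hn⟩
  rw [← InfiniteGalois.fixedField_fixingSubgroup L₁]
  intro s
  have h1 := lmap_normalSeries (liftAut (s : GQ)) χ
  rw [h₁ s (fun w hw => s.2 ⟨w, hw⟩) χ, ← hn, lmap_seriesToC (liftAut_spec (s : GQ))] at h1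
  exact congrArg (fun g : LaurentSeries ℚb => g.coeff k) (seriesToC_injective h1)

namespace RatPoint

variable (x : RatPoint N) [FiniteDimensional ℚ L]

theorem coeff_tay_mem {G : ℍ → ℂ} {g : LaurentSeries ℚb} (hG : IsModFun (Gamma0 N) G)
    (hgs : HasQSeries 1 G (seriesToC g)) (hg : g ∈ LSer L) (k : ℕ) :
    PowerSeries.coeff k (x.tay G) ∈ imC L :=
  mem_imC_of_fixed fun σ hσ => by
    have h := x.map_tay_modFun σ hG hG hgs (by rw [lmap_seriesToC_eq_self hσ hg]; exact hgs)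
    have h' := congrArg (PowerSeries.coeff k) h
    rwa [PowerSeries.coeff_map] at h'

theorem val_modFun_mem {G : ℍ → ℂ} {g : LaurentSeries ℚb} (hG : IsModFun (Gamma0 N) G)
    (hgs : HasQSeries 1 G (seriesToC g)) (hg : g ∈ LSer L) : x.val G ∈ imC L :=
  mem_imC_of_fixed fun σ hσ =>
    x.val_modFun σ hG hG hgs (by rw [lmap_seriesToC_eq_self hσ hg]; exact hgs)

theorem val_rep_mem (hL : Rich x n L) {χ : ParHom N (ZMod n)} {F : ℍ → ℂ} {f : LaurentSeries ℚb}
    (hF : IsKummerRep N n χ F) (hfs : HasQSeries 1 F (seriesToC f)) (hf : f ∈ LSer L) :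
    x.val F ∈ imC L := by
  obtain ⟨f₀, hf₀, hn⟩ := hL.series χ
  have h := normalRep_spec χ
  have hmod : IsModFun (Gamma0 N) (F * normalRep χ ^ (n - 1)) := by
    have := hF.mul (h.rep.pow (n - 1))
    rw [add_pred_nsmul_eq_zero] at this
    exact this.isModFun
  have h0 : x.val (normalRep χ) ≠ 0 := x.val_ne_zero h.rep.holo h.rep.ne_zero
  have := x.val_modFun_mem hmod
    (hasQSeries_mul_seriesToC hfs (hasQSeries_pow_seriesToC (hn ▸ h.series) (n - 1)))
    (mul_mem hf (pow_mem hf₀ _))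
  rw [x.val_mul hF.holo (h.rep.holo.pow _), x.val_pow h.rep.holo] at this
  have h2 := mul_mem this (inv_mem (pow_mem (hL.val χ) (n - 1)))
  rwa [mul_inv_cancel_right₀ (pow_ne_zero _ h0)] at h2

end RatPoint

/-! ## Exponents of integral representatives -/

namespace Base

variable {q : ℕ} {A : ValuationSubring (AlgebraicClosure ℚ)}

/-- The point as a centre of evaluation over the base. -/
theorem exists_evalPoint [Fact q.Prime] (B : Base q A L) (hA : A.LiesOverPrime q) {a : ℚ}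
    (ha : padicValRat q a < 0) : ∃ e : EvalPoint B.O, e.φ = B.φ ∧ e.a = a := by
  have ha0 : a ≠ 0 := fun h => by simp [h] at ha
  have hpos : 0 < padicValRat q a⁻¹ := by rw [padicValRat.inv]; omega
  have hlt : A.valuation ((a⁻¹ : ℚ) : ℚb) < 1 :=
    (val_lt_one_iff A hA (inv_ne_zero ha0)).mpr hpos
  obtain ⟨t, ht, hiff⟩ := B.lift ((a⁻¹ : ℚ) : ℚb) (SubfieldClass.ratCast_mem L.toSubfield _)
    ((A.valuation_le_one_iff _).mp hlt.le)
  refine ⟨⟨B.φ, B.injective, a, t, hiff.mp hlt, ?_⟩, rfl, rfl⟩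
  rw [ht, map_ratCast, ← Rat.cast_mul, inv_mul_cancel₀ ha0, Rat.cast_one]

/-- A representative with a series over the base. -/
def IntRep (B : Base q A L) (χ : ParHom N (ZMod n)) : Prop :=
  ∃ (F : ℍ → ℂ) (f : LaurentSeries ℚb) (g : LaurentSeries B.O), IsKummerRep N n χ F ∧
    HasQSeries 1 F (seriesToC f) ∧ f ∈ LSer L ∧ lmap B.φ g = seriesToC f

variable (B : Base q A L)

theorem exists_lift_series {f : LaurentSeries ℚb} (hf : f ∈ LSer L) (hint : SeriesIntegral A f) :
    ∃ g : LaurentSeries B.O, lmap B.φ g = seriesToC f := by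
  choose o ho _ using fun k : ℤ => B.lift (f.coeff k) (mem_LSer.mp hf k) (hint k)
  refine ⟨⟨o, f.isPWO_support.mono fun k hk h0 => hk (B.injective ?_)⟩, ?_⟩
  · rw [ho, h0, map_zero, map_zero]
  · ext k; exact ho k

theorem coeff_mem_of_lift {f : LaurentSeries ℚb} (hf : f ∈ LSer L) {g : LaurentSeries B.O}
    (hg : lmap B.φ g = seriesToC f) (k : ℤ) : f.coeff k ∈ A :=
  B.mem_of_φ_eq (mem_LSer.mp hf k) (congrArg (fun s : LaurentSeries ℂ => s.coeff k) hg)

variable {B}

/-- A constant times an integral series is an integral representative. -/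
theorem intRep_of_root_series {χ : ParHom N (ZMod n)} {F : ℍ → ℂ} {f : LaurentSeries ℚb} {t : ℚb}
    {b : ℤ} {g : PowerSeries B.O} (hF : IsKummerRep N n χ F) (hfs : HasQSeries 1 F (seriesToC f))
    (hf : f ∈ LSer L) (htL : t ∈ L) (ht : t ≠ 0)
    (hfg : seriesToC f = HahnSeries.single b (qbarToC t) * toLaurent B.φ g) : B.IntRep χ := by
  refine ⟨fun τ => qbarToC t⁻¹ * F τ, HahnSeries.C t⁻¹ * f,
    HahnSeries.single b 1 * HahnSeries.ofPowerSeries ℤ B.O g,
    hF.const_mul ((map_ne_zero _).mpr (inv_ne_zero ht)), ?_,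
    mul_mem (C_mem_LSer (inv_mem htL)) hf, ?_⟩
  · rw [seriesToC_eq_lmap, map_mul, lmap_C, ← seriesToC_eq_lmap]
    exact hfs.smul _
  · rw [map_mul, lmap_single_nat, map_one, ← toLaurent_eq_lmap, seriesToC_eq_lmap, map_mul,
      lmap_C, ← seriesToC_eq_lmap, hfg, ← mul_assoc, HahnSeries.C_apply,
      HahnSeries.single_mul_single, zero_add, map_inv₀, inv_mul_cancel₀ ((map_ne_zero _).mpr ht)]

theorem MultDvd.intRep_of_unit {χ : ParHom N (ZMod n)} (h : B.MultDvd χ)
    (hn : IsUnit (n : B.O)) : B.IntRep χ := by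
  obtain ⟨F, f, t, b, g, hF, hfs, hf, htL, ht, -, hfg⟩ := h.exists_series_of_unit hn
  exact intRep_of_root_series hF hfs hf htL ht hfg

theorem MultDvd.intRep_of_connected {χ : ParHom N (ZMod n)} (h : B.MultDvd χ) (hq : q.Prime)
    (hA : A.LiesOverPrime q) (hc : B.Connected χ) : B.IntRep χ := by
  obtain ⟨F, f, t, b, g, hF, hfs, hf, htL, ht, -, hfg⟩ := h.exists_root_series fun u hu => by
    obtain ⟨y, hy, hyu⟩ := hu.unique hq hA hc
    exact ⟨y, hy, by rw [← hyu, one_mul]⟩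
  exact intRep_of_root_series hF hfs hf htL ht hfg

variable (B) [FiniteDimensional ℚ L] [Fact N.Prime] {x : RatPoint N} {e : EvalPoint B.O}

/-- The exponent relating the value of a series to the leading value. -/
def IsExp (x : RatPoint N) (e : EvalPoint B.O) (χ : ParHom N (ZMod n)) (z : ZMod n) : Prop :=
  ∃ (F : ℍ → ℂ) (f : LaurentSeries ℚb) (g : LaurentSeries B.O), IsKummerRep N n χ F ∧
    HasQSeries 1 F (seriesToC f) ∧ f ∈ LSer L ∧ lmap B.φ g = seriesToC f ∧
    lead (e.evalL g) = ZMod.stdAddChar z * x.val F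

variable {B}

theorem evalL_pow_eq (hφ : e.φ = B.φ) (hx : e.Fits x) {χ : ParHom N (ZMod n)} {F : ℍ → ℂ}
    {f : LaurentSeries ℚb} {g : LaurentSeries B.O} (hF : IsKummerRep N n χ F)
    (hfs : HasQSeries 1 F (seriesToC f)) (hg : lmap B.φ g = seriesToC f) :
    e.evalL g ^ n = x.tay (F ^ n) := by
  rw [← map_pow]
  refine e.evalL_eq_tay hx hF.isModFun_pow ?_
  rw [hφ, map_pow, hg]
  exact hfs.pow n

theorem exists_isExp (hφ : e.φ = B.φ) (hx : e.Fits x) {χ : ParHom N (ZMod n)}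
    (h : B.IntRep χ) : ∃ z, B.IsExp x e χ z := by
  obtain ⟨F, f, g, hF, hfs, hf, hg⟩ := h
  have h0 := x.val_ne_zero hF.holo hF.ne_zero
  obtain ⟨z, hz⟩ := exists_stdAddChar_eq (n := n) (r := lead (e.evalL g) / x.val F) (by
    rw [div_pow, ← lead_pow, B.evalL_pow_eq hφ hx hF hfs hg, ← x.val_pow hF.holo]
    exact div_self (x.val_ne_zero (hF.holo.pow n) (pow_ne_zero _ hF.ne_zero)))
  exact ⟨z, F, f, g, hF, hfs, hf, hg, by rw [hz, div_mul_cancel₀ _ h0]⟩

theorem IsExp.add {χ χ' : ParHom N (ZMod n)} {z z' : ZMod n} (h : B.IsExp x e χ z)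
    (h' : B.IsExp x e χ' z') : B.IsExp x e (χ + χ') (z + z') := by
  obtain ⟨F, f, g, hF, hfs, hf, hg, hz⟩ := h
  obtain ⟨F', f', g', hF', hfs', hf', hg', hz'⟩ := h'
  refine ⟨F * F', f * f', g * g', hF.mul hF', hasQSeries_mul_seriesToC hfs hfs', mul_mem hf hf',
    by rw [map_mul, hg, hg', seriesToC_eq_lmap, seriesToC_eq_lmap, seriesToC_eq_lmap, map_mul],
    ?_⟩
  rw [map_mul, lead_mul, hz, hz', x.val_mul hF.holo hF'.holo, AddChar.map_add_eq_mul]
  ring

theorem IsExp.unique (hφ : e.φ = B.φ) (hx : e.Fits x) {χ : ParHom N (ZMod n)} {z z' : ZMod n}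
    (h : B.IsExp x e χ z) (h' : B.IsExp x e χ z') : z = z' := by
  obtain ⟨F, f, g, hF, hfs, hf, hg, hz⟩ := h
  obtain ⟨F', f', g', hF', hfs', hf', hg', hz'⟩ := h'
  have hmod : IsModFun (Gamma0 N) (F * F' ^ (n - 1)) := by
    have := hF.mul (hF'.pow (n - 1))
    rw [add_pred_nsmul_eq_zero] at this
    exact this.isModFun
  have h1 := congrArg lead (e.evalL_eq_tay hx hmod (g := g * g' ^ (n - 1)) (by
    rw [hφ, map_mul, map_pow, hg, hg']; exact hfs.mul (hfs'.pow _)))
  rw [map_mul, map_pow, lead_mul, lead_pow, hz, hz'] at h1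
  change _ = x.val (F * F' ^ (n - 1)) at h1
  rw [x.val_mul hF.holo (hF'.holo.pow _), x.val_pow hF'.holo] at h1
  have h0 : x.val F * x.val F' ^ (n - 1) ≠ 0 :=
    mul_ne_zero (x.val_ne_zero hF.holo hF.ne_zero)
      (pow_ne_zero _ (x.val_ne_zero hF'.holo hF'.ne_zero))
  have h2 : ZMod.stdAddChar z * ZMod.stdAddChar z' ^ (n - 1) = (1 : ℂ) := by
    refine mul_right_cancel₀ h0 ?_
    rw [one_mul]
    linear_combination h1
  rw [← AddChar.map_nsmul_eq_pow, ← AddChar.map_add_eq_mul, ← AddChar.map_zero_eq_one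
    (ZMod.stdAddChar (N := n))] at h2
  have h3 := ZMod.injective_stdAddChar h2
  rw [nsmul_eq_mul, Nat.cast_sub NeZero.one_le, ZMod.natCast_self] at h3
  linear_combination h3

/-- On the decomposition group the class is the coboundary of the exponents. -/
theorem IsExp.galois [Normal ℚ L] (hφ : e.φ = B.φ) (hx : e.Fits x) (hL : Rich x n L)
    {χ : ParHom N (ZMod n)} {z : ZMod n} (h : B.IsExp x e χ z) {s : GQ}
    (hs : s ∈ A.decompositionSubgroup ℚ) {m : ZMod n}
    (hm : ∀ b : ZMod n, liftAut s (ZMod.stdAddChar b) = ZMod.stdAddChar (m * b)) :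
    B.IsExp x e (autChar (liftAut s) χ) (x.kClass (liftAut s) χ + m * z) := by
  obtain ⟨F, f, g, hF, hfs, hf, hg, hz⟩ := h
  obtain ⟨F', hF', hfs', -⟩ := autChar_spec (liftAut s) hF hfs
  have hk := x.kClass_spec_rep hF hfs hF' hfs'
  rw [lmap_seriesToC (liftAut_spec s)] at hfs'
  have hfA : ∀ {y : ℚb}, y ∈ A → s y ∈ A := fun {y} hy =>
    ((⟨s, hs⟩ : A.decompositionSubgroup ℚ) • (⟨y, hy⟩ : A)).2
  obtain ⟨g', hg'⟩ := B.exists_lift_series (seriesConj_mem_LSer s hf)
    fun k => hfA (B.coeff_mem_of_lift hf hg k)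
  refine ⟨F', _, g', hF', hfs', seriesConj_mem_LSer s hf, hg', ?_⟩
  have hgc : ∀ k, e.φ (g.coeff k) = qbarToC (f.coeff k) := fun k => by
    rw [hφ]; exact congrArg (fun s : LaurentSeries ℂ => s.coeff k) hg
  have hgc' : ∀ k, e.φ (g'.coeff k) = qbarToC (s (f.coeff k)) := fun k => by
    rw [hφ]; exact congrArg (fun s : LaurentSeries ℂ => s.coeff k) hg'
  have hlead : lead (e.evalL g) ∈ imC L := by
    rw [hz]; exact mul_mem (hL.root z) (x.val_rep_mem hL hF hfs hf)
  have hpow := B.evalL_pow_eq hφ hx hF hfs hg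
  have hne : e.evalL g ≠ 0 := fun h0 => x.val_ne_zero (hF.holo.pow n)
    (pow_ne_zero _ hF.ne_zero) (by
      rw [RatPoint.val, ← hpow, h0, zero_pow (NeZero.ne n), lead,
        PowerSeries.divXPowOrder_zero, map_zero])
  have hval : ∀ k, PowerSeries.coeff k (e.evalL g) ∈ imC L := fun k =>
    mem_imC_of_fixed fun σ hσ => by
      have hfix : PowerSeries.map σ.toRingHom (x.tay (F ^ n)) = x.tay (F ^ n) :=
        x.map_tay_modFun σ hF.isModFun_pow hF.isModFun_pow (hfs.pow n)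
          (by rw [map_pow, lmap_seriesToC_eq_self hσ hf]; exact hfs.pow n)
      rw [← hpow, map_pow] at hfix
      obtain ⟨ω, -, hω⟩ := exists_root_unity_powerSeries hne hfix
      have h1 := congrArg lead hω
      obtain ⟨y, hy, hyl⟩ := mem_imC.mp hlead
      rw [lead_map, lead_mul, lead_C, ← hyl, hσ y hy, hyl] at h1
      rw [(mul_eq_right₀ (lead_ne_zero hne)).mp h1.symm, map_one, one_mul] at hω
      have h2 := congrArg (PowerSeries.coeff k) hω
      rwa [PowerSeries.coeff_map] at h2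
  have hE : PowerSeries.map (liftAut s).toRingHom (e.evalL g) = e.evalL g' := by
    refine e.map_evalL_conj (Lc := imC L) (fun k => ?_) (fun k => ?_) (fun o ho => ?_)
      ⟨PowerSeries.mk fun k => ⟨_, hval k⟩, PowerSeries.ext fun k => by simp⟩
    · rw [hgc]; exact mem_imC.mpr ⟨_, mem_LSer.mp hf k, rfl⟩
    · rw [hgc, hgc']; exact liftAut_spec s _
    · obtain ⟨y, hy, hyo⟩ := mem_imC.mp ho
      rw [hφ] at hyo
      have hsy : s y ∈ L := by
        have := mem_LSer.mp (seriesConj_mem_LSer s (C_mem_LSer hy)) 0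
        simpa [seriesConj, HahnSeries.C_apply] using this
      obtain ⟨o', ho', -⟩ := B.lift (s y) hsy (hfA (B.mem_of_φ_eq hy hyo.symm))
      refine ⟨o', ?_⟩
      rw [hφ, ho', ← hyo]
      exact liftAut_spec s y
  rw [← hE, lead_map, hz, map_mul, ← hk, hm, AddChar.map_add_eq_mul]
  ring

end Base

end Fermat.Agent.Mazur3
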