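import Fermat.Agent.Mazur3.UnitPartMaps
import Fermat.Agent.GalRep.KummerIntegral
import Fermat.Agent.GalRep.KummerCongr
import Fermat.Agent.GalRep.Model.BaseField

/-!
# Unit parts of series with coefficients in a number field

A complete base at a place `A` over `η` containing the integers of a number field `L`, and the unit
part of a series with coefficients in `L` that can be normalised at `A`.
-/

set_option autoImplicit false

noncomputable section

namespace Fermat.Agent.Mazur3

open GalRep PowerSeries IsLocalRing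
open Fermat.Agent.Galois (GQ)

local notation "ℚb" => AlgebraicClosure ℚ

/-- Series with coefficients in `L`. -/
def LSer (L : IntermediateField ℚ (AlgebraicClosure ℚ)) :
    Subfield (LaurentSeries (AlgebraicClosure ℚ)) :=
  (lmap (L.val : L →+* AlgebraicClosure ℚ)).fieldRange

variable {L : IntermediateField ℚ ℚb}

theorem mem_LSer {f : LaurentSeries ℚb} : f ∈ LSer L ↔ ∀ k, f.coeff k ∈ L := by
  constructor
  · rintro ⟨g, rfl⟩ k
    exact (g.coeff k).2
  · intro h
    exact ⟨⟨fun k => ⟨f.coeff k, h k⟩, f.isPWO_support.mono fun k hk h0 => hk (Subtype.ext h0)⟩,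
      by ext k; rfl⟩

theorem C_mem_LSer {x : ℚb} (hx : x ∈ L) : (HahnSeries.C x : LaurentSeries ℚb) ∈ LSer L :=
  ⟨HahnSeries.C (⟨x, hx⟩ : L), lmap_C _ _⟩

theorem expand_mem_LSer {a : ℕ} (ha : a ≠ 0) {f : LaurentSeries ℚb} (hf : f ∈ LSer L) :
    expand a ha f ∈ LSer L := by
  obtain ⟨g, rfl⟩ := hf
  exact ⟨expand a ha g, lmap_expand _ _ _ _⟩

theorem of_expand_mem_LSer {a : ℕ} (ha : a ≠ 0) {f : LaurentSeries ℚb}
    (hf : expand a ha f ∈ LSer L) : f ∈ LSer L :=
  mem_LSer.mpr fun k => by rw [← expand_coeff_mul a ha f k]; exact mem_LSer.mp hf _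

theorem twist_mem_LSer {ζ : ℚbˣ} (hζ : (ζ : ℚb) ∈ L) {f : LaurentSeries ℚb} (hf : f ∈ LSer L) :
    twist ζ f ∈ LSer L :=
  mem_LSer.mpr fun k => by
    rw [twist_coeff, Units.val_zpow_eq_zpow_val]
    exact mul_mem (mem_LSer.mp hf k) (zpow_mem hζ k)

theorem seriesConj_mem_LSer [Normal ℚ L] (s : GQ) {f : LaurentSeries ℚb} (hf : f ∈ LSer L) :
    seriesConj s f ∈ LSer L := mem_LSer.mpr fun k => by
  have h1 := AlgEquiv.restrictNormal_commutes s L ⟨f.coeff k, mem_LSer.mp hf k⟩
  show s (f.coeff k) ∈ L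
  rw [show s (f.coeff k) = ((s.restrictNormal L) ⟨f.coeff k, mem_LSer.mp hf k⟩ : L) from h1.symm]
  exact SetLike.coe_mem _

/-- Integral at `A` with a unit coefficient. -/
def IsNormalised (A : ValuationSubring (AlgebraicClosure ℚ))
    (f : LaurentSeries (AlgebraicClosure ℚ)) : Prop :=
  SeriesIntegral A f ∧ ∃ k, f.coeff k ∉ A.nonunits

/-- Some multiple is normalised. -/
def CanNormalise (A : ValuationSubring (AlgebraicClosure ℚ))
    (f : LaurentSeries (AlgebraicClosure ℚ)) : Prop :=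
  ∃ c, IsNormalised A (HahnSeries.C c * f)

variable {A : ValuationSubring (AlgebraicClosure ℚ)}

theorem coeff_C_mul_series (c : ℚb) (f : LaurentSeries ℚb) (k : ℤ) :
    (HahnSeries.C c * f).coeff k = c * f.coeff k := by
  rw [HahnSeries.C_apply, HahnSeries.coeff_single_zero_mul]

/-- A normalised multiple can be taken over `L`. -/
theorem CanNormalise.exists_in_LSer {f : LaurentSeries ℚb} (hf : f ∈ LSer L)
    (h : CanNormalise A f) :
    ∃ c : ℚb, c ∈ L ∧ c ≠ 0 ∧ IsNormalised A (HahnSeries.C c * f) := by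
  obtain ⟨c, hint, k₀, hk₀⟩ := h
  rw [coeff_C_mul_series] at hk₀
  have hu : A.valuation (c * f.coeff k₀) = 1 := by
    refine le_antisymm ((A.valuation_le_one_iff _).mpr ?_) (not_lt.mp hk₀)
    exact coeff_C_mul_series c f k₀ ▸ hint k₀
  have hne : c * f.coeff k₀ ≠ 0 := fun h0 => by simp [h0] at hu
  obtain ⟨hc, hk⟩ := mul_ne_zero_iff.mp hne
  refine ⟨(f.coeff k₀)⁻¹, inv_mem (mem_LSer.mp hf k₀), inv_ne_zero hk, fun k => ?_, k₀, ?_⟩
  · rw [coeff_C_mul_series, ← A.valuation_le_one_iff,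
      show (f.coeff k₀)⁻¹ * f.coeff k = (c * f.coeff k) / (c * f.coeff k₀) by field_simp,
      map_div₀, hu, div_one, A.valuation_le_one_iff]
    exact coeff_C_mul_series c f k ▸ hint k
  · rw [coeff_C_mul_series, inv_mul_cancel₀ hk, A.mem_nonunits_iff, map_one]
    exact lt_irrefl 1

/-- A complete base at `A` containing the integers of `L`. -/
structure Base (η : ℕ) (A : ValuationSubring (AlgebraicClosure ℚ))
    (L : IntermediateField ℚ (AlgebraicClosure ℚ)) : Type 1 where
  O : Type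
  [instCommRing : CommRing O]
  [instDomain : IsDomain O]
  [instDVR : IsDiscreteValuationRing O]
  [instComplete : IsAdicComplete (maximalIdeal O) O]
  φ : O →+* ℂ
  injective : Function.Injective φ
  natCast_mem : (η : O) ∈ maximalIdeal O
  lift : ∀ x ∈ L, x ∈ A →
    ∃ o, φ o = qbarToC x ∧ (x ∈ A.nonunits ↔ o ∈ maximalIdeal O)

attribute [instance] Base.instCommRing Base.instDomain Base.instDVR Base.instComplete

theorem nonempty_base {η : ℕ} (hη : η.Prime) (hA : A.LiesOverPrime η)
    (L : IntermediateField ℚ ℚb) [FiniteDimensional ℚ L] : Nonempty (Base η A L) := by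
  obtain ⟨O, _, _, _, _, φ, h1, -, h2, h3⟩ :=
    Model.exists_base η hη A hA 1 hη.not_dvd_one L
  exact ⟨{ O := O, φ := φ, injective := h1, natCast_mem := h2,
           lift := fun x hx hxA => h3 x (Or.inl hx) hxA }⟩

namespace Base

variable {η : ℕ} (B : Base η A L)

theorem charZero : CharZero B.O :=
  ⟨fun a b h => Nat.cast_injective (R := ℂ) (by simpa using congrArg B.φ h)⟩

theorem isHausdorff : IsHausdorff (maximalIdeal B.O) B.O :=
  IsAdicComplete.toIsHausdorff

/-- The unit part of a series over `ℚ̄`. -/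
def SPart (f : LaurentSeries (AlgebraicClosure ℚ)) (u : B.O⟦X⟧) : Prop :=
  HasUnitPart B.φ (seriesToC f) u

variable {B} {f g : LaurentSeries ℚb} {u v : B.O⟦X⟧}

theorem SPart.unique (h : B.SPart f u) (h' : B.SPart f v) : u = v := by
  haveI := B.isHausdorff
  exact HasUnitPart.unique B.injective h h'

theorem SPart.constantCoeff_eq (h : B.SPart f u) : constantCoeff u = 1 := h.1

theorem SPart.isUnit (h : B.SPart f u) : IsUnit u := Mazur3.constantCoeff_isUnit h.1

theorem SPart.mul (h : B.SPart f u) (h' : B.SPart g v) : B.SPart (f * g) (u * v) := by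
  rw [SPart, seriesToC_eq_lmap, map_mul]
  exact HasUnitPart.mul h h'

theorem SPart.pow (h : B.SPart f u) (k : ℕ) : B.SPart (f ^ k) (u ^ k) := by
  rw [SPart, seriesToC_eq_lmap, map_pow]
  exact HasUnitPart.pow h k

theorem SPart.one : B.SPart 1 (1 : B.O⟦X⟧) := by
  rw [SPart, seriesToC_eq_lmap, map_one]
  exact HasUnitPart.one

theorem SPart.const_mul {c : ℚb} (hc : c ≠ 0) (h : B.SPart f u) :
    B.SPart (HahnSeries.C c * f) u := by
  have h1 : B.SPart (HahnSeries.C c) (1 : B.O⟦X⟧) := by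
    rw [SPart, seriesToC_eq_lmap, lmap_C, HahnSeries.C_apply]
    exact HasUnitPart.monomial ((map_ne_zero _).mpr hc) 0
  simpa only [one_mul] using h1.mul h

theorem SPart.of_const_mul {c : ℚb} (hc : c ≠ 0) (h : B.SPart (HahnSeries.C c * f) u) :
    B.SPart f u := by
  have := h.const_mul (inv_ne_zero hc)
  rwa [← mul_assoc, ← map_mul, inv_mul_cancel₀ hc, map_one, one_mul] at this

variable (B)

/-- The integral series over `O`, from the index `a` on. -/
theorem exists_series (hf : f ∈ LSer L) (hint : SeriesIntegral A f) {a : ℤ}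
    (ha : ∀ k < a, f.coeff k = 0) :
    ∃ F : B.O⟦X⟧, seriesToC f = HahnSeries.single a 1 * toLaurent B.φ F ∧
      ∀ n : ℕ, B.φ (coeff n F) = qbarToC (f.coeff ((n : ℤ) + a)) ∧
        (f.coeff ((n : ℤ) + a) ∈ A.nonunits ↔ coeff n F ∈ maximalIdeal B.O) := by
  choose o ho hoA using fun n : ℕ =>
    B.lift (f.coeff ((n : ℤ) + a)) (mem_LSer.mp hf _) (hint _)
  refine ⟨PowerSeries.mk o, ?_, fun n => by rw [coeff_mk]; exact ⟨ho n, hoA n⟩⟩
  ext k
  rw [show k = (k - a) + a by ring, HahnSeries.coeff_single_mul_add, one_mul]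
  show qbarToC (f.coeff (k - a + a)) = _
  rcases lt_or_ge (k - a) 0 with h | h
  · rw [coeff_toLaurent_neg B.φ _ h, ha _ (by omega), map_zero]
  · obtain ⟨n, hn⟩ := Int.eq_ofNat_of_zero_le h
    rw [hn, coeff_toLaurent_nat, coeff_mk, ho n]

theorem map_residue_ne_zero {F : B.O⟦X⟧} {n : ℕ} (h : coeff n F ∉ maximalIdeal B.O) :
    F.map (residue B.O) ≠ 0 := fun h0 => by
  have h1 := congrArg (coeff n) h0
  rw [coeff_map, map_zero, residue_eq_zero_iff] at h1
  exact h h1

theorem series_residue {F : B.O⟦X⟧} {a : ℤ} (hn : IsNormalised A f) (ha : ∀ k < a, f.coeff k = 0)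
    (hF : ∀ n : ℕ, f.coeff ((n : ℤ) + a) ∈ A.nonunits ↔ coeff n F ∈ maximalIdeal B.O) :
    F.map (residue B.O) ≠ 0 := by
  obtain ⟨-, k, hk⟩ := hn
  have hka : a ≤ k := by
    by_contra hlt
    exact hk (by rw [ha k (not_le.mp hlt), A.mem_nonunits_iff, map_zero]; exact zero_lt_one)
  obtain ⟨n, hn'⟩ := Int.eq_ofNat_of_zero_le (sub_nonneg.mpr hka)
  refine B.map_residue_ne_zero (n := n) fun h => hk ?_
  have := (hF n).mpr h
  rwa [show (n : ℤ) + a = k by omega] at this

/-- A normalisable series over `L` has a unit part. -/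
theorem exists_sPart (hf : f ∈ LSer L) (hn : CanNormalise A f) : ∃ u, B.SPart f u := by
  obtain ⟨c, hcL, hc, hn⟩ := hn.exists_in_LSer hf
  obtain ⟨F, hF, hF'⟩ := B.exists_series (mul_mem (C_mem_LSer hcL) hf) hn.1
    (a := (HahnSeries.C c * f).order) fun k hk => HahnSeries.coeff_eq_zero_of_lt_order hk
  obtain ⟨u, e, d, -, hu, -⟩ := exists_hasUnitPart (φ := B.φ) (one_ne_zero (α := ℂ)) B.injective
    (HahnSeries.C c * f).order (B.series_residue hn
      (fun k hk => HahnSeries.coeff_eq_zero_of_lt_order hk) fun n => (hF' n).2)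
  refine ⟨u, SPart.of_const_mul hc ?_⟩
  rw [Base.SPart, hF]
  exact hu

/-- Congruent normalised series have congruent unit parts. -/
theorem map_residue_sPart_eq (hf : f ∈ LSer L) (hg : g ∈ LSer L) (hn : IsNormalised A f)
    (hgi : SeriesIntegral A g) (hc : SeriesCongr A f g) (hu : B.SPart f u) (hv : B.SPart g v) :
    u.map (residue B.O) = v.map (residue B.O) := by
  haveI := B.isHausdorff
  set a := min f.order g.order
  have hfa : ∀ k < a, f.coeff k = 0 := fun k hk =>
    HahnSeries.coeff_eq_zero_of_lt_order (hk.trans_le (min_le_left _ _))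
  have hga : ∀ k < a, g.coeff k = 0 := fun k hk =>
    HahnSeries.coeff_eq_zero_of_lt_order (hk.trans_le (min_le_right _ _))
  obtain ⟨F, hF, hF'⟩ := B.exists_series hf hn.1 hfa
  obtain ⟨G, hG, hG'⟩ := B.exists_series hg hgi hga
  have hFG : F.map (residue B.O) = G.map (residue B.O) := PowerSeries.ext fun n => by
    rw [coeff_map, coeff_map, ← sub_eq_zero, ← map_sub, residue_eq_zero_iff]
    obtain ⟨o, ho, hoA⟩ := B.lift _ (sub_mem (mem_LSer.mp hf _) (mem_LSer.mp hg _))
      (A.sub_mem (hn.1 ((n : ℤ) + a)) (hgi _))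
    rw [show coeff n F - coeff n G = o from B.injective (by
      rw [map_sub, (hF' n).1, (hG' n).1, ho, map_sub])]
    exact hoA.mp (hc _)
  have hne := B.series_residue hn hfa fun n => (hF' n).2
  obtain ⟨u', e, d, he, hu', hur⟩ := exists_hasUnitPart (φ := B.φ) (one_ne_zero (α := ℂ))
    B.injective a hne
  obtain ⟨v', e', d', -, hv', hvr⟩ := exists_hasUnitPart (φ := B.φ) (one_ne_zero (α := ℂ))
    B.injective a (hFG ▸ hne)
  rw [← hF] at hu'
  rw [← hG] at hv'
  rw [hu.unique hu', hv.unique hv']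
  rw [hFG, hvr] at hur
  exact (map_unit_eq_of_red_eq (he.map _).ne_zero
    (by rw [← coeff_zero_eq_constantCoeff_apply, coeff_map, coeff_zero_eq_constantCoeff_apply,
      hu'.1, map_one])
    (by rw [← coeff_zero_eq_constantCoeff_apply, coeff_map, coeff_zero_eq_constantCoeff_apply,
      hv'.1, map_one]) hur.symm)

end Base

end Fermat.Agent.Mazur3
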