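import Fermat.Agent.GalRep.KummerGalois
import Fermat.Agent.GalRep.KummerIntegral
import Fermat.Agent.GalRep.Cyclo

/-!
# Characters with bounded Kummer series

A character is bounded at a place `A` if the series at infinity of one (equivalently every)
algebraic representative is a quotient of two series with coefficients in `A`.
-/

set_option autoImplicit false

noncomputable section

namespace Fermat.Agent.Mazur3

open GalRep
open Fermat.Agent.Galois (GQ)
open UpperHalfPlane CongruenceSubgroup

local notation "ℚb" => AlgebraicClosure ℚ

/-- Quotients of series with coefficients in `A`. -/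
def fracSeries (A : ValuationSubring (AlgebraicClosure ℚ)) :
    Subfield (LaurentSeries (AlgebraicClosure ℚ)) :=
  Subfield.closure (intSeriesA A : Set (LaurentSeries (AlgebraicClosure ℚ)))

/-- Some algebraic representative has a bounded series. -/
def IsBoundedChar (N n : ℕ) [NeZero N] [NeZero n] (A : ValuationSubring (AlgebraicClosure ℚ))
    (χ : ParHom N (ZMod n)) : Prop :=
  ∃ (F : ℍ → ℂ) (f : LaurentSeries ℚb), IsKummerRep N n χ F ∧ HasQSeries 1 F (seriesToC f) ∧
    f ∈ fracSeries A

/-- Inertia acts on bounded characters through the cyclotomic character. -/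
def BoundedInertia (p η : ℕ) [NeZero p] [Fact η.Prime] : Prop :=
  ∀ (K : ℕ) (A : ValuationSubring (AlgebraicClosure ℚ)), A.LiesOverPrime η →
    ∀ σ ∈ A.inertiaSubgroupIn ℚ, ∀ χ : ParHom p (ZMod (η ^ K)),
      IsBoundedChar p (η ^ K) A χ →
        (kummerGalois p (η ^ K)).galois σ χ = ((cyc η σ).val.toZModPow K).val • χ

end Fermat.Agent.Mazur3
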