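import Fermat.Agent.Mazur3.Dichotomy
import Fermat.Agent.Mazur3.Value

/-!
# The branch through infinity of the modular equation

The degrees in `X` of the coefficients of `Φ_p` show that, when `a` has a pole, `Φ_p(a, Y)` has
exactly one root of valuation `p` times that of `a`, and that this root is simple.
-/

set_option autoImplicit false
set_option linter.style.haveILetI false

noncomputable section

namespace Fermat.Agent.Mazur3

open UpperHalfPlane Polynomial Fermat.Agent.GalRep CongruenceSubgroup
open Fermat.Agent.Period (jFun Coset baseCoset)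
open scoped MatrixGroups

attribute [local instance] Classical.decEq

variable (p : ℕ) [hp : Fact p.Prime] [NeZero p]

local instance instFintypeCosetBranch : Fintype (Coset p) := Fintype.ofFinite _

/-- The coefficient polynomials of the modular equation. -/
def jCoeff (i : ℕ) : ℂ[X] := (modPoly p).coeff (p + 1 - i)

/-- The series of the conjugates of `j(pτ)`. -/
def nSer (q : Coset p) : LaurentSeries ℂ := serHom p (node q)

theorem nSer_mem_intLS (q : Coset p) : nSer p q ∈ intLS ∧
    (q = baseCoset p → Lead (nSer p q) (-((p : ℤ) * p)) 1) ∧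
    (q ≠ baseCoset p → ∀ m < (-1 : ℤ), (nSer p q).coeff m = 0) := by
  have hbase : nSer p (baseCoset p) =
      GalRep.expand p (NeZero.ne p) (GalRep.expand p (NeZero.ne p) jq) := serAlg_node_base
  have hjl : Lead jq (-1) 1 := ⟨fun m hm => HahnSeries.coeff_eq_zero_of_lt_order
    (by rw [order_jq]; exact hm), coeff_jq_neg_one⟩
  by_cases hq : q = baseCoset p
  · subst hq
    refine ⟨?_, fun _ => ?_, fun h => absurd rfl h⟩
    · rw [hbase]; exact expand_mem_intLS (expand_mem_intLS jq_mem_intLS _) _
    · rw [hbase]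
      have := (hjl.expand (NeZero.ne p)).expand (NeZero.ne p)
      convert this using 1
      ring
  · obtain ⟨g, rfl⟩ := QuotientGroup.mk_surjective q
    obtain ⟨a, d, b, ha, hd, had, heq, hmem⟩ := jNFun_smul_eq (N := p) g⁻¹
    rcases (Nat.dvd_prime hp.out).1 (Dvd.intro_left a had) with rfl | rfl
    · refine absurd ?_ hq
      rw [Period.baseCoset, QuotientGroup.eq, mul_one]
      exact hmem rfl
    have ha1 : a = 1 := Nat.eq_of_mul_eq_mul_right hd (by rw [had, one_mul])
    subst ha1
    set ζ : ℂˣ := Units.mk0 (Complex.exp (2 * Real.pi * Complex.I * b / (d * 1 : ℕ)))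
      (Complex.exp_ne_zero _) with hζ
    have hζp : ζ ^ d = 1 := by
      ext
      simp only [hζ, Units.val_pow_eq_pow_val, Units.val_mk0, mul_one, Units.val_one]
      rw [← Complex.exp_nat_mul, show (d : ℂ) * (2 * Real.pi * Complex.I * b / d) =
        b * (2 * Real.pi * Complex.I) by
          have : (d : ℂ) ≠ 0 := Nat.cast_ne_zero.2 hd.ne'
          field_simp]
      exact Complex.exp_int_mul_two_pi_mul_I b
    have hS : nSer d (g : Coset d) = GalRep.expand 1 one_ne_zero (GalRep.twist ζ jq) := by
      refine qser_eq hd ?_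
      have h1 := hasQSeries_jq.comp_upper one_pos b one_pos hd
      rw [one_mul] at h1
      refine h1.congr (.of_forall fun τ => ?_)
      rw [conjugate_mk]
      exact (heq τ).symm
    have hl := (hjl.twist ζ).expand (k := 1) one_ne_zero
    refine ⟨?_, fun h => absurd h hq, fun _ m hm => ?_⟩
    · rw [hS]; exact expand_mem_intLS (twist_mem_intLS jq_mem_intLS hd hζp) _
    · rw [hS]; exact hl.1 m (by simpa using hm)

theorem card_coset_branch : Fintype.card (Coset p) = p + 1 := by
  rw [← Fintype.card_congr (Eisenstein.cosetEquiv p), Fintype.card_option, ZMod.card]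

theorem expand_aeval_jCoeff {i : ℕ} (hi : i ≤ p + 1) :
    GalRep.expand p (NeZero.ne p) (Polynomial.aeval jq (jCoeff p i)) =
      (-1) ^ i * ∑ t ∈ (Finset.univ : Finset (Coset p)).powersetCard i, ∏ q ∈ t, nSer p q := by
  have hser : ∀ Q : ℂ[X], serHom p (evJ (Gamma p) Q) =
      GalRep.expand p (NeZero.ne p) (Polynomial.aeval jq Q) := fun Q => by
    refine qser_eq hp.out.pos ?_
    have := ((hasQSeries_aeval_jFun Q).refine_width one_pos p (NeZero.ne p))
    rw [one_mul] at this
    exact this.congr (.of_forall fun τ => (evJ_apply _ Q τ).symm)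
  rw [jCoeff, ← hser]
  change ((serHom p).comp (evJ (Gamma p)).toRingHom) ((modPoly p).coeff (p + 1 - i)) = _
  rw [← Polynomial.coeff_map, ← Polynomial.map_map, modPoly, map_orbitPoly]
  rw [Lagrange.nodal_eq, Polynomial.map_prod]
  simp only [Polynomial.map_sub, Polynomial.map_X, Polynomial.map_C]
  have hk : p + 1 - i ≤ Multiset.card ((Finset.univ : Finset (Coset p)).val.map (nSer p)) := by
    rw [Multiset.card_map, Finset.card_val, Finset.card_univ, card_coset_branch]; omega
  have := Multiset.prod_X_sub_C_coeff ((Finset.univ : Finset (Coset p)).val.map (nSer p)) hk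
  rw [Multiset.card_map, Finset.card_val, Finset.card_univ, card_coset_branch,
    show p + 1 - (p + 1 - i) = i by omega, Finset.esymm_map_val, Multiset.map_map] at this
  exact this

theorem jCoeff_spec {i : ℕ} (hi : i ≤ p + 1) :
    (∀ k, IsIntegral ℤ ((jCoeff p i).coeff k)) ∧ (jCoeff p i).natDegree ≤ p + 1 ∧
      (i = 1 → (jCoeff p i).natDegree ≤ p ∧ (jCoeff p i).coeff p = -1) := by
  have hexp := expand_aeval_jCoeff p hi
  have h2 := hp.out.two_le
  have hint : Polynomial.aeval jq (jCoeff p i) ∈ intLS := fun m => by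
    have h : GalRep.expand p (NeZero.ne p) (Polynomial.aeval jq (jCoeff p i)) ∈ intLS := by
      rw [hexp]
      exact intLS.mul_mem (pow_mem (neg_mem (one_mem _)) _)
        (intLS.sum_mem fun t _ => intLS.prod_mem fun q _ => (nSer_mem_intLS p q).1)
    have h1 := h ((p : ℤ) * m)
    rwa [expand_coeff_mul] at h1
  let o : Coset p → ℤ := fun q => if q = baseCoset p then -((p : ℤ) * p) else -1
  have hlow : ∀ t ∈ (Finset.univ : Finset (Coset p)).powersetCard i,
      ∀ m < -((p : ℤ) * p) - (i : ℤ) + 1, (∏ q ∈ t, nSer p q).coeff m = 0 := by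
    intro t ht m hm
    refine (Lead.prod t (a := o) (x := fun q => (nSer p q).coeff (o q)) fun q _ => ?_).1 m ?_
    · refine ⟨fun m hm => ?_, rfl⟩
      by_cases hq : q = baseCoset p
      · exact ((nSer_mem_intLS p q).2.1 hq).1 m (by simpa [o, hq] using hm)
      · exact (nSer_mem_intLS p q).2.2 hq m (by simpa [o, hq] using hm)
    · refine lt_of_lt_of_le hm ?_
      have htc := (Finset.mem_powersetCard.1 ht).2
      by_cases hb : baseCoset p ∈ t
      · rw [← Finset.add_sum_erase _ _ hb, Finset.sum_congr rfl (fun q hq => (by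
          simp [o, (Finset.mem_erase.1 hq).1] : o q = -1)), Finset.sum_const,
          Finset.card_erase_of_mem hb, htc]
        have : 1 ≤ i := htc ▸ Finset.card_pos.2 ⟨_, hb⟩
        simp [o]
        omega
      · rw [Finset.sum_congr rfl (fun q hq => (by
          have hne : q ≠ baseCoset p := fun e => hb (e ▸ hq)
          simp [o, hne] : o q = -1)), Finset.sum_const, htc]
        simp
        nlinarith
  have hlow' : ∀ m : ℤ, (p : ℤ) * m < -((p : ℤ) * p) - (i : ℤ) + 1 →
      (Polynomial.aeval jq (jCoeff p i)).coeff m = 0 := fun m hm => by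
    rw [← expand_coeff_mul p (NeZero.ne p), hexp]
    rcases neg_one_pow_eq_or (LaurentSeries ℂ) i with e | e <;>
      rw [e] <;> simp only [one_mul, neg_one_mul, HahnSeries.coeff_neg, neg_eq_zero,
        HahnSeries.coeff_sum] <;>
    exact Finset.sum_eq_zero fun t ht => hlow t ht _ hm
  refine ⟨isIntegral_coeff_of_aeval ((jCoeff p i).natDegree + 1) _ (Nat.lt_succ_self _) hint,
    natDegree_le_of_coeff_aeval fun m hm => hlow' m (by push_cast at hm; nlinarith), fun h1 => ?_⟩
  subst h1
  have hdeg : (jCoeff p 1).natDegree ≤ p :=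
    natDegree_le_of_coeff_aeval fun m hm => hlow' m (by push_cast; nlinarith)
  refine ⟨hdeg, ?_⟩
  rw [← coeff_aeval_jq_top hdeg, ← expand_coeff_mul p (NeZero.ne p), hexp, pow_one, neg_one_mul,
    HahnSeries.coeff_neg, HahnSeries.coeff_sum, Finset.powersetCard_one, Finset.sum_map]
  simp only [Function.Embedding.coeFn_mk, Finset.prod_singleton]
  rw [Finset.sum_eq_single (baseCoset p)]
  · rw [show (p : ℤ) * -(p : ℤ) = -((p : ℤ) * p) by ring, ((nSer_mem_intLS p _).2.1 rfl).2]
  · exact fun q _ hq => (nSer_mem_intLS p q).2.2 hq _ (by nlinarith)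
  · simp

theorem jCoeff_zero : jCoeff p 0 = 1 := by
  have h : (modPoly p).natDegree = p + 1 := by
    rw [modPoly, natDegree_orbitPoly, idx, Nat.card_eq_fintype_card, card_coset_branch]
  have := (orbitPoly_monic (jNMF p)).coeff_natDegree
  rw [← modPoly, h] at this
  simpa [jCoeff] using this

/-- The modular polynomial has integer coefficients. -/
theorem exists_modPolyInt : ∃ P : ℤ[X][X],
    P.map (Polynomial.mapRingHom (Int.castRingHom ℂ)) = modPoly p := by
  refine (Polynomial.mem_lifts _).mp ((Polynomial.lifts_iff_coeff_lifts _).mpr fun k => ?_)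
  rw [Polynomial.coe_mapRingHom]
  show (modPoly p).coeff k ∈ Polynomial.lifts (Int.castRingHom ℂ)
  refine (Polynomial.lifts_iff_coeff_lifts _).mpr fun l => ?_
  have hi : IsIntegral ℤ (((modPoly p).coeff k).coeff l) := by
    rcases le_or_gt k (p + 1) with hk | hk
    · have := (jCoeff_spec p (i := p + 1 - k) (by omega)).1 l
      rwa [jCoeff, show p + 1 - (p + 1 - k) = k by omega] at this
    · rw [Polynomial.coeff_eq_zero_of_natDegree_lt (p := modPoly p) (by
        rw [modPoly, natDegree_orbitPoly, idx, Nat.card_eq_fintype_card, card_coset_branch]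
        omega), Polynomial.coeff_zero]
      exact isIntegral_zero
  obtain ⟨r, hr⟩ := Hecke.exists_rat_of_fixed (x := ((modPoly p).coeff k).coeff l) fun σ => by
    conv_rhs => rw [← gmap_modPoly (σ := σ) (N := p)]
    simp [gmap]
  rw [← hr] at hi
  have hi' : IsIntegral ℤ r :=
    (isIntegral_algHom_iff (f := (algebraMap ℚ ℂ).toIntAlgHom) (algebraMap ℚ ℂ).injective).mp
      (by simpa using hi)
  obtain ⟨z, hz⟩ := IsIntegrallyClosed.isIntegral_iff.mp hi'
  exact ⟨z, by rw [← hr, ← hz]; simp⟩

variable {p}

/-- The root on the branch through infinity is simple and unique. -/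
theorem branch_root (B : ValuationSubring ℂ) {a b : ℂ} (ha : 1 < B.valuation a)
    (hb : B.valuation b = B.valuation a ^ p) (h0 : biEval a b (modPoly p) = 0) :
    biEval a b (derivative (modPoly p)) ≠ 0 ∧
      ∀ b', B.valuation b' = B.valuation a ^ p → biEval a b' (modPoly p) = 0 → b' = b := by
  classical
  have h2 := hp.out.two_le
  set w := B.valuation with hw
  have hwa : 0 < w a := zero_lt_one.trans ha
  set c : ℕ → ℂ := fun i => (jCoeff p i).eval a with hc
  have hcle : ∀ i ≤ p + 1, w (c i) ≤ w a ^ (p + 1) := fun i hi => by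
    simp only [hc]
    rw [Polynomial.eval_eq_sum_range]
    refine w.map_sum_le fun e he => ?_
    rw [map_mul, map_pow]
    calc w ((jCoeff p i).coeff e) * w a ^ e ≤ 1 * w a ^ (p + 1) :=
          mul_le_mul' (val_of_isIntegral B ((jCoeff_spec p hi).1 e))
            (pow_le_pow_right₀ ha.le (by
              have := (jCoeff_spec p hi).2.1
              rw [Finset.mem_range] at he
              omega))
      _ = _ := one_mul _
  obtain ⟨C₀, hC₀⟩ : ∃ C₀, C₀ = -c 1 := ⟨_, rfl⟩
  have hwC : w C₀ = w a ^ p := by
    obtain ⟨hd, htop⟩ := (jCoeff_spec p (i := 1) (by omega)).2.2 rfl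
    rw [hC₀, Valuation.map_neg, hc]
    simp only
    rw [Polynomial.eval_eq_sum_range' (Nat.lt_succ_of_le hd), Finset.sum_range_succ, htop,
      Valuation.map_add_eq_of_lt_right]
    · rw [neg_one_mul, Valuation.map_neg, map_pow]
    · rw [neg_one_mul, Valuation.map_neg, map_pow]
      refine w.map_sum_lt' (pow_pos hwa _) fun e he => ?_
      rw [Finset.mem_range] at he
      rw [map_mul, map_pow]
      calc w ((jCoeff p 1).coeff e) * w a ^ e ≤ 1 * w a ^ e :=
            mul_le_mul_left (val_of_isIntegral B ((jCoeff_spec p (by omega)).1 e)) _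
        _ < w a ^ p := by rw [one_mul]; exact pow_lt_pow_right₀ ha he
  have hC0 : C₀ ≠ 0 := fun h => by
    rw [h, map_zero] at hwC
    exact (pow_pos hwa p).ne hwC
  -- the small coefficients
  have hd : ∀ i ∈ Finset.Ico 2 (p + 2), w (c i / C₀ ^ i) < 1 := fun i hi => by
    rw [Finset.mem_Ico] at hi
    rw [map_div₀, map_pow, hwC, ← pow_mul, div_lt_one₀ (pow_pos hwa _)]
    refine lt_of_le_of_lt (hcle i (by omega)) (pow_lt_pow_right₀ ha ?_)
    nlinarith
  have hdB : ∀ i : Finset.Ico 2 (p + 2), c i / C₀ ^ (i : ℕ) ∈ B := fun i =>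
    (B.valuation_le_one_iff _).mp (hd i i.2).le
  let H : B[X] := Polynomial.X * (1 + Polynomial.X) ^ p +
    ∑ i : Finset.Ico 2 (p + 2),
      Polynomial.C (⟨_, hdB i⟩ : B) * (1 + Polynomial.X) ^ (p + 1 - (i : ℕ))
  set Pa : ℂ[X] := (modPoly p).map (Polynomial.aeval a).toRingHom with hPa
  have hdeg : Pa.natDegree < p + 2 := lt_of_le_of_lt Polynomial.natDegree_map_le (by
    rw [modPoly, natDegree_orbitPoly, idx, Nat.card_eq_fintype_card, card_coset_branch]; omega)
  -- the rescaled equation
  have hcomp : Pa.comp (Polynomial.C C₀ * (1 + Polynomial.X)) =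
      Polynomial.C (C₀ ^ (p + 1)) * H.map B.subtype := by
    rw [Polynomial.comp, Polynomial.eval₂_eq_sum_range' _ hdeg, ← Finset.sum_range_reflect,
      show p + 2 = 1 + 1 + p by ring, Finset.sum_range_add, Finset.sum_range_succ,
      Finset.sum_range_one]
    have hco : ∀ i, Pa.coeff (p + 1 - i) = c i := fun i => by
      rw [hPa, Polynomial.coeff_map, AlgHom.toRingHom_eq_coe, RingHom.coe_coe,
        Polynomial.coe_aeval_eq_eval]
      rfl
    simp only [show 1 + 1 + p - 1 - 0 = p + 1 - 0 by omega,
      show ∀ x, 1 + 1 + p - 1 - (1 + 1 + x) = p + 1 - (2 + x) from fun x => by omega,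
      show 1 + 1 + p - 1 - 1 = p + 1 - 1 by omega, hco]
    rw [show c 0 = 1 by simp [hc, jCoeff_zero], show c 1 = -C₀ by rw [hC₀, neg_neg], map_one,
      one_mul, Nat.sub_zero, Nat.add_sub_cancel, map_neg, mul_pow, mul_pow, ← map_pow, ← map_pow]
    simp only [H, Polynomial.map_add, Polynomial.map_mul, Polynomial.map_X, Polynomial.map_pow,
      Polynomial.map_one, Polynomial.map_sum, Polynomial.map_C, ValuationSubring.subtype_apply]
    rw [Finset.univ_eq_attach, Finset.sum_attach (Finset.Ico 2 (p + 2)) (fun i =>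
      Polynomial.C (c i / C₀ ^ i) * (1 + Polynomial.X) ^ (p + 1 - i)), Finset.sum_Ico_eq_sum_range,
      show p + 2 - 2 = p by omega, mul_add (Polynomial.C (C₀ ^ (p + 1))), Finset.mul_sum]
    congr 1
    · rw [pow_succ C₀ p, map_mul, pow_succ (1 + Polynomial.X : ℂ[X]) p]
      ring
    · refine Finset.sum_congr rfl fun x hx => ?_
      rw [Finset.mem_range] at hx
      rw [← mul_assoc (Polynomial.C (C₀ ^ (p + 1))), ← map_mul, mul_pow, ← map_pow,
        ← mul_assoc, ← map_mul]
      congr 2
      rw [← Nat.sub_add_cancel (show 2 + x ≤ p + 1 by omega), pow_add,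
        Nat.add_sub_cancel]
      field_simp
  have hres : (H.map (IsLocalRing.residue B)) = Polynomial.X * (1 + Polynomial.X) ^ p := by
    simp only [H, Polynomial.map_add, Polynomial.map_mul, Polynomial.map_X, Polynomial.map_pow,
      Polynomial.map_one, Polynomial.map_sum, Polynomial.map_C]
    rw [add_eq_left]
    refine Finset.sum_eq_zero fun i _ => ?_
    have hm : (⟨_, hdB i⟩ : B) ∈ IsLocalRing.maximalIdeal B :=
      ValuationSubring.coe_mem_nonunits_iff.mp (hd i i.2)
    rw [(IsLocalRing.residue_eq_zero_iff _).mpr hm, map_zero, zero_mul]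
  -- a root on the branch
  have hroot : ∀ y, w y = w a ^ p → biEval a y (modPoly p) = 0 →
      ∃ z : B, (z : ℂ) = y / C₀ - 1 ∧ H.eval z = 0 ∧
        IsLocalRing.residue B (H.derivative.eval z) = 1 ∧
        biEval a y (derivative (modPoly p)) = C₀ ^ p * ((H.derivative.eval z : B) : ℂ) := by
    intro y hy hy0
    have h1 : w (1 + (y / C₀ - 1)) = 1 := by
      rw [add_sub_cancel, map_div₀, hy, hwC, div_self (pow_pos hwa _).ne']
    have hzB : y / C₀ - 1 ∈ B := by
      rw [← B.valuation_le_one_iff]
      calc w (y / C₀ - 1) ≤ max (w (y / C₀)) (w 1) := Valuation.map_sub w _ _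
        _ ≤ 1 := by rw [show y / C₀ = 1 + (y / C₀ - 1) by ring, h1, map_one, max_self]
    set z : B := ⟨_, hzB⟩
    have hyz : (Polynomial.C C₀ * (1 + Polynomial.X)).eval (z : ℂ) = y := by
      simp [z, mul_div_cancel₀ _ hC0]
    have hev : H.eval z = 0 := by
      have h := congrArg (Polynomial.eval (z : ℂ)) hcomp
      rw [Polynomial.eval_comp, hyz, ← biEval_apply, hy0, Polynomial.eval_mul, Polynomial.eval_C,
        eq_comm, mul_eq_zero] at h
      have h' := h.resolve_left (pow_ne_zero _ hC0)
      rw [show (z : ℂ) = B.subtype z from rfl, Polynomial.eval_map, Polynomial.eval₂_at_apply] at h'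
      exact Subtype.ext h'
    have hz0 : IsLocalRing.residue B z = 0 := by
      have h := congrArg (IsLocalRing.residue B) hev
      rw [← Polynomial.eval₂_at_apply, ← Polynomial.eval_map, hres, map_zero, Polynomial.eval_mul,
        Polynomial.eval_X, Polynomial.eval_pow, mul_eq_zero] at h
      refine h.resolve_right (pow_ne_zero _ ?_)
      rw [Polynomial.eval_add, Polynomial.eval_one, Polynomial.eval_X, ← map_one (IsLocalRing.residue B),
        ← map_add, Ne, IsLocalRing.residue_eq_zero_iff]
      intro hm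
      have hlt : w ((1 + z : B) : ℂ) < 1 := ValuationSubring.coe_mem_nonunits_iff.mpr hm
      rw [show ((1 + z : B) : ℂ) = 1 + (y / C₀ - 1) from rfl, h1] at hlt
      exact lt_irrefl _ hlt
    refine ⟨z, rfl, hev, ?_, ?_⟩
    · rw [← Polynomial.eval₂_at_apply, ← Polynomial.eval_map, ← Polynomial.derivative_map, hres,
        hz0]
      simp [Polynomial.derivative_mul]
    · have h := congrArg (fun P : ℂ[X] => (derivative P).eval (z : ℂ)) hcomp
      simp only [Polynomial.derivative_comp, Polynomial.derivative_mul, Polynomial.derivative_C,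
        Polynomial.derivative_add, Polynomial.derivative_one, Polynomial.derivative_X, zero_mul,
        zero_add, mul_one, Polynomial.eval_mul, Polynomial.eval_comp, hyz, Polynomial.eval_C,
        Polynomial.derivative_map] at h
      rw [show (z : ℂ) = B.subtype z from rfl, Polynomial.eval_map (f := B.subtype),
        Polynomial.eval₂_at_apply, pow_succ'] at h
      rw [biEval_apply, ← Polynomial.derivative_map]
      refine mul_left_cancel₀ hC0 ?_
      rw [← mul_assoc]
      exact h
  obtain ⟨z, hz, hz0, hz1, hder⟩ := hroot b hb h0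
  refine ⟨?_, fun b' hb' hb'0 => ?_⟩
  · rw [hder]
    refine mul_ne_zero (pow_ne_zero _ hC0) fun h => one_ne_zero (α := IsLocalRing.ResidueField B) ?_
    rw [← hz1, Subtype.ext (a1 := H.derivative.eval z) (a2 := 0) h, map_zero]
  · obtain ⟨z', hz', hz'0, -, -⟩ := hroot b' hb' hb'0
    obtain ⟨k, hk⟩ := Polynomial.binomExpansion H z (z' - z)
    rw [add_sub_cancel, hz'0, hz0, zero_add] at hk
    have hzr : ∀ y : B, H.eval y = 0 → IsLocalRing.residue B (1 + y) ≠ 0 →
        IsLocalRing.residue B y = 0 := fun y hy h1 => by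
      have h := congrArg (IsLocalRing.residue B) hy
      rw [← Polynomial.eval₂_at_apply, ← Polynomial.eval_map, hres, map_zero, Polynomial.eval_mul,
        Polynomial.eval_X, Polynomial.eval_pow, mul_eq_zero] at h
      exact h.resolve_right (pow_ne_zero _ (by simpa using h1))
    have hone : ∀ {y : B} {v : ℂ}, (y : ℂ) = v / C₀ - 1 → w v = w a ^ p →
        IsLocalRing.residue B (1 + y) ≠ 0 := fun {y v} hy hv => by
      rw [Ne, IsLocalRing.residue_eq_zero_iff]
      intro hm
      have hlt : w ((1 + y : B) : ℂ) < 1 := ValuationSubring.coe_mem_nonunits_iff.mpr hm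
      rw [show ((1 + y : B) : ℂ) = 1 + (y : ℂ) from rfl, hy, add_sub_cancel, map_div₀, hv, hwC,
        div_self (pow_pos hwa _).ne'] at hlt
      exact lt_irrefl _ hlt
    have h0' : (z' - z) * (H.derivative.eval z + k * (z' - z)) = 0 := by rw [hk]; ring
    rcases mul_eq_zero.mp h0' with h | h
    · have := congrArg Subtype.val (sub_eq_zero.mp h)
      rw [hz, hz', sub_left_inj, div_left_inj' hC0] at this
      exact this
    · have := congrArg (IsLocalRing.residue B) h
      rw [map_add, map_mul, map_sub, hz1, hzr z hz0 (hone hz hb), hzr z' hz'0 (hone hz' hb'),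
        sub_self, mul_zero, add_zero, map_zero] at this
      exact absurd this one_ne_zero

omit hp in
/-- The modular equation at a point. -/
theorem biEval_modPoly_apply (τ : ℍ) : biEval (jFun τ) (jNFun p τ) (modPoly p) = 0 := by
  have h := map_biEval ((Pi.evalAlgHom ℂ (fun _ : ℍ => ℂ) τ).comp (modFuns (Gamma0 p)).val)
    (jMF (Gamma0 p)) (jNMF p) (modPoly p)
  rw [biEval_modPoly_base, map_zero] at h
  exact h.symm

/-- A rational point on the branch through infinity at `q`. -/
theorem simple_of_branch {q : ℕ} [Fact q.Prime] {τ : ℍ} {a b : ℚ} (hj : jFun τ = (a : ℂ))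
    (hjN : jNFun p τ = (b : ℂ)) (ha : padicValRat q a < 0)
    (hb : padicValRat q b = p * padicValRat q a) :
    biEval (a : ℂ) (b : ℂ) (derivative (modPoly p)) ≠ 0 := by
  obtain ⟨B, hB⟩ := exists_complex_place q
  have hr0 := val_q_pos B hB
  have hr1 := val_q_lt_one B hB
  have ha0 : a ≠ 0 := fun h => by simp [h] at ha
  have hb0 : b ≠ 0 := fun h => by
    rw [h, padicValRat.zero] at hb
    rcases mul_eq_zero.mp hb.symm with h' | h'
    · exact hp.out.ne_zero (by exact_mod_cast h')
    · exact ha.ne h'
  have hwa : B.valuation (a : ℂ) = B.valuation (q : ℂ) ^ padicValRat q a := val_ratCast B hB ha0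
  refine (branch_root (p := p) B ?_ ?_ ?_).1
  · rw [hwa]; exact one_lt_zpow_of_neg₀ hr0 hr1 ha
  · rw [hwa, val_ratCast B hB hb0, hb, ← zpow_natCast, ← zpow_mul, mul_comm]
  · rw [← hj, ← hjN]; exact biEval_modPoly_apply τ

/-- The point with the simple root. -/
def branchPoint {q : ℕ} [Fact q.Prime] {τ : ℍ} {a b : ℚ} (hj : jFun τ = (a : ℂ))
    (hjN : jNFun p τ = (b : ℂ)) (ha : padicValRat q a < 0)
    (hb : padicValRat q b = p * padicValRat q a) : RatPoint p where
  τ := τ
  a := a
  b := b
  hj := hj
  hjN := hjN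
  simple := simple_of_branch hj hjN ha hb

end Fermat.Agent.Mazur3
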