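import Fermat.Agent.Mazur3.AtQ

/-!
# The class of a point is locally a coboundary

At a place over `q` where the point is on the branch through infinity, the Kummer class of the
point is a coboundary on the decomposition group, on every stable part of the lattice whose
reductions have representatives with integral series.
-/

set_option autoImplicit false
set_option linter.unusedSectionVars false

noncomputable section

namespace Fermat.Agent.Mazur3

open GalRep IsLocalRing
open Fermat.Agent.Galois (GQ)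
open UpperHalfPlane CongruenceSubgroup
open scoped MatrixGroups Manifold

local notation "ℚb" => AlgebraicClosure ℚ

variable {η : ℕ} [Fact η.Prime]

/-- Linear equations over `ℤ_η` soluble modulo every power are soluble. -/
theorem exists_exact_of_congr {ι κ : Type*} [Fintype κ] (a : ι → κ → ℤ_[η]) (c : ι → ℤ_[η])
    (h : ∀ k : ℕ, ∃ b : κ → ℤ_[η], ∀ i, (η : ℤ_[η]) ^ k ∣ ∑ j, a i j * b j - c i) :
    ∃ b : κ → ℤ_[η], ∀ i, ∑ j, a i j * b j = c i := by
  let S : ℕ → Set (κ → ℤ_[η]) := fun k =>
    ⋂ i, {b | ‖∑ j, a i j * b j - c i‖ ≤ (η : ℝ) ^ (-(k : ℤ))}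
  have hmem : ∀ (k : ℕ) (z : ℤ_[η]), ‖z‖ ≤ (η : ℝ) ^ (-(k : ℤ)) ↔ (η : ℤ_[η]) ^ k ∣ z := by
    intro k z
    rw [PadicInt.norm_le_pow_iff_mem_span_pow, Ideal.mem_span_singleton]
  have hclosed : ∀ k, IsClosed (S k) := fun k => isClosed_iInter fun i =>
    isClosed_le (by fun_prop) continuous_const
  obtain ⟨b, hb⟩ := IsCompact.nonempty_iInter_of_sequence_nonempty_isCompact_isClosed S
    (fun k => Set.iInter_mono fun i b hb => by
      simp only [Set.mem_ofPred_eq, hmem] at hb ⊢
      exact (pow_dvd_pow _ k.le_succ).trans hb)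
    (fun k => by
      obtain ⟨b, hb⟩ := h k
      exact ⟨b, Set.mem_iInter.mpr fun i => (hmem k _).mpr (hb i)⟩)
    (hclosed 0).isCompact hclosed
  refine ⟨b, fun i => sub_eq_zero.mp (PadicInt.ext_of_toZModPow.mp fun k => ?_)⟩
  rw [map_zero, ← RingHom.mem_ker, PadicInt.ker_toZModPow, Ideal.mem_span_singleton]
  exact (hmem k _).mp (Set.mem_iInter.mp (Set.mem_iInter.mp hb k) i)

variable {p : ℕ} [NeZero p] [Fact p.Prime]

/-- Galois on the lattice. -/
abbrev latAct (p η : ℕ) [NeZero p] [Fact η.Prime] : GQ →* Module.End ℤ_[η] (Lat p η) :=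
  latGalois (fun k => kummerGalois p (η ^ k)) (kummerCompat p)

/-- On the decomposition group at the branch the class is a coboundary. -/
theorem latClass_local {q : ℕ} [Fact q.Prime] {A : ValuationSubring ℚb} (hA : A.LiesOverPrime q)
    (x : RatPoint p) (ha : padicValRat q x.a < 0)
    (hb : padicValRat q x.b = p * padicValRat q x.a) (P : Submodule ℤ_[η] (Lat p η))
    (hP : ∀ s ∈ A.decompositionSubgroup ℚ, ∀ v ∈ P, latAct p η s v ∈ P)
    (hI : ∀ k : ℕ, ∃ L₀ : IntermediateField ℚ ℚb, FiniteDimensional ℚ L₀ ∧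
      ∀ L, L₀ ≤ L → FiniteDimensional ℚ L → Normal ℚ L → ∀ (B : Base q A L), ∀ v ∈ P,
        B.IntRep (redPow k v)) :
    ∃ b : P →ₗ[ℤ_[η]] ℤ_[η], ∀ (s : GQ) (hs : s ∈ A.decompositionSubgroup ℚ) (v : P),
      x.latClass s (v : Lat p η) =
        b ⟨latAct p η s v, hP s hs v v.2⟩ - (cyc η s).val * b v := by
  classical
  have : Module.Finite ℤ_[η] P := Module.IsNoetherian.finite ℤ_[η] P
  have : Module.Free ℤ_[η] P := Module.Free.of_basis (Submodule.basisOfPid (Module.Free.chooseBasis ℤ_[η] (Lat p η)) P).2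
  let β := Module.Free.chooseBasis ℤ_[η] P
  set κ := Module.Free.ChooseBasisIndex ℤ_[η] P
  refine (exists_exact_of_congr
    (ι := {s : GQ // s ∈ A.decompositionSubgroup ℚ} × P)
    (fun i j => β.repr ⟨latAct p η i.1 i.2, hP _ i.1.2 _ i.2.2⟩ j -
      (cyc η i.1).val * β.repr i.2 j)
    (fun i => x.latClass i.1 (i.2 : Lat p η)) (fun k => ?_)).elim fun b hb' => ?_
  swap
  · refine ⟨β.constr ℤ_[η] b, fun s hs v => ?_⟩
    rw [← hb' (⟨s, hs⟩, v), Module.Basis.constr_apply_fintype, Module.Basis.constr_apply_fintype, Finset.mul_sum,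
      ← Finset.sum_sub_distrib]
    refine Finset.sum_congr rfl fun j _ => ?_
    simp only [smul_eq_mul, Module.Basis.equivFun_apply]
    ring
  obtain ⟨L₁, hL₁, hI⟩ := hI k
  obtain ⟨L₂, hL₂, hR⟩ := exists_rich x (η ^ k)
  have := hL₁; have := hL₂
  obtain ⟨L, hL, hLg, hle⟩ := exists_galois_level (L₁ ⊔ L₂)
  have := hL; have := hLg
  obtain ⟨B⟩ := nonempty_base (Fact.out : q.Prime) hA L
  obtain ⟨e, hφ, hea⟩ := B.exists_evalPoint hA ha
  have hx : e.Fits x := EvalPoint.fits_of_branch B.natCast_mem x hea ha hb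
  have hrich := hR L (le_sup_right.trans hle)
  choose z hz using fun v : P =>
    B.exists_isExp hφ hx (hI L (le_sup_left.trans hle) inferInstance inferInstance B v v.2)
  have hadd : ∀ v w : P, z (v + w) = z v + z w := fun v w =>
    Base.IsExp.unique hφ hx (hz (v + w))
      (by rw [Submodule.coe_add, map_add]; exact (hz v).add (hz w))
  let zh : P →+ ZMod (η ^ k) := AddMonoidHom.mk' z hadd
  have hsmul : ∀ (c : ℤ_[η]) (v : P), z (c • v) = PadicInt.toZModPow k c * z v := by
    intro c v
    have h1 : z (c • v) = z ((PadicInt.toZModPow k c).val • v) :=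
      Base.IsExp.unique hφ hx (hz (c • v)) (by
        rw [show redPow k ((c • v : P) : Lat p η) =
            redPow k (((PadicInt.toZModPow k c).val • v : P) : Lat p η) by
          rw [Submodule.coe_smul, Submodule.coe_smul_of_tower, redPow_smul, map_nsmul]]
        exact hz _)
    rw [h1, ← show zh ((PadicInt.toZModPow k c).val • v) = z _ from rfl, map_nsmul,
      nsmul_eq_mul, ZMod.natCast_zmod_val]
    rfl
  choose w hw using fun j : κ => ZMod.intCast_surjective (z (β j))
  have hzrepr : ∀ v : P, z v = PadicInt.toZModPow k (∑ j, β.repr v j * (w j : ℤ_[η])) := by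
    intro v
    conv_lhs => rw [← β.sum_repr v]
    rw [← show zh (∑ j, β.repr v j • β j) = z _ from rfl, map_sum, map_sum]
    exact Finset.sum_congr rfl fun j _ => by
      rw [map_mul, map_intCast, hw]
      exact hsmul _ _
  refine ⟨fun j => (w j : ℤ_[η]), fun i => ?_⟩
  obtain ⟨⟨s, hs⟩, v⟩ := i
  rw [← Ideal.mem_span_singleton, ← PadicInt.ker_toZModPow, RingHom.mem_ker, map_sub,
    sub_eq_zero, x.toZModPow_latClass]
  simp only [sub_mul, mul_assoc, Finset.sum_sub_distrib, ← Finset.mul_sum]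
  rw [map_sub, map_mul, ← hzrepr, ← hzrepr]
  have h1 := Base.IsExp.unique hφ hx (hz ⟨latAct p η s v, hP s hs v v.2⟩)
    (z' := x.kClass (liftAut s) (redPow k (v : Lat p η)) + cycMod η k s * z v) (by
      rw [redPow_latGalois]
      exact (hz v).galois hφ hx hrich hs (liftAut_stdAddChar η s))
  rw [h1]
  show _ + cycMod η k s * z v - cycMod η k s * z v = _
  ring

end Fermat.Agent.Mazur3
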