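import Fermat.Agent.Mazur3.Descent.Symmetric

/-!
# The quotient by the line has no fixed vector

The eigenvalues of a Galois element come in pairs with product the cyclotomic character. If a
vector were fixed by the decomposition group modulo the line, `F θ` would have eigenvalue `1` on
the quotient, hence eigenvalue `c(F) c(θ)` on the line for general `θ` in inertia, and then the
congruence relation on the line gives the eigenvalue `1 + η` to `T_η`.
-/

set_option autoImplicit false
set_option linter.style.haveILetI false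

noncomputable section

namespace Fermat.Agent.Mazur3

open GalRep Polynomial Module
open Fermat.Agent.Galois (GQ)

local notation "ℚb" => AlgebraicClosure ℚ

variable {p η : ℕ} [NeZero p] [Fact η.Prime] {A : ValuationSubring ℚb}

/-- The cyclotomic character of inertia has infinite image. -/
theorem infinite_cyc_inertia (hA : A.LiesOverPrime η) :
    (Set.range fun s : A.inertiaSubgroupIn ℚ => (cyc η (s : GQ)).val).Infinite := by
  intro hfin
  let φ : A.inertiaSubgroupIn ℚ →* ℤ_[η]ˣ := (cyc η).comp (A.inertiaSubgroupIn ℚ).subtype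
  haveI : Finite φ.range := by
    refine Set.Finite.to_subtype (Set.Finite.of_finite_image (f := Units.val) (hfin.subset ?_)
      Units.val_injective.injOn)
    rintro _ ⟨_, ⟨s, rfl⟩, rfl⟩
    exact ⟨s, rfl⟩
  set k := Nat.card φ.range with hk
  have hk0 : 0 < k := Nat.card_pos
  have hpow : ∀ s ∈ A.inertiaSubgroupIn ℚ, (cyc η s).val ^ k = 1 := fun s hs => by
    have h := pow_card_eq_one' (G := φ.range) (x := ⟨_, ⟨⟨s, hs⟩, rfl⟩⟩)
    have h1 := congrArg (fun u : φ.range => ((u : ℤ_[η]ˣ) : ℤ_[η])) h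
    rwa [SubgroupClass.coe_pow, Units.val_pow_eq_pow_val, OneMemClass.coe_one, Units.val_one]
      at h1
  have h := eq_one_of_unramified_padic (η := η) (R := ℤ_[η])
    ((powMonoidHom k).comp ((Units.coeHom _).comp (cyc η)))
    (fun j => by
      obtain ⟨F, hF, hF'⟩ := exists_cyc_level η j
      refine ⟨F, hF, fun σ hσ => ?_⟩
      obtain ⟨r, hr⟩ := hF' σ hσ
      refine ⟨r * ∑ i ∈ Finset.range k, (cyc η σ).val ^ i, ?_⟩
      rw [smul_eq_mul, ← mul_assoc, ← hr, mul_comm, geom_sum_mul]
      rfl)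
    fun q hq => by
      by_cases hqη : q = η
      · rw [hqη]
        exact ⟨A, hA, fun σ hσ => by simpa using hpow σ hσ⟩
      · obtain ⟨B, hB⟩ := Galois.exists_liesOverPrime hq
        exact ⟨B, hB, fun σ hσ => by simp [cyc_inertia η hq hqη hB hσ]⟩
  obtain ⟨ℓ, hℓ, hprime⟩ := Nat.exists_infinite_primes (η + 1)
  obtain ⟨B, hB⟩ := Galois.exists_liesOverPrime hprime
  obtain ⟨σ, hσ⟩ := Galois.exists_isFrobeniusAt hprime hB
  have h1 := DFunLike.congr_fun h σ
  simp only [MonoidHom.comp_apply, Units.coeHom_apply, MonoidHom.one_apply, powMonoidHom_apply]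
    at h1
  rw [cyc_frobenius η hprime (by omega) hB hσ, ← Nat.cast_pow, ← Nat.cast_one, Nat.cast_inj,
    pow_eq_one_iff] at h1
  exact hprime.ne_one (h1.resolve_right hk0.ne')

theorem isRoot_charpoly_of_eigen {R V : Type*} [CommRing R] [IsDomain R] [AddCommGroup V]
    [Module R V] [Module.Free R V] [Module.Finite R V] {f : Module.End R V} {μ : R} {v : V}
    (hv : v ≠ 0) (h : f v = μ • v) : f.charpoly.IsRoot μ := by
  rw [IsRoot.def, LinearMap.eval_charpoly, LinearMap.det_eq_zero_iff_ker_ne_bot]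
  refine fun hbot => hv ((Submodule.eq_bot_iff _).1 hbot v ?_)
  rw [LinearMap.mem_ker, LinearMap.sub_apply, Module.algebraMap_end_apply, h, sub_self]

theorem exists_eigen_of_isRoot {R V : Type*} [CommRing R] [IsDomain R] [AddCommGroup V]
    [Module R V] [Module.Free R V] [Module.Finite R V] {f : Module.End R V} {μ : R}
    (h : f.charpoly.IsRoot μ) : ∃ v, v ≠ 0 ∧ f v = μ • v := by
  rw [IsRoot.def, LinearMap.eval_charpoly, LinearMap.det_eq_zero_iff_ker_ne_bot,
    Submodule.ne_bot_iff] at h
  obtain ⟨v, hv, hv0⟩ := h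
  rw [LinearMap.mem_ker, LinearMap.sub_apply, Module.algebraMap_end_apply, sub_eq_zero] at hv
  exact ⟨v, hv0, hv.symm⟩

namespace EisModule

variable {E : EisModule p η} {hg : ¬ η ∣ p}

/-- A vector fixed modulo the line lies on the line. -/
theorem OrdLine.mem_of_fixed (O : E.OrdLine A hg) (hp : p.Prime) (hA : A.LiesOverPrime η)
    {v : E.M} (h : ∀ σ ∈ A.decompositionSubgroup ℚ, E.galois σ v - v ∈ O.line) : v ∈ O.line := by
  classical
  by_contra hv
  haveI := O.free_quot
  set L := O.line with hL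
  set F := O.frob
  have hFD : F ∈ A.decompositionSubgroup ℚ := O.isFrobeniusAt.mem_decompositionSubgroup
  have hF : L ≤ L.comap (E.galois F) := fun w hw => O.galois_mem F hFD w hw
  set gQ := L.mapQ L (E.galois F) hF with hgQ
  set c := (cyc η F).val with hc
  -- a general element of inertia
  have hne : gQ.charpoly ≠ 0 := (LinearMap.charpoly_monic _).ne_zero
  obtain ⟨x, ⟨⟨θ, hθ⟩, rfl⟩, hx⟩ := (infinite_cyc_inertia hA).exists_notMem_finset
    (gQ.charpoly.roots.toFinset.image fun μ => μ * (((cyc η F)⁻¹ : ℤ_[η]ˣ) : ℤ_[η]))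
  set x := (cyc η θ).val
  have hθD : θ ∈ A.decompositionSubgroup ℚ := Subgroup.map_subtype_le _ hθ
  have hcx : (cyc η (F * θ)).val = c * x := by rw [map_mul, Units.val_mul]
  have hxQ : ¬ gQ.charpoly.IsRoot (c * x) := fun hr => hx (Finset.mem_image.2
    ⟨c * x, Multiset.mem_toFinset.2 ((mem_roots hne).2 hr), by
      rw [mul_comm c, mul_assoc, hc, Units.mul_inv, mul_one]⟩)
  -- `F θ` on the quotient
  have hG : L ≤ L.comap (E.galois (F * θ)) := fun w hw => O.galois_mem _ (mul_mem hFD hθD) w hw
  have hGQ : ∀ w, L.mapQ L (E.galois (F * θ)) hG (Submodule.Quotient.mk w) =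
      gQ (Submodule.Quotient.mk w) := fun w => by
    rw [hgQ, Submodule.mapQ_apply, Submodule.mapQ_apply, Submodule.Quotient.eq, map_mul,
      Module.End.mul_apply, ← map_sub]
    exact O.galois_mem F hFD _ (O.inertia_quot θ hθ w)
  have hroot1 : (E.galois (F * θ)).charpoly.IsRoot 1 := by
    rw [charpoly_eq_mul_mapQ L (E.galois (F * θ)) hG]
    refine root_mul_left_of_isRoot _ (isRoot_charpoly_of_eigen
      (v := (Submodule.Quotient.mk v : E.M ⧸ L)) ?_ ?_)
    · rwa [Ne, Submodule.Quotient.mk_eq_zero]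
    · rw [one_smul, Submodule.mapQ_apply, Submodule.Quotient.eq]
      exact h _ (mul_mem hFD hθD)
  -- symmetry
  set f := algebraMap ℤ_[η] (padicAlgClosure η)
  have hinj : Function.Injective f := padicAlgClosure_injective
  have hsym := O.symm_charpoly hp hA hinj (F * θ) 1 one_ne_zero
  rw [div_one, hcx] at hsym
  have hne' : ((E.galois (F * θ)).charpoly.map f) ≠ 0 :=
    ((LinearMap.charpoly_monic _).map _).ne_zero
  have hrootcx : (E.galois (F * θ)).charpoly.IsRoot (c * x) := by
    refine IsRoot.of_map (f := f) ?_ hinj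
    rw [← rootMultiplicity_pos hne', ← hsym, rootMultiplicity_pos hne']
    simpa using hroot1.map (f := f)
  obtain ⟨w, hw0, hw⟩ := exists_eigen_of_isRoot hrootcx
  have hwL : w ∈ L := by
    by_contra hwL
    refine hxQ (isRoot_charpoly_of_eigen (v := (Submodule.Quotient.mk w : E.M ⧸ L))
      (by rwa [Ne, Submodule.Quotient.mk_eq_zero]) ?_)
    rw [← hGQ, Submodule.mapQ_apply, hw, Submodule.Quotient.mk_smul]
  rw [map_mul, Module.End.mul_apply, O.inertia_line θ hθ w hwL, map_smul, mul_comm c, mul_smul]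
    at hw
  have hFw : E.galois F w = c • w := smul_right_injective E.M (cyc η θ).ne_zero hw
  set T := E.hecke (MvPolynomial.X ⟨⟨η, Fact.out⟩, hg⟩) with hT
  have hrel := O.frob_line w hwL
  rw [← hT] at hrel
  change (η : ℤ_[η]) • E.galois F (E.galois F w) - c • T (E.galois F w) + (c * c) • w = 0 at hrel
  rw [hFw, map_smul, map_smul, hFw] at hrel
  have h0 : (c * c) • ((T - ((1 + η : ℕ) : Module.End ℤ_[η] E.M)) w) = 0 := by
    rw [LinearMap.sub_apply, Module.End.natCast_apply, ← Nat.cast_smul_eq_nsmul ℤ_[η],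
      Nat.cast_add, Nat.cast_one, ← neg_eq_zero, ← hrel]
    module
  refine hw0 (E.sub_injective ⟨⟨η, Fact.out⟩, hg⟩ ?_)
  rw [map_zero]
  exact (smul_eq_zero.1 h0).resolve_left (mul_ne_zero (cyc η F).ne_zero (cyc η F).ne_zero)

end EisModule

end Fermat.Agent.Mazur3
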