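import Fermat.Agent.Mazur3.Line
import Fermat.Agent.Mazur3.Local
import Fermat.Agent.Mazur3.NoFixed
import Fermat.Agent.Mazur3.Descent.Count

/-!
# The class of a point on the branch is a coboundary

The descent gives `D c = ∂g`. At a place where the point is on the branch through infinity the
class is locally a coboundary: away from the residual prime on everything, at the residual prime
modulo the line. As neither the module nor its quotient by the line has fixed vectors, the class
is a coboundary.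
-/

set_option autoImplicit false
set_option linter.unusedSectionVars false
set_option maxHeartbeats 400000

noncomputable section

namespace Fermat.Agent.Mazur3

open GalRep IsLocalRing
open Fermat.Agent.Galois (GQ)
open UpperHalfPlane CongruenceSubgroup
open scoped MatrixGroups

local notation "ℚb" => AlgebraicClosure ℚ

namespace EisModule

variable {p η : ℕ} [NeZero p] [Fact η.Prime] {E : EisModule p η} {A : ValuationSubring ℚb}

/-- A cocycle, torsion as a class and locally trivial away from the residual prime, is trivial. -/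
theorem coboundary_of_away {q : ℕ} (hq : q.Prime) (hqp : ¬ q ∣ p) (hqη : q ≠ η)
    (hA : A.LiesOverPrime q) {c : GQ → E.M} {D : ℤ_[η]} (hD0 : D ≠ 0) {g : E.M}
    (hD : ∀ σ, D • c σ = E.galois σ g - g) {b : E.M}
    (hb : ∀ s ∈ A.decompositionSubgroup ℚ, c s = b - E.galois s b) (σ : GQ) :
    c σ = b - E.galois σ b := by
  set n := g + D • b with hn
  have hfix : ∀ s ∈ A.decompositionSubgroup ℚ, E.galois s n = n := fun s hs => by
    have h := hD s
    rw [hb s hs, smul_sub] at h
    rw [hn, map_add, map_smul, ← sub_eq_zero]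
    rw [← sub_eq_zero] at h
    rw [← neg_eq_zero, ← h]
    abel
  obtain ⟨F, hF⟩ := Galois.exists_isFrobeniusAt hq hA
  let i : GoodPrime p := ⟨⟨q, hq⟩, hqp⟩
  have hFn : E.galois F n = n := hfix F hF.mem_decompositionSubgroup
  have hrel := LinearMap.congr_fun (E.frobenius i hqη A hA F hF) n
  rw [LinearMap.add_apply, LinearMap.sub_apply, Module.End.mul_apply, Module.End.mul_apply, hFn,
    hFn, Module.End.natCast_apply, LinearMap.zero_apply] at hrel
  have hn0 : n = 0 := E.sub_injective i (by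
    rw [map_zero, LinearMap.sub_apply, Module.End.natCast_apply, ← neg_eq_zero, ← hrel, add_smul,
      one_smul]
    abel)
  refine smul_right_injective E.M hD0 ?_
  have hg : g = -(D • b) := eq_neg_of_add_eq_zero_left (hn ▸ hn0)
  show D • c σ = D • (b - E.galois σ b)
  rw [hD, hg, map_neg, map_smul, smul_sub]
  abel

/-- A cocycle, torsion as a class and locally trivial modulo the line, is trivial. -/
theorem OrdLine.coboundary_of_line {hg : ¬ η ∣ p} (O : E.OrdLine A hg) (hp : p.Prime)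
    (hA : A.LiesOverPrime η) {θ : GQ} (hθ : θ ∈ A.inertiaSubgroupIn ℚ)
    (hu : IsUnit ((cyc η θ).val - 1)) {c : GQ → E.M} {D : ℤ_[η]} (hD0 : D ≠ 0) {g : E.M}
    (hD : ∀ σ, D • c σ = E.galois σ g - g) {b : E.M}
    (hb : ∀ s ∈ A.decompositionSubgroup ℚ, c s - (b - E.galois s b) ∈ O.line) :
    ∃ b' : E.M, ∀ σ, c σ = b' - E.galois σ b' := by
  set n := g + D • b with hn
  have hdiff : ∀ s, E.galois s n - n = D • (c s - (b - E.galois s b)) := fun s => by
    rw [smul_sub, smul_sub, hD, hn, map_add, map_smul]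
    abel
  have hline : n ∈ O.line :=
    O.mem_of_fixed hp hA fun s hs => by rw [hdiff]; exact O.line.smul_mem D (hb s hs)
  obtain ⟨u, hu⟩ := hu
  set w : E.M := (u⁻¹ : ℤ_[η]ˣ).val • (c θ - (b - E.galois θ b)) with hw
  have hnw : n = D • w := by
    have h := hdiff θ
    rw [O.inertia_line θ hθ n hline] at h
    have h' : ((cyc η θ).val - 1) • n = D • (c θ - (b - E.galois θ b)) := by
      rw [sub_smul, one_smul]; exact h
    rw [hw, smul_comm, ← h', ← hu, smul_smul, Units.inv_mul, one_smul]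
  refine ⟨b - w, fun σ => smul_right_injective E.M hD0 ?_⟩
  have hg' : g = D • w - D • b := eq_sub_of_add_eq (hn ▸ hnw)
  show D • c σ = D • (b - w - E.galois σ (b - w))
  rw [hD, hg']
  clear_value w
  simp only [map_sub, map_smul, smul_sub]
  abel

end EisModule

variable {p η : ℕ} [NeZero p] [Fact η.Prime] [hp : Fact p.Prime]

/-- At the residual prime an inertia element acts on `μ_η` nontrivially, for odd `η`. -/
theorem exists_cyc_sub_one_isUnit (hη : η ≠ 2) {A : ValuationSubring ℚb} (hA : A.LiesOverPrime η) :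
    ∃ θ ∈ A.inertiaSubgroupIn ℚ, IsUnit ((cyc η θ).val - 1) := by
  by_contra hcon
  push Not at hcon
  have hω : ∀ σ ∈ A.inertiaSubgroupIn ℚ, omega η σ = 1 := fun σ hσ => by
    have h := hcon σ hσ
    rw [← mem_nonunits_iff, ← IsLocalRing.mem_maximalIdeal, PadicInt.maximalIdeal_eq_span_p,
      ← pow_one (η : ℤ_[η]), ← PadicInt.ker_toZModPow, RingHom.mem_ker, map_sub, map_one,
      sub_eq_zero] at h
    exact h
  obtain ⟨ℓ, hℓη, hprime, hℓ⟩ : ∃ ℓ : ℕ, ℓ ≠ η ∧ ℓ.Prime ∧ (ℓ : ZMod (η ^ 1)) ≠ 1 := by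
    have hη' : η.Prime := Fact.out
    refine ⟨2, Ne.symm hη, Nat.prime_two, fun h => ?_⟩
    have h' := (ZMod.natCast_eq_natCast_iff' 2 1 (η ^ 1)).1 (h.trans Nat.cast_one.symm)
    rw [pow_one, Nat.mod_eq_of_lt (lt_of_le_of_ne hη'.two_le (Ne.symm hη)),
      Nat.mod_eq_of_lt hη'.one_lt] at h'
    exact absurd h' (by norm_num)
  obtain ⟨B, hB⟩ := Galois.exists_liesOverPrime hprime
  obtain ⟨σ, hσ⟩ := Galois.exists_isFrobeniusAt hprime hB
  have h := omega_eq_one_of_unramified hA hω σ
  rw [omega, cyc_frobenius η hprime hℓη hB hσ, map_natCast] at h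
  exact hℓ h

theorem isUnit_natCast_base {q : ℕ} (hq : q.Prime) (hqη : q ≠ η) {A : ValuationSubring ℚb}
    {L : IntermediateField ℚ ℚb} (B : Base q A L) (k : ℕ) : IsUnit (((η ^ k : ℕ) : B.O)) := by
  rw [← notMem_maximalIdeal]
  intro h
  have hco : IsCoprime ((q : ℕ) : ℤ) ((η ^ k : ℕ) : ℤ) := Nat.Coprime.isCoprime
    (((Nat.coprime_primes hq (Fact.out : η.Prime)).2 hqη).pow_right k)
  obtain ⟨a, b, hab⟩ := hco
  refine (maximalIdeal B.O).ne_top_iff_one.1 Ideal.IsPrime.ne_top' ?_
  have h1 := congrArg (Int.cast : ℤ → B.O) hab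
  rw [Int.cast_add, Int.cast_mul, Int.cast_mul, Int.cast_natCast, Int.cast_natCast, Int.cast_one]
    at h1
  rw [← h1]
  exact add_mem (Ideal.mul_mem_left _ _ B.natCast_mem) (Ideal.mul_mem_left _ _ h)

variable (hηp : η ≠ p) (hsq : InertiaProdZero p)

include hηp hsq in
/-- Off the residual prime, a point on the branch has a coboundary as class. -/
theorem exists_coboundary_away {q : ℕ} [Fact q.Prime] (hqp : q ≠ p) (hqη : q ≠ η) (x : RatPoint p)
    (ha : padicValRat q x.a < 0) (hb : padicValRat q x.b = p * padicValRat q x.a)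
    {Aη : ValuationSubring ℚb} (hAη : Aη.LiesOverPrime η) (hg : ¬ η ∣ p)
    (hE : EtaVanish p η (goodIndex (⟨⟨η, Fact.out⟩, hg⟩ : GoodPrime p)) x Aη) :
    ∃ b : Module.Dual ℤ_[η] (eisPart p η), ∀ σ, classFun x σ = b - dualGalois p η σ b := by
  have hq : q.Prime := Fact.out
  have hqdp : ¬ q ∣ p := fun h => hqp ((Nat.prime_dvd_prime_iff_eq hq hp.out).1 h)
  obtain ⟨D, hD0, g, hD⟩ := (eisModule p η hηp hsq).exists_coboundary hp.out hg hAη
    (ordLine hηp hsq hAη hg) (isCocycle_classFun hηp hsq x)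
    fun σ hσ => classFun_mem_ordAnn hAη hg hE hσ
  obtain ⟨A, hA⟩ := Galois.exists_liesOverPrime hq
  obtain ⟨b, hbb⟩ := latClass_local (η := η) hA x ha hb (eisPart p η)
    (fun s _ v hv => latAct_mem_eisPart s hv) fun k => by
      obtain ⟨L₀, h0, hm⟩ := exists_multDvd_field (N := p) (n := η ^ k) hq hA hqdp
      exact ⟨L₀, h0, fun L hL _ _ B v _ =>
        (hm L hL B _).intRep_of_unit (isUnit_natCast_base hq hqη B k)⟩
  refine ⟨b, fun σ => EisModule.coboundary_of_away (E := eisModule p η hηp hsq) hq hqdp hqη hA hD0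
    (c := fun σ => classFun x σ) hD (b := b) (fun s hs => LinearMap.ext fun v => ?_) σ⟩
  show classFun x s v = b v - dualGalois p η s b v
  rw [classFun_apply, dualGalois_apply, ← coe_actP, hbb s hs]
  congr 2
  refine Subtype.ext ?_
  show latAct p η s (latAct p η s⁻¹ (v : Lat p η)) = v
  rw [← Module.End.mul_apply, ← map_mul, mul_inv_cancel, map_one, Module.End.one_apply]

omit hηp hsq in
/-- A functional on a saturated submodule extends. -/
theorem exists_extend_saturated {V : Type} [AddCommGroup V] [Module ℤ_[η] V]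
    [Module.Finite ℤ_[η] V] (P : Submodule ℤ_[η] V)
    (hsat : ∀ (c : ℤ_[η]) (v : V), c ≠ 0 → c • v ∈ P → v ∈ P) (f : P →ₗ[ℤ_[η]] ℤ_[η]) :
    ∃ b : Module.Dual ℤ_[η] V, ∀ v : P, b v = f v := by
  have : Module.IsTorsionFree ℤ_[η] (V ⧸ P) := by
    refine .of_smul_eq_zero fun c x h => ?_
    obtain ⟨v, rfl⟩ := Submodule.Quotient.mk_surjective _ x
    rw [← Submodule.Quotient.mk_smul, Submodule.Quotient.mk_eq_zero] at h
    refine or_iff_not_imp_left.2 fun hc => ?_
    rw [Submodule.Quotient.mk_eq_zero]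
    exact hsat c v hc h
  have : Module.Free ℤ_[η] (V ⧸ P) := Module.free_of_finite_type_torsion_free'
  obtain ⟨s, hs⟩ := Module.projective_lifting_property P.mkQ LinearMap.id P.mkQ_surjective
  have hmem : ∀ v, v - s (P.mkQ v) ∈ P := fun v => by
    refine (Submodule.Quotient.mk_eq_zero P).1 ?_
    rw [← Submodule.mkQ_apply, map_sub, ← LinearMap.comp_apply P.mkQ s, hs, LinearMap.id_apply,
      sub_self]
  refine ⟨f.comp (LinearMap.codRestrict P (LinearMap.id - s.comp P.mkQ) hmem), fun v => ?_⟩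
  rw [LinearMap.comp_apply]
  congr 1
  refine Subtype.ext ?_
  show (v : V) - s (P.mkQ v) = v
  rw [Submodule.mkQ_apply, (Submodule.Quotient.mk_eq_zero P).2 v.2, map_zero, sub_zero]

omit hηp hsq in
theorem ordSub_saturated {A : ValuationSubring ℚb} (hA : A.LiesOverPrime η) (c : ℤ_[η])
    (v : eisPart p η) (hc : c ≠ 0) (h : c • v ∈ ordSub p η A) : v ∈ ordSub p η A := by
  rw [mem_ordSub, Submodule.coe_smul] at h
  rw [mem_ordSub]
  exact mem_ordPart_of_smul hA hc h

omit hηp hsq in
/-- A functional on the ordinary part extends. -/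
theorem exists_extend_ordSub {A : ValuationSubring ℚb} (hA : A.LiesOverPrime η)
    (f : ordSub p η A →ₗ[ℤ_[η]] ℤ_[η]) :
    ∃ b : Module.Dual ℤ_[η] (eisPart p η), ∀ v : ordSub p η A, b v = f v := by
  have h := @exists_extend_saturated η _ (eisPart p η) _ _ (eisPart_finite p η) (ordSub p η A)
    (ordSub_saturated hA) f
  exact h

include hηp hsq in
/-- At an odd residual prime, a point on the branch has a coboundary as class. -/
theorem exists_coboundary_at (hη2 : η ≠ 2) (x : RatPoint p)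
    (ha : padicValRat η x.a < 0) (hb : padicValRat η x.b = p * padicValRat η x.a)
    {A : ValuationSubring ℚb} (hA : A.LiesOverPrime η) (hg : ¬ η ∣ p)
    (hE : EtaVanish p η (goodIndex (⟨⟨η, Fact.out⟩, hg⟩ : GoodPrime p)) x A) :
    ∃ b : Module.Dual ℤ_[η] (eisPart p η), ∀ σ, classFun x σ = b - dualGalois p η σ b := by
  classical
  obtain ⟨D, hD0, g, hD⟩ := (eisModule p η hηp hsq).exists_coboundary hp.out hg hA
    (ordLine hηp hsq hA hg) (isCocycle_classFun hηp hsq x)
    fun σ hσ => classFun_mem_ordAnn hA hg hE hσ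
  obtain ⟨β, hβ⟩ := latClass_local (η := η) hA x ha hb (ordPart p η A)
    (fun s hs v hv => latAct_mem_ordPart A hs hv) fun k => by
      obtain ⟨L₁, h1, hm⟩ := exists_multDvd_field (N := p) (n := η ^ k) Fact.out hA hg
      let S : Type := {χ : ParHom p (ZMod (η ^ k)) // IsConn A k χ}
      choose L₂ h2 hc using fun χ : S => χ.2
      have : FiniteDimensional ℚ (⨆ χ : S, L₂ χ : IntermediateField ℚ ℚb) :=
        IntermediateField.finiteDimensional_iSup_of_finite
      refine ⟨L₁ ⊔ ⨆ χ : S, L₂ χ, inferInstance, fun L hL hf hn B v hv => ?_⟩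
      exact (hm L (le_sup_left.trans hL) B _).intRep_of_connected Fact.out hA
        (hc ⟨_, (ordPart_le_connPart A hv).2 k⟩ L
          (((le_iSup L₂ _).trans le_sup_right).trans hL) hf hn B)
  let f : ordSub p η A →ₗ[ℤ_[η]] ℤ_[η] := β.comp
    (((eisPart p η).subtype.comp (ordSub p η A).subtype).codRestrict (ordPart p η A) fun v => v.2)
  obtain ⟨b, hbf⟩ := exists_extend_ordSub hA f
  obtain ⟨θ, hθ, hu⟩ := exists_cyc_sub_one_isUnit hη2 hA
  refine EisModule.OrdLine.coboundary_of_line (ordLine hηp hsq hA hg) hp.out hA hθ hu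
    (c := fun σ => classFun x σ) hD0 hD (b := b) fun s hs => ?_
  refine mem_ordAnn.2 fun v hv => ?_
  show classFun x s v - (b v - dualGalois p η s b v) = 0
  have hw : actP p η s⁻¹ v ∈ ordSub p η A := by
    rw [mem_ordSub, coe_actP]
    exact latAct_mem_ordPart A (inv_mem hs) (mem_ordSub.1 hv)
  have e1 : b v = β ⟨v, hv⟩ := hbf ⟨v, hv⟩
  have e2 : b (actP p η s⁻¹ v) = β ⟨latAct p η s⁻¹ v, hw⟩ := hbf ⟨_, hw⟩
  have e3 := hβ s hs ⟨latAct p η s⁻¹ v, hw⟩
  rw [classFun_apply, dualGalois_apply, e1, e2, e3, sub_eq_zero]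
  congr 2
  refine Subtype.ext ?_
  show latAct p η s (latAct p η s⁻¹ (v : Lat p η)) = v
  rw [← Module.End.mul_apply, ← map_mul, mul_inv_cancel, map_one, Module.End.one_apply]

/-- The class on a vector whose reduction is fixed. -/
theorem kClass_of_coboundary (x : RatPoint p) {b : Module.Dual ℤ_[η] (eisPart p η)}
    (hb : ∀ σ, classFun x σ = b - dualGalois p η σ b) {v₀ : Lat p η}
    (heis : ∀ ℓ : GoodPrime p, ∃ w : Lat p η, eisOp p η ℓ v₀ = (η : ℤ_[η]) • w)
    (hfix : ∀ s : GQ, (kummerGalois p (η ^ 1)).galois s (redPow 1 v₀) = redPow 1 v₀) :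
    ∃ β : ZMod (η ^ 1), ∀ s : GQ,
      x.kClass (liftAut s) (redPow 1 v₀) = (1 - cycMod η 1 s) * β := by
  obtain ⟨v, hv, hvr⟩ := exists_eisPart_lift heis
  refine ⟨PadicInt.toZModPow 1 (b ⟨v, hv⟩), fun s => ?_⟩
  have hred : redPow 1 (latAct p η s⁻¹ v) = redPow 1 v₀ := by
    rw [redPow_latGalois, hvr, hfix]
  have hbeq : PadicInt.toZModPow 1 (b (actP p η s⁻¹ ⟨v, hv⟩)) =
      PadicInt.toZModPow 1 (b ⟨v, hv⟩) := by
    obtain ⟨w, hw⟩ := exists_smul_of_redPow (k := 1) (u := latAct p η s⁻¹ v - v)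
      (by rw [map_sub, hred, hvr, sub_self])
    have hwm : w ∈ eisPart p η :=
      mem_eisPart_of_smul (pow_ne_zero 1 (Nat.cast_ne_zero.2 (NeZero.ne η)))
        (hw ▸ sub_mem (latAct_mem_eisPart s⁻¹ hv) hv)
    have h1 : actP p η s⁻¹ ⟨v, hv⟩ - ⟨v, hv⟩ = (η : ℤ_[η]) ^ 1 • (⟨w, hwm⟩ : eisPart p η) :=
      Subtype.ext hw
    have h2 := congrArg (fun u => PadicInt.toZModPow 1 (b u)) h1
    simp only [dual_map_sub, LinearMap.map_smul, smul_eq_mul, map_mul, map_pow, map_natCast] at h2
    rw [map_sub, ← Nat.cast_pow, ZMod.natCast_self, zero_mul, sub_eq_zero] at h2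
    exact h2
  have h := congrArg (fun φ : Module.Dual ℤ_[η] (eisPart p η) =>
    PadicInt.toZModPow 1 (φ ⟨v, hv⟩)) (hb s)
  simp only [classFun_apply, LinearMap.sub_apply, dualGalois_apply, x.toZModPow_latClass, map_sub,
    map_mul] at h
  rw [hred, hbeq] at h
  rw [h, cycMod]
  ring

end Fermat.Agent.Mazur3
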