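import Fermat.Agent.Mazur3.DeltaQuot
import Mathlib.NumberTheory.Padics.PadicVal.Basic

/-!
# The two possible valuations of the modular unit at a rational value

If `j τ` and `p¹² Δ(pτ)/Δ(τ)` are rational and `q ≠ p`, the `q`-valuation of the latter is `0` when
`j` is `q`-integral and otherwise one of the two slopes of its Newton polygon.
-/

set_option autoImplicit false
set_option linter.style.haveILetI false

noncomputable section

namespace Fermat.Agent.Mazur3

open UpperHalfPlane Polynomial Fermat.Agent.GalRep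
open Fermat.Agent.Period (jFun)
open scoped MatrixGroups

section RatVal

variable {K : Type*} [Field K] [CharZero K] (B : ValuationSubring K) {q : ℕ} [hq : Fact q.Prime]
  (hB : (q : K) ∈ B.nonunits)

include hB

theorem val_q_lt_one : B.valuation (q : K) < 1 := hB

theorem val_q_pos : 0 < B.valuation (q : K) :=
  zero_lt_iff.2 ((_root_.map_ne_zero _).2 (Nat.cast_ne_zero.2 hq.out.ne_zero))

omit hB hq in
theorem val_intCast_le_one (m : ℤ) : B.valuation (m : K) ≤ 1 :=
  (B.valuation_le_one_iff _).2 (intCast_mem B m)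

theorem val_natCast_of_not_dvd {m : ℕ} (hm : ¬ q ∣ m) : B.valuation (m : K) = 1 := by
  refine le_antisymm (by exact_mod_cast val_intCast_le_one B (m : ℤ)) (not_lt.1 fun hlt => ?_)
  obtain ⟨a, b, hab⟩ : IsCoprime (q : ℤ) (m : ℤ) :=
    Int.isCoprime_iff_gcd_eq_one.2 (by simpa using (hq.out.coprime_iff_not_dvd.2 hm))
  have h1 : B.valuation ((a : K) * q + (b : K) * m) < 1 := by
    refine Valuation.map_add_lt _ ?_ ?_ <;> rw [map_mul]
    · exact lt_of_le_of_lt (mul_le_of_le_one_left zero_le (val_intCast_le_one B a)) (val_q_lt_one B hB)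
    · exact lt_of_le_of_lt (mul_le_of_le_one_left zero_le (val_intCast_le_one B b)) hlt
  have e : (a : K) * q + (b : K) * m = 1 := by exact_mod_cast hab
  rw [e, map_one] at h1
  exact lt_irrefl _ h1

theorem val_natCast {m : ℕ} (hm : m ≠ 0) :
    B.valuation (m : K) = B.valuation (q : K) ^ (padicValNat q m) := by
  obtain ⟨d, hd⟩ := (pow_padicValNat_dvd : q ^ padicValNat q m ∣ m)
  have hndvd : ¬ q ∣ d := fun h => by
    refine pow_succ_padicValNat_not_dvd (p := q) hm ?_
    rw [pow_succ]
    exact (mul_dvd_mul_left _ h).trans hd.symm.dvd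
  conv_lhs => rw [hd]
  rw [Nat.cast_mul, Nat.cast_pow, map_mul, map_pow, val_natCast_of_not_dvd B hB hndvd, mul_one]

/-- The valuation of a nonzero rational number. -/
theorem val_ratCast {x : ℚ} (hx : x ≠ 0) :
    B.valuation (x : K) = B.valuation (q : K) ^ (padicValRat q x) := by
  have hnum : B.valuation (x.num : K) = B.valuation (q : K) ^ padicValNat q x.num.natAbs := by
    rw [← val_natCast B hB (Int.natAbs_ne_zero.2 (Rat.num_ne_zero.2 hx))]
    rcases Int.natAbs_eq x.num with e | e <;> conv_lhs => rw [e]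
    · rw [Int.cast_natCast]
    · rw [Int.cast_neg, Valuation.map_neg, Int.cast_natCast]
  rw [Rat.cast_def, map_div₀, hnum, val_natCast B hB x.den_ne_zero, padicValRat.eq_1,
    padicValInt.eq_1, zpow_sub₀ (val_q_pos B hB).ne', zpow_natCast, zpow_natCast]

theorem val_le_one_iff {x : ℚ} : B.valuation (x : K) ≤ 1 ↔ 0 ≤ padicValRat q x := by
  rcases eq_or_ne x 0 with rfl | hx
  · simp
  rw [val_ratCast B hB hx]
  constructor
  · intro h
    by_contra hlt
    push Not at hlt
    exact absurd ((zpow_right_strictAnti₀ (val_q_pos B hB) (val_q_lt_one B hB)) hlt)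
      (by simpa using h)
  · intro h
    simpa using (zpow_right_strictAnti₀ (val_q_pos B hB) (val_q_lt_one B hB)).antitone h

theorem val_lt_one_iff {x : ℚ} (hx : x ≠ 0) : B.valuation (x : K) < 1 ↔ 0 < padicValRat q x := by
  rw [val_ratCast B hB hx]
  conv_lhs => rw [← zpow_zero (B.valuation (q : K))]
  exact (zpow_right_strictAnti₀ (val_q_pos B hB) (val_q_lt_one B hB)).lt_iff_gt

theorem val_eq_one_iff {x : ℚ} (hx : x ≠ 0) : B.valuation (x : K) = 1 ↔ padicValRat q x = 0 := by
  rw [val_ratCast B hB hx]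
  conv_lhs => rw [← zpow_zero (B.valuation (q : K))]
  exact (zpow_right_strictAnti₀ (val_q_pos B hB) (val_q_lt_one B hB)).injective.eq_iff

end RatVal

theorem exists_complex_place (q : ℕ) [hq : Fact q.Prime] :
    ∃ B : ValuationSubring ℂ, (q : ℂ) ∈ B.nonunits := by
  let R : Subring ℂ := (Int.castRingHom ℂ).range
  let I : Ideal R := Ideal.span {⟨(q : ℂ), ⟨q, by simp⟩⟩}
  have hI : I ≠ ⊤ := by
    intro htop
    rw [Ideal.span_singleton_eq_top, isUnit_iff_exists_inv] at htop
    obtain ⟨⟨_, m, rfl⟩, hm⟩ := htop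
    have h : ((q * m : ℤ) : ℂ) = ((1 : ℤ) : ℂ) := by
      push_cast
      exact congrArg Subtype.val hm
    have h1 : (q : ℤ) ∣ 1 := ⟨m, (Int.cast_injective h).symm⟩
    have := Int.le_of_dvd one_pos h1
    have := hq.out.two_le
    omega
  obtain ⟨A, -, hA⟩ := Ideal.image_subset_nonunits_valuationSubring I hI
  exact ⟨A, hA ⟨_, Ideal.subset_span rfl, rfl⟩⟩

theorem val_of_isIntegral {K : Type*} [Field K] (B : ValuationSubring K) {x : K}
    (hx : IsIntegral ℤ x) : B.valuation x ≤ 1 := by
  obtain ⟨z, hz⟩ := IsIntegrallyClosed.isIntegral_iff.1 (hx.tower_top (A := B))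
  rw [← hz]
  exact B.valuation_le_one z

theorem val_of_pow_eq_one {K : Type*} [Field K] (B : ValuationSubring K) {x : K} {n : ℕ}
    (hn : n ≠ 0) (hx : x ^ n = 1) : B.valuation x = 1 := by
  have := congrArg B.valuation hx
  rw [map_pow, map_one] at this
  exact (pow_eq_one_iff_of_nonneg zero_le hn).1 this

variable (p : ℕ) [hp : Fact p.Prime]

theorem uFun_ne_zero [NeZero p] (τ : ℍ) : uFun p τ ≠ 0 :=
  div_ne_zero (mul_ne_zero (pow_ne_zero _ (Nat.cast_ne_zero.2 hp.out.ne_zero))
    (ModularForm.discriminant_ne_zero _)) (ModularForm.discriminant_ne_zero _)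

theorem uCoeff_zero : uCoeff p 0 = 1 := by
  have h : (orbitPoly (uMF p)).natDegree = p + 1 := by
    rw [natDegree_orbitPoly, idx, ← Nat.card_congr (Eisenstein.cosetEquiv p)]; simp
  have := (orbitPoly_monic (uMF p)).coeff_natDegree
  rw [h] at this
  exact this

/-- The two slopes. -/
theorem padicValRat_uFun {q : ℕ} [hq : Fact q.Prime] (hqp : q ≠ p) (τ : ℍ) (j u : ℚ)
    (hj : jFun τ = (j : ℂ)) (hu : uFun p τ = (u : ℂ)) :
    (0 ≤ padicValRat q j → padicValRat q u = 0) ∧
    (padicValRat q j < 0 → padicValRat q u = ((p : ℤ) - 1) * -padicValRat q j ∨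
      (p : ℤ) * padicValRat q u = ((p : ℤ) - 1) * padicValRat q j) := by
  obtain ⟨B, hB⟩ := exists_complex_place q
  have hp2 := hp.out.two_le
  set w := B.valuation with hw
  set r := w (q : ℂ) with hr
  have r0 : 0 < r := val_q_pos B hB
  have r1 : r < 1 := val_q_lt_one B hB
  have anti := zpow_right_strictAnti₀ r0 r1
  have hu0 : u ≠ 0 := fun h => uFun_ne_zero p τ (by rw [hu, h, Rat.cast_zero])
  set k := padicValRat q u with hk
  have hwu : w (u : ℂ) = r ^ k := val_ratCast B hB hu0
  have hwp : w ((p : ℂ)) = 1 :=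
    val_natCast_of_not_dvd B hB fun h => hqp ((Nat.prime_dvd_prime_iff_eq hq.out hp.out).1 h)
  obtain ⟨x1, hx1, hlead⟩ := uCoeff_p p
  obtain ⟨hdeg1, x2, hx2, hconst⟩ := uCoeff_succ p
  set T : ℕ → ℂ := fun i => (uCoeff p i).eval (jFun τ) * uFun p τ ^ (p + 1 - i) with hT
  have hsum : ∑ i ∈ Finset.range (p + 2), T i = 0 := uFun_equation p τ
  have dominant : ∀ i₀ ∈ Finset.range (p + 2), T i₀ ≠ 0 →
      (∀ i ∈ Finset.range (p + 2), i ≠ i₀ → w (T i) < w (T i₀)) → False := by
    intro i₀ hi₀ hne hlt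
    have := w.map_sum_eq_of_lt hi₀ (f := T) (fun i hi => by
      rw [Finset.mem_sdiff, Finset.mem_singleton] at hi
      exact hlt i hi.1 hi.2)
    rw [hsum, map_zero] at this
    exact hne ((_root_.map_eq_zero w).1 this.symm)
  have hT0 : w (T 0) = r ^ (((p : ℤ) + 1) * k) := by
    simp only [hT, uCoeff_zero, Polynomial.eval_one, one_mul, Nat.sub_zero]
    rw [hu, map_pow, hwu, ← zpow_natCast, ← zpow_mul]
    congr 1; push_cast; ring
  have hTlast : w (T (p + 1)) = 1 := by
    simp only [hT, Nat.sub_self, pow_zero, mul_one]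
    rw [Polynomial.eq_C_of_natDegree_eq_zero hdeg1, Polynomial.eval_C, hconst, map_mul, map_pow, hwp,
      one_pow, one_mul]
    exact val_of_pow_eq_one B (by omega) hx2
  have hTlast0 : T (p + 1) ≠ 0 := fun h => by
    rw [h, map_zero] at hTlast; exact zero_ne_one hTlast
  have hT00 : T 0 ≠ 0 := fun h => by
    rw [h, map_zero] at hT0; exact (zpow_ne_zero _ r0.ne') hT0.symm
  have hupow : ∀ i, w (uFun p τ ^ (p + 1 - i)) = r ^ (((p + 1 - i : ℕ) : ℤ) * k) := fun i => by
    rw [hu, map_pow, hwu, ← zpow_natCast, ← zpow_mul, mul_comm]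
  have hbound : ∀ (m : ℤ), 0 ≤ m → (w (j : ℂ) ≤ r ^ (-m)) → ∀ i ≤ p + 1,
      w (T i) ≤ r ^ (-m * (uCoeff p i).natDegree + ((p + 1 - i : ℕ) : ℤ) * k) := by
    intro m hm hwj i hi
    simp only [hT]
    rw [map_mul, hupow, zpow_add₀ r0.ne']
    refine mul_le_mul_left ?_ _
    rw [Polynomial.eval_eq_sum_range, hj]
    refine w.map_sum_le fun e he => ?_
    rw [Finset.mem_range] at he
    rw [map_mul, map_pow]
    calc w ((uCoeff p i).coeff e) * w (j : ℂ) ^ e ≤ 1 * (r ^ (-m)) ^ e := by
          refine mul_le_mul' (val_of_isIntegral B ((uCoeff_spec p hi).1 e)) ?_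
          exact pow_le_pow_left₀ zero_le hwj e
      _ = r ^ (-m * (e : ℤ)) := by rw [one_mul, ← zpow_natCast, ← zpow_mul]
      _ ≤ r ^ (-m * ((uCoeff p i).natDegree : ℤ)) := anti.antitone (by
          have : (e : ℤ) ≤ (uCoeff p i).natDegree := by omega
          nlinarith)
  refine ⟨fun hj0 => ?_, fun hj0 => ?_⟩
  · -- integral case
    have hwj : w (j : ℂ) ≤ r ^ (-(0 : ℤ)) := by
      rw [neg_zero, zpow_zero]; exact (val_le_one_iff B hB).2 hj0
    rcases lt_trichotomy k 0 with hk0 | hk0 | hk0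
    · exfalso
      refine dominant 0 (by simp) hT00 fun i hi hne => ?_
      rw [Finset.mem_range] at hi
      refine lt_of_le_of_lt (hbound 0 le_rfl hwj i (by omega)) ?_
      rw [hT0]
      refine anti ?_
      have : ((p + 1 - i : ℕ) : ℤ) ≤ p := by omega
      nlinarith
    · exact hk0
    · exfalso
      refine dominant (p + 1) (by simp) hTlast0 fun i hi hne => ?_
      rw [Finset.mem_range] at hi
      refine lt_of_le_of_lt (hbound 0 le_rfl hwj i (by omega)) ?_
      rw [hTlast, ← zpow_zero r]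
      refine anti ?_
      have : (1 : ℤ) ≤ ((p + 1 - i : ℕ) : ℤ) := by omega
      nlinarith
  · set n := -padicValRat q j with hn
    have hn0 : 0 < n := by omega
    have hj0' : j ≠ 0 := fun h => by rw [h] at hj0; simp at hj0
    have hwj : w (j : ℂ) = r ^ (-n) := by rw [val_ratCast B hB hj0', hn, neg_neg]
    -- the exact term
    have hTp : w (T p) = r ^ (-n * ((p : ℤ) - 1) + k) := by
      have hd : (uCoeff p p).natDegree ≤ p - 1 :=
        Nat.le_of_mul_le_mul_left (uCoeff_spec p (Nat.le_succ p)).2 hp.out.pos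
      simp only [hT]
      rw [map_mul, hupow, zpow_add₀ r0.ne', show ((p + 1 - p : ℕ) : ℤ) * k = k by simp]
      congr 1
      rw [Polynomial.eval_eq_sum_range' (show (uCoeff p p).natDegree < p - 1 + 1 by omega), hj,
        Finset.sum_range_succ, hlead, Valuation.map_add_eq_of_lt_right]
      · rw [map_mul, map_pow, hwj, val_of_pow_eq_one B (by omega) hx1, one_mul, ← zpow_natCast,
          ← zpow_mul]
        congr 1
        push_cast [Nat.cast_sub hp.out.one_le]
        ring
      · rw [map_mul, map_pow, hwj, val_of_pow_eq_one B (by omega) hx1, one_mul]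
        refine w.map_sum_lt' (pow_pos (zpow_pos r0 _) _) fun e he => ?_
        rw [Finset.mem_range] at he
        rw [map_mul, map_pow, hwj]
        calc w ((uCoeff p p).coeff e) * (r ^ (-n)) ^ e ≤ 1 * (r ^ (-n)) ^ e :=
              mul_le_mul_left (val_of_isIntegral B ((uCoeff_spec p (Nat.le_succ p)).1 e)) _
          _ < (r ^ (-n)) ^ (p - 1) := by
              rw [one_mul]
              exact pow_lt_pow_right₀ (one_lt_zpow_of_neg₀ r0 r1 (by omega)) he
    have hTp0 : T p ≠ 0 := fun h => by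
      rw [h, map_zero] at hTp; exact (zpow_ne_zero _ r0.ne') hTp.symm
    -- scaled exponents
    set Kk := (p : ℤ) * k + ((p : ℤ) - 1) * n with hKk
    set c := ((p : ℤ) + 1) * ((p : ℤ) - 1) * n with hc
    have hE : ∀ i ≤ p + 1, (((p : ℤ) + 1 - i) * Kk - c) ≤
        (p : ℤ) * (-n * (uCoeff p i).natDegree + ((p + 1 - i : ℕ) : ℤ) * k) := by
      intro i hi
      have h1 : (p : ℤ) * (uCoeff p i).natDegree ≤ (i : ℤ) * ((p : ℤ) - 1) := by
        have := (uCoeff_spec p hi).2
        have h' : ((p * (uCoeff p i).natDegree : ℕ) : ℤ) ≤ ((i * (p - 1) : ℕ) : ℤ) := by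
          exact_mod_cast this
        push_cast [Nat.cast_sub hp.out.one_le] at h'
        exact h'
      have h2 : ((p + 1 - i : ℕ) : ℤ) = (p : ℤ) + 1 - i := by omega
      rw [h2, hKk, hc]
      nlinarith [mul_le_mul_of_nonneg_left h1 hn0.le]
    by_cases hA : Kk = 0
    · right
      rw [hKk] at hA
      linarith
    by_cases hC : Kk = c
    · left
      have : (p : ℤ) * k = (p : ℤ) * (((p : ℤ) - 1) * n) := by rw [hKk, hc] at hC; linarith
      exact mul_left_cancel₀ (by exact_mod_cast hp.out.ne_zero) this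
    exfalso
    rcases lt_or_gt_of_ne hA with hlt | hgt
    · refine dominant 0 (by simp) hT00 fun i hi hne => ?_
      rw [Finset.mem_range] at hi
      refine lt_of_le_of_lt (hbound n hn0.le hwj.le i (by omega)) ?_
      rw [hT0]
      refine anti (lt_of_mul_lt_mul_left (lt_of_lt_of_le ?_ (hE i (by omega))) (by positivity))
      rw [hKk, hc] at *
      have : (1 : ℤ) ≤ i := by omega
      nlinarith
    rcases lt_or_gt_of_ne hC with hltc | hgtc
    · refine dominant p (by simp) hTp0 fun i hi hne => ?_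
      rw [Finset.mem_range] at hi
      rw [hTp]
      by_cases hip : i = p + 1
      · subst hip
        rw [hTlast, ← zpow_zero r]
        refine anti ?_
        rw [hKk, hc] at hltc
        nlinarith
      refine lt_of_le_of_lt (hbound n hn0.le hwj.le i (by omega)) ?_
      refine anti (lt_of_mul_lt_mul_left (lt_of_lt_of_le ?_ (hE i (by omega))) (by positivity))
      have h2 : (2 : ℤ) ≤ (p : ℤ) + 1 - i := by omega
      rw [hKk, hc] at *
      nlinarith
    · refine dominant (p + 1) (by simp) hTlast0 fun i hi hne => ?_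
      rw [Finset.mem_range] at hi
      refine lt_of_le_of_lt (hbound n hn0.le hwj.le i (by omega)) ?_
      rw [hTlast, ← zpow_zero r]
      refine anti (lt_of_mul_lt_mul_left (lt_of_lt_of_le ?_ (hE i (by omega))) (by positivity))
      have h2 : (1 : ℤ) ≤ (p : ℤ) + 1 - i := by omega
      rw [mul_zero]
      nlinarith

/-- The involution. -/
theorem uFun_involution [NeZero p] (τ : ℍ) :
    ∃ τ' : ℍ, jFun τ' = jNFun p τ ∧ uFun p τ' = (p : ℂ) ^ 12 / uFun p τ := by
  set P := posMat _ (det_diagN p)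
  refine ⟨ModularGroup.S • (P • τ), Period.jFun_smul _ _, ?_⟩
  have hp0 : (p : ℂ) ≠ 0 := Nat.cast_ne_zero.2 hp.out.ne_zero
  have hco : ∀ z : ℍ, ((ModularGroup.S • z : ℍ) : ℂ) = -1 / (z : ℂ) := fun z => by
    rw [UpperHalfPlane.modular_S_smul]; show (-(z : ℂ))⁻¹ = _; rw [inv_neg, neg_div, one_div]
  have e : P • (ModularGroup.S • (P • τ)) = ModularGroup.S • τ := by
    apply UpperHalfPlane.ext
    rw [coe_posMat_smul, hco, hco, coe_posMat_smul]
    simp
    field_simp
  have hS : ∀ z : ℍ, ModularForm.discriminant (ModularGroup.S • z) =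
      (z : ℂ) ^ 12 * ModularForm.discriminant z := fun z => by
    rw [disc_smul, ModularGroup.denom_S]; norm_cast
  have hP : ((P • τ : ℍ) : ℂ) = (p : ℂ) * τ := by rw [coe_posMat_smul]; simp
  rw [uFun, uFun, e, hS, hS, hP]
  have := τ.ne_zero
  have := ModularForm.discriminant_ne_zero τ
  have := ModularForm.discriminant_ne_zero (P • τ)
  field_simp
  exact (div_self this).symm

end Fermat.Agent.Mazur3
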