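import Fermat.Agent.Mazur3.Height
import Fermat.Agent.Mazur3.Dichotomy
import Mathlib.NumberTheory.Padics.PadicNorm

/-!
# An isogeny of degree `p` that is toric at every bad prime bounds the discriminant

Main results: `uFun_val_of_branch`, `pow_le_of_branch`.
-/

set_option autoImplicit false
set_option linter.style.haveILetI false

noncomputable section

namespace Fermat.Agent.Mazur3

open UpperHalfPlane Polynomial Fermat.Agent.GalRep
open Fermat.Agent.Period (jFun)
open scoped MatrixGroups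

variable (p : ℕ) [hp : Fact p.Prime]

lemma norm_uFun_le [NeZero p] (τ : ℍ) :
    ‖uFun p τ‖ ≤ 40000 * (p : ℝ) ^ 6 * max 1 ‖jFun τ‖ := by
  set P := posMat _ (det_diagN p) • τ with hP
  have hPc : (P : ℂ) = (p : ℂ) * τ := by rw [hP, coe_posMat_smul]; simp
  have hPim : P.im = p * τ.im := by
    have := congrArg Complex.im hPc
    simpa using this
  have h1 := heightFn_le_one P
  have h2 := one_le_heightFn_mul τ
  have hf := heightFn_pos τ
  have hD := norm_pos_iff.2 (ModularForm.discriminant_ne_zero τ)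
  have he : ‖uFun p τ‖ = (p : ℝ) ^ 6 * heightFn P / heightFn τ := by
    have := τ.im_pos
    simp only [uFun, ← hP, heightFn, hPim, norm_div, norm_mul, norm_pow, Complex.norm_natCast]
    field_simp
  rw [he, div_le_iff₀ hf]
  calc (p : ℝ) ^ 6 * heightFn P ≤ (p : ℝ) ^ 6 * 1 := by gcongr
    _ ≤ (p : ℝ) ^ 6 * (40000 * max 1 ‖jFun τ‖ * heightFn τ) := by gcongr
    _ = _ := by ring

/-- The toric branch determines the valuation of the modular unit. -/
theorem uFun_val_of_branch [NeZero p] {q : ℕ} [hq : Fact q.Prime] (hqp : q ≠ p) (τ : ℍ)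
    (j j' u : ℚ) (hj : jFun τ = (j : ℂ)) (hj' : jNFun p τ = (j' : ℂ)) (hu : uFun p τ = (u : ℂ))
    (hneg : padicValRat q j < 0) (hb : padicValRat q j' = p * padicValRat q j) :
    padicValRat q u = ((p : ℤ) - 1) * -padicValRat q j := by
  have hp2 := hp.out.two_le
  have hu0 : u ≠ 0 := fun h => uFun_ne_zero p τ (by rw [hu, h, Rat.cast_zero])
  rcases (padicValRat_uFun p hqp τ j u hj hu).2 hneg with h | h
  · exact h
  exfalso
  obtain ⟨τ', hjτ', huτ'⟩ := uFun_involution p τ
  rw [hj'] at hjτ'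
  rw [hu, ← Rat.cast_natCast, ← Rat.cast_pow, ← Rat.cast_div] at huτ'
  have hv : padicValRat q ((p : ℚ) ^ 12 / u) = -padicValRat q u := by
    rw [padicValRat.div (pow_ne_zero _ (Nat.cast_ne_zero.2 hp.out.ne_zero)) hu0,
      padicValRat.pow, padicValRat.of_nat,
      padicValNat.eq_zero_of_not_dvd fun h => hqp ((Nat.prime_dvd_prime_iff_eq hq.out hp.out).1 h)]
    simp
  have hneg' : padicValRat q j' < 0 := by rw [hb]; exact mul_neg_of_pos_of_neg (by omega) hneg
  have h' := (padicValRat_uFun p hqp τ' j' _ hjτ' huτ').2 hneg'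
  rw [hv, hb] at h'
  set k := padicValRat q u
  set n := -padicValRat q j with hn
  have hj_eq : padicValRat q j = -n := by rw [hn, neg_neg]
  rw [hj_eq] at h h'
  have hn0 : 0 < n := by omega
  have hp1 : (1 : ℤ) ≤ (p : ℤ) - 1 := by omega
  rcases h' with h' | h'
  · have h1 : (p : ℤ) * k = -((p : ℤ) * p * ((p : ℤ) - 1) * n) := by linear_combination (-(p : ℤ)) * h'
    have h2 : 0 < ((p : ℤ) * p - 1) * (((p : ℤ) - 1) * n) := mul_pos (by nlinarith) (by nlinarith)
    nlinarith
  · have h2 : 0 < ((p : ℤ) + 1) * (((p : ℤ) - 1) * n) := mul_pos (by omega) (by nlinarith)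
    nlinarith

/-- At any place the modular unit is bounded by `j` or `1`. -/
lemma val_uFun_le (B : ValuationSubring ℂ) (τ : ℍ) :
    B.valuation (uFun p τ) ≤ max 1 (B.valuation (jFun τ)) := by
  set w := B.valuation
  set M := max 1 (w (jFun τ)) with hM
  have h1M : 1 ≤ M := le_max_left _ _
  by_contra hlt
  push Not at hlt
  have hwu : 0 < w (uFun p τ) := lt_of_lt_of_le zero_lt_one (h1M.trans hlt.le)
  set T : ℕ → ℂ := fun i => (uCoeff p i).eval (jFun τ) * uFun p τ ^ (p + 1 - i) with hT
  have hsum : ∑ i ∈ Finset.range (p + 2), T i = 0 := uFun_equation p τ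
  have hT0 : w (T 0) = w (uFun p τ) ^ (p + 1) := by
    simp only [hT, uCoeff_zero, Polynomial.eval_one, one_mul, Nat.sub_zero, map_pow]
  have := w.map_sum_eq_of_lt (Finset.mem_range.2 (Nat.succ_pos _) : 0 ∈ Finset.range (p + 2))
    (f := T) (fun i hi => by
      rw [Finset.mem_sdiff, Finset.mem_singleton, Finset.mem_range] at hi
      have hi' : i ≤ p + 1 := by omega
      have hd : (uCoeff p i).natDegree ≤ i := by
        refine Nat.le_of_mul_le_mul_left ?_ hp.out.pos
        refine ((uCoeff_spec p hi').2).trans ?_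
        rw [mul_comm p i]
        exact Nat.mul_le_mul_left _ (Nat.sub_le p 1)
      have hev : w ((uCoeff p i).eval (jFun τ)) ≤ M ^ i := by
        rw [Polynomial.eval_eq_sum_range]
        refine w.map_sum_le fun e he => ?_
        rw [Finset.mem_range] at he
        rw [map_mul, map_pow]
        calc w ((uCoeff p i).coeff e) * w (jFun τ) ^ e ≤ 1 * M ^ e :=
              mul_le_mul' (val_of_isIntegral B ((uCoeff_spec p hi').1 e))
                (pow_le_pow_left₀ zero_le (le_max_right _ _) e)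
          _ ≤ M ^ i := by rw [one_mul]; exact pow_le_pow_right₀ h1M (by omega)
      rw [hT0]
      simp only [hT]
      rw [map_mul, map_pow]
      calc w ((uCoeff p i).eval (jFun τ)) * w (uFun p τ) ^ (p + 1 - i)
          ≤ M ^ i * w (uFun p τ) ^ (p + 1 - i) := mul_le_mul_left hev _
        _ < w (uFun p τ) ^ i * w (uFun p τ) ^ (p + 1 - i) :=
            mul_lt_mul_of_pos_right (pow_lt_pow_left₀ hlt zero_le (by omega)) (pow_pos hwu _)
        _ = w (uFun p τ) ^ (p + 1) := by rw [← pow_add]; congr 1; omega)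
  rw [hsum, map_zero, hT0] at this
  exact (pow_ne_zero _ hwu.ne') this.symm

/-- If the isogeny is toric at all bad primes prime to `p`, the discriminant is bounded. -/
theorem pow_le_of_branch [NeZero p] (c₄ Δ : ℤ) (hΔ : Δ ≠ 0) (τ : ℍ) (j' u : ℚ)
    (hj : jFun τ = (((c₄ : ℚ) ^ 3 / Δ : ℚ) : ℂ)) (hj' : jNFun p τ = (j' : ℂ))
    (hu : uFun p τ = (u : ℂ))
    (hbr : ∀ q : ℕ, q.Prime → q ≠ p → (q : ℤ) ∣ Δ → ¬ (q : ℤ) ∣ c₄ ∧
      padicValRat q j' = p * padicValRat q ((c₄ : ℚ) ^ 3 / Δ)) :
    ((ordCompl[p] Δ.natAbs : ℕ) : ℝ) ^ p ≤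
      40000 * (p : ℝ) ^ 6 * max |(Δ : ℝ)| (|(c₄ : ℝ)| ^ 3) := by
  classical
  have hu0 : u ≠ 0 := fun h => uFun_ne_zero p τ (by rw [hu, h, Rat.cast_zero])
  set R := ordCompl[p] Δ.natAbs with hR
  have hR0 : R ≠ 0 := (Nat.ordCompl_pos p (Int.natAbs_ne_zero.2 hΔ)).ne'
  have hRQ : (R : ℚ) ≠ 0 := Nat.cast_ne_zero.2 hR0
  have hΔQ : (Δ : ℚ) ≠ 0 := Int.cast_ne_zero.2 hΔ
  set N : ℚ := u * Δ / (R : ℚ) ^ p with hN
  have hN0 : N ≠ 0 := div_ne_zero (mul_ne_zero hu0 hΔQ) (pow_ne_zero _ hRQ)
  have key : ∀ q : ℕ, q.Prime → 0 ≤ padicValRat q N := by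
    intro q hq
    haveI : Fact q.Prime := ⟨hq⟩
    rw [hN, padicValRat.div (mul_ne_zero hu0 hΔQ) (pow_ne_zero _ hRQ), padicValRat.mul hu0 hΔQ,
      padicValRat.pow, padicValRat.of_nat, padicValRat.of_int]
    have hRv : padicValNat q R = if q = p then 0 else padicValInt q Δ := by
      rw [hR, padicValInt, padicValNat_def' hq.ne_one (Nat.ordCompl_pos p (Int.natAbs_ne_zero.2 hΔ)).ne']
      · split_ifs with h
        · subst h
          exact multiplicity_eq_zero.2 (Nat.not_dvd_ordCompl hq (Int.natAbs_ne_zero.2 hΔ))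
        · rw [← padicValNat_def' hq.ne_one (Nat.ordCompl_pos p (Int.natAbs_ne_zero.2 hΔ)).ne',
            ← Nat.factorization_def _ hq, ← Nat.factorization_def _ hq,
            Nat.factorization_ordCompl, Finsupp.erase_ne h]
    rw [hRv]
    set j : ℚ := (c₄ : ℚ) ^ 3 / Δ with hjdef
    have hvj : -(padicValInt q Δ : ℤ) ≤ padicValRat q j := by
      by_cases hc : c₄ = 0
      · simp [hjdef, hc]
      rw [hjdef, padicValRat.div (pow_ne_zero _ (Int.cast_ne_zero.2 hc)) hΔQ, padicValRat.pow,
        padicValRat.of_int, padicValRat.of_int]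
      omega
    by_cases hqp : q = p
    · rw [if_pos hqp]
      suffices -(padicValInt q Δ : ℤ) ≤ padicValRat q u by push_cast; linarith
      obtain ⟨B, hB⟩ := exists_complex_place q
      have := val_uFun_le p B τ
      rw [hu, hj, val_ratCast B hB hu0] at this
      have r0 := val_q_pos B hB
      have r1 := val_q_lt_one B hB
      by_contra hlt
      push Not at hlt
      refine absurd this (not_le.2 (max_lt ?_ ?_))
      · exact one_lt_zpow_of_neg₀ r0 r1 (by omega)
      · by_cases hj0 : j = 0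
        · rw [hj0, Rat.cast_zero, map_zero]; exact zpow_pos r0 _
        · rw [val_ratCast B hB hj0]; exact zpow_right_strictAnti₀ r0 r1 (by omega)
    · rw [if_neg hqp]
      by_cases hqΔ : (q : ℤ) ∣ Δ
      · obtain ⟨hqc, hb⟩ := hbr q hq hqp hqΔ
        have hvj' : padicValRat q j = -(padicValInt q Δ : ℤ) := by
          have hc : c₄ ≠ 0 := fun h => hqc (h ▸ dvd_zero _)
          rw [hjdef, padicValRat.div (pow_ne_zero _ (Int.cast_ne_zero.2 hc)) hΔQ, padicValRat.pow,
            padicValRat.of_int, padicValRat.of_int, padicValInt.eq_zero_of_not_dvd hqc]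
          simp
        have hn : 0 < padicValInt q Δ := by
          refine Nat.pos_of_ne_zero fun h => ?_
          rcases padicValInt.eq_zero_iff.1 h with h' | h' | h'
          · exact hq.ne_one h'
          · exact hΔ h'
          · exact h' hqΔ
        rw [uFun_val_of_branch p hqp τ j j' u hj hj' hu (by omega) hb, hvj']
        exact le_of_eq (by ring)
      · have h0 : padicValInt q Δ = 0 := padicValInt.eq_zero_of_not_dvd hqΔ
        rw [(padicValRat_uFun p hqp τ j u hj hu).1 (by rw [h0] at hvj; simpa using hvj), h0]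
        simp
  have hint : 1 ≤ |(N : ℝ)| := by
    have hden : N.den = 1 := by
      by_contra hne
      obtain ⟨q, hq, hqd⟩ := Nat.exists_prime_and_dvd hne
      haveI : Fact q.Prime := ⟨hq⟩
      have h := key q hq
      rw [padicValRat_def, padicValInt.eq_zero_of_not_dvd fun hqn =>
        hq.not_dvd_one (N.reduced ▸ Nat.dvd_gcd (Int.natCast_dvd.1 hqn) hqd)] at h
      have := one_le_padicValNat_of_dvd N.den_ne_zero hqd
      omega
    rw [Rat.cast_def, hden, Nat.cast_one, div_one, ← Int.cast_abs]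
    exact_mod_cast Int.one_le_abs (Rat.num_ne_zero.2 hN0)
  have hle := norm_uFun_le p τ
  rw [hu, hj, Complex.norm_ratCast, Complex.norm_ratCast] at hle
  rw [hN] at hint
  push_cast at hint hle
  rw [abs_div, abs_mul, abs_pow, Nat.abs_cast, le_div_iff₀ (by positivity), one_mul] at hint
  refine hint.trans ((mul_le_mul_of_nonneg_right hle (abs_nonneg _)).trans ?_)
  rw [mul_assoc, max_mul_of_nonneg _ _ (abs_nonneg _), one_mul, abs_div, abs_pow,
    div_mul_cancel₀ _ (abs_ne_zero.2 (Int.cast_ne_zero.2 hΔ))]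

end Fermat.Agent.Mazur3
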