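import Fermat.Agent.Mazur3.NodalLine
import Fermat.Agent.Mazur3.HeightBound
import Fermat.Agent.EC.FrobeniusTrace
import Fermat.Agent.Galois.Tame
import Fermat.Agent.EC.Frey
import Fermat.Agent.Mazur.FreyFacts
import Fermat.Prelude.Def_FLTPrelim_CofixedLine
import Fermat.Prelude.Def_FLTPrelim_FreyPackage

/-!
# No cofixed line in `E[p]` for a Frey curve and `p ≥ 17`, given Mazur's branch theorem

A cofixed line gives a point `(j, j')` of `X₀(p)` on the toric branch at `2` and `3`, hence at every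
bad prime, and then the discriminant contradicts the height bound.
-/

set_option autoImplicit false
set_option linter.style.haveILetI false

noncomputable section

namespace Fermat.Agent.Mazur3

open WeierstrassCurve WeierstrassCurve.Affine.Point Fermat.Agent.EC Fermat.Agent.Galois
  Fermat.Agent.GalRep UpperHalfPlane
open Fermat.Agent.Period (jFun)
open scoped WeierstrassCurve.Affine Pointwise

local notation "Qb" => AlgebraicClosure ℚ

/-- The points of `X₀(p)` on one branch at `2` and `3` are on that branch at every pole. -/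
def SameBranch (p : ℕ) [NeZero p] : Prop :=
  ∀ (j j' : ℚ) (τ : UpperHalfPlane), jFun τ = (j : ℂ) → jNFun p τ = (j' : ℂ) →
    padicValRat 2 j < 0 → padicValRat 2 j = p * padicValRat 2 j' →
    padicValRat 3 j < 0 → padicValRat 3 j = p * padicValRat 3 j' →
    ∀ l : ℕ, l.Prime → l ≠ p → padicValRat l j < 0 → padicValRat l j = p * padicValRat l j'

lemma exists_swap (p : ℕ) [Fact p.Prime] [NeZero p] (τ : UpperHalfPlane) :
    ∃ τ' : UpperHalfPlane, jFun τ' = jNFun p τ ∧ jNFun p τ' = jFun τ := by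
  set P := posMat _ (det_diagN p)
  refine ⟨ModularGroup.S • (P • τ), Period.jFun_smul _ _, ?_⟩
  have hp0 : (p : ℂ) ≠ 0 := Nat.cast_ne_zero.2 (Fact.out : p.Prime).ne_zero
  have hco : ∀ z : ℍ, ((ModularGroup.S • z : ℍ) : ℂ) = -1 / (z : ℂ) := fun z => by
    rw [UpperHalfPlane.modular_S_smul]; show (-(z : ℂ))⁻¹ = _; rw [inv_neg, neg_div, one_div]
  have e : P • (ModularGroup.S • (P • τ)) = ModularGroup.S • τ := by
    apply UpperHalfPlane.ext
    rw [coe_posMat_smul, hco, hco, coe_posMat_smul]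
    simp
    field_simp
  show jFun (P • _) = _
  rw [e, Period.jFun_smul]

section Line

variable (W : WeierstrassCurve ℤ) {p : ℕ} [hp : Fact p.Prime]
  (N : Submodule (ZMod p) (Etors W p))
  {Q : Etors W p} (hgen : ∀ n ∈ N, ∃ c : ℕ, n = c • Q)
  (hcof : ∀ (σ : GQ) (x : Etors W p), σ • x - x ∈ N)

lemma isElliptic_place (hΔ : W.Δ ≠ 0) (A : ValuationSubring Qb) :
    ((W.map (Int.castRingHom A)).map (algebraMap A Qb)).IsElliptic := ⟨by
  rw [WeierstrassCurve.map_Δ, WeierstrassCurve.map_Δ, isUnit_iff_ne_zero]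
  simpa using hΔ⟩

include hgen hcof in
/-- With multiplicative reduction at `3`, a cofixed line is on the identity component. -/
theorem inZeroComponent_three (hp11 : 11 ≤ p) (hΔ : W.Δ ≠ 0) (h3 : (3 : ℤ) ∣ W.Δ)
    (h3c : ¬ (3 : ℤ) ∣ W.c₄) {A : ValuationSubring Qb} (hA : A.LiesOverPrime 3) :
    W.InZeroComponentAt A (Q : ((W.map (Int.castRingHom ℚ))⁄Qb).Point) := by
  classical
  set WA : WeierstrassCurve A := W.map (Int.castRingHom A) with hWA
  have hmap : WA.map (algebraMap A Qb) = ((W.map (Int.castRingHom ℚ))⁄Qb : WeierstrassCurve Qb) :=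
    (baseChange_eq_map W A).symm
  haveI := isElliptic_place W hΔ A
  haveI : ((W.map (Int.castRingHom ℚ))⁄Qb : WeierstrassCurve Qb).IsElliptic := by
    rw [← hmap]; infer_instance
  have hodd : Odd p := hp.out.odd_of_ne_two (by omega)
  have hpu : IsUnit (p : A) := isUnit_natCast Nat.prime_three hA fun h => by
    have := (Nat.prime_dvd_prime_iff_eq Nat.prime_three hp.out).1 h
    omega
  have hΔA : ¬ IsUnit WA.Δ := by
    rw [A.valuation_eq_one_iff, hWA, WeierstrassCurve.map_Δ, eq_intCast]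
    push_cast
    exact (val_intCast_lt_one hA h3).ne
  have hΔA0 : WA.Δ ≠ 0 := by
    rw [hWA, WeierstrassCurve.map_Δ]; simpa using hΔ
  have hc : IsUnit WA.c₄ := by
    rw [A.valuation_eq_one_iff, hWA, WeierstrassCurve.map_c₄, eq_intCast]
    push_cast
    exact val_intCast_eq_one Nat.prime_three hA h3c
  obtain ⟨x₀, y₀, h₀, t₀, hψ₀, hline⟩ := exists_zeroComponent_line WA hΔA hΔA0 hc hodd hpu (p := p)
  obtain ⟨φ, hφ⟩ := exists_isFrobeniusAt Nat.prime_three hA
  set ι := sigmaPoint (RingHom.id Qb) (V := WA.map (algebraMap A Qb))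
    (V' := ((W.map (Int.castRingHom ℚ))⁄Qb : WeierstrassCurve Qb))
    (by rw [WeierstrassCurve.map_id]; exact hmap) with hι
  set R := ι (Affine.Point.some x₀ y₀ h₀) with hR
  have hRe : ∃ h', R = Affine.Point.some x₀ y₀ h' := ⟨_, sigmaPoint_some _ _ h₀⟩
  obtain ⟨h₀', hRe⟩ := hRe
  have hRp : p • R = 0 := by rw [hR, ← map_nsmul, t₀, _root_.map_zero]
  obtain ⟨hφns, hφR⟩ := algEquiv_smul_some (W.map (Int.castRingHom ℚ)) φ h₀'
  have hφns' : (WA.map (algebraMap A Qb)).toAffine.Nonsingular (φ x₀) (φ y₀) := by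
    rw [hmap]; exact hφns
  have hιφ : ι (Affine.Point.some _ _ hφns') = φ • R := by
    rw [hι, sigmaPoint_some, hRe, hφR]
    rfl
  have hιinj : Function.Injective ι := by
    rw [injective_iff_map_eq_zero]
    rintro (_ | ⟨a, b, h⟩) e
    · rfl
    · rw [hι, sigmaPoint_some] at e
      exact absurd e (Affine.Point.some_ne_zero _)
  have hdec := hφ.mem_decompositionSubgroup
  have hψφ : A.valuation (psiTwo WA (φ x₀) (φ y₀)) = 1 := by
    have : psiTwo WA (φ x₀) (φ y₀) = φ (psiTwo WA x₀ y₀) := by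
      simp [psiTwo, hWA, map_ofNat]
    rw [this, valuation_apply_eq hdec, hψ₀]
  have tφ : p • Affine.Point.some _ _ hφns' = 0 := hιinj (by
    rw [map_nsmul, hιφ, _root_.map_zero, ← Nat.cast_smul_eq_nsmul ℤ, ← algEquiv_smul_zsmul,
      Nat.cast_smul_eq_nsmul, hRp, smul_zero])
  obtain ⟨i, hi⟩ := hline _ _ hφns' tφ hψφ
  have hi' : φ • R = i • R := by rw [← hιφ, ← hi, map_nsmul]
  set Rt : Etors W p := ⟨R, by
    rw [Submodule.mem_torsionBy_iff, Nat.cast_smul_eq_nsmul, hRp]⟩ with hRt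
  obtain ⟨c, hc'⟩ := hgen _ (hcof φ Rt)
  by_cases hfix : φ • R = R
  swap
  · -- then `Q` is a multiple of `R`
    have hd : (φ • R - R) = c • (Q : ((W.map (Int.castRingHom ℚ))⁄Qb).Point) := by
      have := congrArg Subtype.val hc'
      exact this
    have hpc : ¬ p ∣ c := by
      rintro ⟨e, rfl⟩
      refine hfix (sub_eq_zero.1 ?_)
      rw [hd, mul_comm, mul_smul]
      have hQ := Q.2
      rw [Submodule.mem_torsionBy_iff, Nat.cast_smul_eq_nsmul] at hQ
      rw [hQ, smul_zero]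
    obtain ⟨e, he⟩ := Nat.exists_mul_mod_eq_one_of_coprime
      ((Nat.Prime.coprime_iff_not_dvd hp.out).2 hpc).symm hp.out.one_lt
    have hQp : p • (Q : ((W.map (Int.castRingHom ℚ))⁄Qb).Point) = 0 := by
      have hQ := Q.2
      rwa [Submodule.mem_torsionBy_iff, Nat.cast_smul_eq_nsmul] at hQ
    have hQR : ∃ m : ℕ, (Q : ((W.map (Int.castRingHom ℚ))⁄Qb).Point) = m • R := by
      refine ⟨e * (i + (p - 1)), ?_⟩
      have h1 : (i + (p - 1)) • R = c • (Q : ((W.map (Int.castRingHom ℚ))⁄Qb).Point) := by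
        rw [← hd, hi', add_nsmul, eq_sub_iff_add_eq, add_assoc, ← succ_nsmul,
          Nat.sub_add_cancel hp.out.one_le, hRp, add_zero]
      rw [mul_smul, h1, smul_smul, mul_comm]
      conv_rhs => rw [← Nat.div_add_mod (c * e) p, he.2, add_nsmul, mul_comm, mul_smul, hQp,
        smul_zero, zero_add, one_nsmul]
    obtain ⟨m, hm⟩ := hQR
    rcases hQ' : (Q : ((W.map (Int.castRingHom ℚ))⁄Qb).Point) with _ | ⟨x, y, h⟩
    · exact Or.inl rfl
    have h' : (WA.map (algebraMap A Qb)).toAffine.Nonsingular x y := by rw [hmap]; exact h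
    have e1 : m • Affine.Point.some x₀ y₀ h₀ = Affine.Point.some x y h' := hιinj (by
      rw [map_nsmul, ← hR, ← hm, hQ', hι, sigmaPoint_some]; rfl)
    have hψ := psiTwo_nsmul WA ((A.valuation_lt_one_iff _).1 hΔA) hΔA0
      ((A.valuation_eq_one_iff _).1 hc) hpu hodd h₀ t₀ hψ₀ m h' e1
    have ht : p • Affine.Point.some x y h' = 0 := by rw [← e1, smul_comm, t₀, nsmul_zero]
    refine Or.inr ⟨x, y, h, rfl, ?_⟩
    have key := ((psiTwo_of_reduction WA hpu hodd h' ht).2).2 hψ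
    have hres : WA.map (IsLocalRing.residue A) =
        W.map (Int.castRingHom (IsLocalRing.ResidueField A)) := by
      rw [hWA, WeierstrassCurve.map_map]; congr 1
    rwa [hres] at key
  -- otherwise there are more than nine points over the field with three elements
  exfalso
  haveI : CharP (IsLocalRing.ResidueField A) 3 := charP_residue (ℓ := 3) (by norm_num) hA
  set P₀ := Affine.Point.some x₀ y₀ h₀
  have hord : addOrderOf P₀ = p := addOrderOf_eq_prime t₀ (Affine.Point.some_ne_zero _)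
  have hmult : ∀ k : ℕ, ∃ xy : Qb × Qb, k ∈ Finset.Ico 1 p →
      ∃ h, k • P₀ = Affine.Point.some xy.1 xy.2 h ∧ φ xy.1 = xy.1 ∧ φ xy.2 = xy.2 := by
    intro k
    rcases hk : k • P₀ with _ | ⟨a, b, h⟩
    · refine ⟨(0, 0), fun hk' => absurd hk ?_⟩
      rw [Finset.mem_Ico] at hk'
      intro h0
      have := Nat.le_of_dvd (by omega) (hord ▸ addOrderOf_dvd_of_nsmul_eq_zero h0)
      omega
    · refine ⟨(a, b), fun _ => ⟨h, rfl, ?_⟩⟩
      have hkR : k • R = ι (Affine.Point.some a b h) := by rw [hR, ← map_nsmul, hk]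
      rw [hι, sigmaPoint_some] at hkR
      obtain ⟨h'', e''⟩ := algEquiv_smul_some (W.map (Int.castRingHom ℚ)) φ
        (x := a) (y := b) (by rw [← hmap]; exact h)
      have hfk : φ • (k • R) = k • R := by
        rw [← Nat.cast_smul_eq_nsmul ℤ, algEquiv_smul_zsmul, hfix]
      rw [hkR] at hfk
      have := e''.symm.trans hfk
      rw [Affine.Point.some.injEq] at this
      exact this
  choose xy hxy using hmult
  have hint : ∀ k ∈ Finset.Ico 1 p, (xy k).1 ∈ A ∧ (xy k).2 ∈ A := fun k hk => by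
    obtain ⟨h, he, -, -⟩ := hxy k hk
    have ht : p • Affine.Point.some _ _ h = 0 := by rw [← he, smul_comm, t₀, nsmul_zero]
    have hx := torsion_x_mem A WA hpu h ht
    exact ⟨hx, y_mem_of_x_mem A WA hx h.1⟩
  set res := IsLocalRing.residue A
  let F : ℕ → IsLocalRing.ResidueField A × IsLocalRing.ResidueField A := fun k =>
    if hk : k ∈ Finset.Ico 1 p then
      (res ⟨(xy k).1, (hint k hk).1⟩, res ⟨(xy k).2, (hint k hk).2⟩)
    else 0
  set S := (Polynomial.X ^ 3 - Polynomial.X : Polynomial (IsLocalRing.ResidueField A)) with hS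
  have hS0 : S ≠ 0 := by
    intro h
    have := congrArg (fun f => Polynomial.coeff f 3) h
    simp [hS, Polynomial.coeff_X] at this
  have hfixres : ∀ (z : A), φ (z : Qb) = z → res z ∈ S.roots.toFinset := by
    intro z hz
    rw [Multiset.mem_toFinset, Polynomial.mem_roots hS0]
    obtain ⟨hd, hfr⟩ := hφ
    have := hfr (res z)
    rw [residue_smul_eq hd] at this
    have e : (⟨φ z, apply_mem_of_mem_decomposition hd z.2⟩ : A) = z := Subtype.ext hz
    rw [e] at this
    simp only [hS, Polynomial.IsRoot, Polynomial.eval_sub, Polynomial.eval_pow, Polynomial.eval_X]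
    rw [← this, sub_self]
  have hmem : ∀ k ∈ Finset.Ico 1 p, F k ∈ S.roots.toFinset ×ˢ S.roots.toFinset := by
    intro k hk
    obtain ⟨h, he, hf1, hf2⟩ := hxy k hk
    simp only [F, dif_pos hk, Finset.mem_product]
    exact ⟨hfixres _ hf1, hfixres _ hf2⟩
  have hinj : Set.InjOn F (Finset.Ico 1 p) := by
    intro k hk l hl e
    rw [Finset.mem_coe] at hk hl
    simp only [F, dif_pos hk, dif_pos hl, Prod.mk.injEq] at e
    obtain ⟨h, he, -, -⟩ := hxy k hk
    obtain ⟨h', he', -, -⟩ := hxy l hl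
    have t : p • Affine.Point.some _ _ h = 0 := by rw [← he, smul_comm, t₀, nsmul_zero]
    have t' : p • Affine.Point.some _ _ h' = 0 := by rw [← he', smul_comm, t₀, nsmul_zero]
    have hψk := psiTwo_nsmul WA ((A.valuation_lt_one_iff _).1 hΔA) hΔA0
      ((A.valuation_eq_one_iff _).1 hc) hpu hodd h₀ t₀ hψ₀ k h he
    have := eq_of_congr hpu hodd h h' t t' (by
      rintro ⟨-, hT⟩
      have heq := (Affine.equation_iff ..).1 h.1
      have : tP (WA.map (algebraMap A Qb)) ((xy k).1 * (xy k).1) ((xy k).1 + (xy k).1) 1 =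
          psiTwo WA (xy k).1 (xy k).2 ^ 2 := by
        simp only [tP, psiTwo, WeierstrassCurve.b₂, WeierstrassCurve.b₄, WeierstrassCurve.b₆]
        linear_combination -4 * heq
      rw [this, map_pow, hψk, one_pow] at hT
      exact lt_irrefl _ hT)
      ((residue_eq_residue_iff A _ _).1 e.1) ((residue_eq_residue_iff A _ _).1 e.2)
    rw [← he, ← he'] at this
    have hmod := nsmul_eq_nsmul_iff_modEq.1 this
    rw [Finset.mem_Ico] at hk hl
    rwa [hord, Nat.ModEq, Nat.mod_eq_of_lt hk.2, Nat.mod_eq_of_lt hl.2] at hmod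
  have hcard := Finset.card_le_card_of_injOn F hmem hinj
  rw [Nat.card_Ico, Finset.card_product] at hcard
  have h3' : S.roots.toFinset.card ≤ 3 :=
    ((Multiset.toFinset_card_le _).trans S.card_roots').trans (by
      rw [hS]
      exact (Polynomial.natDegree_sub_le _ _).trans (by simp))
  nlinarith [Nat.sub_add_cancel hp.out.one_le]

include hcof in
/-- A cofixed line excludes good reduction at `3`. -/
theorem dvd_three (hp11 : 11 ≤ p) (hN : N ≠ ⊤) : (3 : ℤ) ∣ W.Δ := by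
  by_contra hgood
  obtain ⟨A, hA⟩ := exists_liesOverPrime Nat.prime_three
  obtain ⟨φ, hφ⟩ := exists_isFrobeniusAt Nat.prime_three hA
  obtain ⟨hquad, -⟩ := frobenius_quadratic_torsion W Nat.prime_three hgood hA hφ hp.out
    (by omega) (by omega)
  obtain ⟨x, hx⟩ : ∃ x : Etors W p, x ∉ N := by
    by_contra h
    push Not at h
    exact hN ((Submodule.eq_top_iff').2 h)
  set a : ZMod p := (W.apOfModel 3 : ZMod p) with ha
  have h1 := hcof φ x
  have h2 := hcof φ (φ • x)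
  have key : (4 - a) • x ∈ N := by
    have e : (4 - a) • x = -(φ • φ • x - φ • x) - (φ • x - x) + a • (φ • x - x) := by
      have hq : φ • φ • x = a • φ • x - ((3 : ℕ) : ZMod p) • x :=
        eq_sub_of_add_eq (sub_eq_zero.1 (by rw [← hquad x, ha]; abel))
      rw [hq]
      push_cast
      generalize φ • x = y
      module
    rw [e]
    exact N.add_mem (N.sub_mem (N.neg_mem h2) h1) (N.smul_mem a h1)
  have h4 : (4 : ZMod p) - a = 0 := by
    by_contra hne
    have := N.smul_mem ((4 : ZMod p) - a)⁻¹ key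
    rw [smul_smul, inv_mul_cancel₀ hne, one_smul] at this
    exact hx this
  have hdvd : (p : ℤ) ∣ 4 - W.apOfModel 3 := by
    rw [← ZMod.intCast_zmod_eq_zero_iff_dvd]; push_cast; exact h4
  have hb := apOfModel_sq_le W Nat.prime_three hgood
  have h3' : W.apOfModel 3 ≤ 3 ∧ -3 ≤ W.apOfModel 3 := by
    push_cast at hb
    exact ⟨by nlinarith, by nlinarith⟩
  have := Int.le_of_dvd (by omega) hdvd
  omega

end Line

/-- Arithmetic of the final inequality. -/
lemma final_ineq {p : ℕ} (hp : 17 ≤ p) {m : ℕ} (hm : 2 ≤ m) :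
    (40000 * 27 * 2 ^ (6 * p)) * p ^ 6 * (256 ^ p) * m ^ (6 * p) < m ^ (2 * p * p) := by
  have h1 : p ^ 6 ≤ (2 ^ p) ^ 6 := Nat.pow_le_pow_left Nat.lt_two_pow_self.le 6
  have h2 : (40000 * 27 : ℕ) ≤ 2 ^ 21 := by norm_num
  have h3 : (256 : ℕ) ^ p = 2 ^ (8 * p) := by
    rw [show (256 : ℕ) = 2 ^ 8 by norm_num, ← pow_mul]
  calc (40000 * 27 * 2 ^ (6 * p)) * p ^ 6 * (256 ^ p) * m ^ (6 * p)
      ≤ (2 ^ 21 * 2 ^ (6 * p)) * (2 ^ p) ^ 6 * 2 ^ (8 * p) * m ^ (6 * p) := by
        rw [h3]; gcongr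
    _ = 2 ^ (21 + 20 * p) * m ^ (6 * p) := by ring
    _ < 2 ^ (2 * p * p - 6 * p) * m ^ (6 * p) := by
        gcongr
        · norm_num
        · have : 34 * p ≤ 2 * p * p := by nlinarith
          omega
    _ ≤ m ^ (2 * p * p - 6 * p) * m ^ (6 * p) := by gcongr
    _ = _ := by
        rw [← pow_add]; congr 1
        have : 6 * p ≤ 2 * p * p := by nlinarith
        omega

lemma ordCompl_eq_of_not_dvd (n q : ℕ) (h : ¬ q ∣ n) : ordCompl[q] n = n := by
  simp [Nat.factorization_eq_zero_of_not_dvd h]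

/-- The prime-to-`p` part of `abc` controls the three entries. -/
lemma size_bound (P : FreyPackage) (hp : 17 ≤ P.p) :
    max (max P.a.natAbs P.b.natAbs) P.c.natAbs ≤
      2 * ordCompl[P.p] (P.a * P.b * P.c).natAbs ∧
    2 ≤ ordCompl[P.p] (P.a * P.b * P.c).natAbs := by
  set a := P.a.natAbs
  set b := P.b.natAbs
  set c := P.c.natAbs
  have ha : 0 < a := Int.natAbs_pos.2 P.ha0
  have hb : 0 < b := Int.natAbs_pos.2 P.hb0
  have hc : 0 < c := Int.natAbs_pos.2 P.hc0
  have hp0 := P.pp.ne_zero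
  have tri : ∀ {x y z : ℤ}, x ^ P.p = y ^ P.p + z ^ P.p → x.natAbs ≤ y.natAbs + z.natAbs := by
    intro x y z h
    refine (Nat.pow_le_pow_iff_left hp0).1 ?_
    rw [← Int.natAbs_pow, h]
    refine (Int.natAbs_add_le _ _).trans ?_
    rw [Int.natAbs_pow, Int.natAbs_pow]
    exact pow_add_pow_le (Nat.zero_le _) (Nat.zero_le _) hp0
  have hodd : Odd P.p := P.pp.odd_of_ne_two (by omega)
  have hca : c ≤ a + b := tri P.hFLT.symm
  have hab : a ≤ c + b := by
    have := tri (x := P.a) (y := P.c) (z := -P.b) (by rw [hodd.neg_pow, ← P.hFLT]; ring)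
    rwa [Int.natAbs_neg] at this
  have hba : b ≤ c + a := by
    have := tri (x := P.b) (y := P.c) (z := -P.a) (by rw [hodd.neg_pow, ← P.hFLT]; ring)
    rwa [Int.natAbs_neg] at this
  have cop : ∀ {x y : ℤ}, gcd x y = 1 → P.p ∣ x.natAbs → ¬ P.p ∣ y.natAbs := fun {x y} h hx hy => by
    rw [← Int.natCast_dvd] at hx hy
    have h' := dvd_gcd hx hy
    rw [h] at h'
    exact (Nat.prime_iff_prime_int.1 P.pp).not_dvd_one h'
  rw [Int.natAbs_mul, Int.natAbs_mul, Nat.ordCompl_mul, Nat.ordCompl_mul]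
  set A := ordCompl[P.p] a with hA
  set B := ordCompl[P.p] b with hB
  set C := ordCompl[P.p] c with hC
  have hA1 : 1 ≤ A := Nat.ordCompl_pos _ ha.ne'
  have hB1 : 1 ≤ B := Nat.ordCompl_pos _ hb.ne'
  have hC1 : 1 ≤ C := Nat.ordCompl_pos _ hc.ne'
  have eA : ¬ P.p ∣ a → A = a := fun h => ordCompl_eq_of_not_dvd _ _ h
  have eB : ¬ P.p ∣ b → B = b := fun h => ordCompl_eq_of_not_dvd _ _ h
  have eC : ¬ P.p ∣ c → C = c := fun h => ordCompl_eq_of_not_dvd _ _ h
  constructor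
  · by_cases h1 : P.p ∣ a
    · rw [eB (cop P.hgcdab h1), eC (cop P.hgcdac h1)]
      have k : c + b ≤ 2 * (b * c) := by nlinarith
      have k2 : b * c ≤ A * b * c := by nlinarith
      refine max_le (max_le ?_ ?_) ?_ <;> omega
    · by_cases h2 : P.p ∣ b
      · rw [eA h1, eC (cop P.hgcdbc h2)]
        have k : c + a ≤ 2 * (a * c) := by nlinarith
        have k2 : a * c ≤ a * B * c := by nlinarith
        refine max_le (max_le ?_ ?_) ?_ <;> omega
      · rw [eA h1, eB h2]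
        have k : a + b ≤ 2 * (a * b) := by nlinarith
        have k2 : a * b ≤ a * b * C := by nlinarith
        refine max_le (max_le ?_ ?_) ?_ <;> omega
  · have h2 : 2 ∣ B := by
      refine Nat.dvd_ordCompl_of_dvd_not_dvd ?_ fun h => ?_
      · exact Int.natCast_dvd.1 ((ZMod.intCast_zmod_eq_zero_iff_dvd P.b 2).1 P.hb2)
      · have := (Nat.prime_dvd_prime_iff_eq P.pp Nat.prime_two).1 h
        omega
    have := Nat.le_of_dvd (by omega) h2
    calc 2 = 1 * 2 * 1 := rfl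
      _ ≤ A * B * C := by gcongr

theorem no_cofixed_of_sameBranch (P : FreyPackage) (hp : 17 ≤ P.p)
    (hcore : haveI : NeZero P.p := ⟨P.pp.ne_zero⟩; SameBranch P.p) :
    ¬ HasGaloisStableCofixedLine (K := AlgebraicClosure ℚ) ℚ P.freyCurve P.p := by
  classical
  haveI : Fact P.p.Prime := ⟨P.pp⟩
  haveI : NeZero P.p := ⟨P.pp.ne_zero⟩
  set W := P.freyCurveInt with hW
  intro hline
  rw [← Mazur.freyCurveInt_map P] at hline
  obtain ⟨N, hst, hbot, htop, hcof⟩ := hline
  have hΔQ : (W.Δ : ℚ) = (((P.a * P.b * P.c : ℤ) : ℚ) ^ P.p) ^ 2 / 256 := by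
    rw [← EC.freyCurve_Δ, ← Mazur.freyCurveInt_map P, WeierstrassCurve.map_Δ]; rfl
  have hc₄ : W.c₄ = (P.a ^ P.p) ^ 2 + P.a ^ P.p * P.b ^ P.p + (P.b ^ P.p) ^ 2 := by
    have := EC.freyCurve_c₄ P
    rw [← Mazur.freyCurveInt_map P, WeierstrassCurve.map_c₄, eq_intCast] at this
    exact_mod_cast this
  have h256 : 256 * W.Δ = ((P.a * P.b * P.c) ^ P.p) ^ 2 := by
    have : ((256 * W.Δ : ℤ) : ℚ) = ((((P.a * P.b * P.c) ^ P.p) ^ 2 : ℤ) : ℚ) := by
      push_cast; rw [hΔQ]; push_cast; ring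
    exact_mod_cast this
  have habc : P.a * P.b * P.c ≠ 0 := mul_ne_zero (mul_ne_zero P.ha0 P.hb0) P.hc0
  have hΔ0 : W.Δ ≠ 0 := fun h => by
    rw [h, mul_zero] at h256
    exact habc (eq_zero_of_pow_eq_zero (eq_zero_of_pow_eq_zero h256.symm))
  have hbad : ∀ q : ℕ, q.Prime → (q : ℤ) ∣ W.Δ → ¬ (q : ℤ) ∣ W.c₄ := fun q hq hd => by
    rw [hc₄]
    refine EC.not_dvd_c₄_of_dvd P hq ?_
    have h : (q : ℤ) ∣ ((P.a * P.b * P.c) ^ P.p) ^ 2 := h256 ▸ hd.mul_left _
    exact (Nat.prime_iff_prime_int.1 hq).dvd_of_dvd_pow ((Nat.prime_iff_prime_int.1 hq).dvd_of_dvd_pow h)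
  -- the generator
  obtain ⟨Qt, hQN, hQ0⟩ := (Submodule.ne_bot_iff N).1 hbot
  have hrank : Module.finrank (ZMod P.p) (Etors W P.p) = 2 := by
    haveI : ((W.map (Int.castRingHom ℚ))⁄Qb : WeierstrassCurve Qb).IsElliptic := by
      obtain ⟨A, -⟩ := exists_liesOverPrime Nat.prime_two
      haveI := isElliptic_place W hΔ0 A
      rw [baseChange_eq_map W A]; infer_instance
    exact finrank_torsionBy (K := Qb) (W.map (Int.castRingHom ℚ)) P.p
  haveI : Module.Finite (ZMod P.p) (Etors W P.p) := Module.finite_of_finrank_eq_succ hrank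
  have h1 : Module.finrank (ZMod P.p) N = 1 := by
    have hlt := Submodule.finrank_lt htop
    have hpos : 0 < Module.finrank (ZMod P.p) N := Nat.pos_of_ne_zero fun h =>
      hbot (Submodule.finrank_eq_zero.1 h)
    rw [hrank] at hlt
    omega
  have hgen : ∀ n ∈ N, ∃ c : ℕ, n = c • Qt := by
    intro n hn
    obtain ⟨c, hc⟩ := exists_smul_eq_of_finrank_eq_one h1 (x := ⟨Qt, hQN⟩)
      (fun e => hQ0 (congrArg Subtype.val e)) ⟨n, hn⟩
    refine ⟨c.val, ?_⟩
    rw [← Nat.cast_smul_eq_nsmul (ZMod P.p), ZMod.natCast_rightInverse]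
    exact (congrArg Subtype.val hc).symm
  set Q : ((W.map (Int.castRingHom ℚ))⁄Qb).Point := Qt.1 with hQ
  have hQord : addOrderOf Q = P.p := by
    refine addOrderOf_eq_prime ?_ fun e => hQ0 (Subtype.ext e)
    have h := Qt.2
    rwa [Submodule.mem_torsionBy_iff, Nat.cast_smul_eq_nsmul] at h
  have hQst : ∀ σ : Qb ≃ₐ[ℚ] Qb, ∃ a : ℕ, σ • Q = a • Q := fun σ => by
    obtain ⟨c, hc⟩ := hgen _ (hst σ Qt hQN)
    exact ⟨c, congrArg Subtype.val hc⟩
  obtain ⟨j', τ, hj, hj', ⟨u, hu⟩, hq⟩ :=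
    exists_isogenous_j_of_stable (by omega) W hΔ0 Q hQst hQord
  set j : ℚ := (W.c₄ : ℚ) ^ 3 / W.Δ with hjdef
  have hval : ∀ q : ℕ, q.Prime → (q : ℤ) ∣ W.Δ → padicValRat q j = -(padicValInt q W.Δ : ℤ) ∧
      0 < padicValInt q W.Δ := by
    intro q hq hd
    haveI : Fact q.Prime := ⟨hq⟩
    have hc := hbad q hq hd
    have hc0 : W.c₄ ≠ 0 := fun h => hc (h ▸ dvd_zero _)
    refine ⟨?_, Nat.pos_of_ne_zero fun h => ?_⟩
    · rw [hjdef, padicValRat.div (pow_ne_zero _ (Int.cast_ne_zero.2 hc0)) (Int.cast_ne_zero.2 hΔ0),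
        padicValRat.pow, padicValRat.of_int, padicValRat.of_int, padicValInt.eq_zero_of_not_dvd hc]
      simp
    · rcases padicValInt.eq_zero_iff.1 h with h' | h' | h'
      · exact hq.ne_one h'
      · exact hΔ0 h'
      · exact h' hd
  -- the prime two
  have h2Δ : (2 : ℤ) ∣ W.Δ := by
    obtain ⟨k, hk⟩ := Mazur.freyCurve_delta_even P
    rw [← Mazur.freyCurveInt_map P, WeierstrassCurve.map_Δ, eq_intCast] at hk
    have : W.Δ = 2 * k := by exact_mod_cast hk
    exact ⟨k, this⟩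
  have hp2 : ¬ P.p ∣ padicValInt 2 W.Δ := by
    haveI : Fact (Nat.Prime 2) := ⟨Nat.prime_two⟩
    intro hd
    have e := congrArg (padicValInt 2) h256
    rw [padicValInt.mul (by norm_num) hΔ0, ← pow_mul] at e
    simp only [padicValInt, Int.natAbs_pow] at e
    rw [padicValNat.pow _ _, show (256 : ℤ).natAbs = 2 ^ 8 from rfl, padicValNat.prime_pow] at e
    obtain ⟨k, hk⟩ := hd
    simp only [padicValInt] at hk
    rw [hk] at e
    have : P.p ∣ 8 := by
      have h' : P.p ∣ P.p * 2 * padicValNat 2 (P.a * P.b * P.c).natAbs :=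
        (dvd_mul_right _ _).mul_right _
      rw [← e] at h'
      exact (Nat.dvd_add_left (dvd_mul_right _ _)).1 h'
    have := Nat.le_of_dvd (by norm_num) this
    omega
  obtain ⟨A2, hA2⟩ := exists_liesOverPrime Nat.prime_two
  obtain ⟨hv2, hn2⟩ := hval 2 Nat.prime_two h2Δ
  have hb2 : padicValRat 2 j' = P.p * padicValRat 2 j := by
    obtain ⟨hoff, hon⟩ := hq 2 Nat.prime_two (by omega) h2Δ (hbad 2 Nat.prime_two h2Δ) A2 hA2
    by_cases hz : W.InZeroComponentAt A2 Q
    · exact hon hz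
    · exfalso
      have := hoff hz
      rw [hv2] at this
      exact hp2 (Int.natCast_dvd_natCast.1 (dvd_neg.1 ⟨_, this⟩))
  -- the prime three
  have h3Δ : (3 : ℤ) ∣ W.Δ := dvd_three W N hcof (by omega) htop
  obtain ⟨A3, hA3⟩ := exists_liesOverPrime Nat.prime_three
  have hz3 := inZeroComponent_three W N hgen hcof (by omega) hΔ0 h3Δ
    (hbad 3 Nat.prime_three h3Δ) hA3
  have hb3 := (hq 3 Nat.prime_three (by omega) h3Δ (hbad 3 Nat.prime_three h3Δ) A3 hA3).2 hz3
  obtain ⟨hv3, hn3⟩ := hval 3 Nat.prime_three h3Δ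
  -- every bad prime is on the same branch
  obtain ⟨τ', hτ1, hτ2⟩ := exists_swap P.p τ
  rw [hj'] at hτ1
  rw [hj] at hτ2
  have hp0 : (0 : ℤ) < P.p := by omega
  have hbr : ∀ q : ℕ, q.Prime → q ≠ P.p → (q : ℤ) ∣ W.Δ → ¬ (q : ℤ) ∣ W.c₄ ∧
      padicValRat q j' = P.p * padicValRat q j := by
    intro q hqP hqp hd
    refine ⟨hbad q hqP hd, ?_⟩
    obtain ⟨hv, hn⟩ := hval q hqP hd
    obtain ⟨A, hA⟩ := exists_liesOverPrime hqP
    obtain ⟨hoff, hon⟩ := hq q hqP hqp hd (hbad q hqP hd) A hA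
    have hneg : padicValRat q j' < 0 := by
      by_cases hz : W.InZeroComponentAt A Q
      · rw [hon hz, hv]; exact mul_neg_of_pos_of_neg hp0 (by omega)
      · have := hoff hz
        rw [hv] at this
        by_contra hge
        push Not at hge
        have := mul_nonneg hp0.le hge
        omega
    exact hcore j' j τ' hτ1 hτ2
      (by rw [hb2, hv2]; exact mul_neg_of_pos_of_neg hp0 (by omega)) hb2
      (by rw [hb3, hv3]; exact mul_neg_of_pos_of_neg hp0 (by omega)) hb3 q hqP hqp hneg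
  have hmain := pow_le_of_branch P.p W.c₄ W.Δ hΔ0 τ j' u hj hj' hu hbr
  -- sizes
  set M := max (max P.a.natAbs P.b.natAbs) P.c.natAbs with hM
  set B := (P.a * P.b * P.c).natAbs with hB
  set m := ordCompl[P.p] B with hm
  have hB0 : B ≠ 0 := Int.natAbs_ne_zero.2 habc
  have h256n : 256 * W.Δ.natAbs = B ^ (2 * P.p) := by
    have := congrArg Int.natAbs h256
    rwa [Int.natAbs_mul, ← pow_mul, Int.natAbs_pow, mul_comm P.p 2] at this
  have hR : 256 * ordCompl[P.p] W.Δ.natAbs = m ^ (2 * P.p) := by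
    have h := congrArg (fun n => ordCompl[P.p] n) h256n
    simp only [Nat.ordCompl_mul] at h
    rw [ordCompl_eq_of_not_dvd _ _ (show ¬ P.p ∣ 256 from fun hd => by
      have := P.pp.dvd_of_dvd_pow (show P.p ∣ 2 ^ 8 from hd)
      have := Nat.le_of_dvd two_pos this
      omega)] at h
    rw [h, hm]
    have : ∀ n : ℕ, ordCompl[P.p] (B ^ n) = (ordCompl[P.p] B) ^ n := fun n => by
      induction n with
      | zero => simp
      | succ n ih => rw [pow_succ, pow_succ, Nat.ordCompl_mul, ih]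
    exact this _
  have hmM : M ≤ 2 * m ∧ 2 ≤ m := by
    exact size_bound P hp
  have hle : (P.a.natAbs ≤ M ∧ P.b.natAbs ≤ M ∧ P.c.natAbs ≤ M) :=
    ⟨(le_max_left _ _).trans (le_max_left _ _), (le_max_right _ _).trans (le_max_left _ _),
      le_max_right _ _⟩
  have hM1 : (1 : ℝ) ≤ M := by
    have : 1 ≤ P.a.natAbs := Int.natAbs_pos.2 P.ha0
    exact_mod_cast this.trans hle.1
  have hΔle : |(W.Δ : ℝ)| ≤ (M : ℝ) ^ (6 * P.p) := by
    have h1 : W.Δ.natAbs ≤ M ^ (6 * P.p) := by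
      have hBM : B ≤ M ^ 3 := by
        rw [hB, Int.natAbs_mul, Int.natAbs_mul, pow_succ, pow_two]
        exact Nat.mul_le_mul (Nat.mul_le_mul hle.1 hle.2.1) hle.2.2
      calc W.Δ.natAbs ≤ 256 * W.Δ.natAbs := Nat.le_mul_of_pos_left _ (by norm_num)
        _ = B ^ (2 * P.p) := h256n
        _ ≤ (M ^ 3) ^ (2 * P.p) := Nat.pow_le_pow_left hBM _
        _ = _ := by rw [← pow_mul]; ring_nf
    rw [← Int.cast_abs, Int.abs_eq_natAbs, Int.cast_natCast]
    exact_mod_cast h1
  have hc4le : |(W.c₄ : ℝ)| ≤ 3 * (M : ℝ) ^ (2 * P.p) := by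
    have ha : |(P.a : ℝ) ^ P.p| ≤ (M : ℝ) ^ P.p := by
      rw [abs_pow]; gcongr; rw [← Int.cast_abs, Int.abs_eq_natAbs]; exact_mod_cast hle.1
    have hb : |(P.b : ℝ) ^ P.p| ≤ (M : ℝ) ^ P.p := by
      rw [abs_pow]; gcongr; rw [← Int.cast_abs, Int.abs_eq_natAbs]; exact_mod_cast hle.2.1
    rw [hc₄, two_mul, pow_add]
    push_cast
    set X := (P.a : ℝ) ^ P.p
    set Y := (P.b : ℝ) ^ P.p
    set T := (M : ℝ) ^ P.p
    rw [abs_le] at ha hb ⊢
    constructor <;> nlinarith [mul_nonneg (sub_nonneg.2 ha.2) (sub_nonneg.2 hb.2),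
      mul_nonneg (sub_nonneg.2 ha.2) (neg_le_iff_add_nonneg'.1 hb.1),
      mul_nonneg (neg_le_iff_add_nonneg'.1 ha.1) (sub_nonneg.2 hb.2),
      mul_nonneg (neg_le_iff_add_nonneg'.1 ha.1) (neg_le_iff_add_nonneg'.1 hb.1),
      mul_nonneg (sub_nonneg.2 ha.2) (neg_le_iff_add_nonneg'.1 ha.1),
      mul_nonneg (sub_nonneg.2 hb.2) (neg_le_iff_add_nonneg'.1 hb.1)]
  have hmax : max |(W.Δ : ℝ)| (|(W.c₄ : ℝ)| ^ 3) ≤ 27 * (M : ℝ) ^ (6 * P.p) := by
    refine max_le (hΔle.trans (le_mul_of_one_le_left (by positivity) (by norm_num))) ?_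
    calc |(W.c₄ : ℝ)| ^ 3 ≤ (3 * (M : ℝ) ^ (2 * P.p)) ^ 3 := by gcongr
      _ = _ := by rw [mul_pow, ← pow_mul]; ring_nf
  have hbound : (ordCompl[P.p] W.Δ.natAbs) ^ P.p ≤
      40000 * P.p ^ 6 * (27 * (2 * m) ^ (6 * P.p)) := by
    have : ((ordCompl[P.p] W.Δ.natAbs : ℕ) : ℝ) ^ P.p ≤
        40000 * (P.p : ℝ) ^ 6 * (27 * ((2 * m : ℕ) : ℝ) ^ (6 * P.p)) := by
      refine hmain.trans (mul_le_mul_of_nonneg_left (hmax.trans ?_) (by positivity))
      gcongr
      exact_mod_cast hmM.1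
    exact_mod_cast this
  have hfin := final_ineq hp hmM.2
  rw [show m ^ (2 * P.p * P.p) = (256 * ordCompl[P.p] W.Δ.natAbs) ^ P.p by
    rw [hR, ← pow_mul], mul_pow] at hfin
  rw [mul_pow] at hbound
  have := Nat.mul_le_mul_left (256 ^ P.p) hbound
  nlinarith

end Fermat.Agent.Mazur3
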