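import Fermat.Agent.Eisenstein.RootUnit
import Mathlib.Analysis.SpecialFunctions.Complex.CircleAddChar

/-!
# The Eisenstein periods are divisible by three and four

For `M ∈ {3, 4}` and `p ≡ 1 (mod M)` the power `η^{24/M}` transforms by a character of
`SL₂(ℤ/M)`, so `(η(pz)/η(z))^{24/M}` is an invariant `M`-th root of `Δ(pz)/Δ(z)`.
-/

set_option autoImplicit false

noncomputable section

namespace Fermat.Agent.Mazur3

open UpperHalfPlane CongruenceSubgroup ModularGroup Fermat.Agent.Eisenstein Fermat.Agent.Period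
open scoped MatrixGroups Real

/-- The exponent of the multiplier. -/
def phiPoly {R : Type} [CommRing R] (a b c d : R) : R :=
  (1 - c * c) * (b * d + 3 * (c - 1) * d + c + 3) + c * (a + d - 3)

/-- The rules of the multiplier for right multiplication by `T` and by `S`. -/
def PhiRules (M : ℕ) (eS : ZMod M) : Prop :=
  ∀ a b c d : ZMod M, a * d - b * c = 1 →
    phiPoly a (a + b) c (c + d) = phiPoly a b c d + 1 ∧
      phiPoly b (-a) d (-c) = phiPoly a b c d + eS

theorem phiRules_three : PhiRules 3 0 := by unfold PhiRules phiPoly; decide +kernel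

theorem phiRules_four : PhiRules 4 1 := by unfold PhiRules phiPoly; decide +kernel

/-- The exponent at an element of the modular group. -/
def etaPhi (M : ℕ) (γ : SL(2, ℤ)) : ZMod M :=
  phiPoly (γ 0 0 : ZMod M) (γ 0 1 : ZMod M) (γ 1 0 : ZMod M) (γ 1 1 : ZMod M)

section Multiplier

variable {M w : ℕ} [NeZero M] {eS : ZMod M}

omit [NeZero M] in
theorem etaPhi_mul_T (h : PhiRules M eS) (γ : SL(2, ℤ)) :
    etaPhi M (γ * T) = etaPhi M γ + 1 := by
  have hdet : ((γ 0 0 : ℤ) : ZMod M) * γ 1 1 - γ 0 1 * γ 1 0 = 1 := by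
    have h1 := γ.det_coe
    rw [Matrix.det_fin_two] at h1
    exact_mod_cast congrArg (Int.cast : ℤ → ZMod M) h1
  have := (h _ _ _ _ hdet).1
  simp only [etaPhi, Matrix.SpecialLinearGroup.coe_mul, coe_T, Matrix.mul_apply, Fin.sum_univ_two]
  simpa [add_comm] using this

omit [NeZero M] in
theorem etaPhi_mul_S (h : PhiRules M eS) (γ : SL(2, ℤ)) :
    etaPhi M (γ * S) = etaPhi M γ + eS := by
  have hdet : ((γ 0 0 : ℤ) : ZMod M) * γ 1 1 - γ 0 1 * γ 1 0 = 1 := by
    have h1 := γ.det_coe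
    rw [Matrix.det_fin_two] at h1
    exact_mod_cast congrArg (Int.cast : ℤ → ZMod M) h1
  have := (h _ _ _ _ hdet).2
  simp only [etaPhi, Matrix.SpecialLinearGroup.coe_mul, coe_S, Matrix.mul_apply, Fin.sum_univ_two]
  simpa using this

omit [NeZero M] in
theorem etaPhi_one : etaPhi M 1 = 0 := by
  simp [etaPhi, phiPoly]

/-- A power of `η` transforms by a generator as prescribed. -/
def EtaRule (M w : ℕ) [NeZero M] (g : SL(2, ℤ)) (e : ZMod M) : Prop :=
  ∀ z : ℍ, ModularForm.eta ((g • z : ℍ) : ℂ) ^ (2 * w) =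
    ZMod.stdAddChar e * denom g z ^ w * ModularForm.eta (z : ℂ) ^ (2 * w)

theorem etaRule_mul {x g : SL(2, ℤ)} {a e : ZMod M} (hx : EtaRule M w x a)
    (hg : EtaRule M w g e) : EtaRule M w (x * g) (a + e) := by
  intro z
  rw [mul_smul, hx, hg, AddChar.map_add_eq_mul]
  have : denom (x * g : SL(2, ℤ)) z = denom x ((g • z : ℍ) : ℂ) * denom g z := by
    rw [map_mul, map_mul, UpperHalfPlane.denom_cocycle _ _ z.im_ne_zero]
    congr 2
    exact (UpperHalfPlane.coe_smul_of_det_pos (by simp) z).symm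
  rw [this, mul_pow]
  ring

theorem etaRule_one : EtaRule M w (1 : SL(2, ℤ)) 0 := fun z => by simp [denom]

theorem etaRule_inv {g : SL(2, ℤ)} {e : ZMod M} (hg : EtaRule M w g e) :
    EtaRule M w g⁻¹ (-e) := by
  intro z
  have h := hg (g⁻¹ • z)
  rw [smul_inv_smul] at h
  rw [h]
  have hd : denom g ((g⁻¹ • z : ℍ) : ℂ) * denom (g⁻¹ : SL(2, ℤ)) z = 1 := by
    have hc : denom ((g * g⁻¹ : SL(2, ℤ))) z = denom g ((g⁻¹ • z : ℍ) : ℂ) * denom (g⁻¹ : SL(2, ℤ)) z := by
      rw [map_mul, map_mul, UpperHalfPlane.denom_cocycle _ _ z.im_ne_zero]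
      congr 2
      exact (UpperHalfPlane.coe_smul_of_det_pos (by simp) z).symm
    rw [← hc, mul_inv_cancel]
    simp [denom]
  have he : ZMod.stdAddChar (-e) * ZMod.stdAddChar e = (1 : ℂ) := by
    rw [← AddChar.map_add_eq_mul, neg_add_cancel, AddChar.map_zero_eq_one]
  calc ModularForm.eta ((g⁻¹ • z : ℍ) : ℂ) ^ (2 * w)
      = (ZMod.stdAddChar (-e) * ZMod.stdAddChar e) *
          (denom g ((g⁻¹ • z : ℍ) : ℂ) * denom (g⁻¹ : SL(2, ℤ)) z) ^ w *
          ModularForm.eta ((g⁻¹ • z : ℍ) : ℂ) ^ (2 * w) := by rw [he, hd, one_pow, one_mul, one_mul]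
    _ = _ := by rw [mul_pow]; ring

theorem etaRule_T (hw : M * w = 12) : EtaRule M w (T : SL(2, ℤ)) 1 := by
  intro z
  have hden : denom (T : SL(2, ℤ)) z = 1 := by simp [ModularGroup.denom_apply, coe_T]
  rw [hden, one_pow, mul_one, modular_T_smul, coe_vadd, Complex.ofReal_one]
  have hq : ∀ n : ℕ, ModularForm.eta_q n (1 + (z : ℂ)) = ModularForm.eta_q n (z : ℂ) := fun n => by
    rw [ModularForm.eta_q_eq_pow, ModularForm.eta_q_eq_pow, mul_add, mul_one, Complex.exp_add,
      Complex.exp_two_pi_mul_I, one_mul]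
  simp only [ModularForm.eta, hq, mul_pow]
  rw [← mul_assoc]
  congr 1
  have hM : (M : ℂ) ≠ 0 := Nat.cast_ne_zero.mpr (NeZero.ne M)
  have hw' : (M : ℂ) * w = 12 := by exact_mod_cast hw
  rw [show (1 : ZMod M) = ((1 : ℤ) : ZMod M) by simp, ZMod.stdAddChar_coe]
  simp only [Function.Periodic.qParam, ← Complex.exp_nat_mul]
  rw [← Complex.exp_add]
  congr 1
  push_cast
  field_simp
  linear_combination (2 : ℂ) * hw'

theorem etaRule_S (heS : ((Complex.sqrt Complex.I) ^ (2 * w))⁻¹ = (ZMod.stdAddChar eS : ℂ)) :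
    EtaRule M w (S : SL(2, ℤ)) eS := by
  intro z
  have h : ModularForm.eta ((S • z : ℍ) : ℂ) =
      (Complex.sqrt Complex.I)⁻¹ * (Complex.sqrt z * ModularForm.eta z) := by
    rw [modular_S_smul]
    simpa [neg_div] using ModularForm.eta_comp_eq_csqrt_I_inv z.2
  have hs : Complex.sqrt (z : ℂ) ^ (2 * w) = (z : ℂ) ^ w := by
    rw [pow_mul]
    congr 1
    simp [Complex.sqrt]
  rw [h, mul_pow, mul_pow, inv_pow, heS, hs, ModularGroup.denom_S]
  ring

theorem etaRule_all (hrules : PhiRules M eS) (hw : M * w = 12)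
    (heS : ((Complex.sqrt Complex.I) ^ (2 * w))⁻¹ = (ZMod.stdAddChar eS : ℂ))
    (γ : SL(2, ℤ)) : EtaRule M w γ (etaPhi M γ) := by
  have hγ : γ ∈ Subgroup.closure ({S, T} : Set SL(2, ℤ)) := by
    rw [SpecialLinearGroup.SL2Z_generators]; exact Subgroup.mem_top γ
  induction hγ using Subgroup.closure_induction_right with
  | one => rw [etaPhi_one]; exact etaRule_one
  | mul_right x _ y hy ih =>
    rcases hy with rfl | hy
    · rw [etaPhi_mul_S hrules]; exact etaRule_mul ih (etaRule_S heS)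
    · rw [Set.mem_singleton_iff] at hy
      subst hy
      rw [etaPhi_mul_T hrules]; exact etaRule_mul ih (etaRule_T hw)
  | mul_inv_cancel x _ y hy ih =>
    rcases hy with rfl | hy
    · have h1 := etaPhi_mul_S hrules (x * S⁻¹)
      rw [inv_mul_cancel_right] at h1
      rw [show etaPhi M (x * S⁻¹) = etaPhi M x + -eS by rw [h1, add_neg_cancel_right]]
      exact etaRule_mul ih (etaRule_inv (etaRule_S heS))
    · rw [Set.mem_singleton_iff] at hy
      subst hy
      have h1 := etaPhi_mul_T hrules (x * T⁻¹)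
      rw [inv_mul_cancel_right] at h1
      rw [show etaPhi M (x * T⁻¹) = etaPhi M x + -1 by rw [h1, add_neg_cancel_right]]
      exact etaRule_mul ih (etaRule_inv (etaRule_T hw))

variable (p : ℕ) [Fact p.Prime]

/-- The quotient of the powers of `η` at `p z` and `z`. -/
def etaQuot (w : ℕ) (z : ℍ) : ℂ :=
  ModularForm.eta ((scaleGL p • z : ℍ) : ℂ) ^ (2 * w) / ModularForm.eta (z : ℂ) ^ (2 * w)

omit [NeZero M] in
theorem etaQuot_pow (hw : M * w = 12) (z : ℍ) : etaQuot p w z ^ M = unitFun p z := by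
  rw [etaQuot, div_pow, ← pow_mul, ← pow_mul,
    show 2 * w * M = 24 by linear_combination 2 * hw]
  rfl

theorem etaQuot_smul (hrules : PhiRules M eS) (hw : M * w = 12)
    (heS : ((Complex.sqrt Complex.I) ^ (2 * w))⁻¹ = (ZMod.stdAddChar eS : ℂ))
    (hpM : (p : ZMod M) = 1) (γ : Gamma0 p) (z : ℍ) :
    etaQuot p w ((γ : SL(2, ℤ)) • z) = etaQuot p w z := by
  set σ : SL(2, ℤ) := (γ : SL(2, ℤ)) with hσ
  obtain ⟨k, hk⟩ : (p : ℤ) ∣ σ 1 0 :=
    (ZMod.intCast_zmod_eq_zero_iff_dvd _ p).mp (Gamma0_mem.mp γ.2)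
  have hdet : σ 0 0 * σ 1 1 - σ 0 1 * σ 1 0 = 1 := by
    rw [← Matrix.det_fin_two (σ : Matrix (Fin 2) (Fin 2) ℤ)]; exact σ.det_coe
  let g : SL(2, ℤ) := ⟨!![σ 0 0, (p : ℤ) * σ 0 1; k, σ 1 1],
    by rw [Matrix.det_fin_two_of]; linear_combination hdet + σ 0 1 * hk⟩
  have hk' : ((σ 1 0 : ℤ) : ℂ) = (p : ℂ) * k := by exact_mod_cast hk
  have hpt : scaleGL p • (σ • z) = g • (scaleGL p • z) := by
    apply UpperHalfPlane.ext
    rw [coe_scaleGL_smul, coe_specialLinearGroup_apply, coe_specialLinearGroup_apply,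
      coe_scaleGL_smul]
    simp [g, hk']
    ring
  have hden : denom g ((scaleGL p • z : ℍ) : ℂ) = denom σ z := by
    rw [ModularGroup.denom_apply, ModularGroup.denom_apply, coe_scaleGL_smul]
    simp [g, hk']
    ring
  have hphi : etaPhi M g = etaPhi M σ := by
    have : ((σ 1 0 : ℤ) : ZMod M) = (k : ZMod M) := by
      rw [hk, Int.cast_mul, Int.cast_natCast, hpM, one_mul]
    simp [etaPhi, g, this, hpM]
  rw [etaQuot, etaQuot, hpt, etaRule_all hrules hw heS g, etaRule_all hrules hw heS σ, hden, hphi]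
  have h1 : (ZMod.stdAddChar (etaPhi M σ) : ℂ) * denom σ z ^ w ≠ 0 :=
    mul_ne_zero (fun h0 => one_ne_zero (α := ℂ) (by
      rw [← AddChar.map_zero_eq_one (ZMod.stdAddChar (N := M)), ← add_neg_cancel (etaPhi M σ),
        AddChar.map_add_eq_mul, h0, zero_mul]))
      (pow_ne_zero _ (denom_ne_zero _ z))
  rw [mul_div_mul_left _ _ h1]

theorem dvd_eisPeriod_of_rules (hrules : PhiRules M eS) (hw : M * w = 12)
    (heS : ((Complex.sqrt Complex.I) ^ (2 * w))⁻¹ = (ZMod.stdAddChar eS : ℂ))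
    (hpM : M ∣ p - 1) (γ : Gamma0 p) :
    ∃ m : ℤ, eisPeriod p (Additive.ofMul γ) = (M : ℂ) * m := by
  have hp := (Fact.out : p.Prime)
  have hpM' : (p : ZMod M) = 1 := by
    rw [← Nat.sub_add_cancel hp.one_le, Nat.cast_add, (ZMod.natCast_eq_zero_iff _ _).mpr hpM,
      zero_add, Nat.cast_one]
  have hM : (M : ℂ) ≠ 0 := Nat.cast_ne_zero.mpr (NeZero.ne M)
  set c : ℂ := 2 * π * Complex.I / M with hc
  set h : ℍ → ℂ := fun z => Complex.exp (c * eisPrim p z) / etaQuot p w z with hh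
  have hne : ∀ z, etaQuot p w z ≠ 0 := fun z =>
    div_ne_zero (pow_ne_zero _ (ModularForm.eta_ne_zero (scaleGL p • z).2))
      (pow_ne_zero _ (ModularForm.eta_ne_zero z.2))
  have hroot : ∀ z, h z ^ M = 1 := fun z => by
    rw [hh, div_pow, ← Complex.exp_nat_mul, etaQuot_pow p hw, ← exp_eisPrim_eq,
      show (M : ℂ) * (c * eisPrim p z) = 2 * π * Complex.I * eisPrim p z by rw [hc]; field_simp]
    exact div_self (Complex.exp_ne_zero _)
  have hetac : Continuous fun z : ℍ => ModularForm.eta (z : ℂ) :=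
    continuous_iff_continuousAt.mpr fun z =>
      (ModularForm.differentiableAt_eta_of_mem_upperHalfPlaneSet z.2).continuousAt.comp
        UpperHalfPlane.continuous_coe.continuousAt
  have hscale : Continuous fun z : ℍ => scaleGL p • z := continuous_const_smul _
  have hprim : Continuous (eisPrim p) := continuous_iff_continuousAt.mpr fun z => by
    have h1 := (isPrim_eisPrim p z).continuousAt.comp (f := fun z : ℍ => (z : ℂ))
      UpperHalfPlane.continuous_coe.continuousAt
    simpa [Function.comp_def] using h1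
  have hcont : Continuous h :=
    (Complex.continuous_exp.comp (continuous_const.mul hprim)).div
      (((hetac.comp hscale).pow _).div (hetac.pow _)
        fun z => pow_ne_zero _ (ModularForm.eta_ne_zero z.2)) hne
  have : Finite {x : ℂ // x ^ M = 1} :=
    (Set.Finite.to_subtype (s := {x : ℂ | x ^ M = 1})
      ((Polynomial.nthRootsFinset M (1 : ℂ)).finite_toSet.subset fun x hx => by
        simpa [Polynomial.mem_nthRootsFinset (NeZero.pos M)] using hx))
  have hconst := PreconnectedSpace.constant (inferInstance : PreconnectedSpace ℍ)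
    (f := fun z => (⟨h z, hroot z⟩ : {x : ℂ // x ^ M = 1})) (hcont.subtype_mk hroot)
    (x := (γ : SL(2, ℤ)) • I) (y := I)
  have h2 : h ((γ : SL(2, ℤ)) • I) = h I := congrArg Subtype.val hconst
  simp only [hh, etaQuot_smul p hrules hw heS hpM' γ] at h2
  rw [div_left_inj' (hne I), Complex.exp_eq_exp_iff_exists_int] at h2
  obtain ⟨m, hm⟩ := h2
  refine ⟨m, mul_left_cancel₀ Complex.two_pi_I_ne_zero ?_⟩
  rw [eisPeriod_apply p γ I]
  rw [hc] at hm
  field_simp at hm
  linear_combination (2 * π * Complex.I) * hm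

end Multiplier

variable (p : ℕ) [Fact p.Prime]

theorem three_dvd_eisPeriod (hp : 3 ∣ p - 1) (γ : Gamma0 p) :
    ∃ m : ℤ, eisPeriod p (Additive.ofMul γ) = (3 : ℕ) * (m : ℂ) := by
  refine dvd_eisPeriod_of_rules p (w := 4) phiRules_three rfl ?_ hp γ
  rw [AddChar.map_zero_eq_one, pow_mul, show Complex.sqrt Complex.I ^ 2 = Complex.I by
    simp [Complex.sqrt], Complex.I_pow_four, inv_one]

theorem four_dvd_eisPeriod (hp : 4 ∣ p - 1) (γ : Gamma0 p) :
    ∃ m : ℤ, eisPeriod p (Additive.ofMul γ) = (4 : ℕ) * (m : ℂ) := by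
  refine dvd_eisPeriod_of_rules p (w := 3) phiRules_four rfl ?_ hp γ
  rw [pow_mul, show Complex.sqrt Complex.I ^ 2 = Complex.I by simp [Complex.sqrt],
    show (1 : ZMod 4) = ((1 : ℤ) : ZMod 4) by simp, ZMod.stdAddChar_coe]
  rw [show 2 * (π : ℂ) * Complex.I * ((1 : ℤ) : ℂ) / ((4 : ℕ) : ℂ) = (π / 2 : ℂ) * Complex.I by
    push_cast; ring, Complex.exp_pi_div_two_mul_I]
  simp [pow_succ, Complex.inv_I]

end Fermat.Agent.Mazur3
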