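import Fermat.Agent.Mazur3.EisPart
import Fermat.Agent.Mazur3.DeltaQuot
import Fermat.Agent.Mazur3.EtaRoot
import Fermat.Agent.Mazur3.Class
import Fermat.Agent.Eisenstein.Kappa
import Fermat.Agent.Eisenstein.Transfer

/-!
# The Eisenstein class

The Eisenstein periods give a class modulo `η` killed by every `T_ℓ - 1 - ℓ`. If its Kummer class
at a point is a coboundary then `Δ(pτ)/Δ(τ)` at the point is a `dη`-th power of a rational number,
and this cannot happen at two points exchanged by the Fricke involution.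

Main result: `exists_eisClass`.
-/

set_option autoImplicit false
set_option linter.unusedSectionVars false

noncomputable section

namespace Fermat.Agent.Mazur3

open GalRep UpperHalfPlane CongruenceSubgroup ModularGroup Filter Topology
open Fermat.Agent.Galois (GQ)
open Fermat.Agent.Eisenstein (eisPrim eisPeriod unitFun tGamma tailSeries tailExp)
open Fermat.Agent.Period (scaleGL coe_scaleGL_smul)
open scoped MatrixGroups Manifold Real

local notation "ℚb" => AlgebraicClosure ℚ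

/-! ## Series -/

theorem hasQSeries_of_qexp {f : ℍ → ℂ} {P : PowerSeries ℂ} (h : MCurve.QExp 1 f P) :
    HasQSeries 1 f (HahnSeries.ofPowerSeries ℤ ℂ P) := by
  rw [hasQSeries_iff]
  refine .of_forall fun τ => ?_
  refine (Nat.cast_injective.hasSum_iff fun m hm => ?_).mp ?_
  · rw [HahnSeries.ofPowerSeries_apply, HahnSeries.embDomain_of_notMem_range, zero_mul]
    rintro ⟨k, hk⟩; exact hm ⟨k, hk⟩
  · simpa [Function.comp_def, qq_eq_qParam, HahnSeries.ofPowerSeries_apply_coeff] using h τ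

theorem lmap_ofPowerSeries (σ : ℂ ≃+* ℂ) (P : PowerSeries ℂ) :
    lmap σ.toRingHom (HahnSeries.ofPowerSeries ℤ ℂ P) =
      HahnSeries.ofPowerSeries ℤ ℂ (P.map σ.toRingHom) := by
  ext m
  rw [lmap_coeff]
  by_cases hm : ∃ k : ℕ, (k : ℤ) = m
  · obtain ⟨k, rfl⟩ := hm
    rw [HahnSeries.ofPowerSeries_apply_coeff, HahnSeries.ofPowerSeries_apply_coeff,
      PowerSeries.coeff_map]
  · rw [HahnSeries.ofPowerSeries_apply, HahnSeries.ofPowerSeries_apply,
      HahnSeries.embDomain_of_notMem_range, HahnSeries.embDomain_of_notMem_range, map_zero] <;>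
    · rintro ⟨k, hk⟩; exact hm ⟨k, hk⟩

theorem lmap_single_one (σ : ℂ ≃+* ℂ) (e : ℤ) :
    lmap σ.toRingHom (HahnSeries.single e (1 : ℂ)) = HahnSeries.single e 1 := by
  ext m
  rw [lmap_coeff]
  by_cases h : m = e
  · subst h; simp
  · rw [HahnSeries.coeff_single_of_ne h, map_zero]

/-- An algebraic number fixed by all Galois automorphisms is rational. -/
theorem exists_rat_of_gq_fixed {z : ℂ} (hz : IsAlgebraic ℚ z)
    (h : ∀ s : GQ, liftAut s z = z) : ∃ r : ℚ, (r : ℂ) = z := by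
  obtain ⟨y, rfl⟩ := exists_qbarToC_eq hz
  have hy : y ∈ (⊥ : IntermediateField ℚ ℚb) := by
    rw [InfiniteGalois.mem_bot_iff_fixed]
    intro s
    exact qbarToC_injective (((liftAut_spec s y).symm).trans (h s))
  obtain ⟨r, rfl⟩ := IntermediateField.mem_bot.mp hy
  exact ⟨r, by simp⟩

/-! ## The root of the unit -/

variable {p : ℕ} [NeZero p] [Fact p.Prime]

theorem uFun_eq_unitFun (τ : ℍ) : uFun p τ = (p : ℂ) ^ 12 * unitFun p τ := by
  have h : posMat _ (det_diagN p) • τ = scaleGL p • τ := by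
    apply UpperHalfPlane.ext
    rw [coe_posMat_smul, coe_scaleGL_smul]
    simp
  rw [uFun, unitFun, h, mul_div_assoc]

/-- `exp (2πi eisPrim / n)`. -/
def eisRoot (p n : ℕ) [Fact p.Prime] (z : ℍ) : ℂ :=
  Complex.exp (2 * π * Complex.I / n * eisPrim p z)

theorem eisRoot_pow {n : ℕ} (hn : n ≠ 0) (z : ℍ) : eisRoot p n z ^ n = unitFun p z := by
  rw [eisRoot, ← Complex.exp_nat_mul, ← Eisenstein.exp_eisPrim_eq]
  congr 1
  have : (n : ℂ) ≠ 0 := Nat.cast_ne_zero.mpr hn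
  field_simp

theorem eisRoot_holo (n : ℕ) : MDifferentiable 𝓘(ℂ) 𝓘(ℂ) (eisRoot p n) := by
  rw [UpperHalfPlane.mdifferentiable_iff]
  intro z hz
  exact (((Eisenstein.isPrim_eisPrim p ⟨z, hz⟩).const_mul
    (2 * π * Complex.I / n)).cexp).differentiableAt.differentiableWithinAt

/-- The series of the root at infinity. -/
def eisRootSer (p n e : ℕ) [Fact p.Prime] : LaurentSeries ℂ :=
  HahnSeries.single (e : ℤ) 1 *
    HahnSeries.ofPowerSeries ℤ ℂ (tailSeries p (2 * π * Complex.I / n))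

theorem hasQSeries_eisRoot {n e : ℕ} (hn : n ≠ 0) (he : e * n = p - 1) :
    HasQSeries 1 (eisRoot p n) (eisRootSer p n e) := by
  refine ((HasQSeries.single 1 (e : ℤ) 1).mul
    (hasQSeries_of_qexp (Eisenstein.qexp_tailExp p _))).congr (.of_forall fun τ => ?_)
  simp only [Pi.mul_apply, one_mul, zpow_natCast]
  rw [eisRoot, Eisenstein.exp_eq_tail_mul_qParam p he hn, qParam_one, mul_comm]

theorem lmap_eisRootSer {n : ℕ} (hn : n ≠ 0) (e : ℕ) (σ : ℂ ≃+* ℂ) :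
    lmap σ.toRingHom (eisRootSer p n e) = eisRootSer p n e := by
  rw [eisRootSer, map_mul, lmap_single_one, lmap_ofPowerSeries,
    Eisenstein.tailSeries_rational p hn σ]

variable {η : ℕ} [Fact η.Prime]

/-- The root is a Kummer representative of the reduced periods. -/
theorem isKummerRep_eisRoot {d : ℕ} (hd : d ≠ 0) {χ : ParHom p (ZMod (η ^ 1))}
    {ε : Additive (Gamma0 p) →+ ℤ} (hε : ∀ x, eisPeriod p x = (d : ℂ) * (ε x : ℂ))
    (hχ : ∀ x, (χ : Additive (Gamma0 p) →+ ZMod (η ^ 1)) x = (ε x : ZMod (η ^ 1))) :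
    IsKummerRep p (η ^ 1) χ (eisRoot p (d * η)) := by
  have hη : η ≠ 0 := (Fact.out : η.Prime).ne_zero
  have hn : d * η ≠ 0 := mul_ne_zero hd hη
  have hequiv : ∀ (γ : Gamma0 p) (τ : ℍ), eisRoot p (d * η) ((γ : SL(2, ℤ)) • τ) =
      ZMod.stdAddChar ((χ : Additive (Gamma0 p) →+ ZMod (η ^ 1)) (Additive.ofMul γ)) *
        eisRoot p (d * η) τ := fun γ τ => by
    rw [hχ, ZMod.stdAddChar_coe, eisRoot, eisRoot, ← Complex.exp_add]
    congr 1
    have h1 := Eisenstein.eisPeriod_apply p γ τ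
    rw [hε] at h1
    rw [show eisPrim p ((γ : SL(2, ℤ)) • τ) = eisPrim p τ + (d : ℂ) * (ε (Additive.ofMul γ) : ℂ)
      by linear_combination -h1]
    have : (η : ℂ) ≠ 0 := Nat.cast_ne_zero.mpr hη
    have : (d : ℂ) ≠ 0 := Nat.cast_ne_zero.mpr hd
    rw [pow_one]
    push_cast
    field_simp
    ring
  refine ⟨eisRoot_holo _, fun h => Complex.exp_ne_zero _ (congrFun h UpperHalfPlane.I), hequiv,
    fun δ => ?_⟩
  obtain ⟨W, f, hW, hf⟩ := (isModFun_uFun p).cusps δ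
  obtain ⟨C, hC⟩ := hf.growth hW (m₀ := f.order) fun m hm =>
    HahnSeries.coeff_eq_zero_of_lt_order hm
  have hp := (Fact.out : p.Prime)
  have hV : 0 < W * p := Nat.mul_pos hW hp.pos
  have hper : ∀ τ : ℍ, eisRoot p (d * η) (δ • (((W * p : ℕ) : ℝ) +ᵥ τ)) =
      eisRoot p (d * η) (δ • τ) := fun τ => by
    have hmemΓ : δ * T ^ ((W * p : ℕ) : ℤ) * δ⁻¹ ∈ Gamma p :=
      (Gamma_normal p).conj_mem _ (ModularGroup_T_pow_mem_Gamma p _ (by push_cast; exact dvd_mul_left _ _)) δ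
    have hmem : δ * T ^ ((W * p : ℕ) : ℤ) * δ⁻¹ ∈ Gamma0 p := by
      rw [Gamma0_mem]; exact (Gamma_mem.mp hmemΓ).2.2.1
    have htr : (((⟨_, hmem⟩ : Gamma0 p) : SL(2, ℤ)) : Matrix (Fin 2) (Fin 2) ℤ).trace ^ 2 = 4 := by
      show ((δ * T ^ ((W * p : ℕ) : ℤ) * δ⁻¹ : SL(2, ℤ)) : Matrix (Fin 2) (Fin 2) ℤ).trace ^ 2 = 4
      rw [trace_conj_T_pow]; norm_num
    rw [show (((W * p : ℕ) : ℝ)) = ((((W * p : ℕ) : ℤ)) : ℝ) by simp, smul_vadd_eq,
      show (δ * T ^ ((W * p : ℕ) : ℤ) * δ⁻¹) • (δ • τ) =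
        ((⟨_, hmem⟩ : Gamma0 p) : SL(2, ℤ)) • (δ • τ) from rfl,
      hequiv, χ.2 _ htr, AddChar.map_zero_eq_one, one_mul]
  have hhol : MDifferentiable 𝓘(ℂ) 𝓘(ℂ) fun τ => eisRoot p (d * η) (δ • τ) :=
    GalRep.mdifferentiable_comp_smul (eisRoot_holo _) δ
  obtain ⟨g, hg, -⟩ := exists_hasQSeries hV hhol hper (C := |C| + 1) (B := f.order.natAbs * p) (by
    filter_upwards [hC] with τ hτ
    set a := ‖eisRoot p (d * η) (δ • τ)‖ with ha
    set Q : ℝ := ‖qq (W * p) τ‖ ^ (-((f.order.natAbs * p : ℕ) : ℤ)) with hQ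
    have hq0 : 0 < ‖qq (W * p) τ‖ := norm_pos_iff.mpr (qq_ne_zero _ τ)
    have hQ1 : 1 ≤ Q := by
      rw [hQ, zpow_neg, zpow_natCast]
      exact (one_le_inv₀ (pow_pos hq0 _)).mpr (pow_le_one₀ hq0.le (norm_qq_lt_one _ hV τ).le)
    have hqq : ‖qq W τ‖ ^ f.order ≤ Q := by
      have hq : qq W τ = qq (W * p) τ ^ p := by
        rw [qq, qq, ← Complex.exp_nat_mul]
        congr 1
        have : (W : ℂ) ≠ 0 := Nat.cast_ne_zero.mpr hW.ne'
        have : (p : ℂ) ≠ 0 := Nat.cast_ne_zero.mpr hp.ne_zero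
        push_cast
        field_simp
      rw [hQ, hq, norm_pow, ← zpow_natCast ‖qq (W * p) τ‖ p, ← zpow_mul]
      refine zpow_le_zpow_right_of_le_one₀ hq0 (norm_qq_lt_one _ hV τ).le ?_
      push_cast
      nlinarith [Int.natCast_natAbs f.order, neg_abs_le f.order, Int.natCast_nonneg p]
    have hpow : a ^ (d * η) ≤ |C| * Q := by
      rw [ha, ← norm_pow, eisRoot_pow hn]
      refine le_trans ?_ (hτ.trans (mul_le_mul (le_abs_self C) hqq (by positivity) (abs_nonneg C)))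
      rw [uFun_eq_unitFun, norm_mul, norm_pow, Complex.norm_natCast]
      exact le_mul_of_one_le_left (norm_nonneg _) (one_le_pow₀ (by exact_mod_cast hp.one_le))
    rcases le_total a 1 with h | h
    · exact h.trans (one_le_mul_of_one_le_of_one_le (by linarith [abs_nonneg C]) hQ1)
    · exact ((le_self_pow₀ h hn).trans hpow).trans (by nlinarith))
  exact ⟨W * p, g, hV, hg⟩

/-! ## Coboundaries give rational roots -/

theorem autChar_of_eisRoot {n e : ℕ} (hn : n ≠ 0) (he : e * n = p - 1)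
    {χ : ParHom p (ZMod (η ^ 1))} (hE : IsKummerRep p (η ^ 1) χ (eisRoot p n)) (σ : ℂ ≃+* ℂ) :
    autChar σ χ = χ :=
  (eq_autChar σ hE (hasQSeries_eisRoot hn he) hE
    (by rw [lmap_eisRootSer hn]; exact hasQSeries_eisRoot hn he)).symm

theorem exists_rat_root {d e : ℕ} (hd : d ≠ 0) (he : e * (d * η) = p - 1)
    {χ : ParHom p (ZMod (η ^ 1))} (hE : IsKummerRep p (η ^ 1) χ (eisRoot p (d * η)))
    (x : RatPoint p) {β : ZMod (η ^ 1)}
    (hβ : ∀ s : GQ, x.kClass (liftAut s) χ = (1 - cycMod η 1 s) * β) :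
    ∃ R : ℚ, unitFun p x.τ = (R : ℂ) ^ (d * η) := by
  have hη : η ≠ 0 := (Fact.out : η.Prime).ne_zero
  have hn : d * η ≠ 0 := mul_ne_zero hd hη
  have hser := hasQSeries_eisRoot hn he
  have hfix := autChar_of_eisRoot hn he hE
  have hN := normalRep_spec χ
  set v := x.val (normalRep χ) with hv
  set z : ℂ := v * ZMod.stdAddChar β with hz
  have hroot : (ZMod.stdAddChar β : ℂ) ^ (η ^ 1) = 1 := by
    rw [← AddChar.map_nsmul_eq_pow, nsmul_eq_mul, ZMod.natCast_self, zero_mul,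
      AddChar.map_zero_eq_one]
  have hzfix : ∀ s : GQ, liftAut s z = z := fun s => by
    have h := x.kClass_spec (liftAut s) χ
    rw [hfix, hβ s] at h
    rw [hz, map_mul, hv, ← h, liftAut_stdAddChar, mul_assoc, ← AddChar.map_add_eq_mul,
      show (1 - cycMod η 1 s) * β + cycMod η 1 s * β = β by ring]
  have hzalg : IsAlgebraic ℚ z :=
    (x.isAlgebraic_val_normalRep χ).mul
      (IsIntegral.of_pow (NeZero.pos (η ^ 1)) (by rw [hroot]; exact isIntegral_one)).isAlgebraic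
  obtain ⟨w, hw⟩ := exists_rat_of_gq_fixed hzalg hzfix
  have hG : IsModFun (Gamma0 p) (eisRoot p (d * η) * normalRep χ ^ ((η ^ 1) - 1)) := by
    have := hE.mul (hN.rep.pow ((η ^ 1) - 1))
    rw [add_pred_nsmul_eq_zero] at this
    exact this.isModFun
  have hGs := hser.mul (hN.series.pow ((η ^ 1) - 1))
  obtain ⟨r, hr⟩ := Hecke.exists_rat_of_fixed
    (x := x.val (eisRoot p (d * η) * normalRep χ ^ ((η ^ 1) - 1))) fun σ =>
      x.val_modFun σ hG hG hGs (by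
        rw [map_mul, map_pow, lmap_eisRootSer hn, lmap_normalSeries, hfix]; exact hGs)
  rw [x.val_mul (eisRoot_holo _) (hN.rep.holo.pow _), x.val_pow hN.rep.holo,
    x.val_eq_apply (F := eisRoot p (d * η)) (Complex.exp_ne_zero _), ← hv] at hr
  have hv0 : v ≠ 0 := x.val_ne_zero hN.rep.holo hN.rep.ne_zero
  have hvm : v ^ (η ^ 1) = (w : ℂ) ^ (η ^ 1) := by rw [hw, hz, mul_pow, hroot, mul_one]
  have hw0 : (w : ℂ) ≠ 0 := by
    rw [hw, hz]
    exact mul_ne_zero hv0 fun h0 => zero_ne_one (α := ℂ) (by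
      rwa [h0, zero_pow (NeZero.ne (η ^ 1))] at hroot)
  have h1 : eisRoot p (d * η) x.τ * (w : ℂ) ^ (η ^ 1) = (r : ℂ) * v := by
    rw [← hvm, hr, mul_assoc, ← pow_succ, Nat.sub_add_cancel (NeZero.pos (η ^ 1))]
  refine ⟨r * w / w ^ (η ^ 1), ?_⟩
  have h2 : eisRoot p (d * η) x.τ ^ (η ^ 1) = ((r * w / w ^ (η ^ 1) : ℚ) : ℂ) ^ (η ^ 1) := by
    rw [show eisRoot p (d * η) x.τ = (r : ℂ) * v / (w : ℂ) ^ (η ^ 1) by
      rw [← h1, mul_div_cancel_right₀ _ (pow_ne_zero _ hw0)]]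
    push_cast
    rw [div_pow, div_pow, mul_pow, mul_pow, hvm]
  rw [pow_one] at h2
  rw [← eisRoot_pow hn, mul_comm d η, pow_mul, pow_mul, pow_one, ← h2, ← mul_comm d η]

/-! ## The class -/

theorem transferHom_eisEps {d : ℕ} (hd : d ≠ 0) {ε : Additive (Gamma0 p) →+ ℤ}
    (hε : ∀ x, eisPeriod p x = (d : ℂ) * (ε x : ℂ)) {l : ℕ} (hg : GoodIndex p l)
    (x : Additive (Gamma0 p)) : transferHom hg ε x = (1 + (l : ℤ)) * ε x := by
  set f : ℤ →+ ℂ := (AddMonoidHom.mulLeft (d : ℂ)).comp (Int.castAddHom ℂ) with hf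
  have he : eisPeriod p = f.comp ε := AddMonoidHom.ext fun y => hε y
  have h := DFunLike.congr_fun (Eisenstein.tOp_eisPeriod p hg) x
  change transferHom hg (eisPeriod p) x = _ at h
  rw [he, transferHom_comp, AddMonoidHom.comp_apply, AddMonoidHom.smul_apply,
    AddMonoidHom.comp_apply, zsmul_eq_mul] at h
  simp only [hf, AddMonoidHom.comp_apply, AddMonoidHom.coe_mulLeft, Int.coe_castAddHom] at h
  have hdC : (d : ℂ) ≠ 0 := Nat.cast_ne_zero.mpr hd
  have h' : ((transferHom hg ε x : ℤ) : ℂ) = (((1 + (l : ℤ)) * ε x : ℤ) : ℂ) :=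
    mul_left_cancel₀ hdC (by rw [h]; push_cast; ring)
  exact_mod_cast h'

theorem exists_eisVector {d e : ℕ} (hd : d ≠ 0) (he : e * (d * η) = p - 1)
    {ε : Additive (Gamma0 p) →+ ℤ} (hε : ∀ x, eisPeriod p x = (d : ℂ) * (ε x : ℂ)) :
    ∃ v₀ : Lat p η, (∀ ℓ : GoodPrime p, ∃ w : Lat p η, eisOp p η ℓ v₀ = (η : ℤ_[η]) • w) ∧
      ∀ x, (redPow 1 v₀ : Additive (Gamma0 p) →+ ZMod (η ^ 1)) x = (ε x : ZMod (η ^ 1)) := by
  have hp := (Fact.out : p.Prime)
  have hη : (η : ℤ) ≠ 0 := Int.natCast_ne_zero.mpr (Fact.out : η.Prime).ne_zero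
  obtain ⟨κc, hκT, hκint⟩ := Eisenstein.exists_kappa p
  choose k hk using hκint
  let κ : Additive (Gamma0 p) →+ ℤ := AddMonoidHom.mk' (fun x => k (Additive.toMul x))
    fun a b => Int.cast_injective (α := ℂ) (by
      push_cast
      rw [← hk, ← hk, ← hk, ← map_add]
      rfl)
  have hκ : ∀ x, κc x = (κ x : ℂ) := fun x => hk (Additive.toMul x)
  let ψ : Additive (Gamma0 p) →+ ℤ := ε - (AddMonoidHom.mulLeft ((η : ℤ) * e)).comp κ
  have hψ : ∀ x, ψ x = ε x - (η : ℤ) * e * κ x := fun x => rfl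
  have hT : ψ (Additive.ofMul (tGamma p)) = 0 := by
    have h1 := hε (Additive.ofMul (tGamma p))
    rw [Eisenstein.eisPeriod_T, show (p : ℂ) - 1 = ((e * (d * η) : ℕ) : ℂ) by
      rw [he, Nat.cast_sub hp.one_le, Nat.cast_one]] at h1
    push_cast at h1
    have h2 : (κ (Additive.ofMul (tGamma p)) : ℂ) = 1 := by rw [← hκ]; exact hκT
    have hdC : (d : ℂ) ≠ 0 := Nat.cast_ne_zero.mpr hd
    refine Int.cast_injective (α := ℂ) ?_
    rw [hψ]
    push_cast
    rw [h2]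
    refine mul_left_cancel₀ hdC ?_
    linear_combination -h1
  have hψpar : ψ ∈ ModularCurve.Period.parabolicHoms ℤ (Gamma0 p) ℤ := by
    have h := Eisenstein.mem_parabolicHoms_of_T p (χ := (Int.castAddHom ℂ).comp ψ)
      (by rw [AddMonoidHom.comp_apply, hT, map_zero])
    intro γ hγ
    exact Int.cast_injective (α := ℂ) ((h γ hγ).trans Int.cast_zero.symm)
  let φ : ParHom p ℤ := ⟨ψ, hψpar⟩
  refine ⟨ofIntHom φ, fun ℓ => ?_, fun x => ?_⟩
  · have hg := goodIndex ℓ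
    let W : Additive (Gamma0 p) →+ ℤ := (AddMonoidHom.mulLeft (-(e : ℤ))).comp
      (transferHom hg κ - (AddMonoidHom.mulLeft (1 + ((ℓ : ℕ) : ℤ))).comp κ)
    have hW : ∀ x, W x = -(e : ℤ) * (transferHom hg κ x - (1 + ((ℓ : ℕ) : ℤ)) * κ x) :=
      fun x => rfl
    have key : ∀ x, transferHom hg ψ x - (1 + ((ℓ : ℕ) : ℤ)) * ψ x = (η : ℤ) * W x := fun x => by
      obtain ⟨γ, rfl⟩ := Additive.ofMul.surjective x
      have h1 := transferHom_eisEps hd hε hg (Additive.ofMul γ)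
      rw [transferHom_apply] at h1
      rw [hW, transferHom_apply, transferHom_apply]
      simp only [hψ, Finset.sum_sub_distrib, ← Finset.mul_sum]
      rw [h1]
      ring
    have hWpar : W ∈ ModularCurve.Period.parabolicHoms ℤ (Gamma0 p) ℤ := by
      intro γ hγ
      refine (mul_eq_zero.mp ((key (Additive.ofMul γ)).symm.trans ?_)).resolve_left hη
      rw [(transferHom_mem hg φ) γ hγ, hψpar γ hγ, mul_zero, sub_zero]
    refine ⟨ofIntHom ⟨W, hWpar⟩, Subtype.ext (AddMonoidHom.ext fun x => ?_)⟩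
    rw [eisOp, LinearMap.sub_apply, Module.End.natCast_apply]
    show transferHom (goodIndex ℓ) ((Int.castAddHom ℤ_[η]).comp ψ) x -
        (1 + (ℓ : ℕ)) • ((ψ x : ℤ) : ℤ_[η]) = (η : ℤ_[η]) • ((W x : ℤ) : ℤ_[η])
    rw [transferHom_comp, AddMonoidHom.comp_apply, nsmul_eq_mul, smul_eq_mul]
    have h := congrArg (Int.cast : ℤ → ℤ_[η]) (key x)
    push_cast at h ⊢
    exact h
  · rw [redPow_apply]
    show PadicInt.toZModPow 1 ((ψ x : ℤ) : ℤ_[η]) = _
    rw [map_intCast, hψ]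
    push_cast
    rw [show (η : ZMod (η ^ 1)) = 0 by
      rw [ZMod.natCast_eq_zero_iff, pow_one], zero_mul, zero_mul, sub_zero]

/-- A divisor of all periods which is large enough. -/
theorem exists_divisor (hη : η * Nat.gcd (p - 1) 12 ∣ p - 1) :
    ∃ d : ℕ, d * η ∣ p - 1 ∧ ¬ d * η ∣ 12 ∧
      ∀ γ : Gamma0 p, ∃ m : ℤ, eisPeriod p (Additive.ofMul γ) = (d : ℂ) * m := by
  have hηp := (Fact.out : η.Prime)
  have hηdvd : η ∣ p - 1 := (dvd_mul_right η _).trans hη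
  have h4 : η = 2 → 4 ∣ Nat.gcd (p - 1) 12 ∧ 8 ∣ p - 1 := fun h2 => by
    subst h2
    have h2g : 2 ∣ Nat.gcd (p - 1) 12 := Nat.dvd_gcd hηdvd (by norm_num)
    have h4p : 4 ∣ p - 1 := (Nat.mul_dvd_mul_left 2 h2g).trans hη
    have h4g : 4 ∣ Nat.gcd (p - 1) 12 := Nat.dvd_gcd h4p (by norm_num)
    exact ⟨h4g, (Nat.mul_dvd_mul_left 2 h4g).trans hη⟩
  rcases eq_or_ne η 2 with rfl | h2
  · refine ⟨4, (h4 rfl).2, by norm_num, fun γ => ?_⟩
    exact four_dvd_eisPeriod p ((h4 rfl).1.trans (Nat.gcd_dvd_left _ _)) γ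
  rcases eq_or_ne η 3 with rfl | h3
  · have h3g : 3 ∣ Nat.gcd (p - 1) 12 := Nat.dvd_gcd hηdvd (by norm_num)
    refine ⟨3, (Nat.mul_dvd_mul_left 3 h3g).trans hη, by norm_num, fun γ => ?_⟩
    exact three_dvd_eisPeriod p hηdvd γ
  refine ⟨1, by rwa [one_mul], fun h => ?_, fun γ => ?_⟩
  · rw [one_mul] at h
    have hle := Nat.le_of_dvd (by norm_num) h
    have := hηp.two_le
    interval_cases η <;> norm_num at *
  · obtain ⟨m, hm⟩ := Eisenstein.eisPeriod_int p γ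
    exact ⟨m, by rw [hm, Nat.cast_one, one_mul]⟩

theorem exists_eisClass {p η : ℕ} [NeZero p] [Fact p.Prime] [Fact η.Prime]
    (hη : η * Nat.gcd (p - 1) 12 ∣ p - 1) :
    ∃ v₀ : Lat p η, (∀ ℓ : GoodPrime p, ∃ w : Lat p η, eisOp p η ℓ v₀ = (η : ℤ_[η]) • w) ∧
      (∀ s : GQ, (kummerGalois p (η ^ 1)).galois s (redPow 1 v₀) = redPow 1 v₀) ∧
      ∀ x x' : RatPoint p, uFun p x.τ * uFun p x'.τ = (p : ℂ) ^ 12 →
        (∃ β : ZMod (η ^ 1), ∀ s : GQ,
          x.kClass (liftAut s) (redPow 1 v₀) = (1 - cycMod η 1 s) * β) →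
        (∃ β : ZMod (η ^ 1), ∀ s : GQ,
          x'.kClass (liftAut s) (redPow 1 v₀) = (1 - cycMod η 1 s) * β) → False := by
  have hp := (Fact.out : p.Prime)
  obtain ⟨d, ⟨e, he⟩, h12, hper⟩ := exists_divisor hη
  have he' : e * (d * η) = p - 1 := by rw [he, mul_comm]
  have hd : d ≠ 0 := by
    rintro rfl
    have := hp.two_le
    simp at he
    omega
  have hn : d * η ≠ 0 := mul_ne_zero hd (Fact.out : η.Prime).ne_zero
  have hdC : (d : ℂ) ≠ 0 := Nat.cast_ne_zero.mpr hd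
  choose m hm using hper
  let ε : Additive (Gamma0 p) →+ ℤ := AddMonoidHom.mk' (fun x => m (Additive.toMul x))
    fun a b => Int.cast_injective (α := ℂ) (mul_left_cancel₀ hdC (by
      push_cast
      rw [mul_add, ← hm, ← hm, ← hm, ← map_add]
      rfl))
  have hε : ∀ x, eisPeriod p x = (d : ℂ) * (ε x : ℂ) := fun x => hm (Additive.toMul x)
  obtain ⟨v₀, hv, hred⟩ := exists_eisVector hd he' hε
  have hE := isKummerRep_eisRoot hd hε hred
  refine ⟨v₀, hv, fun s => autChar_of_eisRoot hn he' hE (liftAut s), fun x x' hu hx hx' => ?_⟩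
  obtain ⟨β, hβ⟩ := hx
  obtain ⟨β', hβ'⟩ := hx'
  obtain ⟨R, hR⟩ := exists_rat_root hd he' hE x hβ
  obtain ⟨R', hR'⟩ := exists_rat_root hd he' hE x' hβ'
  refine Eisenstein.irrational_of_pow_eq p (C := ((R * R' : ℚ) : ℂ)) h12 hn ?_ (R * R') rfl
  rw [uFun_eq_unitFun, uFun_eq_unitFun, hR, hR'] at hu
  push_cast
  rw [mul_pow]
  have hp0 : (p : ℂ) ^ 12 ≠ 0 := pow_ne_zero _ (Nat.cast_ne_zero.mpr hp.ne_zero)
  refine eq_inv_of_mul_eq_one_left (mul_right_cancel₀ hp0 ?_)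
  linear_combination hu

end Fermat.Agent.Mazur3
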