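import Fermat.Agent.GalRep.Datum
import Fermat.Agent.GalRep.Cyclo

/-!
# Eisenstein modules

The interface of the descent: a lattice with commuting Hecke and Galois actions satisfying the
congruence relation, with Eisenstein residual behaviour and eigenvalues off `±(1 + ℓ)`, and a line
at the residual prime on which inertia acts cyclotomically.
-/

set_option autoImplicit false

noncomputable section

namespace Fermat.Agent.Mazur3

open GalRep
open Fermat.Agent.Galois (GQ)

/-- A lattice at the Eisenstein prime. -/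
structure EisModule (p η : ℕ) [NeZero p] [Fact η.Prime] : Type 1 where
  M : Type
  [instAddCommGroup : AddCommGroup M]
  [instModule : Module ℤ_[η] M]
  [instFree : Module.Free ℤ_[η] M]
  [instFinite : Module.Finite ℤ_[η] M]
  galois : GQ →* Module.End ℤ_[η] M
  continuous : ∀ k : ℕ, ∃ F : IntermediateField ℚ (AlgebraicClosure ℚ), FiniteDimensional ℚ F ∧
    ∀ σ : GQ, (∀ x ∈ F, σ x = x) → ∀ v : M, ∃ w : M, galois σ v - v = (η ^ k : ℤ_[η]) • w
  hecke : HeckePoly p →ₐ[ℤ] Module.End ℤ_[η] M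
  galois_hecke : ∀ σ P, Commute (galois σ) (hecke P)
  unramified : ∀ q : ℕ, q.Prime → ¬ q ∣ p → q ≠ η →
    ∀ A : ValuationSubring (AlgebraicClosure ℚ), A.LiesOverPrime q →
      ∀ σ ∈ A.inertiaSubgroupIn ℚ, galois σ = 1
  frobenius : ∀ ℓ : GoodPrime p, (ℓ : ℕ) ≠ η →
    ∀ A : ValuationSubring (AlgebraicClosure ℚ), A.LiesOverPrime ℓ →
    ∀ σ : GQ, A.IsFrobeniusAt σ ℓ →
      galois σ * galois σ - hecke (MvPolynomial.X ℓ) * galois σ +
        ((ℓ : ℕ) : Module.End ℤ_[η] M) = 0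
  unipotent : ∀ A : ValuationSubring (AlgebraicClosure ℚ), A.LiesOverPrime p →
    ∀ σ ∈ A.inertiaSubgroupIn ℚ, ∀ τ ∈ A.inertiaSubgroupIn ℚ,
      (galois σ - 1) * (galois τ - 1) = 0
  eisenstein : ∀ ℓ : GoodPrime p, ∃ k : ℕ, ∀ v : M, ∃ w : M,
    ((hecke (MvPolynomial.X ℓ) - ((1 + (ℓ : ℕ) : ℕ) : Module.End ℤ_[η] M)) ^ k) v =
      (η : ℤ_[η]) • w
  sub_injective : ∀ ℓ : GoodPrime p, Function.Injective
    (hecke (MvPolynomial.X ℓ) - ((1 + (ℓ : ℕ) : ℕ) : Module.End ℤ_[η] M))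
  add_injective : ∀ ℓ : GoodPrime p, Function.Injective
    (hecke (MvPolynomial.X ℓ) + ((1 + (ℓ : ℕ) : ℕ) : Module.End ℤ_[η] M))

attribute [instance] EisModule.instAddCommGroup EisModule.instModule EisModule.instFree
  EisModule.instFinite

variable {p η : ℕ} [NeZero p] [Fact η.Prime]

/-- A line at a place over `η`: inertia is cyclotomic on it and trivial on the quotient, and a
Frobenius element satisfies the dual congruence relation on it. -/
structure EisModule.OrdLine (E : EisModule p η) (A : ValuationSubring (AlgebraicClosure ℚ))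
    (hg : ¬ η ∣ p) : Type where
  line : Submodule ℤ_[η] E.M
  saturated : ∀ (c : ℤ_[η]) (v : E.M), c ≠ 0 → c • v ∈ line → v ∈ line
  hecke_mem : ∀ P, ∀ v ∈ line, E.hecke P v ∈ line
  galois_mem : ∀ σ ∈ A.decompositionSubgroup ℚ, ∀ v ∈ line, E.galois σ v ∈ line
  inertia_line : ∀ σ ∈ A.inertiaSubgroupIn ℚ, ∀ v ∈ line, E.galois σ v = (cyc η σ).val • v
  inertia_quot : ∀ σ ∈ A.inertiaSubgroupIn ℚ, ∀ v, E.galois σ v - v ∈ line
  frob : GQ
  isFrobeniusAt : A.IsFrobeniusAt frob η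
  frob_line : ∀ v ∈ line,
    (η : ℤ_[η]) • E.galois frob (E.galois frob v) -
      (cyc η frob).val • E.hecke (MvPolynomial.X ⟨⟨η, Fact.out⟩, hg⟩) (E.galois frob v) +
      ((cyc η frob).val * (cyc η frob).val) • v = 0

/-- A continuous cocycle with values in the lattice. -/
structure EisModule.IsCocycle (E : EisModule p η) (c : GQ → E.M) : Prop where
  cocycle : ∀ σ τ, c (σ * τ) = c σ + E.galois σ (c τ)
  continuous : ∀ k : ℕ, ∃ F : IntermediateField ℚ (AlgebraicClosure ℚ), FiniteDimensional ℚ F ∧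
    ∀ σ : GQ, (∀ x ∈ F, σ x = x) → ∃ w : E.M, c σ = (η ^ k : ℤ_[η]) • w

end Fermat.Agent.Mazur3
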