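import Fermat.Agent.Mazur3.Local
import Fermat.Agent.NewVec.Hecke

/-!
# The Eisenstein part of the lattice

The vectors on which every `T_ℓ - 1 - ℓ` is topologically nilpotent. It is saturated, stable under
Hecke and Galois, lifts every Eisenstein class modulo `η` which lifts to the lattice, and on it
`T_ℓ - 1 - ℓ` and `T_ℓ + 1 + ℓ` are injective.
-/

set_option autoImplicit false
set_option linter.unusedSectionVars false

noncomputable section

namespace Fermat.Agent.Mazur3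

open GalRep IsLocalRing
open Fermat.Agent.Galois (GQ)
open UpperHalfPlane CongruenceSubgroup Filter Topology
open scoped MatrixGroups

local notation "ℚb" => AlgebraicClosure ℚ

/-! ## Eigenvalues of absolute value `ℓ + 1` -/

section Bound

variable {N ℓ : ℕ} [NeZero N]

theorem eq_zero_of_heckeT_norm (hg : GoodIndex N ℓ) {f : CuspForm (Gamma0 N) 2} {c : ℂ}
    (hc : ‖c‖ = (ℓ : ℝ) + 1)
    (h : CuspForm.heckeTLin 2 hg.prime hg.not_dvd f = c • f) : f = 0 := by
  classical
  have hℓ := hg.prime.ne_zero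
  have hnn : ∀ τ, 0 ≤ NewVec.hNorm f τ := fun τ => mul_nonneg (norm_nonneg _) τ.im_pos.le
  obtain ⟨τ₀, hτ₀⟩ := NewVec.exists_max_hNorm f
  have hstep : ∀ τ, NewVec.hNorm f τ = NewVec.hNorm f τ₀ →
      NewVec.hNorm f (repGL ℓ none • τ) = NewVec.hNorm f τ₀ := by
    intro τ hτ
    refine le_antisymm (hτ₀ _) ?_
    by_contra hlt
    push Not at hlt
    have h1 : ((ℓ : ℝ) + 1) * NewVec.hNorm f τ ≤ ∑ i, NewVec.hNorm f (repGL ℓ i • τ) := by
      rw [Finset.sum_congr rfl fun i _ => (NewVec.hNorm_slash_repGL hℓ _ i τ).symm,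
        ← Finset.sum_mul, NewVec.hNorm, ← mul_assoc]
      refine mul_le_mul_of_nonneg_right ?_ τ.im_pos.le
      refine le_of_eq_of_le ?_ (norm_sum_le _ _)
      rw [← NewVec.heckeT_eq_sum hg, h, ← hc, ← norm_mul]
      rfl
    have h2 : ∑ i, NewVec.hNorm f (repGL ℓ i • τ) <
        ∑ _i : Option (Fin ℓ), NewVec.hNorm f τ₀ :=
      Finset.sum_lt_sum (fun i _ => hτ₀ _) ⟨none, Finset.mem_univ _, hlt⟩
    rw [Finset.sum_const, Finset.card_univ, Fintype.card_option, Fintype.card_fin,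
      nsmul_eq_mul, Nat.cast_add, Nat.cast_one] at h2
    rw [hτ] at h1
    linarith
  let seq : ℕ → ℍ := fun r => (fun τ => repGL ℓ none • τ)^[r] τ₀
  have hseq : ∀ r, NewVec.hNorm f (seq r) = NewVec.hNorm f τ₀ := fun r => by
    induction r with
    | zero => rfl
    | succ r ih =>
      rw [show seq (r + 1) = repGL ℓ none • seq r from Function.iterate_succ_apply' _ _ _]
      exact hstep _ ih
  have him : ∀ r, (seq r).im = (ℓ : ℝ) ^ r * τ₀.im := fun r => by
    induction r with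
    | zero => simp [seq]
    | succ r ih =>
      rw [show seq (r + 1) = repGL ℓ none • seq r from Function.iterate_succ_apply' _ _ _,
        ← UpperHalfPlane.coe_im, repGL, ModularForm.coe_heckeDiagMatrix_smul hℓ]
      simp [ih, pow_succ]
      ring
  have hlim : Tendsto seq atTop atImInfty := by
    refine tendsto_comap_iff.mpr ?_
    show Tendsto (fun r => (seq r).im) atTop atTop
    simp only [him]
    exact (tendsto_pow_atTop_atTop_of_one_lt (by exact_mod_cast hg.prime.one_lt)).atTop_mul_const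
      τ₀.im_pos
  have h0 := (NewVec.hNorm_tendsto f 1).comp hlim
  simp only [Function.comp_def, one_smul, hseq] at h0
  have hzero : NewVec.hNorm f τ₀ = 0 := tendsto_nhds_unique tendsto_const_nhds h0
  refine DFunLike.ext _ _ fun τ => ?_
  have := le_antisymm ((hτ₀ τ).trans hzero.le) (hnn τ)
  simpa [NewVec.hNorm, τ.im_ne_zero] using this

/-- `T_ℓ - c` is injective on parabolic homomorphisms when `|c| = ℓ + 1`. -/
theorem eq_zero_of_hecke_eigen {A : Type} [AddCommGroup A] [IsAddTorsionFree A] (l : GoodPrime N)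
    {c : ℤ} (hc : c.natAbs = (l : ℕ) + 1) {χ : ParHom N A} (h : heckeHomAt l χ = c • χ) :
    χ = 0 := by
  set P : HeckePoly N := MvPolynomial.X l - (c : HeckePoly N)
  have hP : ∀ (B : Type) [AddCommGroup B] (ψ : ParHom N B),
      heckePolyHom N B P ψ = heckeHomAt l ψ - c • ψ := fun B _ ψ => by
    simp only [P, map_sub, heckePolyHom_X, map_intCast, LinearMap.sub_apply]
    rw [Module.End.intCast_apply]
  refine NewVec.eq_zero_of_heckePoly (P := P) (fun φ hφ => ?_) (by rw [hP, h, sub_self])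
  have hψ : heckePolyHom N ℂ P (parMap (Int.castAddHom ℂ) φ) = 0 := by
    rw [heckePolyHom_natural, hφ, map_zero]
  obtain ⟨u, v, huv⟩ := NewVec.exists_periods (parMap (Int.castAddHom ℂ) φ)
  rw [huv, map_add, NewVec.heckePolyHom_jPar, periodPar_heckePoly, periodPar_heckePoly] at hψ
  set u' := (evForms N P : Module.End ℂ (CuspForm (Gamma0 N) 2)) u
  set v' := (evForms N P : Module.End ℂ (CuspForm (Gamma0 N) 2)) v
  have hker : u' = 0 ∧ v' = 0 := by
    obtain ⟨pml, hpml, hdef⟩ :=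
      ModularCurve.periodHomPair_def N (Period.existsPeriodMapLinear N)
    have hz : ModularCurve.periodHomPair N ((1 / 2 : ℂ) • (u' + v'), (1 / 2 : ℂ) • (u' - v')) =
        0 := by
      rw [hdef, LinearMap.coprod_apply]
      refine AddMonoidHom.ext fun x => ?_
      have e := DFunLike.congr_fun (congrArg Subtype.val hψ) x
      simp only [periodParHom, NewVec.jPar, periodPar, AddMonoidHom.mk'_apply, Submodule.coe_add,
        AddMonoidHom.add_apply, ZeroMemClass.coe_zero, AddMonoidHom.zero_apply,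
        ModularCurve.Period.charInvolution_apply] at e
      rw [← hpml, ← hpml] at e
      simp only [map_smul, map_add, map_sub, LinearMap.comp_apply, LinearMap.add_apply,
        LinearMap.sub_apply, LinearMap.id_apply, LinearMap.smul_apply, AddMonoidHom.add_apply,
        AddMonoidHom.sub_apply, AddMonoidHom.smul_apply,
        ModularCurve.Period.charInvolution_apply, smul_eq_mul, AddMonoidHom.zero_apply]
      linear_combination e
    have h0 := (LinearMap.ker_eq_bot.mp (LinearMap.ker_eq_bot.mpr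
      (Period.periodHomPair_injective (N := N)))) (hz.trans (map_zero _).symm)
    rw [Prod.mk_eq_zero, smul_eq_zero, smul_eq_zero] at h0
    have e1 := h0.1.resolve_left (by norm_num)
    have e2 := h0.2.resolve_left (by norm_num)
    rw [sub_eq_zero] at e2
    rw [← e2, ← two_smul ℂ, smul_eq_zero] at e1
    exact ⟨e1.resolve_left two_ne_zero, by rw [← e2]; exact e1.resolve_left two_ne_zero⟩
  have hT : ∀ f : CuspForm (Gamma0 N) 2,
      (evForms N P : Module.End ℂ (CuspForm (Gamma0 N) 2)) f = 0 → f = 0 := fun f hf => by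
    have hn : ‖(c : ℂ)‖ = ((l : ℕ) : ℝ) + 1 := by
      rw [Complex.norm_intCast, ← Int.cast_abs, ← Int.natCast_natAbs, hc]
      push_cast; ring
    refine eq_zero_of_heckeT_norm (goodIndex l) hn ?_
    have hi : ∀ n : ℤ, ((n : CuspForm.heckeAlgebra N 2 (∅ : Set ℕ)) :
        Module.End ℂ (CuspForm (Gamma0 N) 2)) = n := fun n =>
      map_intCast (CuspForm.heckeAlgebra N 2 (∅ : Set ℕ)).val n
    simp only [P, map_sub, evForms, MvPolynomial.aeval_X, map_intCast, AddSubgroupClass.coe_sub,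
      LinearMap.sub_apply, hi, Module.End.intCast_apply, sub_eq_zero] at hf
    rw [Int.cast_smul_eq_zsmul ℂ]
    exact hf
  have hu : u = 0 := hT u hker.1
  have hv : v = 0 := hT v hker.2
  rw [hu, hv, map_zero, zero_add] at huv
  refine Subtype.ext (AddMonoidHom.ext fun x => ?_)
  have := DFunLike.congr_fun (congrArg Subtype.val huv) x
  simpa [NewVec.jPar] using this

end Bound

/-! ## The part -/

variable (p η : ℕ) [NeZero p] [Fact η.Prime]

/-- `T_ℓ - 1 - ℓ` on the lattice. -/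
def eisOp (ℓ : GoodPrime p) : Module.End ℤ_[η] (Lat p η) :=
  latHecke p η ℓ - ((1 + (ℓ : ℕ) : ℕ) : Module.End ℤ_[η] (Lat p η))

theorem eisOp_commute_of {ℓ : GoodPrime p} {f : Module.End ℤ_[η] (Lat p η)}
    (hf : Commute (latHecke p η ℓ) f) : Commute (eisOp p η ℓ) f :=
  LinearMap.ext fun v => by
    have h := LinearMap.congr_fun hf.eq v
    simp only [Module.End.mul_apply] at h
    simp only [eisOp, Module.End.mul_apply, LinearMap.sub_apply, Module.End.natCast_apply,
      map_sub, map_nsmul, h]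

theorem eisOp_commute (ℓ m : GoodPrime p) : Commute (eisOp p η ℓ) (latHecke p η m) :=
  eisOp_commute_of p η (LinearMap.ext fun v => Subtype.ext
    (transferHom_comm (goodIndex ℓ) (goodIndex m) _))

/-- The vectors on which the Eisenstein operators are topologically nilpotent. -/
def eisPart : Submodule ℤ_[η] (Lat p η) where
  carrier := {v | ∀ (ℓ : GoodPrime p) (k : ℕ),
    ∃ (n : ℕ) (w : Lat p η), (eisOp p η ℓ ^ n) v = (η : ℤ_[η]) ^ k • w}
  add_mem' {v v'} hv hv' ℓ k := by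
    obtain ⟨n, w, h⟩ := hv ℓ k
    obtain ⟨n', w', h'⟩ := hv' ℓ k
    refine ⟨n' + n, (eisOp p η ℓ ^ n') w + (eisOp p η ℓ ^ n) w', ?_⟩
    rw [map_add, smul_add, ← map_smul, ← map_smul, ← h, ← h']
    congr 1
    · rw [pow_add, Module.End.mul_apply]
    · rw [add_comm, pow_add, Module.End.mul_apply]
  zero_mem' ℓ k := ⟨0, 0, by rw [map_zero, smul_zero]⟩
  smul_mem' c v hv ℓ k := by
    obtain ⟨n, w, h⟩ := hv ℓ k
    exact ⟨n, c • w, by rw [map_smul, h, smul_comm]⟩

variable {p η}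

theorem mem_eisPart {v : Lat p η} : v ∈ eisPart p η ↔ ∀ (ℓ : GoodPrime p) (k : ℕ),
    ∃ (n : ℕ) (w : Lat p η), (eisOp p η ℓ ^ n) v = (η : ℤ_[η]) ^ k • w := Iff.rfl

theorem apply_mem_eisPart {f : Module.End ℤ_[η] (Lat p η)}
    (hf : ∀ ℓ, Commute (eisOp p η ℓ) f) {v : Lat p η} (hv : v ∈ eisPart p η) :
    f v ∈ eisPart p η := fun ℓ k => by
  obtain ⟨n, w, h⟩ := hv ℓ k
  refine ⟨n, f w, ?_⟩
  rw [← Module.End.mul_apply, ((hf ℓ).pow_left n).eq, Module.End.mul_apply, h, map_smul]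

theorem latHecke_mem_eisPart (m : GoodPrime p) {v : Lat p η} (hv : v ∈ eisPart p η) :
    latHecke p η m v ∈ eisPart p η :=
  apply_mem_eisPart (fun ℓ => eisOp_commute p η ℓ m) hv

theorem latAct_commute_latHecke (s : GQ) (m : GoodPrime p) :
    Commute (latAct p η s) (latHecke p η m) :=
  LinearMap.ext fun v => lat_ext fun k => by
    rw [Module.End.mul_apply, Module.End.mul_apply, redPow_latGalois, redPow_latHecke,
      redPow_latHecke, redPow_latGalois]
    exact eq_heckeHom (goodIndex m) (kummerHeckeComm p (η ^ k) (kummerGalois p (η ^ k)) m s _ _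
      (isHeckeTransfer_heckeHom (goodIndex m) (redPow k v)))

theorem latAct_mem_eisPart (s : GQ) {v : Lat p η} (hv : v ∈ eisPart p η) :
    latAct p η s v ∈ eisPart p η :=
  apply_mem_eisPart (fun ℓ => eisOp_commute_of p η (latAct_commute_latHecke s ℓ).symm) hv

/-- The part is saturated. -/
theorem mem_eisPart_of_smul {c : ℤ_[η]} (hc : c ≠ 0) {v : Lat p η} (h : c • v ∈ eisPart p η) :
    v ∈ eisPart p η := fun ℓ k => by
  obtain ⟨u, e, hu⟩ : ∃ (u : ℤ_[η]ˣ) (e : ℕ), c = (u : ℤ_[η]) * (η : ℤ_[η]) ^ e :=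
    ⟨_, _, PadicInt.unitCoeff_spec hc⟩
  obtain ⟨n, w, hw⟩ := h ℓ (k + e)
  refine ⟨n, ((u⁻¹ : ℤ_[η]ˣ) : ℤ_[η]) • w, smul_right_injective _ hc ?_⟩
  show c • _ = c • _
  rw [← map_smul, hw, smul_smul, smul_smul]
  congr 1
  rw [hu, pow_add]
  calc (η : ℤ_[η]) ^ k * (η : ℤ_[η]) ^ e
      = ((u : ℤ_[η]) * ((u⁻¹ : ℤ_[η]ˣ) : ℤ_[η])) *
        ((η : ℤ_[η]) ^ k * (η : ℤ_[η]) ^ e) := by rw [Units.mul_inv, one_mul]
    _ = _ := by ring

/-- A vector reducing to zero modulo `η ^ k` is divisible by `η ^ k`. -/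
theorem exists_smul_of_redPow {k : ℕ} {u : Lat p η} (h : redPow k u = 0) :
    ∃ w : Lat p η, u = (η : ℤ_[η]) ^ k • w := by
  have hdvd : ∀ x, (η : ℤ_[η]) ^ k ∣ (u : Additive (Gamma0 p) →+ ℤ_[η]) x := fun x => by
    rw [← Ideal.mem_span_singleton, ← PadicInt.ker_toZModPow, RingHom.mem_ker, ← redPow_apply, h]
    rfl
  choose q hq using hdvd
  have hp : (η : ℤ_[η]) ^ k ≠ 0 := pow_ne_zero _ (Nat.cast_ne_zero.mpr (NeZero.ne η))
  refine ⟨⟨AddMonoidHom.mk' q fun x y => mul_left_cancel₀ hp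
      (by rw [mul_add, ← hq, ← hq, ← hq, map_add]), fun γ hγ => ?_⟩,
    Subtype.ext (AddMonoidHom.ext fun x => by rw [Submodule.coe_smul]; exact hq x)⟩
  show q (Additive.ofMul γ) = 0
  refine mul_left_cancel₀ hp ?_
  rw [← hq, u.2 γ hγ, mul_zero]

theorem redPow_pow_smul (k : ℕ) (w : Lat p η) : redPow k ((η : ℤ_[η]) ^ k • w) = 0 := by
  rw [redPow_smul, map_pow, map_natCast, ← Nat.cast_pow, ZMod.natCast_self, ZMod.val_zero,
    zero_smul]

theorem redPow_eq_zero_mono {i k : ℕ} (h : i ≤ k) {u : Lat p η} (hu : redPow k u = 0) :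
    redPow i u = 0 := by
  obtain ⟨w, rfl⟩ := exists_smul_of_redPow hu
  obtain ⟨d, rfl⟩ := Nat.exists_eq_add_of_le h
  rw [pow_add, mul_smul, redPow_pow_smul]

/-- The reduced operator. -/
def eisOpMod (k : ℕ) (ℓ : GoodPrime p) : Module.End ℤ (ParHom p (ZMod (η ^ k))) :=
  heckeHomAt ℓ - ((1 + (ℓ : ℕ) : ℕ) : Module.End ℤ (ParHom p (ZMod (η ^ k))))

theorem redPow_eisOp_pow (k : ℕ) (ℓ : GoodPrime p) : ∀ (n : ℕ) (v : Lat p η),
    redPow k ((eisOp p η ℓ ^ n) v) = (eisOpMod k ℓ ^ n) (redPow k v)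
  | 0, v => by rw [pow_zero, pow_zero]; rfl
  | n + 1, v => by
    rw [pow_succ', pow_succ', Module.End.mul_apply, Module.End.mul_apply,
      ← redPow_eisOp_pow k ℓ n v]
    generalize (eisOp p η ℓ ^ n) v = u
    rw [eisOp, eisOpMod, LinearMap.sub_apply, LinearMap.sub_apply, map_sub, redPow_latHecke,
      Module.End.natCast_apply, Module.End.natCast_apply, map_nsmul]

theorem exists_nilpotent_lift {v₀ : Lat p η}
    (h : ∀ ℓ : GoodPrime p, ∃ w : Lat p η, eisOp p η ℓ v₀ = (η : ℤ_[η]) • w) (k : ℕ)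
    (s : Finset (GoodPrime p)) : ∃ v : Lat p η, redPow 1 v = redPow 1 v₀ ∧
      ∀ ℓ ∈ s, ∃ n, redPow k ((eisOp p η ℓ ^ n) v) = 0 := by
  classical
  induction s using Finset.induction_on with
  | empty => exact ⟨v₀, rfl, fun ℓ hℓ => absurd hℓ (Finset.notMem_empty ℓ)⟩
  | insert m s _ ih =>
    obtain ⟨v, hv1, hv⟩ := ih
    have : Finite (Module.End ℤ (ParHom p (ZMod (η ^ k)))) :=
      Finite.of_injective (fun f => (f : ParHom p (ZMod (η ^ k)) → ParHom p (ZMod (η ^ k))))
        DFunLike.coe_injective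
    obtain ⟨i, d, hd, hid⟩ : ∃ i d, 0 < d ∧ eisOpMod (η := η) k m ^ (i + d) = eisOpMod (η := η) k m ^ i := by
      obtain ⟨a, b, hab, he⟩ := Finite.exists_ne_map_eq_of_infinite fun n => eisOpMod (η := η) k m ^ n
      rcases hab.lt_or_gt with hlt | hlt
      · exact ⟨a, b - a, by omega, by rw [Nat.add_sub_cancel' hlt.le]; exact he.symm⟩
      · exact ⟨b, a - b, by omega, by rw [Nat.add_sub_cancel' hlt.le]; exact he⟩
    refine ⟨v - (eisOp p η m ^ d) v, ?_, fun ℓ hℓ => ?_⟩
    · obtain ⟨w, hw⟩ := h m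
      have h0 : redPow 1 ((eisOp p η m ^ d) v₀) = 0 := by
        obtain ⟨d', rfl⟩ := Nat.exists_eq_succ_of_ne_zero hd.ne'
        rw [pow_succ (eisOp p η m) d', Module.End.mul_apply, hw, map_smul]
        exact (congrArg (redPow 1) (congrArg (fun a : ℤ_[η] => a • _) (pow_one _).symm)).trans (redPow_pow_smul 1 _)
      rw [map_sub, redPow_eisOp_pow, hv1, ← redPow_eisOp_pow, h0, sub_zero]
    · rcases Finset.mem_insert.mp hℓ with rfl | hℓ
      · refine ⟨i, ?_⟩
        rw [map_sub, ← Module.End.mul_apply, ← pow_add, map_sub, redPow_eisOp_pow,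
          redPow_eisOp_pow, hid, sub_self]
      · obtain ⟨n, hn⟩ := hv ℓ hℓ
        refine ⟨n, ?_⟩
        have hc : Commute (eisOp p η ℓ) (eisOp p η m) :=
          (eisOp_commute_of p η (eisOp_commute p η ℓ m).symm).symm
        rw [map_sub, map_sub, ← Module.End.mul_apply, (hc.pow_pow n d).eq,
          Module.End.mul_apply, hn, redPow_eisOp_pow k m d, hn, map_zero, sub_zero]

/-- The reductions of the part contain the Eisenstein classes which lift. -/
theorem exists_eisPart_lift {v₀ : Lat p η}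
    (h : ∀ ℓ : GoodPrime p, ∃ w : Lat p η, eisOp p η ℓ v₀ = (η : ℤ_[η]) • w) :
    ∃ v ∈ eisPart p η, redPow 1 v = redPow 1 v₀ := by
  classical
  let α : ℕ → Type := fun k => {χ : ParHom p (ZMod (η ^ k)) // ∃ v : Lat p η,
    redPow k v = χ ∧ redPow 1 v = redPow 1 v₀ ∧
      ∀ ℓ : GoodPrime p, ∃ n, redPow k ((eisOp p η ℓ ^ n) v) = 0}
  have hne : ∀ k, Nonempty (α k) := fun k => by
    have : Finite (Module.End ℤ (ParHom p (ZMod (η ^ k)))) :=
      Finite.of_injective (fun f => (f : ParHom p (ZMod (η ^ k)) → ParHom p (ZMod (η ^ k))))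
        DFunLike.coe_injective
    choose r hr using fun f : Set.range (eisOpMod (p := p) (η := η) k) => f.2
    have : Fintype (Set.range (eisOpMod (p := p) (η := η) k)) := Fintype.ofFinite _
    obtain ⟨v, h1, hv⟩ := exists_nilpotent_lift h k (Finset.univ.image r)
    refine ⟨⟨redPow k v, v, rfl, h1, fun ℓ => ?_⟩⟩
    obtain ⟨n, hn⟩ := hv (r ⟨_, ℓ, rfl⟩) (Finset.mem_image_of_mem _ (Finset.mem_univ _))
    have e : eisOpMod k (r ⟨_, ℓ, rfl⟩) = eisOpMod k ℓ := hr _
    exact ⟨n, by rw [redPow_eisOp_pow, ← e, ← redPow_eisOp_pow]; exact hn⟩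
  let π : ∀ {i j : ℕ}, i ≤ j → α j → α i := fun {i j} hij χ =>
    ⟨parMap (ZMod.castHom (pow_dvd_pow η hij) (ZMod (η ^ i))).toAddMonoidHom χ.1, by
      obtain ⟨v, hv, h1, hn⟩ := χ.2
      refine ⟨v, ?_, h1, fun ℓ => (hn ℓ).imp fun n h => redPow_eq_zero_mono hij h⟩
      rw [← hv]
      exact Subtype.ext (redPow_isCast hij v)⟩
  obtain ⟨χ, hχ⟩ := exists_seq_forall_proj_of_forall_finite (α := α) π
    (fun i χ => Subtype.ext (Subtype.ext (AddMonoidHom.ext fun x => by
      show ZMod.castHom (dvd_refl (η ^ i)) (ZMod (η ^ i)) _ = _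
      rw [ZMod.castHom_self, RingHom.id_apply])))
    (fun i j k hij hjk χ => Subtype.ext (Subtype.ext (AddMonoidHom.ext fun x => by
      show ZMod.castHom (pow_dvd_pow η hij) (ZMod (η ^ i))
          (ZMod.castHom (pow_dvd_pow η hjk) (ZMod (η ^ j))
            ((χ.1 : Additive (Gamma0 p) →+ ZMod (η ^ k)) x)) =
        ZMod.castHom (pow_dvd_pow η (hij.trans hjk)) (ZMod (η ^ i))
          ((χ.1 : Additive (Gamma0 p) →+ ZMod (η ^ k)) x)
      rw [← RingHom.comp_apply, ZMod.castHom_comp])))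
    (fun i a => Set.toFinite _)
  obtain ⟨V, hV⟩ := exists_lat_of_compatible (fun k => (χ k).1) fun m n hmn => by
    rw [← hχ hmn]
    rfl
  refine ⟨V, fun ℓ k => ?_, ?_⟩
  · obtain ⟨v, hv, -, hn⟩ := (χ k).2
    obtain ⟨n, hn⟩ := hn ℓ
    refine ⟨n, exists_smul_of_redPow ?_⟩
    rw [redPow_eisOp_pow, hV, ← hv, ← redPow_eisOp_pow, hn]
  · obtain ⟨v, hv, h1, -⟩ := (χ 1).2
    rw [hV, ← hv, h1]

theorem eq_zero_of_latHecke_eigen (ℓ : GoodPrime p) {c : ℤ} (hc : c.natAbs = (ℓ : ℕ) + 1)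
    {v : Lat p η} (h : latHecke p η ℓ v = c • v) : v = 0 := by
  have h1 : toPar v = 0 := eq_zero_of_hecke_eigen ℓ hc (A := ℤ_[η]) (by
    refine Subtype.ext (AddMonoidHom.ext fun x => ?_)
    exact DFunLike.congr_fun (congrArg Subtype.val h) x)
  exact Subtype.ext (congrArg (fun χ : ParHom p ℤ_[η] => (χ : Additive (Gamma0 p) →+ ℤ_[η])) h1)

theorem eisOp_injective (ℓ : GoodPrime p) : Function.Injective (eisOp p η ℓ) := by
  rw [injective_iff_map_eq_zero]
  intro v hv
  rw [eisOp, LinearMap.sub_apply, sub_eq_zero, Module.End.natCast_apply] at hv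
  exact eq_zero_of_latHecke_eigen ℓ (c := ((1 + (ℓ : ℕ) : ℕ) : ℤ))
    (by rw [Int.natAbs_natCast, add_comm]) (by rw [hv, natCast_zsmul])

theorem addOp_injective (ℓ : GoodPrime p) :
    Function.Injective (latHecke p η ℓ + ((1 + (ℓ : ℕ) : ℕ) : Module.End ℤ_[η] (Lat p η))) := by
  rw [injective_iff_map_eq_zero]
  intro v hv
  rw [LinearMap.add_apply, Module.End.natCast_apply, ← eq_neg_iff_add_eq_zero] at hv
  exact eq_zero_of_latHecke_eigen ℓ (c := -((1 + (ℓ : ℕ) : ℕ) : ℤ))
    (by rw [Int.natAbs_neg, Int.natAbs_natCast, add_comm]) (by rw [hv, neg_zsmul, natCast_zsmul])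

end Fermat.Agent.Mazur3
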