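import Fermat.Agent.Period.JInjective
import Fermat.Agent.Eisenstein.LevelOneInt
import Mathlib.Analysis.SpecialFunctions.Log.Summable

/-!
# Explicit bounds for the invariant `|Δ(z)| (Im z)⁶`

Main results: `heightFn_le_one`, `one_le_heightFn_mul`.
-/

set_option autoImplicit false

noncomputable section

namespace Fermat.Agent.Mazur3

open UpperHalfPlane ModularForm EisensteinSeries Fermat.Agent.Period Fermat.Agent.MCurve
open scoped MatrixGroups Real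

local notation "Δ" => ModularForm.discriminant
local notation "𝕢" => Function.Periodic.qParam

/-- `|Δ(z)| (Im z)⁶`. -/
def heightFn (z : ℍ) : ℝ := ‖Δ z‖ * z.im ^ 6

lemma heightFn_pos (z : ℍ) : 0 < heightFn z :=
  mul_pos (norm_pos_iff.2 (discriminant_ne_zero z)) (pow_pos z.im_pos _)

lemma heightFn_smul (γ : SL(2, ℤ)) (z : ℍ) : heightFn (γ • z) = heightFn z := by
  have h : Δ (γ • z) = (denom γ z) ^ (12 : ℤ) * Δ z := by
    simpa using levelOne_smul (ModularFormClass.modularForm CuspForm.discriminant) γ z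
  rw [heightFn, heightFn, h, norm_mul, norm_zpow,
    show (γ • z).im = z.im / Complex.normSq (denom γ z) from ModularGroup.im_smul_eq_div_normSq γ z,
    Complex.normSq_eq_norm_sq, div_pow]
  have hd : ‖denom γ z‖ ≠ 0 := norm_ne_zero_iff.2 (denom_ne_zero _ _)
  norm_cast
  field_simp

lemma norm_qParam_one (z : ℍ) : ‖𝕢 1 (z : ℂ)‖ = Real.exp (-(2 * π * z.im)) := by
  rw [Function.Periodic.norm_qParam]
  congr 1
  show -2 * π * z.im / 1 = _
  ring

lemma norm_qParam_le {z : ℍ} (h : 3 ≤ 4 * z.im ^ 2) : ‖𝕢 1 (z : ℂ)‖ ≤ 1 / 148 := by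
  have hy : (0.866 : ℝ) ≤ z.im := by nlinarith [z.im_pos]
  rw [norm_qParam_one, Real.exp_neg, one_div]
  refine inv_anti₀ (by norm_num) ?_
  have h5 : (148 : ℝ) ≤ Real.exp 5 := by
    rw [show (5 : ℝ) = (5 : ℕ) * 1 by norm_num, Real.exp_nat_mul]
    calc (148 : ℝ) ≤ 2.7182818283 ^ 5 := by norm_num
      _ ≤ _ := by gcongr; exact Real.exp_one_gt_d9.le
  refine h5.trans (Real.exp_le_exp.2 ?_)
  nlinarith [Real.pi_gt_three]

lemma norm_prod_sub_one_le {z : ℍ} (h : 3 ≤ 4 * z.im ^ 2) :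
    ‖∏' n : ℕ, (1 - eta_q n (z : ℂ)) - 1‖ ≤ 1 / 140 := by
  set q := 𝕢 1 (z : ℂ) with hq
  have hr : ‖q‖ ≤ 1 / 148 := norm_qParam_le h
  have hm : Multipliable fun n : ℕ => 1 - eta_q n (z : ℂ) :=
    ModularForm.multipliableLocallyUniformlyOn_eta.multipliable z.im_pos
  refine le_of_tendsto ((hm.hasProd.sub_const 1).norm) (Filter.Eventually.of_forall fun t => ?_)
  simp only [sub_eq_add_neg (1 : ℂ)]
  refine (t.norm_prod_one_add_sub_one_le _).trans ?_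
  have hsum : ∑ i ∈ t, ‖-eta_q i (z : ℂ)‖ ≤ 1 / 147 := by
    calc ∑ i ∈ t, ‖-eta_q i (z : ℂ)‖
        ≤ ∑' i : ℕ, ‖-eta_q i (z : ℂ)‖ :=
          (ModularForm.summable_eta_q z).sum_le_tsum t (fun _ _ => norm_nonneg _)
      _ = ∑' i : ℕ, ‖q‖ ^ i * ‖q‖ := by
          simp only [norm_neg, norm_pow, hq, ← pow_succ]
      _ = (1 - ‖q‖)⁻¹ * ‖q‖ := by
          rw [tsum_mul_right, tsum_geometric_of_lt_one (norm_nonneg _) (hr.trans_lt (by norm_num))]
      _ ≤ 1 / 147 := by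
          rw [inv_mul_le_iff₀ (by linarith)]
          nlinarith [norm_nonneg q]
  have h2 := Real.exp_bound_div_one_sub_of_interval (x := (1 / 147 : ℝ)) (by norm_num) (by norm_num)
  have h3 := Real.exp_le_exp.2 hsum
  norm_num at h2 ⊢
  simp only [one_div, norm_neg, norm_pow] at h3 ⊢
  linarith

lemma norm_discriminant_bounds {z : ℍ} (h : 3 ≤ 4 * z.im ^ 2) :
    ‖𝕢 1 (z : ℂ)‖ / 2 ≤ ‖Δ z‖ ∧ ‖Δ z‖ ≤ 2 * ‖𝕢 1 (z : ℂ)‖ := by
  have hm : Multipliable fun n : ℕ => 1 - eta_q n (z : ℂ) :=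
    ModularForm.multipliableLocallyUniformlyOn_eta.multipliable z.im_pos
  rw [discriminant_eq_q_prod, hm.tprod_pow, norm_mul, norm_pow]
  set P := ∏' n : ℕ, (1 - eta_q n (z : ℂ))
  have hP : ‖P - 1‖ ≤ 1 / 140 := norm_prod_sub_one_le h
  have h1 := norm_sub_norm_le P 1
  have h2 := norm_sub_norm_le 1 P
  rw [norm_sub_rev] at h2
  rw [norm_one] at h1 h2
  constructor
  · calc ‖𝕢 1 (z : ℂ)‖ / 2 = ‖𝕢 1 (z : ℂ)‖ * (1 / 2) := by ring
      _ ≤ ‖𝕢 1 (z : ℂ)‖ * ‖P‖ ^ 24 := by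
        gcongr
        calc (1 / 2 : ℝ) ≤ (139 / 140) ^ 24 := by norm_num
          _ ≤ _ := by gcongr; linarith
  · calc ‖𝕢 1 (z : ℂ)‖ * ‖P‖ ^ 24 ≤ ‖𝕢 1 (z : ℂ)‖ * 2 := by
          gcongr
          calc ‖P‖ ^ 24 ≤ (141 / 140 : ℝ) ^ 24 := by gcongr; linarith
            _ ≤ 2 := by norm_num
      _ = _ := by ring

theorem heightFn_le_one (z : ℍ) : heightFn z ≤ 1 := by
  obtain ⟨g, hg⟩ := ModularGroup.exists_smul_mem_fd z
  rw [← heightFn_smul g]
  set w := g • z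
  have h := ModularGroup.three_le_four_mul_im_sq_of_mem_fd hg
  set x := 2 * π * w.im with hx
  have hx0 : 0 < x := by positivity
  have h6 := Real.pow_div_factorial_le_exp x hx0.le 6
  have hq : ‖𝕢 1 (w : ℂ)‖ = (Real.exp x)⁻¹ := by rw [norm_qParam_one, Real.exp_neg]
  calc heightFn w ≤ 2 * ‖𝕢 1 (w : ℂ)‖ * w.im ^ 6 := by
        unfold heightFn; gcongr; exact (norm_discriminant_bounds h).2
    _ ≤ 2 * (x ^ 6 / Nat.factorial 6)⁻¹ * w.im ^ 6 := by
        rw [hq]; gcongr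
    _ = 1440 / (2 * π) ^ 6 := by
        rw [hx]; have := w.im_pos; norm_num [Nat.factorial]; field_simp; ring
    _ ≤ 1 := by
        rw [div_le_one (by positivity)]
        calc (1440 : ℝ) ≤ (2 * 3) ^ 6 := by norm_num
          _ ≤ _ := by gcongr; exact Real.pi_gt_three.le

lemma norm_E4_sub_one_le {z : ℍ} (h : ‖𝕢 1 (z : ℂ)‖ ≤ 1 / 8000) : ‖E₄ z - 1‖ ≤ 1 / 2 := by
  set q := 𝕢 1 (z : ℂ) with hq
  have hs := Eisenstein.qexp_E4 z
  rw [← hq] at hs
  have h0 : PowerSeries.coeff 0 (Eisenstein.toC Eisenstein.e4Ser) * q ^ 0 = 1 := by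
    simp [Eisenstein.e4Ser, Eisenstein.toC]
  have ht := (hasSum_nat_add_iff' 1).2 hs
  simp only [Finset.sum_range_one, h0] at ht
  set b := 16 * ‖q‖ with hb
  have hb1 : b < 1 := by linarith
  have hg : HasSum (fun n : ℕ => 240 * b * b ^ n) (240 * b * (1 - b)⁻¹) :=
    (hasSum_geometric_of_lt_one (by positivity) hb1).mul_left _
  refine le_trans ((HasSum.norm_le_of_bounded ht hg fun n => ?_)) ?_
  · have h1 := ArithmeticFunction.sigma_le_pow_succ 3 (n + 1)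
    have h2 : (n + 1) ^ 4 ≤ 16 ^ (n + 1) := by
      calc (n + 1) ^ 4 ≤ (2 ^ (n + 1)) ^ 4 := Nat.pow_le_pow_left Nat.lt_two_pow_self.le 4
        _ = 16 ^ (n + 1) := by rw [← pow_mul, mul_comm, pow_mul]; norm_num
    have h3 : ((ArithmeticFunction.sigma 3 (n + 1) : ℕ) : ℝ) ≤ (16 : ℝ) ^ (n + 1) := by
      exact_mod_cast (h1.trans h2)
    simp only [PowerSeries.coeff_map, Eisenstein.e4Ser, PowerSeries.coeff_mk,
      Nat.succ_ne_zero, if_false, norm_mul, norm_pow]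
    rw [show 240 * b * b ^ n = 240 * (16 : ℝ) ^ (n + 1) * ‖q‖ ^ (n + 1) by
      rw [hb]; ring]
    gcongr
    simpa using h3
  · rw [mul_inv_le_iff₀ (by linarith)]
    linarith

theorem one_le_heightFn_mul (z : ℍ) : 1 ≤ 40000 * max 1 ‖jFun z‖ * heightFn z := by
  obtain ⟨g, hg⟩ := ModularGroup.exists_smul_mem_fd z
  rw [← heightFn_smul g, ← jFun_smul g]
  set w := g • z
  have h := ModularGroup.three_le_four_mul_im_sq_of_mem_fd hg
  obtain ⟨hl, hu⟩ := norm_discriminant_bounds h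
  set r := ‖𝕢 1 (w : ℂ)‖ with hr
  have hr0 : 0 < r := norm_pos_iff.2 (Function.Periodic.qParam_ne_zero _)
  have hy6 : (27 / 64 : ℝ) ≤ w.im ^ 6 := by
    calc (27 / 64 : ℝ) = (3 / 4) ^ 3 := by norm_num
      _ ≤ (w.im ^ 2) ^ 3 := by gcongr; linarith
      _ = _ := by ring
  have hf : r / 5 ≤ heightFn w := by
    calc r / 5 ≤ r / 2 * (27 / 64) := by linarith
      _ ≤ _ := by unfold heightFn; gcongr
  have hj : 1 ≤ 8000 * max 1 ‖jFun w‖ * r := by
    rcases le_or_gt r (1 / 8000) with hsmall | hbig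
    · have hE := norm_E4_sub_one_le hsmall
      have h1 := norm_sub_norm_le 1 (E₄ w)
      rw [norm_sub_rev, norm_one] at h1
      have hD := norm_pos_iff.2 (discriminant_ne_zero w)
      have hjw : (1 / 8 : ℝ) ≤ ‖jFun w‖ * (2 * r) := by
        calc (1 / 8 : ℝ) = (1 / 2) ^ 3 := by norm_num
          _ ≤ ‖E₄ w‖ ^ 3 := by gcongr; linarith
          _ = ‖jFun w‖ * ‖Δ w‖ := by rw [jFun, norm_div, norm_pow, div_mul_cancel₀ _ hD.ne']
          _ ≤ _ := by gcongr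
      nlinarith [le_max_right (1 : ℝ) ‖jFun w‖, le_max_left (1 : ℝ) ‖jFun w‖]
    · nlinarith [le_max_left (1 : ℝ) ‖jFun w‖]
  nlinarith [le_max_left (1 : ℝ) ‖jFun w‖]

end Fermat.Agent.Mazur3
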