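import Fermat.Agent.Mazur3.OrdPart
import Fermat.Agent.Mazur3.EisModule
import Fermat.Agent.GalRep.Unipotent
import Fermat.Agent.GalRep.Model.Reduction

/-!
# The Eisenstein module and its line

The twisted dual of the Eisenstein part, with the annihilator of the ordinary part as its line.
-/

set_option autoImplicit false
set_option linter.unusedSectionVars false

noncomputable section

namespace Fermat.Agent.Mazur3

open GalRep IsLocalRing
open Fermat.Agent.Galois (GQ)
open UpperHalfPlane CongruenceSubgroup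
open scoped MatrixGroups

local notation "ℚb" => AlgebraicClosure ℚ

variable {p η : ℕ} [Fact η.Prime]

/-- An endomorphism of a lattice which is injective has injective transpose. -/
theorem dual_eq_zero_of_comp {V : Type} [AddCommGroup V] [Module ℤ_[η] V] [Module.Free ℤ_[η] V]
    [Module.Finite ℤ_[η] V] {f : Module.End ℤ_[η] V} (hf : Function.Injective f)
    {φ : Module.Dual ℤ_[η] V} (h : ∀ v, φ (f v) = 0) : φ = 0 := by
  have h1 : LinearMap.det f ≠ 0 := fun h0 =>
    LinearMap.det_eq_zero_iff_ker_ne_bot.mp h0 (LinearMap.ker_eq_bot.mpr hf)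
  rw [← LinearMap.det_dualMap] at h1
  have h2 : LinearMap.ker f.dualMap = ⊥ := by
    by_contra hne
    exact h1 (LinearMap.det_eq_zero_iff_ker_ne_bot.mpr hne)
  exact LinearMap.ker_eq_bot'.mp h2 φ (LinearMap.ext h)

/-- A functional with divisible values is divisible. -/
theorem dual_exists_smul {V : Type} [AddCommGroup V] [Module ℤ_[η] V] {c : ℤ_[η]} (hc : c ≠ 0)
    (φ : Module.Dual ℤ_[η] V) (h : ∀ v, c ∣ φ v) : ∃ ψ : Module.Dual ℤ_[η] V, φ = c • ψ := by
  choose q hq using h
  exact ⟨{ toFun := q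
           map_add' := fun v w => mul_left_cancel₀ hc (by rw [mul_add, ← hq, ← hq, ← hq, map_add])
           map_smul' := fun a v => mul_left_cancel₀ hc (by
             rw [← hq, map_smul, hq, RingHom.id_apply, smul_eq_mul, smul_eq_mul]; ring) },
    LinearMap.ext hq⟩

variable (p η) [NeZero p]

/-- Galois on the Eisenstein part. -/
def actP (σ : GQ) : Module.End ℤ_[η] (eisPart p η) :=
  (latAct p η σ).restrict fun _ hv => latAct_mem_eisPart σ hv

/-- Hecke on the Eisenstein part. -/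
def heckeP (P : HeckePoly p) : Module.End ℤ_[η] (eisPart p η) :=
  (latHeckePoly p η P).restrict fun _ hv => latHeckePoly_mem_eisPart P hv

theorem eisPart_free : Module.Free ℤ_[η] (eisPart p η) :=
  Module.Free.of_basis (Submodule.basisOfPid (Module.Free.chooseBasis ℤ_[η] (Lat p η)) _).2

instance eisPart_finite : Module.Finite ℤ_[η] (eisPart p η) := Module.IsNoetherian.finite _ _

variable {p η}

theorem dual_map_sub (φ : Module.Dual ℤ_[η] (eisPart p η)) (a b : eisPart p η) :
    φ (a - b) = φ a - φ b := by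
  refine eq_sub_of_add_eq ?_
  rw [← LinearMap.map_add]
  congr 1
  exact Subtype.ext (sub_add_cancel (a : Lat p η) b)

theorem dual_map_nsmul (φ : Module.Dual ℤ_[η] (eisPart p η)) (n : ℕ) (a : eisPart p η) :
    φ (n • a) = n • φ a := LinearMap.map_smul_of_tower φ n a

theorem coe_actP (σ : GQ) (v : eisPart p η) : ((actP p η σ v : eisPart p η) : Lat p η) =
    latAct p η σ v := rfl

theorem coe_heckeP (P : HeckePoly p) (v : eisPart p η) :
    ((heckeP p η P v : eisPart p η) : Lat p η) = latHeckePoly p η P v := rfl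

theorem actP_sub (σ : GQ) (a b : eisPart p η) :
    actP p η σ (a - b) = actP p η σ a - actP p η σ b :=
  Subtype.ext (map_sub (latAct p η σ) (a : Lat p η) b)

theorem actP_mul (σ τ : GQ) (v : eisPart p η) : actP p η (σ * τ) v = actP p η σ (actP p η τ v) :=
  Subtype.ext (by rw [coe_actP, coe_actP, coe_actP, map_mul, Module.End.mul_apply])

theorem actP_one (v : eisPart p η) : actP p η 1 v = v :=
  Subtype.ext (by rw [coe_actP, map_one, Module.End.one_apply])

theorem actP_inv_left (σ : GQ) (v : eisPart p η) : actP p η σ⁻¹ (actP p η σ v) = v := by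
  rw [← actP_mul, inv_mul_cancel, actP_one]

theorem actP_heckeP (σ : GQ) (P : HeckePoly p) (v : eisPart p η) :
    actP p η σ (heckeP p η P v) = heckeP p η P (actP p η σ v) :=
  Subtype.ext (LinearMap.congr_fun (latAct_commute_latHeckePoly σ P).eq (v : Lat p η))

variable (p η)

/-- Galois on the twisted dual. -/
def dualGalois : GQ →* Module.End ℤ_[η] (Module.Dual ℤ_[η] (eisPart p η)) where
  toFun σ := (cyc η σ).val • (actP p η σ⁻¹).dualMap
  map_one' := LinearMap.ext fun φ => LinearMap.ext fun v => by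
    simp only [map_one, Units.val_one, one_smul, inv_one, LinearMap.dualMap_apply,
      Module.End.one_apply, actP_one]
  map_mul' σ τ := LinearMap.ext fun φ => LinearMap.ext fun v => by
    simp only [map_mul, Units.val_mul, LinearMap.smul_apply, Module.End.mul_apply,
      LinearMap.dualMap_apply, mul_inv_rev, actP_mul, smul_eq_mul, mul_assoc]

theorem dualGalois_apply (σ : GQ) (φ : Module.Dual ℤ_[η] (eisPart p η)) (v : eisPart p η) :
    dualGalois p η σ φ v = (cyc η σ).val * φ (actP p η σ⁻¹ v) := rfl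

/-- Hecke on the twisted dual. -/
def dualHecke : HeckePoly p →ₐ[ℤ] Module.End ℤ_[η] (Module.Dual ℤ_[η] (eisPart p η)) :=
  polyHom (fun ℓ => (heckeP p η (MvPolynomial.X ℓ)).dualMap) fun ℓ m =>
    LinearMap.ext fun φ => LinearMap.ext fun v => by
      simp only [Module.End.mul_apply, LinearMap.dualMap_apply]
      congr 1
      refine Subtype.ext ?_
      rw [coe_heckeP, coe_heckeP, coe_heckeP, coe_heckeP, ← Module.End.mul_apply, ← map_mul,
        ← Module.End.mul_apply, ← map_mul, mul_comm]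

theorem dualHecke_X (ℓ : GoodPrime p) :
    dualHecke p η (MvPolynomial.X ℓ) = (heckeP p η (MvPolynomial.X ℓ)).dualMap := polyHom_X _ _ _

theorem dualHecke_apply (P : HeckePoly p) (φ : Module.Dual ℤ_[η] (eisPart p η))
    (v : eisPart p η) : dualHecke p η P φ v = φ (heckeP p η P v) := by
  induction P using MvPolynomial.induction_on generalizing φ v with
  | C a =>
    rw [← MvPolynomial.algebraMap_eq, AlgHom.commutes, Module.algebraMap_end_apply,
      LinearMap.smul_apply, ← map_zsmul]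
    congr 1
    refine Subtype.ext ?_
    rw [coe_heckeP, AlgHom.commutes, Module.algebraMap_end_apply]
    rfl
  | add P Q hP hQ =>
    rw [map_add, LinearMap.add_apply, LinearMap.add_apply, hP, hQ, ← map_add]
    congr 1
    exact Subtype.ext (by
      rw [Submodule.coe_add, coe_heckeP, coe_heckeP, coe_heckeP, map_add, LinearMap.add_apply])
  | mul_X P ℓ hP =>
    rw [map_mul, Module.End.mul_apply, hP, dualHecke_X, LinearMap.dualMap_apply]
    congr 1
    exact Subtype.ext (by
      rw [coe_heckeP, coe_heckeP, coe_heckeP, ← Module.End.mul_apply, ← map_mul, mul_comm])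

variable {p η}

theorem heckeP_X_eisOp (ℓ : GoodPrime p) (v : eisPart p η) :
    ((heckeP p η (MvPolynomial.X ℓ) v - ((1 + (ℓ : ℕ) : ℕ)) • v : eisPart p η) : Lat p η) =
      eisOp p η ℓ v := by
  rw [Submodule.coe_sub, coe_heckeP, latHeckePoly_X, eisOp, LinearMap.sub_apply,
    Module.End.natCast_apply]
  rfl

/-- Eisenstein operators of uniform nilpotency on the part. -/
theorem exists_eisOp_pow (ℓ : GoodPrime p) : ∃ k : ℕ, ∀ v ∈ eisPart p η,
    ∃ w : Lat p η, (eisOp p η ℓ ^ k) v = (η : ℤ_[η]) • w := by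
  classical
  obtain ⟨s, hs⟩ := (IsNoetherian.noetherian (eisPart p η))
  have hmem : ∀ g ∈ s, g ∈ eisPart p η := fun g hg => hs ▸ Submodule.subset_span hg
  choose k w hw using fun g : s => hmem g.1 g.2 ℓ 1
  refine ⟨Finset.univ.sup k, fun v hv => ?_⟩
  rw [← hs] at hv
  induction hv using Submodule.span_induction with
  | mem g hg =>
    obtain ⟨d, hd⟩ := Nat.exists_eq_add_of_le (Finset.le_sup (f := k) (Finset.mem_univ ⟨g, hg⟩))
    refine ⟨(eisOp p η ℓ ^ d) (w ⟨g, hg⟩), ?_⟩
    rw [hd, add_comm, pow_add, Module.End.mul_apply, hw ⟨g, hg⟩, map_smul, pow_one]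
  | zero => exact ⟨0, by rw [map_zero, smul_zero]⟩
  | add a b _ _ ha hb =>
    obtain ⟨wa, ha⟩ := ha
    obtain ⟨wb, hb⟩ := hb
    exact ⟨wa + wb, by rw [map_add, ha, hb, smul_add]⟩
  | smul c a _ ha =>
    obtain ⟨wa, ha⟩ := ha
    exact ⟨c • wa, by rw [map_smul, ha, smul_comm]⟩

theorem eisOp_pow_mem (ℓ : GoodPrime p) {v : Lat p η} (hv : v ∈ eisPart p η) :
    ∀ k : ℕ, (eisOp p η ℓ ^ k) v ∈ eisPart p η
  | 0 => by rw [pow_zero, Module.End.one_apply]; exact hv
  | k + 1 => by
    rw [pow_succ', Module.End.mul_apply]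
    generalize hu : (eisOp p η ℓ ^ k) v = u
    have h : u ∈ eisPart p η := hu ▸ eisOp_pow_mem ℓ hv k
    rw [eisOp, LinearMap.sub_apply, Module.End.natCast_apply]
    exact sub_mem (latHecke_mem_eisPart ℓ h) (nsmul_mem h _)

theorem dual_eisOp_pow (ℓ : GoodPrime p) : ∀ (k : ℕ) (φ : Module.Dual ℤ_[η] (eisPart p η))
    (v w : eisPart p η), (w : Lat p η) = (eisOp p η ℓ ^ k) v →
    ((dualHecke p η (MvPolynomial.X ℓ) - ((1 + (ℓ : ℕ) : ℕ) :
      Module.End ℤ_[η] (Module.Dual ℤ_[η] (eisPart p η)))) ^ k) φ v = φ w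
  | 0, φ, v, w, h => by
    rw [pow_zero, Module.End.one_apply, show w = v from Subtype.ext h]
  | k + 1, φ, v, w, h => by
    rw [pow_succ, Module.End.mul_apply]
    have hmem : (eisOp p η ℓ ^ k) (v : Lat p η) ∈ eisPart p η := eisOp_pow_mem ℓ v.2 k
    rw [dual_eisOp_pow ℓ k _ v ⟨_, hmem⟩ rfl, LinearMap.sub_apply, LinearMap.sub_apply,
      dualHecke_apply, Module.End.natCast_apply, LinearMap.smul_apply, ← map_nsmul, ← map_sub]
    congr 1
    refine Subtype.ext ?_
    rw [heckeP_X_eisOp, h, pow_succ', Module.End.mul_apply]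

variable [hp : Fact p.Prime]

theorem dual_continuous (k : ℕ) :
    ∃ F : IntermediateField ℚ ℚb, FiniteDimensional ℚ F ∧ ∀ σ : GQ, (∀ x ∈ F, σ x = x) →
      ∀ φ : Module.Dual ℤ_[η] (eisPart p η), ∃ ψ, dualGalois p η σ φ - φ =
        (η ^ k : ℤ_[η]) • ψ := by
  obtain ⟨F₁, h1, hF₁⟩ := latGalois_continuous (fun k => kummerGalois p (η ^ k)) (kummerCompat p) k
  obtain ⟨F₂, h2, hF₂⟩ := exists_cyc_level η k
  have := h1; have := h2
  refine ⟨F₁ ⊔ F₂, inferInstance, fun σ hσ φ => ?_⟩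
  have hη : (η : ℤ_[η]) ^ k ≠ 0 := pow_ne_zero _ (Nat.cast_ne_zero.mpr (NeZero.ne η))
  refine dual_exists_smul (V := eisPart p η) hη _ fun v => ?_
  rw [LinearMap.sub_apply, dualGalois_apply]
  obtain ⟨c, hc⟩ := hF₂ σ fun x hx => hσ x ((le_sup_right : F₂ ≤ F₁ ⊔ F₂) hx)
  obtain ⟨w, hw⟩ := hF₁ σ⁻¹ (fun x hx => by
    have := hσ x ((le_sup_left : F₁ ≤ F₁ ⊔ F₂) hx)
    conv_lhs => rw [← this]
    exact σ.symm_apply_apply x) v
  have hwP : w ∈ eisPart p η := mem_eisPart_of_smul hη
    (hw ▸ sub_mem (latAct_mem_eisPart _ v.2) v.2)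
  have hwP' : actP p η σ⁻¹ v - v = (η : ℤ_[η]) ^ k • (⟨w, hwP⟩ : eisPart p η) := Subtype.ext hw
  refine ⟨c * φ (actP p η σ⁻¹ v) + φ ⟨w, hwP⟩, ?_⟩
  have e := congrArg φ hwP'
  rw [dual_map_sub, LinearMap.map_smul, smul_eq_mul] at e
  linear_combination (φ (actP p η σ⁻¹ v)) * hc + e

theorem latAct_frobenius (ℓ : GoodPrime p) (hℓ : (ℓ : ℕ) ≠ η) {A : ValuationSubring ℚb}
    (hA : A.LiesOverPrime ℓ) {σ : GQ} (hσ : A.IsFrobeniusAt σ ℓ) (v : Lat p η) :
    latAct p η σ (latAct p η σ v) - latHecke p η ℓ (latAct p η σ v) + (ℓ : ℕ) • v = 0 := by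
  have h : latAct p η σ * latAct p η σ - latHeckePoly p η (MvPolynomial.X ℓ) * latAct p η σ +
      ((ℓ : ℕ) : Module.End ℤ_[η] (Lat p η)) = 0 :=
    (eichlerShimuraDatum (p := η) (K := fun k => kummerGalois p (η ^ k)) (kummerCompat p)
      (fun k => kummerHeckeComm p (η ^ k))
      (kummerFrobenius p (Model.kummerReduction p))).frobenius ℓ hℓ A hA σ hσ
  rw [latHeckePoly_X] at h
  exact LinearMap.congr_fun h v

theorem latAct_unramified {q : ℕ} (hq : q.Prime) (hqp : ¬ q ∣ p) (hqη : q ≠ η)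
    {A : ValuationSubring ℚb} (hA : A.LiesOverPrime q) {σ : GQ}
    (hσ : σ ∈ A.inertiaSubgroupIn ℚ) (v : Lat p η) : latAct p η σ v = v :=
  LinearMap.congr_fun ((eichlerShimuraDatum (p := η)
    (K := fun k => kummerGalois p (η ^ k)) (kummerCompat p)
    (fun k => kummerHeckeComm p (η ^ k))
    (kummerFrobenius p (Model.kummerReduction p))).unramified q hq hqp hqη A hA σ hσ) v

theorem cyc_eq_one_of_inertia {q : ℕ} (hq : q.Prime) (hqη : q ≠ η) {A : ValuationSubring ℚb}
    (hA : A.LiesOverPrime q) {σ : GQ} (hσ : σ ∈ A.inertiaSubgroupIn ℚ) :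
    (cyc η σ).val = (1 : ℤ_[η]) := by
  rw [cyc_inertia η hq hqη hA hσ]
  rfl

variable (hηp : η ≠ p) (hsq : InertiaProdZero p)

include hηp hsq

theorem dual_unipotent {A : ValuationSubring ℚb} (hA : A.LiesOverPrime p) {σ τ : GQ}
    (hσ : σ ∈ A.inertiaSubgroupIn ℚ) (hτ : τ ∈ A.inertiaSubgroupIn ℚ) :
    (dualGalois p η σ - 1) * (dualGalois p η τ - 1) = 0 := by
  have hc := fun {s : GQ} (hs : s ∈ A.inertiaSubgroupIn ℚ) =>
    cyc_eq_one_of_inertia (η := η) hp.out hηp.symm hA hs
  have hp2 : ¬ p ^ 2 ∣ p := fun h => by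
    have h1 := Nat.le_of_dvd hp.out.pos h
    have h2 := hp.out.two_le
    rw [pow_two] at h1
    have h3 : p * 2 ≤ p * p := Nat.mul_le_mul_left p h2
    omega
  have h : (latAct p η τ⁻¹ - 1) * (latAct p η σ⁻¹ - 1) = 0 :=
    galois_prod_zero (p := η) (Model.kummerReduction p) hsq hp.out hηp.symm dvd_rfl hp2 hA
      (inv_mem hτ) (inv_mem hσ)
  refine LinearMap.ext fun φ => LinearMap.ext fun v => ?_
  set u := actP p η σ⁻¹ v - v with hu
  have h1 : actP p η τ⁻¹ u - u = 0 := Subtype.ext (LinearMap.congr_fun h (v : Lat p η))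
  have h2 : φ (actP p η τ⁻¹ u) = φ u := by rw [← sub_eq_zero, ← dual_map_sub, h1, LinearMap.map_zero]
  simp only [Module.End.mul_apply, LinearMap.sub_apply, Module.End.one_apply, dualGalois_apply,
    hc hσ, hc hτ, one_mul, LinearMap.zero_apply]
  rw [hu, dual_map_sub, actP_sub, dual_map_sub] at h2
  linear_combination h2

omit hηp hsq

theorem dual_unramified {q : ℕ} (hq : q.Prime) (hqp : ¬ q ∣ p) (hqη : q ≠ η)
    {A : ValuationSubring ℚb} (hA : A.LiesOverPrime q) {σ : GQ}
    (hσ : σ ∈ A.inertiaSubgroupIn ℚ) : dualGalois p η σ = 1 :=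
  LinearMap.ext fun φ => LinearMap.ext fun v => by
    rw [dualGalois_apply, cyc_eq_one_of_inertia hq hqη hA hσ, one_mul, Module.End.one_apply,
      show actP p η σ⁻¹ v = v from
        Subtype.ext (latAct_unramified hq hqp hqη hA (inv_mem hσ) _)]

theorem actP_frobenius (ℓ : GoodPrime p) (hℓ : (ℓ : ℕ) ≠ η) {A : ValuationSubring ℚb}
    (hA : A.LiesOverPrime ℓ) {σ : GQ} (hσ : A.IsFrobeniusAt σ ℓ) (w : eisPart p η) :
    actP p η σ (actP p η σ w) -
      heckeP p η (MvPolynomial.X ℓ) (actP p η σ w) + (ℓ : ℕ) • w = 0 := by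
  refine Subtype.ext ?_
  have := latAct_frobenius (η := η) ℓ hℓ hA hσ (w : Lat p η)
  rw [Submodule.coe_add, Submodule.coe_sub, coe_heckeP, latHeckePoly_X]
  exact this

theorem dual_frobenius (ℓ : GoodPrime p) (hℓ : (ℓ : ℕ) ≠ η) {A : ValuationSubring ℚb}
    (hA : A.LiesOverPrime ℓ) {σ : GQ} (hσ : A.IsFrobeniusAt σ ℓ) :
    dualGalois p η σ * dualGalois p η σ - dualHecke p η (MvPolynomial.X ℓ) * dualGalois p η σ +
      ((ℓ : ℕ) : Module.End ℤ_[η] (Module.Dual ℤ_[η] (eisPart p η))) = 0 := by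
  refine LinearMap.ext fun φ => LinearMap.ext fun v => ?_
  have hc : (cyc η σ).val = ((ℓ : ℕ) : ℤ_[η]) := cyc_frobenius η ℓ.1.2 hℓ hA hσ
  have hr := actP_frobenius ℓ hℓ hA hσ (actP p η σ⁻¹ (actP p η σ⁻¹ v))
  rw [← actP_mul σ σ⁻¹, mul_inv_cancel, actP_one, ← actP_mul σ σ⁻¹, mul_inv_cancel,
    actP_one] at hr
  have e := congrArg φ hr
  rw [LinearMap.map_add, dual_map_sub, dual_map_nsmul, LinearMap.map_zero, nsmul_eq_mul] at e
  simp only [LinearMap.add_apply, LinearMap.sub_apply, Module.End.mul_apply, dualGalois_apply,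
    dualHecke_apply, Module.End.natCast_apply, LinearMap.zero_apply, LinearMap.smul_apply,
    nsmul_eq_mul, hc, actP_heckeP]
  linear_combination ((ℓ : ℕ) : ℤ_[η]) * e

theorem dual_eisenstein (ℓ : GoodPrime p) : ∃ k : ℕ, ∀ φ : Module.Dual ℤ_[η] (eisPart p η),
    ∃ ψ, ((dualHecke p η (MvPolynomial.X ℓ) - ((1 + (ℓ : ℕ) : ℕ) :
      Module.End ℤ_[η] (Module.Dual ℤ_[η] (eisPart p η)))) ^ k) φ = (η : ℤ_[η]) • ψ := by
  obtain ⟨k, hk⟩ := exists_eisOp_pow (η := η) ℓ
  have hη : (η : ℤ_[η]) ≠ 0 := Nat.cast_ne_zero.mpr (NeZero.ne η)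
  refine ⟨k, fun φ => dual_exists_smul (V := eisPart p η) hη _ fun v => ?_⟩
  obtain ⟨w, hw⟩ := hk v v.2
  have hwP : w ∈ eisPart p η := mem_eisPart_of_smul hη (hw ▸ eisOp_pow_mem ℓ v.2 k)
  rw [dual_eisOp_pow ℓ k φ v ((η : ℤ_[η]) • ⟨w, hwP⟩) hw.symm, LinearMap.map_smul, smul_eq_mul]
  exact dvd_mul_right _ _

theorem dual_sub_injective (ℓ : GoodPrime p) : Function.Injective
    (dualHecke p η (MvPolynomial.X ℓ) - ((1 + (ℓ : ℕ) : ℕ) :
      Module.End ℤ_[η] (Module.Dual ℤ_[η] (eisPart p η)))) := by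
  have := eisPart_free p η
  refine (injective_iff_map_eq_zero _).mpr fun φ hφ => dual_eq_zero_of_comp
    (V := eisPart p η)
    (f := (eisOp p η ℓ).restrict fun v hv => by simpa using eisOp_pow_mem ℓ hv 1)
    (fun v v' h => ?_) fun v => ?_
  · exact Subtype.ext (eisOp_injective ℓ (congrArg Subtype.val h))
  · have := LinearMap.congr_fun hφ v
    rw [LinearMap.sub_apply, LinearMap.sub_apply, dualHecke_apply, Module.End.natCast_apply,
      LinearMap.smul_apply, ← dual_map_nsmul, ← dual_map_sub] at this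
    refine Eq.trans (congrArg φ (Subtype.ext ?_)) this
    exact (heckeP_X_eisOp ℓ v).symm

theorem dual_add_injective (ℓ : GoodPrime p) : Function.Injective
    (dualHecke p η (MvPolynomial.X ℓ) + ((1 + (ℓ : ℕ) : ℕ) :
      Module.End ℤ_[η] (Module.Dual ℤ_[η] (eisPart p η)))) := by
  have := eisPart_free p η
  refine (injective_iff_map_eq_zero _).mpr fun φ hφ => dual_eq_zero_of_comp
    (V := eisPart p η)
    (f := (latHecke p η ℓ + ((1 + (ℓ : ℕ) : ℕ) : Module.End ℤ_[η] (Lat p η))).restrict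
      fun v hv => by
        rw [LinearMap.add_apply, Module.End.natCast_apply]
        exact add_mem (latHecke_mem_eisPart ℓ hv) (nsmul_mem hv _))
    (fun v v' h => ?_) fun v => ?_
  · exact Subtype.ext (addOp_injective ℓ (congrArg Subtype.val h))
  · have := LinearMap.congr_fun hφ v
    rw [LinearMap.add_apply, LinearMap.add_apply, dualHecke_apply, Module.End.natCast_apply,
      LinearMap.smul_apply, ← dual_map_nsmul, ← LinearMap.map_add] at this
    refine Eq.trans (congrArg φ (Subtype.ext ?_)) this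
    rw [Submodule.coe_add, coe_heckeP, latHeckePoly_X]
    rfl

theorem dualGalois_commute (σ : GQ) (P : HeckePoly p) :
    Commute (dualGalois p η σ) (dualHecke p η P) :=
  LinearMap.ext fun φ => LinearMap.ext fun v => by
    rw [Module.End.mul_apply, Module.End.mul_apply, dualGalois_apply, dualHecke_apply,
      dualHecke_apply, dualGalois_apply, actP_heckeP]

variable (p η) in
/-- The Eisenstein module. -/
def eisModule (hηp : η ≠ p) (hsq : InertiaProdZero p) : EisModule p η :=
  have := eisPart_free p η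
  { M := Module.Dual ℤ_[η] (eisPart p η)
    galois := dualGalois p η
    continuous := dual_continuous
    hecke := dualHecke p η
    galois_hecke := dualGalois_commute
    unramified := fun _ hq hqp hqη _ hA _ hσ => dual_unramified hq hqp hqη hA hσ
    frobenius := fun ℓ hℓ _ hA _ hσ => dual_frobenius ℓ hℓ hA hσ
    unipotent := fun _ hA _ hσ _ hτ => dual_unipotent hηp hsq hA hσ hτ
    eisenstein := dual_eisenstein
    sub_injective := dual_sub_injective
    add_injective := dual_add_injective }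

end Fermat.Agent.Mazur3
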