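import Fermat.Agent.S10
import Fermat.Agent.S11
import Fermat.Agent.S13
import Fermat.Agent.Mazur3.CofixedLine

/-!
# Irreducibility of `E[p]` for Frey curves, given Mazur's branch theorem
-/

set_option autoImplicit false

noncomputable section

namespace Fermat.Agent.Mazur3

open WeierstrassCurve WeierstrassCurve.Affine WeierstrassCurve.Affine.Point

theorem frey_irreducible_of_sameBranch (P : FreyPackage)
    (hcore : 17 ≤ P.p → (haveI : NeZero P.p := ⟨P.pp.ne_zero⟩; SameBranch P.p)) :
    GaloisRepIsIrreducible (K := AlgebraicClosure ℚ) ℚ P.freyCurve P.p := by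
  by_contra hred
  have hline := Fermat.Agent.S13.result P hred
  by_cases h17 : 17 ≤ P.p
  · exact no_cofixed_of_sameBranch P h17 (hcore h17) hline
  · have h5 := P.hp5
    have hpp := P.pp
    rcases (show P.p = 5 ∨ P.p = 7 ∨ P.p = 11 ∨ P.p = 13 by
      clear hcore hred hline
      obtain ⟨q, hq⟩ : ∃ q, q = P.p := ⟨_, rfl⟩
      rw [← hq] at hpp h5 h17 ⊢
      interval_cases q <;> first | omega | (exfalso; norm_num at hpp)) with h | h | h | h
    · exact Fermat.Agent.S10.result P (Or.inl h) hline
    · exact Fermat.Agent.S10.result P (Or.inr (Or.inl h)) hline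
    · exact Fermat.Agent.S11.result P h hline
    · exact Fermat.Agent.S10.result P (Or.inr (Or.inr h)) hline

end Fermat.Agent.Mazur3
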