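import Fermat.Agent.Mazur3.Velu
import Fermat.Agent.EC.Torsion
import Fermat.Agent.EC.Local.VarChange
import Fermat.Agent.EC.Local.MapPoint
import Fermat.Agent.GalRep.Embeddings
import Mathlib.NumberTheory.ModularForms.LevelOne.GradedRing

/-!
# Curves over `ℂ` as tori

Every curve with nonzero discriminant is uniformised by a lattice `u (ℤ + ℤ τ)` with
`j τ = c₄³ / Δ`, and a point of prime order may be placed at `u / p`.
-/

set_option autoImplicit false
set_option linter.style.haveILetI false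

noncomputable section

namespace Fermat.Agent.Mazur3

open UpperHalfPlane PeriodPair WeierstrassCurve Fermat.Agent.GalRep.Model Fermat.Agent.Moduli
open Fermat.Agent.Period (jFun)
open scoped MatrixGroups Real

/-- The lattice `u (ℤ + ℤ τ)`. -/
def scaledPair {u : ℂ} (hu : u ≠ 0) (τ : ℍ) : PeriodPair := ⟨u, u * (τ : ℂ), by
  rw [LinearIndependent.pair_iff]
  intro s t h
  refine LinearIndependent.pair_iff.1 (tauPair τ).indep s t ?_
  refine mul_left_cancel₀ hu ?_
  simp only [tauPair, Complex.real_smul] at h ⊢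
  linear_combination h⟩

variable {u : ℂ} (hu : u ≠ 0) (τ : ℍ)

theorem mem_scaledPair_iff (z : ℂ) :
    z ∈ (scaledPair hu τ).lattice ↔ ∃ c d : ℤ, z = u * (c * (τ : ℂ) + d) := by
  rw [PeriodPair.mem_lattice]
  constructor
  · rintro ⟨m, n, h⟩; exact ⟨n, m, by rw [← h]; simp [scaledPair]; ring⟩
  · rintro ⟨c, d, rfl⟩; exact ⟨d, c, by simp [scaledPair]; ring⟩

/-- `(c, d) ↦ u (c τ + d)`. -/
def scaledEquiv : ℤ × ℤ ≃ (scaledPair hu τ).lattice :=
  (Equiv.prodComm ℤ ℤ).trans (scaledPair hu τ).latticeEquivProd.symm.toEquiv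

theorem coe_scaledEquiv (y : ℤ × ℤ) :
    ((scaledEquiv hu τ y : (scaledPair hu τ).lattice) : ℂ) = u * (y.1 * (τ : ℂ) + y.2) := by
  show ((scaledPair hu τ).latticeEquivProd.symm (y.2, y.1) : ℂ) = _
  rw [PeriodPair.latticeEquiv_symm_apply]
  simp [scaledPair]
  ring

theorem G_scaledPair {k : ℕ} (hk : 3 ≤ k) :
    (scaledPair hu τ).G k = 2 * riemannZeta k * ModularForm.E hk τ / u ^ k := by
  have h1 : ∑' v, EisensteinSeries.eisSummand (k : ℤ) v τ = 2 * riemannZeta k * ModularForm.E hk τ := by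
    rw [tsum_eisSummand_eq_riemannZeta_mul_eisensteinSeries hk τ,
      show ModularForm.E hk τ = (1 / 2 : ℂ) • EisensteinSeries.eisensteinSeriesSIF (N := 1) 0 k τ from rfl,
      EisensteinSeries.eisensteinSeriesSIF_apply]
    simp only [smul_eq_mul]
    ring
  rw [← h1, ← (finTwoArrowEquiv ℤ).symm.tsum_eq, PeriodPair.G, ← (scaledEquiv hu τ).tsum_eq,
    div_eq_inv_mul, ← tsum_mul_left]
  refine tsum_congr fun y => ?_
  rw [coe_scaledEquiv]
  simp only [finTwoArrowEquiv_symm_apply, EisensteinSeries.eisSummand, Matrix.cons_val_zero,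
    Matrix.cons_val_one, zpow_neg, zpow_natCast, mul_pow, mul_inv]

theorem g₂_scaledPair :
    (scaledPair hu τ).g₂ = (2 * π / u) ^ 4 * ModularForm.E₄ τ / 12 := by
  rw [PeriodPair.g₂, G_scaledPair hu τ (k := 4) (by norm_num), Nat.cast_ofNat, riemannZeta_four]
  ring

theorem g₃_scaledPair :
    (scaledPair hu τ).g₃ = (2 * π / u) ^ 6 * ModularForm.E₆ τ / 216 := by
  have h6 : riemannZeta 6 = (π : ℂ) ^ 6 / 945 := by
    have h := riemannZeta_two_mul_nat (k := 3) (by norm_num)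
    norm_num at h
    rw [h]
    have hb : bernoulli 6 = 1 / 42 := by
      have h5 : bernoulli' 5 = 0 := bernoulli'_eq_zero_of_odd (by decide) (by norm_num)
      rw [bernoulli_eq_bernoulli'_of_ne_one (by norm_num), bernoulli'_def]
      norm_num [Finset.sum_range_succ, bernoulli'_zero, bernoulli'_one, bernoulli'_two,
        bernoulli'_three, bernoulli'_four, h5, Nat.choose]
    rw [hb]
    norm_num [Nat.factorial]
    ring
  rw [PeriodPair.g₃, G_scaledPair hu τ (k := 6) (by norm_num), Nat.cast_ofNat, h6]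
  ring

theorem latDisc_scaledPair :
    latDisc (scaledPair hu τ) = (2 * π / u) ^ 12 * ModularForm.discriminant τ := by
  rw [latDisc, g₂_scaledPair, g₃_scaledPair, ModularForm.discriminant_eq_E₄_cube_sub_E₆_sq]
  ring

section Congr

variable {L L' : PeriodPair} (h : L.lattice = L'.lattice)
include h

theorem g₂_congr : L.g₂ = L'.g₂ := by
  rw [PeriodPair.g₂, PeriodPair.g₂, PeriodPair.G, PeriodPair.G, ← (LinearEquiv.ofEq _ _ h).toEquiv.tsum_eq]
  rfl

theorem g₃_congr : L.g₃ = L'.g₃ := by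
  rw [PeriodPair.g₃, PeriodPair.g₃, PeriodPair.G, PeriodPair.G, ← (LinearEquiv.ofEq _ _ h).toEquiv.tsum_eq]
  rfl

theorem weierstrassP_congr (z : ℂ) : L.weierstrassP z = L'.weierstrassP z := by
  rw [PeriodPair.weierstrassP, PeriodPair.weierstrassP, ← (LinearEquiv.ofEq _ _ h).toEquiv.tsum_eq]
  rfl

theorem derivWeierstrassP_congr (z : ℂ) : L.derivWeierstrassP z = L'.derivWeierstrassP z := by
  rw [PeriodPair.derivWeierstrassP, PeriodPair.derivWeierstrassP,
    ← (LinearEquiv.ofEq _ _ h).toEquiv.tsum_eq]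
  rfl

end Congr

/-- Half periods of a lattice. -/
def stdHalfPeriods (L : PeriodPair) : HalfPeriods L where
  h := ![L.ω₁ / 2, L.ω₂ / 2, (L.ω₁ + L.ω₂) / 2]
  two_mul_mem i := by
    fin_cases i <;> simp [mul_div_cancel₀, L.ω₁_mem_lattice, L.ω₂_mem_lattice,
      L.lattice.add_mem L.ω₁_mem_lattice L.ω₂_mem_lattice]
  notMem i := by
    have h12 : (L.ω₁ + L.ω₂) / 2 ∉ L.lattice := fun hm => by
      have := (PeriodPair.mul_ω₁_add_mul_ω₂_mem_lattice (L := L) (α := 1 / 2) (β := 1 / 2)).1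
        (by convert hm using 1; push_cast; ring)
      norm_num at this
    fin_cases i <;> simp [L.ω₁_div_two_notMem_lattice, L.ω₂_div_two_notMem_lattice, h12]
  sub_notMem i j hij := by
    have key : ∀ α β : ℚ, ¬ (α.den = 1 ∧ β.den = 1) → (α : ℂ) * L.ω₁ + (β : ℂ) * L.ω₂ ∉ L.lattice :=
      fun α β hne hm => hne (PeriodPair.mul_ω₁_add_mul_ω₂_mem_lattice.1 hm)
    fin_cases i <;> fin_cases j <;> first | exact absurd rfl hij | skip
    · convert key (1 / 2) (-1 / 2) (by norm_num) using 2; simp; ring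
    · convert key 0 (-1 / 2) (by norm_num) using 2; simp; ring
    · convert key (-1 / 2) (1 / 2) (by norm_num) using 2; simp; ring
    · convert key (-1 / 2) 0 (by norm_num) using 2; simp; ring
    · convert key 0 (1 / 2) (by norm_num) using 2; simp; ring
    · convert key (1 / 2) 0 (by norm_num) using 2; simp; ring

/-- The uniformisation of a curve with the invariants of the lattice. -/
theorem exists_uniform (L : PeriodPair) (V : WeierstrassCurve ℂ) (h4 : 12 * L.g₂ = V.c₄)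
    (h6 : 216 * L.g₃ = V.c₆) :
    ∃ φ : ℂ →+ V.toAffine.Point, (∀ z, φ z = 0 ↔ z ∈ L.lattice) ∧
      ∀ z, z ∉ L.lattice → ∃ hns : V.toAffine.Nonsingular (L.weierstrassP z - V.b₂ / 12)
        ((L.derivWeierstrassP z - V.a₁ * (L.weierstrassP z - V.b₂ / 12) - V.a₃) / 2),
        φ z = .some _ _ hns := by
  set P := stdHalfPeriods L
  have hd := P.sub_ne
  have hr := P.root_ne
  let C : VariableChange ℂ := ⟨(Units.mk0 P.root hr)⁻¹, (V.b₂ / 12 - P.e 0) / (P.e 1 - P.e 0),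
    V.a₁ / (2 * P.root), V.a₃ / (2 * P.root ^ 3)⟩
  have hcu : ((C.u⁻¹ : ℂˣ) : ℂ) = P.root := by simp [C]
  have hc0 := P.cubic_eq 0
  have hc1 := P.cubic_eq 1
  have hc2 := P.cubic_eq (-1)
  have s1 : P.e 2 = -P.e 0 - P.e 1 := by linear_combination (hc1 + hc2 - 2 * hc0) / 8
  have s2 : L.g₂ = 4 * (P.e 0 ^ 2 + P.e 0 * P.e 1 + P.e 1 ^ 2) := by
    rw [s1] at hc1 hc2
    linear_combination -hc1 / 2 + hc2 / 2
  have s3 : L.g₃ = -(4 * P.e 0 * P.e 1 * (P.e 0 + P.e 1)) := by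
    rw [s1] at hc0
    linear_combination -hc0
  simp only [WeierstrassCurve.c₄, WeierstrassCurve.c₆] at h4 h6
  have hB2 : V.b₂ = V.a₁ ^ 2 + 4 * V.a₂ := rfl
  have hB4 : V.b₄ = 2 * V.a₄ + V.a₁ * V.a₃ := rfl
  have hB6 : V.b₆ = V.a₃ ^ 2 + 4 * V.a₆ := rfl
  have e4 : V.a₄ = (V.b₂ ^ 2 - 12 * L.g₂) / 48 - V.a₁ * V.a₃ / 2 := by
    linear_combination (-1 / 2 : ℂ) * hB4 + (1 / 48 : ℂ) * h4
  have e6 : V.a₆ = (-V.b₂ ^ 3 + 36 * V.b₂ * ((V.b₂ ^ 2 - 12 * L.g₂) / 24) - 216 * L.g₃) / 864 -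
      V.a₃ ^ 2 / 4 := by
    linear_combination (-1 / 4 : ℂ) * hB6 + (1 / 864 : ℂ) * h6 + (1 / 576 : ℂ) * V.b₂ * h4
  have s0 : P.e 1 = P.e 0 + P.root ^ 2 := by rw [P.root_sq]; ring
  have hC : C • legendre P.lam = V := by
    ext
    · rw [variableChange_a₁, hcu]; simp [C, legendre]; field_simp
    · rw [variableChange_a₂, hcu]
      simp only [C, legendre, HalfPeriods.lam, s1, hB2, s0, add_sub_cancel_left]
      field_simp
      ring
    · rw [variableChange_a₃, hcu]; simp [C, legendre]; field_simp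
    · rw [variableChange_a₄, hcu]
      simp only [C, legendre, HalfPeriods.lam, s1, e4, s2, hB2, s0, add_sub_cancel_left]
      field_simp
      ring
    · rw [variableChange_a₆, hcu]
      simp only [C, legendre, HalfPeriods.lam, s1, e6, s2, s3, hB2, s0, add_sub_cancel_left]
      field_simp
      ring
  haveI : (legendre P.lam).IsElliptic := ⟨by
    rw [legendre_Δ, isUnit_iff_ne_zero]
    exact mul_ne_zero (by norm_num)
      (pow_ne_zero _ (mul_ne_zero P.lam_ne_zero (sub_ne_zero.2 P.lam_ne_one.symm)))⟩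
  set φ : ℂ →+ V.toAffine.Point :=
    ((EC.sigmaPoint (RingHom.id ℂ) (by rw [WeierstrassCurve.map_id]; exact hC)).comp
      (EC.vcHom C)).comp P.uniform with hφ
  refine ⟨φ, fun z => ?_, fun z hz => ?_⟩
  · constructor
    · intro h0
      by_contra hz
      simp only [hφ, AddMonoidHom.comp_apply, P.uniform_of_notMem hz, EC.vcHom_some,
        EC.sigmaPoint_some] at h0
      exact Affine.Point.some_ne_zero _ h0
    · intro hz
      simp only [hφ, AddMonoidHom.comp_apply, P.uniform_eq_zero_iff.2 hz, map_zero]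
  · have hX : (RingHom.id ℂ) (EC.vcX C (P.X z)) = L.weierstrassP z - V.b₂ / 12 := by
      simp only [EC.vcX, HalfPeriods.X, C, RingHom.id_apply, Units.val_inv_eq_inv_val,
        Units.val_mk0, inv_pow, div_inv_eq_mul, P.root_sq]
      field_simp
      ring
    have hY : (RingHom.id ℂ) (EC.vcY C (P.X z) (P.Y z)) =
        (L.derivWeierstrassP z - V.a₁ * (L.weierstrassP z - V.b₂ / 12) - V.a₃) / 2 := by
      have hx : (P.X z - C.r) * P.root ^ 2 = L.weierstrassP z - V.b₂ / 12 := by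
        simp only [HalfPeriods.X, C, P.root_sq]; field_simp; ring
      rw [← hx]
      simp only [EC.vcY, HalfPeriods.Y, C, RingHom.id_apply, Units.val_inv_eq_inv_val,
        Units.val_mk0, inv_pow, div_inv_eq_mul]
      field_simp
    have hns := EC.nonsingular_of_map (RingHom.id ℂ) (show (C • legendre P.lam).map (RingHom.id ℂ) = V
      by rw [WeierstrassCurve.map_id]; exact hC) (EC.vc_nonsingular C (P.nonsingular hz))
    rw [hX, hY] at hns
    refine ⟨hns, ?_⟩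
    simp only [hφ, AddMonoidHom.comp_apply, P.uniform_of_notMem hz, EC.vcHom_some,
      EC.sigmaPoint_some, Affine.Point.some.injEq]
    exact ⟨hX, hY⟩

/-- Lattices for given invariants. -/
theorem exists_scaledPair {c₄ c₆ d : ℂ} (hd : d ≠ 0) (hrel : 1728 * d = c₄ ^ 3 - c₆ ^ 2) :
    ∃ (τ : ℍ) (u : ℂ) (hu : u ≠ 0), jFun τ = c₄ ^ 3 / d ∧
      12 * (scaledPair hu τ).g₂ = c₄ ∧ 216 * (scaledPair hu τ).g₃ = c₆ := by
  obtain ⟨τ, hτ⟩ := GalRep.jFun_surjective (c₄ ^ 3 / d)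
  have hj : ModularForm.E₄ τ ^ 3 * d = c₄ ^ 3 * ModularForm.discriminant τ := by
    rw [jFun, div_eq_div_iff (ModularForm.discriminant_ne_zero τ) hd] at hτ
    exact hτ
  have hD := ModularForm.discriminant_eq_E₄_cube_sub_E₆_sq τ
  set a := ModularForm.E₄ τ with ha
  set b := ModularForm.E₆ τ with hb
  have hD0 := ModularForm.discriminant_ne_zero τ
  have hj2 : a ^ 3 * c₆ ^ 2 = c₄ ^ 3 * b ^ 2 := by
    rw [hD] at hj
    linear_combination a ^ 3 * hrel - 1728 * hj
  obtain ⟨s, hs4, hs6⟩ : ∃ s : ℂ, s ^ 4 * a = c₄ ∧ s ^ 6 * b = c₆ := by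
    by_cases ha0 : a = 0
    · have hb0 : b ≠ 0 := fun hb0 => hD0 (by rw [hD, ha0, hb0]; ring)
      have hc4 : c₄ = 0 := by
        rw [ha0] at hj
        by_contra h
        exact mul_ne_zero (pow_ne_zero 3 h) hD0 (by linear_combination -hj)
      obtain ⟨s, hs⟩ := IsAlgClosed.exists_pow_nat_eq (c₆ / b) (show 0 < 6 by norm_num)
      exact ⟨s, by rw [ha0, hc4, mul_zero], by rw [hs, div_mul_cancel₀ _ hb0]⟩
    by_cases hb0 : b = 0
    · have hc6 : c₆ = 0 := by
        rw [hb0] at hj2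
        have : c₆ ^ 2 = 0 := by
          refine (mul_eq_zero.1 (show a ^ 3 * c₆ ^ 2 = 0 by linear_combination hj2)).resolve_left
            (pow_ne_zero 3 ha0)
        exact pow_eq_zero_iff two_ne_zero |>.1 this
      obtain ⟨s, hs⟩ := IsAlgClosed.exists_pow_nat_eq (c₄ / a) (show 0 < 4 by norm_num)
      exact ⟨s, by rw [hs, div_mul_cancel₀ _ ha0], by rw [hb0, hc6, mul_zero]⟩
    have hc40 : c₄ ≠ 0 := fun h => by
      rw [h] at hj
      exact mul_ne_zero (pow_ne_zero 3 ha0) hd (by linear_combination hj)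
    obtain ⟨s, hs⟩ := IsAlgClosed.exists_pow_nat_eq (c₆ * a / (b * c₄)) two_pos
    refine ⟨s, ?_, ?_⟩
    · rw [show s ^ 4 = (s ^ 2) ^ 2 by ring, hs]
      field_simp
      linear_combination hj2
    · rw [show s ^ 6 = (s ^ 2) ^ 3 by ring, hs]
      field_simp
      linear_combination c₆ * hj2
  have hs0 : s ≠ 0 := by
    rintro rfl
    refine hd ?_
    rw [← hs4, ← hs6] at hrel
    linear_combination hrel / 1728
  have hπ : (2 * (π : ℂ)) ≠ 0 := mul_ne_zero two_ne_zero (Complex.ofReal_ne_zero.2 Real.pi_ne_zero)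
  refine ⟨τ, 2 * π / s, div_ne_zero hπ hs0, hτ, ?_, ?_⟩
  · rw [g₂_scaledPair, div_div_cancel₀ hπ, ← ha, hs4]; ring
  · rw [g₃_scaledPair, div_div_cancel₀ hπ, ← hb, hs6]; ring

/-- Normalisation of the coordinates of a nonzero element mod `p`. -/
theorem exists_coprime_lift {p : ℕ} (hp : p.Prime) {a b : ℤ}
    (h : ¬ ((p : ℤ) ∣ a ∧ (p : ℤ) ∣ b)) :
    ∃ c d : ℤ, IsCoprime c d ∧ (p : ℤ) ∣ c - a ∧ (p : ℤ) ∣ d - b := by
  have hpz : Prime (p : ℤ) := Nat.prime_iff_prime_int.1 hp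
  by_cases ha : (p : ℤ) ∣ a
  · refine ⟨p, b, hpz.irreducible.coprime_iff_not_dvd.2 fun hb => h ⟨ha, hb⟩, ?_, by simp⟩
    exact dvd_sub dvd_rfl ha
  · obtain ⟨x, y, hxy⟩ : IsCoprime (p : ℤ) a := hpz.irreducible.coprime_iff_not_dvd.2 ha
    refine ⟨a, b + p * (x * (1 - b)), ⟨y * (1 - b), 1, ?_⟩, by simp, by simp⟩
    linear_combination (1 - b) * hxy

/-- A point of prime order sits at `u / p`. -/
theorem exists_torus {p : ℕ} [hp : Fact p.Prime] (V : WeierstrassCurve ℂ) (hΔ : V.Δ ≠ 0)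
    (Q : V.toAffine.Point) (hQ : addOrderOf Q = p) :
    ∃ (τ : ℍ) (u : ℂ) (hu : u ≠ 0), jFun τ = V.c₄ ^ 3 / V.Δ ∧
      12 * (scaledPair hu τ).g₂ = V.c₄ ∧ 216 * (scaledPair hu τ).g₃ = V.c₆ ∧
      ∀ k : ℕ, k ∈ Finset.Ico 1 p → ∃ hns : V.toAffine.Nonsingular
        ((scaledPair hu τ).weierstrassP ((k : ℂ) * (u / p)) - V.b₂ / 12)
        (((scaledPair hu τ).derivWeierstrassP ((k : ℂ) * (u / p)) -
          V.a₁ * ((scaledPair hu τ).weierstrassP ((k : ℂ) * (u / p)) - V.b₂ / 12) - V.a₃) / 2),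
        k • Q = .some _ _ hns := by
  haveI : V.IsElliptic := ⟨isUnit_iff_ne_zero.2 hΔ⟩
  obtain ⟨τ, u, hu, hj, h4, h6⟩ := exists_scaledPair hΔ V.c_relation
  set L := scaledPair hu τ with hL
  obtain ⟨φ, hker, hφ⟩ := exists_uniform L V h4 h6
  have hp0 : (p : ℂ) ≠ 0 := Nat.cast_ne_zero.2 hp.out.ne_zero
  -- the division points exhaust the torsion
  have hdiv : ∀ c d : ℤ, u * (c * (τ : ℂ) + d) / p ∈ L.lattice → (p : ℤ) ∣ c ∧ (p : ℤ) ∣ d := by
    intro c d hm
    obtain ⟨c', d', e⟩ := (mem_scaledPair_iff hu τ _).1 hm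
    rw [div_eq_iff hp0] at e
    have e' : ((c - p * c' : ℤ) : ℂ) * (τ : ℂ) + ((d - p * d' : ℤ) : ℂ) = 0 := by
      refine mul_left_cancel₀ hu ?_
      push_cast
      linear_combination e
    have him := congrArg Complex.im e'
    have hre := congrArg Complex.re e'
    simp only [Complex.add_im, Complex.mul_im, Complex.intCast_im, Complex.intCast_re, Complex.zero_im,
      zero_mul, add_zero, mul_eq_zero, τ.im_pos.ne', or_false, Int.cast_eq_zero,
      UpperHalfPlane.coe_im] at him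
    simp only [him, Int.cast_zero, zero_mul, zero_add, Complex.intCast_re, Complex.zero_re,
      Int.cast_eq_zero] at hre
    exact ⟨⟨c', by linarith⟩, ⟨d', by linarith⟩⟩
  let g : Fin p × Fin p → {P : V.toAffine.Point // p • P = 0} := fun ab =>
    ⟨φ (u * ((ab.1 : ℕ) * (τ : ℂ) + (ab.2 : ℕ)) / p), by
      rw [← map_nsmul, hker, nsmul_eq_mul, mul_div_cancel₀ _ hp0, mem_scaledPair_iff]
      exact ⟨(ab.1 : ℕ), (ab.2 : ℕ), by push_cast; rfl⟩⟩
  have hginj : Function.Injective g := by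
    rintro ⟨a, b⟩ ⟨a', b'⟩ e
    have e1 := congrArg Subtype.val e
    simp only [g] at e1
    rw [← sub_eq_zero, ← map_sub, hker] at e1
    have := hdiv ((a : ℕ) - (a' : ℕ)) ((b : ℕ) - (b' : ℕ)) (by
      convert e1 using 1; push_cast; ring)
    have ha := Int.eq_zero_of_abs_lt_dvd this.1 (by rw [abs_lt]; have := a.2; have := a'.2; omega)
    have hb := Int.eq_zero_of_abs_lt_dvd this.2 (by rw [abs_lt]; have := b.2; have := b'.2; omega)
    exact Prod.ext (Fin.ext (show (a : ℕ) = a' by omega)) (Fin.ext (show (b : ℕ) = b' by omega))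
  have hcard := EC.card_nsmul_eq_zero V p hp.out.one_le
  haveI : Finite {P : V.toAffine.Point // p • P = 0} :=
    Nat.finite_of_card_ne_zero (by rw [hcard]; exact pow_ne_zero 2 hp.out.ne_zero)
  have hgsurj := hginj.bijective_of_nat_card_le (by
    rw [hcard, Nat.card_prod, Nat.card_fin, pow_two])
  obtain ⟨⟨a, b⟩, hab⟩ := hgsurj.2 ⟨Q, by rw [← hQ]; exact addOrderOf_nsmul_eq_zero Q⟩
  have hQ' : φ (u * ((a : ℕ) * (τ : ℂ) + (b : ℕ)) / p) = Q := congrArg Subtype.val hab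
  have hne : ¬ ((p : ℤ) ∣ (a : ℕ) ∧ (p : ℤ) ∣ (b : ℕ)) := by
    rintro ⟨⟨a', ha⟩, ⟨b', hb⟩⟩
    have hQ0 : Q = 0 := by
      rw [← hQ', hker, mem_scaledPair_iff]
      refine ⟨a', b', ?_⟩
      rw [div_eq_iff hp0]
      have hac := congrArg (fun n : ℤ => (n : ℂ)) ha
      have hbc := congrArg (fun n : ℤ => (n : ℂ)) hb
      push_cast at hac hbc
      linear_combination u * (τ : ℂ) * hac + u * hbc
    rw [hQ0, addOrderOf_zero] at hQ
    exact hp.out.one_lt.ne hQ
  obtain ⟨c, d, hcd, hc, hd⟩ := exists_coprime_lift hp.out hne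
  obtain ⟨γ, hγ⟩ : ∃ γ : SL(2, ℤ), γ 1 0 = c ∧ γ 1 1 = d := by
    obtain ⟨x, y, hxy⟩ := hcd
    exact ⟨⟨!![y, -x; c, d], by rw [Matrix.det_fin_two_of]; linarith⟩, rfl, rfl⟩
  set den : ℂ := (c : ℂ) * (τ : ℂ) + (d : ℂ) with hden
  have hτ' : ((γ • τ : ℍ) : ℂ) = ((γ 0 0 : ℂ) * τ + γ 0 1) / den := by
    rw [hden, ← hγ.1, ← hγ.2, UpperHalfPlane.coe_specialLinearGroup_apply]
    simp
  have hden0 : den ≠ 0 := fun h0 => by
    have := (γ • τ : ℍ).im_pos
    rw [← UpperHalfPlane.coe_im, hτ', h0, div_zero] at this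
    simp at this
  have hdet : (γ 0 0 : ℂ) * d - (γ 0 1 : ℂ) * c = 1 := by
    rw [← hγ.1, ← hγ.2]
    have : γ 0 0 * γ 1 1 - γ 0 1 * γ 1 0 = 1 := by
      rw [← Matrix.det_fin_two (γ : Matrix (Fin 2) (Fin 2) ℤ)]; exact γ.det_coe
    exact_mod_cast this
  have hu' : u * den ≠ 0 := mul_ne_zero hu hden0
  have hlat : L.lattice = (scaledPair hu' (γ • τ)).lattice := by
    ext z
    rw [mem_scaledPair_iff, mem_scaledPair_iff]
    constructor
    · rintro ⟨m, n, rfl⟩
      refine ⟨m * γ 1 1 - n * γ 1 0, n * γ 0 0 - m * γ 0 1, ?_⟩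
      rw [hτ', hγ.1, hγ.2]
      push_cast
      field_simp
      rw [hden]
      linear_combination -((m : ℂ) * τ + n) * hdet
    · rintro ⟨m, n, rfl⟩
      refine ⟨m * γ 0 0 + n * c, m * γ 0 1 + n * d, ?_⟩
      rw [hτ']
      push_cast
      field_simp
      rw [hden]
      ring
  have hQw : φ (u * den / p) = Q := by
    rw [← hQ', ← sub_eq_zero, ← map_sub, hker, mem_scaledPair_iff]
    obtain ⟨c', hc'⟩ := hc
    obtain ⟨d', hd'⟩ := hd
    refine ⟨c', d', ?_⟩
    have hcc := congrArg (fun n : ℤ => (n : ℂ)) hc'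
    have hdc := congrArg (fun n : ℤ => (n : ℂ)) hd'
    push_cast at hcc hdc
    rw [hden]
    field_simp
    linear_combination (τ : ℂ) * hcc + hdc
  refine ⟨γ • τ, u * den, hu', by rw [Period.jFun_smul, hj],
    by rw [← g₂_congr hlat, h4], by rw [← g₃_congr hlat, h6], fun k hk => ?_⟩
  rw [Finset.mem_Ico] at hk
  have hk0 : (k : ℂ) * (u * den / p) ∉ L.lattice := fun hm => by
    rw [← hker, ← nsmul_eq_mul, map_nsmul, hQw] at hm
    have := Nat.le_of_dvd (by omega) (hQ ▸ addOrderOf_dvd_of_nsmul_eq_zero hm)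
    omega
  simp only [← weierstrassP_congr hlat, ← derivWeierstrassP_congr hlat]
  obtain ⟨hns, hval⟩ := hφ _ hk0
  exact ⟨hns, by rw [← hval, ← nsmul_eq_mul, map_nsmul, hQw]⟩

end Fermat.Agent.Mazur3
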