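import Fermat.Agent.Mazur3.Instance
import Fermat.Agent.Mazur3.Class

/-!
# The line and the cocycle of a point

The annihilator of the ordinary part is the line of the Eisenstein module at the residual prime.
The class of a rational point gives a cocycle, which lies in that line on inertia as soon as the
classes of the Eisenstein translates of bounded characters vanish there.
-/

set_option autoImplicit false
set_option linter.unusedSectionVars false
set_option maxHeartbeats 200000

noncomputable section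

namespace Fermat.Agent.Mazur3

open GalRep IsLocalRing
open Fermat.Agent.Galois (GQ)
open UpperHalfPlane CongruenceSubgroup
open scoped MatrixGroups

local notation "ℚb" => AlgebraicClosure ℚ

variable {p η : ℕ} [NeZero p] [Fact η.Prime] [hp : Fact p.Prime]

variable (p η) in
/-- The ordinary part inside the Eisenstein part. -/
def ordSub (A : ValuationSubring ℚb) : Submodule ℤ_[η] (eisPart p η) :=
  (ordPart p η A).comap (eisPart p η).subtype

theorem mem_ordSub {A : ValuationSubring ℚb} {v : eisPart p η} :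
    v ∈ ordSub p η A ↔ (v : Lat p η) ∈ ordPart p η A := Iff.rfl

variable (p η) in
/-- The functionals killing the ordinary part. -/
def ordAnn (A : ValuationSubring ℚb) : Submodule ℤ_[η] (Module.Dual ℤ_[η] (eisPart p η)) :=
  (ordSub p η A).dualAnnihilator

theorem mem_ordAnn {A : ValuationSubring ℚb} {φ : Module.Dual ℤ_[η] (eisPart p η)} :
    φ ∈ ordAnn p η A ↔ ∀ v ∈ ordSub p η A, φ v = 0 := Submodule.mem_dualAnnihilator φ

theorem cyc_mul_inv (σ : GQ) : (cyc η σ).val * (cyc η σ⁻¹).val = (1 : ℤ_[η]) := by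
  rw [← Units.val_mul, ← map_mul, mul_inv_cancel, map_one, Units.val_one]

section Line

variable {A : ValuationSubring ℚb} (hA : A.LiesOverPrime η) (hg : ¬ η ∣ p)

include hA hg

theorem actP_inertia_ord {σ : GQ} (hσ : σ ∈ A.inertiaSubgroupIn ℚ) {v : eisPart p η}
    (hv : v ∈ ordSub p η A) : actP p η σ v = (cyc η σ).val • v :=
  Subtype.ext (ordPart_cyc hA hg hσ (ordPart_le_connPart A hv))

theorem dual_inertia_ord {σ : GQ} (hσ : σ ∈ A.inertiaSubgroupIn ℚ)
    (φ : Module.Dual ℤ_[η] (eisPart p η)) {v : eisPart p η} (hv : v ∈ ordSub p η A) :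
    dualGalois p η σ φ v = φ v := by
  rw [dualGalois_apply, actP_inertia_ord hA hg (inv_mem hσ) hv, LinearMap.map_smul, smul_eq_mul,
    ← mul_assoc, cyc_mul_inv, one_mul]

theorem dual_inertia_quot {σ : GQ} (hσ : σ ∈ A.inertiaSubgroupIn ℚ)
    (φ : Module.Dual ℤ_[η] (eisPart p η)) : dualGalois p η σ φ - φ ∈ ordAnn p η A :=
  mem_ordAnn.mpr fun v hv => by
    rw [LinearMap.sub_apply, dual_inertia_ord hA hg hσ φ hv, sub_self]

theorem dual_inertia_line {σ : GQ} (hσ : σ ∈ A.inertiaSubgroupIn ℚ)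
    {φ : Module.Dual ℤ_[η] (eisPart p η)} (hφ : φ ∈ ordAnn p η A) :
    dualGalois p η σ φ = (cyc η σ).val • φ :=
  LinearMap.ext fun v => by
    have h : φ (actP p η σ⁻¹ v - v) = 0 :=
      mem_ordAnn.mp hφ _ (ordPart_inertia hA hg (inv_mem hσ) v.2)
    rw [dual_map_sub, sub_eq_zero] at h
    rw [dualGalois_apply, LinearMap.smul_apply, smul_eq_mul, h]

/-- The dual congruence relation on the line. -/
theorem dual_frobenius_line {F : GQ} (hF : A.IsFrobeniusAt F η)
    {φ : Module.Dual ℤ_[η] (eisPart p η)} (hφ : φ ∈ ordAnn p η A) :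
    (η : ℤ_[η]) • dualGalois p η F (dualGalois p η F φ) -
      (cyc η F).val • dualHecke p η (MvPolynomial.X ⟨⟨η, Fact.out⟩, hg⟩) (dualGalois p η F φ) +
      ((cyc η F).val * (cyc η F).val) • φ = 0 := by
  refine LinearMap.ext fun v => ?_
  set i : GoodPrime p := ⟨⟨η, Fact.out⟩, hg⟩
  set w := actP p η F⁻¹ (actP p η F⁻¹ v) with hw
  have hm : actP p η F (actP p η F w) + η • w - heckeP p η (MvPolynomial.X i) (actP p η F w) ∈
      ordSub p η A := by
    have := ordPart_frobenius hA hg hF w.2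
    rw [mem_ordSub, Submodule.coe_sub, Submodule.coe_add, coe_heckeP, latHeckePoly_X]
    exact this
  have e := mem_ordAnn.mp hφ _ hm
  rw [dual_map_sub, LinearMap.map_add, dual_map_nsmul, hw, ← actP_mul F F⁻¹, mul_inv_cancel,
    actP_one, ← actP_mul F F⁻¹, mul_inv_cancel, actP_one, nsmul_eq_mul] at e
  simp only [LinearMap.add_apply, LinearMap.sub_apply, LinearMap.smul_apply, smul_eq_mul,
    dualGalois_apply, dualHecke_apply, LinearMap.zero_apply, actP_heckeP]
  linear_combination ((cyc η F).val * (cyc η F).val) * e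

end Line

theorem ordAnn_saturated (A : ValuationSubring ℚb) {c : ℤ_[η]}
    {φ : Module.Dual ℤ_[η] (eisPart p η)} (hc : c ≠ 0) (h : c • φ ∈ ordAnn p η A) :
    φ ∈ ordAnn p η A :=
  mem_ordAnn.mpr fun v hv => by
    have h1 := mem_ordAnn.mp h v hv
    rw [LinearMap.smul_apply, smul_eq_mul] at h1
    exact (mul_eq_zero.mp h1).resolve_left hc

theorem ordAnn_hecke_mem (A : ValuationSubring ℚb) (P : HeckePoly p)
    {φ : Module.Dual ℤ_[η] (eisPart p η)} (hφ : φ ∈ ordAnn p η A) :
    dualHecke p η P φ ∈ ordAnn p η A :=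
  mem_ordAnn.mpr fun v hv => by
    rw [dualHecke_apply]
    exact mem_ordAnn.mp hφ _ (latHeckePoly_mem_ordPart A P hv)

theorem ordAnn_galois_mem {A : ValuationSubring ℚb} {σ : GQ} (hσ : σ ∈ A.decompositionSubgroup ℚ)
    {φ : Module.Dual ℤ_[η] (eisPart p η)} (hφ : φ ∈ ordAnn p η A) :
    dualGalois p η σ φ ∈ ordAnn p η A :=
  mem_ordAnn.mpr fun v hv => by
    have h : actP p η σ⁻¹ v ∈ ordSub p η A := by
      rw [mem_ordSub, coe_actP]
      exact latAct_mem_ordPart A (inv_mem hσ) (mem_ordSub.mp hv)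
    rw [dualGalois_apply, mem_ordAnn.mp hφ _ h, mul_zero]

/-- The line at a place over `η`. -/
def ordLine (hηp : η ≠ p) (hsq : InertiaProdZero p) {A : ValuationSubring ℚb}
    (hA : A.LiesOverPrime η) (hg : ¬ η ∣ p) : (eisModule p η hηp hsq).OrdLine A hg where
  line := ordAnn p η A
  saturated _ _ hc h := ordAnn_saturated A hc h
  hecke_mem P _ hφ := ordAnn_hecke_mem A P hφ
  galois_mem _ hσ _ hφ := ordAnn_galois_mem hσ hφ
  inertia_line _ hσ _ hφ := dual_inertia_line hA hg hσ hφ
  inertia_quot _ hσ φ := dual_inertia_quot hA hg hσ φ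
  frob := (Galois.exists_isFrobeniusAt Fact.out hA).choose
  isFrobeniusAt := (Galois.exists_isFrobeniusAt Fact.out hA).choose_spec
  frob_line _ hφ :=
    dual_frobenius_line hA hg (Galois.exists_isFrobeniusAt Fact.out hA).choose_spec hφ

/-! ## The cocycle of a point -/

/-- The twisted class of a point. -/
def classFun (x : RatPoint p) (σ : GQ) : Module.Dual ℤ_[η] (eisPart p η) :=
  (x.latClass σ).comp ((eisPart p η).subtype.comp (actP p η σ⁻¹))

theorem classFun_apply (x : RatPoint p) (σ : GQ) (v : eisPart p η) :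
    classFun x σ v = x.latClass σ (latAct p η σ⁻¹ (v : Lat p η)) := rfl

theorem classFun_mul (x : RatPoint p) (σ τ : GQ) :
    (classFun x (σ * τ) : Module.Dual ℤ_[η] (eisPart p η)) =
      classFun x σ + dualGalois p η σ (classFun x τ) :=
  LinearMap.ext fun v => by
    rw [LinearMap.add_apply, dualGalois_apply, classFun_apply, classFun_apply, classFun_apply,
      x.latClass_mul, coe_actP, mul_inv_rev, map_mul, Module.End.mul_apply]
    congr 2
    rw [← Module.End.mul_apply, ← map_mul, mul_inv_cancel, map_one, Module.End.one_apply]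

theorem classFun_continuous (x : RatPoint p) (k : ℕ) :
    ∃ F : IntermediateField ℚ ℚb, FiniteDimensional ℚ F ∧ ∀ σ : GQ, (∀ y ∈ F, σ y = y) →
      ∃ w : Module.Dual ℤ_[η] (eisPart p η), classFun x σ = (η ^ k : ℤ_[η]) • w := by
  obtain ⟨F, hF, h⟩ := x.latClass_continuous (η := η) k
  exact ⟨F, hF, fun σ hσ => dual_exists_smul (V := eisPart p η)
    (pow_ne_zero _ (Nat.cast_ne_zero.mpr (NeZero.ne η))) _ fun v => h σ hσ _⟩

theorem isCocycle_classFun (hηp : η ≠ p) (hsq : InertiaProdZero p) (x : RatPoint p) :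
    (eisModule p η hηp hsq).IsCocycle (fun σ => classFun x σ) :=
  ⟨classFun_mul x, classFun_continuous x⟩

variable (p η) in
/-- The classes of Eisenstein translates of bounded characters vanish on inertia. -/
def EtaVanish (hg : GoodIndex p η) (x : RatPoint p) (A : ValuationSubring ℚb) : Prop :=
  ∃ C D : ℕ, 0 < D ∧ ∀ (K : ℕ) (χ : ParHom p (ZMod (η ^ (2 * K + C))))
    (χK : ParHom p (ZMod (η ^ K))), IsBoundedChar p (η ^ (2 * K + C)) A χ →
      IsCastHom (pow_dvd_pow η (show K ≤ 2 * K + C by omega)) χ χK →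
        ∀ σ ∈ A.inertiaSubgroupIn ℚ,
          D • (x.kClass (liftAut σ) (heckeHom hg χK) - (η + 1) • x.kClass (liftAut σ) χK) = 0

theorem isBoundedChar_redPow {A : ValuationSubring ℚb} (hA : A.LiesOverPrime η) (hg : ¬ η ∣ p)
    {v : Lat p η} (hv : v ∈ connPart p η A) (k : ℕ) : IsBoundedChar p (η ^ k) A (redPow k v) := by
  obtain ⟨L₁, h1, c1⟩ := hv.2 k
  obtain ⟨L₂, h2, m2⟩ := exists_multDvd_field (N := p) (n := η ^ k) Fact.out hA hg
  have := h1; have := h2
  obtain ⟨L, hL, hLg, hle⟩ := exists_galois_level (L₁ ⊔ L₂)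
  have := hL; have := hLg
  obtain ⟨B⟩ := nonempty_base (Fact.out : η.Prime) hA L
  exact (m2 L (le_sup_right.trans hle) B _).isBoundedChar Fact.out hA
    (c1 L (le_sup_left.trans hle) inferInstance inferInstance B)

/-- The Eisenstein operators keep the ordinary part. -/
theorem eisOp_mem_ordPart (A : ValuationSubring ℚb) (i : GoodPrime p) {u : Lat p η}
    (hu : u ∈ ordPart p η A) : eisOp p η i u ∈ ordPart p η A := by
  rw [eisOp, LinearMap.sub_apply, Module.End.natCast_apply]
  have h1 := latHeckePoly_mem_ordPart A (MvPolynomial.X i) hu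
  rw [latHeckePoly_X] at h1
  exact sub_mem h1 (nsmul_mem hu _)

/-- A functional killing the Eisenstein translates of the ordinary part kills it. -/
theorem eq_zero_of_eisOp_ordPart (A : ValuationSubring ℚb) (i : GoodPrime p)
    (L : Lat p η →ₗ[ℤ_[η]] ℤ_[η]) (h0 : ∀ u ∈ ordPart p η A, L (eisOp p η i u) = 0)
    {v : Lat p η} (hv : v ∈ ordPart p η A) : L v = 0 := by
  have : Module.Finite ℤ_[η] (ordPart p η A) := Module.IsNoetherian.finite _ _
  have : Module.Free ℤ_[η] (ordPart p η A) := Module.Free.of_basis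
    (Submodule.basisOfPid (Module.Free.chooseBasis ℤ_[η] (Lat p η)) _).2
  set f : Module.End ℤ_[η] (ordPart p η A) :=
    (eisOp p η i).restrict fun u hu => eisOp_mem_ordPart A i hu with hf
  have hinj : Function.Injective f := fun a b hab => Subtype.ext (eisOp_injective i (by
    have := congrArg Subtype.val hab
    rwa [hf, LinearMap.coe_restrict_apply, LinearMap.coe_restrict_apply] at this))
  have hz := dual_eq_zero_of_comp (V := ordPart p η A) hinj
    (φ := L.comp (ordPart p η A).subtype) fun u => by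
    rw [LinearMap.comp_apply, Submodule.subtype_apply, hf, LinearMap.coe_restrict_apply]
    exact h0 u u.2
  have := LinearMap.congr_fun hz ⟨v, hv⟩
  rwa [LinearMap.comp_apply, Submodule.subtype_apply, LinearMap.zero_apply] at this

/-- On inertia the class kills the ordinary part. -/
theorem latClass_ordPart {A : ValuationSubring ℚb} (hA : A.LiesOverPrime η) (hg : ¬ η ∣ p)
    {x : RatPoint p} (h : EtaVanish p η (goodIndex (⟨⟨η, Fact.out⟩, hg⟩ : GoodPrime p)) x A)
    {σ : GQ} (hσ : σ ∈ A.inertiaSubgroupIn ℚ) {v : Lat p η} (hv : v ∈ ordPart p η A) :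
    x.latClass σ v = 0 := by
  obtain ⟨C, D, hD, hC⟩ := h
  refine eq_zero_of_eisOp_ordPart A ⟨⟨η, Fact.out⟩, hg⟩ (x.latClass σ) (fun u hu => ?_) hv
  refine ((mul_eq_zero (a := (D : ℤ_[η]))).mp (PadicInt.ext_of_toZModPow.mp fun K => ?_)).resolve_left
    (Nat.cast_ne_zero.mpr hD.ne')
  have := hC K _ _ (isBoundedChar_redPow hA hg (ordPart_le_connPart A hu) (2 * K + C))
    (redPow_isCast (show K ≤ 2 * K + C by omega) u) σ hσ
  rw [map_zero, map_mul, map_natCast, ← nsmul_eq_mul, x.toZModPow_latClass, ← this, eisOp,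
    LinearMap.sub_apply, Module.End.natCast_apply, map_sub, map_nsmul, redPow_latHecke,
    ← x.kClassHom_apply, ← x.kClassHom_apply, map_sub, map_nsmul, add_comm η 1]
  rfl

theorem classFun_mem_ordAnn {A : ValuationSubring ℚb} (hA : A.LiesOverPrime η) (hg : ¬ η ∣ p)
    {x : RatPoint p} (h : EtaVanish p η (goodIndex (⟨⟨η, Fact.out⟩, hg⟩ : GoodPrime p)) x A)
    {σ : GQ} (hσ : σ ∈ A.inertiaSubgroupIn ℚ) : classFun x σ ∈ ordAnn p η A :=
  mem_ordAnn.mpr fun v hv => by
    rw [classFun_apply]
    exact latClass_ordPart hA hg h hσ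
      (latAct_mem_ordPart A (Subgroup.map_subtype_le _ (inv_mem hσ)) (mem_ordSub.mp hv))

end Fermat.Agent.Mazur3
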