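import Fermat.Agent.Mazur3.LatticeCurve
import Fermat.Agent.Mazur3.Dichotomy
import Fermat.Agent.EC.Local.Mult
import Fermat.Prelude.Def_EllipticCurve_ZeroComponentAt
import Fermat.Prelude.Def_FLTPrelim_Ramification
import Mathlib.FieldTheory.Galois.Infinite

/-!
# The isogenous invariant of a rational point of prime order

For `W/ℤ` with a Galois-stable line generated by `Q` of order `p`: `(j, j')` on the modular curve with `j'` rational,
and at a multiplicative prime `q ≠ p` the point lies off the identity component exactly when `j`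
is the `p`-th power side.
-/

set_option autoImplicit false
set_option linter.style.haveILetI false

noncomputable section

namespace Fermat.Agent.Mazur3

open UpperHalfPlane WeierstrassCurve Fermat.Agent.GalRep Fermat.Agent.EC
open Fermat.Agent.Period (jFun)
open scoped WeierstrassCurve.Affine

/-! ## Reduction of torsion points at a multiplicative place -/

theorem eq_zero_of_two_torsion {G : Type*} [AddMonoid G] {p : ℕ} (hodd : Odd p) {P : G}
    (h : P + P = 0) (t : p • P = 0) : P = 0 := by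
  obtain ⟨m, rfl⟩ := hodd
  have h2 : (2 * m) • P = 0 := by rw [mul_comm, mul_nsmul', two_nsmul, h, nsmul_zero]
  rwa [add_nsmul, h2, zero_add, one_nsmul] at t

section Local

variable {L : Type*} [Field L] [IsAlgClosed L] [CharZero L] [DecidableEq L]
variable {A : ValuationSubring L} (W : WeierstrassCurve A)

local notation "v" => A.valuation

/-- `2 y + a₁ x + a₃` as an element of `A`-values. -/
def psiTwo (x y : L) : L :=
  2 * y + (W.map (algebraMap A L)).a₁ * x + (W.map (algebraMap A L)).a₃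

variable {p : ℕ} [hp : Fact p.Prime] [(W.map (algebraMap A L)).IsElliptic]

/-- On the Tate normal form: unit `ψ` is inherited by multiples. -/
theorem tate_psiTwo_nsmul {c : A} [((tateNF c).map (algebraMap A L)).IsElliptic]
    (hc : v (algebraMap A L c) < 1) (hpu : IsUnit (p : A)) (hodd : Odd p) {x y : L}
    (h : ((tateNF c).map (algebraMap A L)).toAffine.Nonsingular x y)
    (t : p • Affine.Point.some x y h = 0) (hψ : v (2 * y + x) = 1) (j : ℕ) {x' y' : L}
    (h' : ((tateNF c).map (algebraMap A L)).toAffine.Nonsingular x' y')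
    (e : j • Affine.Point.some x y h = Affine.Point.some x' y' h') : v (2 * y' + x') = 1 := by
  have heq : ∀ {a b : L}, ((tateNF c).map (algebraMap A L)).toAffine.Nonsingular a b →
      b ^ 2 + a * b = a ^ 3 + algebraMap A L c := fun {a b} hab => by
    have := (Affine.equation_iff ..).1 hab.1
    simp [tateNF] at this
    rw [show algebraMap A L c = (c : L) from rfl]
    linear_combination this
  have h2 : v (2 : L) ≤ 1 := by exact_mod_cast val_natCast_le_one (A := A) 2
  have h4 : v (4 : L) ≤ 1 := by exact_mod_cast val_natCast_le_one (A := A) 4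
  -- the abscissa is a unit
  have hx : v x = 1 := by
    refine le_antisymm (tate_val_le hpu h t) (not_lt.1 fun hlt => ?_)
    have hrhs : v (y ^ 2 + x * y) < 1 := by
      rw [heq h]
      refine Valuation.map_add_lt _ ?_ hc
      rw [map_pow]; exact pow_lt_one₀ zero_le hlt (by norm_num)
    have hy : v y < 1 := by
      by_contra hy
      push Not at hy
      rw [show y ^ 2 + x * y = y * (y + x) by ring, map_mul,
        Valuation.map_add_eq_of_lt_left _ (lt_of_lt_of_le hlt hy)] at hrhs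
      exact absurd (one_le_mul hy hy) (not_le.2 hrhs)
    have : v (2 * y + x) < 1 := by
      refine Valuation.map_add_lt _ ?_ hlt
      rw [map_mul]
      exact lt_of_le_of_lt (mul_le_of_le_one_left zero_le h2) hy
    exact absurd hψ this.ne
  have hx' : v x' = 1 := tate_nsmul_unit hc hpu h t hx j x' y' h' e
  have t' : p • Affine.Point.some x' y' h' = 0 := by rw [← e, smul_comm, t, nsmul_zero]
  have hne : 2 * y' + ((tateNF c).map (algebraMap A L)).a₁ * x' +
      ((tateNF c).map (algebraMap A L)).a₃ ≠ 0 := by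
    intro h0
    have h20 := (add_self_eq_zero_iff h').2 h0
    obtain ⟨m, hm⟩ := hodd
    exact Affine.Point.some_ne_zero h' (eq_zero_of_two_torsion ⟨m, hm⟩ h20 t')
  obtain ⟨xa, ya, ha, ea, hxa⟩ := double_of_ne h' hne
  have hxa1 : v xa ≤ 1 := tate_val_le hpu ha (by rw [← ea, nsmul_add, t', add_zero])
  have hs : v (sP ((tateNF c).map (algebraMap A L)) (x' * x') (x' + x') 1) = 1 := by
    rw [tateNF_sP, Valuation.map_sub_eq_of_lt_left]
    · simp [hx']
    · simp only [map_pow, map_mul, hx', mul_one, one_pow]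
      exact val_add_lt _ (val_mul_lt_one _ (val_mul_lt_one' _ h4 hc)
        ((A.valuation.map_add _ _).trans (max_le hx'.le hx'.le))) hc
  have htP : tP ((tateNF c).map (algebraMap A L)) (x' * x') (x' + x') 1 = (2 * y' + x') ^ 2 := by
    rw [tateNF_tP]
    linear_combination (-4 : L) * heq h'
  rw [← hxa, htP, map_mul, map_pow] at hs
  have hle : v (2 * y' + x') ≤ 1 := by
    have hy' : v y' ≤ 1 := by
      have := (heq h')
      by_contra hy
      push Not at hy
      have h1 : v (y' ^ 2 + x' * y') ≤ 1 := by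
        rw [this]
        exact (A.valuation.map_add _ _).trans (max_le (by rw [map_pow, hx', one_pow]) hc.le)
      rw [show y' ^ 2 + x' * y' = y' * (y' + x') by ring, map_mul,
        Valuation.map_add_eq_of_lt_left _ (by rwa [hx'])] at h1
      exact absurd (one_lt_mul'' hy hy) (not_lt.2 h1)
    refine (A.valuation.map_add _ _).trans (max_le ?_ hx'.le)
    rw [map_mul]; exact mul_le_one' h2 hy'
  refine le_antisymm hle (not_lt.1 fun hlt => ?_)
  have : v xa * v (2 * y' + x') ^ 2 < 1 :=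
    lt_of_le_of_lt (mul_le_of_le_one_left zero_le hxa1) (pow_lt_one₀ zero_le hlt two_ne_zero)
  exact absurd hs this.ne

/-- A unit `ψ` is inherited by multiples. -/
theorem psiTwo_nsmul (hΔ : v (algebraMap A L W.Δ) < 1) (hΔ0 : W.Δ ≠ 0)
    (hc₄ : v (algebraMap A L W.c₄) = 1) (hpu : IsUnit (p : A)) (hodd : Odd p) {x y : L}
    (h : (W.map (algebraMap A L)).toAffine.Nonsingular x y)
    (t : p • Affine.Point.some x y h = 0) (hψ : v (psiTwo W x y) = 1) (j : ℕ) {x' y' : L}
    (h' : (W.map (algebraMap A L)).toAffine.Nonsingular x' y')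
    (e : j • Affine.Point.some x y h = Affine.Point.some x' y' h') : v (psiTwo W x' y') = 1 := by
  obtain ⟨u, c, hu, -, hc, -, hC⟩ := exists_tateNF W hΔ hΔ0 hc₄
  set C := toTateNF (W.map (algebraMap A L)) u with hCdef
  have hvu : v (u : L) = 1 := by
    have := congrArg v hu
    rw [map_pow, hc₄] at this
    exact (pow_eq_one_iff_of_nonneg zero_le (by norm_num)).1 this
  haveI : ((tateNF c).map (algebraMap A L)).IsElliptic := by
    rw [← hC]; infer_instance
  set f : (W.map (algebraMap A L)).toAffine.Point →+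
      ((tateNF c).map (algebraMap A L)).toAffine.Point :=
    (sigmaPoint (RingHom.id L) (by rw [WeierstrassCurve.map_id]; exact hC)).comp (vcHom C) with hf
  have ha1 : (C • W.map (algebraMap A L)).a₁ = 1 := by rw [hC]; simp [tateNF]
  have ha3 : (C • W.map (algebraMap A L)).a₃ = 0 := by rw [hC]; simp [tateNF]
  have hCu : C.u = u := rfl
  have hψ' : ∀ a b : L, 2 * vcY C a b + vcX C a = psiTwo W a b / (u : L) ^ 3 := fun a b => by
    have hu0 := u.ne_zero
    have e2 : (2 : L) * vcY C a b + (C • W.map (algebraMap A L)).a₁ * vcX C a +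
        (C • W.map (algebraMap A L)).a₃ = psiTwo W a b / (u : L) ^ 3 := by
      simp only [vcX, vcY, variableChange_a₁, variableChange_a₃, hCu, psiTwo,
        Units.val_inv_eq_inv_val]
      field_simp
      ring
    rw [ha1, ha3] at e2
    linear_combination e2
  have hv' : ∀ a b : L, v (2 * vcY C a b + vcX C a) = v (psiTwo W a b) := fun a b => by
    rw [hψ', map_div₀, map_pow, hvu, one_pow, div_one]
  have key := congrArg f e
  rw [map_nsmul] at key
  simp only [hf, AddMonoidHom.comp_apply, vcHom_some, sigmaPoint_some] at key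
  have t' := congrArg f t
  rw [map_nsmul, map_zero] at t'
  simp only [hf, AddMonoidHom.comp_apply, vcHom_some, sigmaPoint_some] at t'
  have := tate_psiTwo_nsmul hc hpu hodd _ t' (by rw [RingHom.id_apply, RingHom.id_apply, hv', hψ]) j _ key
  rwa [RingHom.id_apply, RingHom.id_apply, hv'] at this

/-- A point with nonsingular reduction and torsion prime to the residue characteristic has unit
`ψ`; one with singular reduction does not. -/
theorem psiTwo_of_reduction (hpu : IsUnit (p : A)) (hodd : Odd p) {x y : L}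
    (h : (W.map (algebraMap A L)).toAffine.Nonsingular x y)
    (t : p • Affine.Point.some x y h = 0) :
    v (psiTwo W x y) ≤ 1 ∧
    ((x ∉ A ∨ ∃ (hx : x ∈ A) (hy : y ∈ A),
      (W.map (IsLocalRing.residue A)).toAffine.Nonsingular
        (IsLocalRing.residue A ⟨x, hx⟩) (IsLocalRing.residue A ⟨y, hy⟩)) ↔
      v (psiTwo W x y) = 1) := by
  have hxA := torsion_x_mem A W hpu h t
  have hyA := y_mem_of_x_mem A W hxA h.1
  set ψA : A := 2 * ⟨y, hyA⟩ + W.a₁ * ⟨x, hxA⟩ + W.a₃ with hψA
  have hψ : psiTwo W x y = (ψA : L) := by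
    rw [show (ψA : L) = algebraMap A L ψA from rfl, hψA]
    simp only [psiTwo, map_add, map_mul, map_ofNat, map_a₁, map_a₃]
    rfl
  set eA : A := W.a₁ * ⟨y, hyA⟩ - (3 * ⟨x, hxA⟩ ^ 2 + 2 * W.a₂ * ⟨x, hxA⟩ + W.a₄) with heA
  have hres : IsLocalRing.residue A ψA ≠ 0 ↔ v (psiTwo W x y) = 1 := by
    rw [hψ, Ne, IsLocalRing.residue_eq_zero_iff, IsLocalRing.mem_maximalIdeal, mem_nonunits_iff,
      not_not, A.valuation_eq_one_iff]
  refine ⟨hψ ▸ A.valuation_le_one ψA, ⟨fun hns => ?_, fun h1 => Or.inr ⟨hxA, hyA, ?_⟩⟩⟩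
  · obtain ⟨_, _, hns⟩ := hns.resolve_left (not_not.2 hxA)
    refine le_antisymm (hψ ▸ A.valuation_le_one ψA) (not_lt.1 fun hlt => ?_)
    have hψ0 : IsLocalRing.residue A ψA = 0 := by
      by_contra hne; exact hlt.ne (hres.1 hne)
    rw [Affine.nonsingular_iff] at hns
    have he : IsLocalRing.residue A eA ≠ 0 := by
      rcases hns.2 with h1 | h1
      · intro he
        apply h1
        simp only [heA, map_sub, map_add, map_mul, map_pow, map_ofNat, sub_eq_zero] at he
        simp only [map_a₁, map_a₂, map_a₄]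
        linear_combination he
      · exfalso
        apply h1
        simp only [hψA, map_add, map_mul, map_ofNat] at hψ0
        simp only [map_a₁, map_a₃]
        linear_combination hψ0
    rw [Ne, IsLocalRing.residue_eq_zero_iff, IsLocalRing.mem_maximalIdeal, mem_nonunits_iff,
      not_not, A.valuation_eq_one_iff] at he
    have hne : 2 * y + (W.map (algebraMap A L)).a₁ * x + (W.map (algebraMap A L)).a₃ ≠ 0 := by
      intro h0
      have h20 := (add_self_eq_zero_iff h).2 h0
      obtain ⟨m, hm⟩ := hodd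
      exact Affine.Point.some_ne_zero h (eq_zero_of_two_torsion ⟨m, hm⟩ h20 t)
    have hy0 : y ≠ (W.map (algebraMap A L)).toAffine.negY x y := fun e => hne (by
      rw [Affine.negY] at e; linear_combination e)
    have h2 := Affine.Point.add_self_of_Y_ne (h₁ := h) hy0
    set l := (W.map (algebraMap A L)).toAffine.slope x x y y with hl
    have hlv : 1 < v l := by
      rw [hl, Affine.slope_of_Y_ne rfl hy0,
        show y - (W.map (algebraMap A L)).toAffine.negY x y = psiTwo W x y by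
          rw [Affine.negY, psiTwo]; ring]
      rw [show 3 * x ^ 2 + 2 * (W.map (algebraMap A L)).a₂ * x + (W.map (algebraMap A L)).a₄ -
        (W.map (algebraMap A L)).a₁ * y = -(eA : L) by simp [heA]; exact rfl, map_div₀,
        Valuation.map_neg, he]
      exact (one_lt_div₀ (zero_lt_iff.2 ((_root_.map_ne_zero _).2 (by rw [psiTwo]; exact hne)))).2 hlt
    have hx2 : (W.map (algebraMap A L)).toAffine.addX x x l ∈ A :=
      torsion_x_mem A W hpu _ (by rw [← h2, nsmul_add, t, add_zero])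
    have hvl : v l < v (l ^ 2) := by
      rw [map_pow, pow_two]; exact lt_mul_of_one_lt_right (zero_lt_one.trans hlv) hlv
    have hrest : v ((W.map (algebraMap A L)).a₁ * l - (W.map (algebraMap A L)).a₂ - x - x) ≤ v l := by
      have i₁ : v x ≤ 1 := (A.valuation_le_one_iff _).2 hxA
      have ha₁ : v (W.map (algebraMap A L)).a₁ ≤ 1 := A.valuation_le_one W.a₁
      have ha₂ : v (W.map (algebraMap A L)).a₂ ≤ 1 := A.valuation_le_one W.a₂
      refine (A.valuation.map_sub _ _).trans (max_le ((A.valuation.map_sub _ _).trans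
        (max_le ((A.valuation.map_sub _ _).trans (max_le ?_ (ha₂.trans hlv.le)))
          (i₁.trans hlv.le))) (i₁.trans hlv.le))
      rw [map_mul]
      exact mul_le_of_le_one_left zero_le ha₁
    have hbig : 1 < v ((W.map (algebraMap A L)).toAffine.addX x x l) := by
      rw [Affine.addX, show l ^ 2 + (W.map (algebraMap A L)).a₁ * l - (W.map (algebraMap A L)).a₂ -
        x - x = l ^ 2 + ((W.map (algebraMap A L)).a₁ * l - (W.map (algebraMap A L)).a₂ - x - x) by ring,
        Valuation.map_add_eq_of_lt_left _ (lt_of_le_of_lt hrest hvl)]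
      exact hlv.trans hvl
    exact absurd ((A.valuation_le_one_iff _).2 hx2) (not_le.2 hbig)
  · rw [Affine.nonsingular_iff]
    refine ⟨?_, Or.inr fun e => hres.2 h1 ?_⟩
    · exact (show W.toAffine.Equation ⟨x, hxA⟩ ⟨y, hyA⟩ from
        (Affine.map_equation (W := W.toAffine) (f := algebraMap A L) Subtype.val_injective _ _).1
          h.1).map (IsLocalRing.residue A)
    · simp only [map_a₁, map_a₃] at e
      simp only [hψA, map_add, map_mul, map_ofNat]
      linear_combination e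

end Local

/-! ## The main statement -/

/-- A sum or product over the nonzero multiples is unchanged when they are permuted. -/
theorem image_mul_mod {G : Type*} [AddGroup G] {p : ℕ} (hp : p.Prime) {Q : G} (hQ : addOrderOf Q = p)
    {a : ℕ} (ha : a • Q ≠ 0) :
    Set.InjOn (fun k => k * a % p) (Finset.Ico 1 p : Set ℕ) ∧
      (Finset.Ico 1 p).image (fun k => k * a % p) = Finset.Ico 1 p := by
  have ha' : ¬ p ∣ a := fun h => ha (addOrderOf_dvd_iff_nsmul_eq_zero.1 (hQ ▸ h))
  have hinj : Set.InjOn (fun k => k * a % p) (Finset.Ico 1 p : Set ℕ) := by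
    intro k hk l hl hkl
    simp only [Finset.coe_Ico, Set.mem_Ico] at hk hl
    have := Nat.ModEq.cancel_right_of_coprime ((hp.coprime_iff_not_dvd.2 ha')) (show k * a ≡ l * a [MOD p] from hkl)
    exact Nat.ModEq.eq_of_lt_of_lt this hk.2 hl.2
  refine ⟨hinj, Finset.eq_of_subset_of_card_le (fun m hm => ?_) ?_⟩
  · obtain ⟨k, hk, rfl⟩ := Finset.mem_image.1 hm
    rw [Finset.mem_Ico] at hk ⊢
    refine ⟨Nat.one_le_iff_ne_zero.2 fun h0 => ?_, Nat.mod_lt _ hp.pos⟩
    rcases (Nat.Prime.dvd_mul hp).1 (Nat.dvd_of_mod_eq_zero h0) with h | h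
    · have := Nat.le_of_dvd (by omega) h; omega
    · exact ha' h
  · rw [Finset.card_image_of_injOn hinj]

/-- The isogenous invariant of a Galois-stable line and its valuations at multiplicative primes. -/
theorem exists_isogenous_j_of_stable {p : ℕ} [hp : Fact p.Prime] [NeZero p] (hp5 : 5 ≤ p)
    (W : WeierstrassCurve ℤ) (hΔ : W.Δ ≠ 0)
    (Q : ((W.map (Int.castRingHom ℚ))⁄(AlgebraicClosure ℚ)).Point)
    (hQstable : ∀ σ : AlgebraicClosure ℚ ≃ₐ[ℚ] AlgebraicClosure ℚ, ∃ a : ℕ, σ • Q = a • Q)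
    (hQord : addOrderOf Q = p) :
    ∃ (j' : ℚ) (τ : UpperHalfPlane),
      jFun τ = (((W.c₄ : ℚ) ^ 3 / W.Δ : ℚ) : ℂ) ∧ jNFun p τ = (j' : ℂ) ∧
      (∃ u : ℚ, uFun p τ = (u : ℂ)) ∧
      ∀ (q : ℕ), q.Prime → q ≠ p → (q : ℤ) ∣ W.Δ → ¬ (q : ℤ) ∣ W.c₄ →
        ∀ A : ValuationSubring (AlgebraicClosure ℚ), A.LiesOverPrime q →
          (¬ W.InZeroComponentAt A Q →
            padicValRat q ((W.c₄ : ℚ) ^ 3 / W.Δ) = p * padicValRat q j') ∧
          (W.InZeroComponentAt A Q →
            padicValRat q j' = p * padicValRat q ((W.c₄ : ℚ) ^ 3 / W.Δ)) := by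
  classical
  have hodd : Odd p := hp.out.odd_of_ne_two (by omega)
  -- the multiples
  have hmult : ∀ k : ℕ, ∃ xy : AlgebraicClosure ℚ × AlgebraicClosure ℚ, k ∈ Finset.Ico 1 p →
      ∃ h : ((W.map (Int.castRingHom ℚ))⁄(AlgebraicClosure ℚ)).toAffine.Nonsingular xy.1 xy.2,
        k • Q = .some xy.1 xy.2 h := by
    intro k
    rcases hk : k • Q with _ | ⟨a, b, h⟩
    · refine ⟨(0, 0), fun hk' => absurd hk ?_⟩
      rw [Finset.mem_Ico] at hk'
      intro h0
      have := Nat.le_of_dvd (by omega) (hQord ▸ addOrderOf_dvd_of_nsmul_eq_zero h0)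
      omega
    · exact ⟨(a, b), fun _ => ⟨h, rfl⟩⟩
  choose xy hxy using hmult
  set ψ : ℕ → AlgebraicClosure ℚ := fun k =>
    2 * (xy k).2 + (W.a₁ : AlgebraicClosure ℚ) * (xy k).1 + (W.a₃ : AlgebraicClosure ℚ) with hψdef
  -- Galois permutes the multiples
  have hgal : ∀ σ : AlgebraicClosure ℚ ≃ₐ[ℚ] AlgebraicClosure ℚ, ∃ a : ℕ, a • Q ≠ 0 ∧
      ∀ k ∈ Finset.Ico 1 p, σ (xy k).1 = (xy (k * a % p)).1 ∧ σ (xy k).2 = (xy (k * a % p)).2 := by
    intro σ
    obtain ⟨a, ha⟩ := hQstable σ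
    have ha0 : a • Q ≠ 0 := fun h => by
      have hQ0 : Q = 0 := by rw [← one_smul (AlgebraicClosure ℚ ≃ₐ[ℚ] AlgebraicClosure ℚ) Q,
        ← inv_mul_cancel σ, mul_smul, ha, h]; rfl
      rw [hQ0, addOrderOf_zero] at hQord
      exact hp.out.one_lt.ne hQord
    refine ⟨a, ha0, fun k hk => ?_⟩
    obtain ⟨h, hkQ⟩ := hxy k hk
    have hk' : k * a % p ∈ Finset.Ico 1 p := by
      rw [← (image_mul_mod hp.out hQord ha0).2]; exact Finset.mem_image_of_mem _ hk
    obtain ⟨h', hk'Q⟩ := hxy _ hk'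
    have e : σ • (k • Q) = (k * a % p) • Q := by
      rw [WeierstrassCurve.Affine.Point.algEquiv_smul_def, map_nsmul,
        ← WeierstrassCurve.Affine.Point.algEquiv_smul_def, ha, ← mul_nsmul', ← hQord,
        mod_addOrderOf_nsmul]
    rw [hkQ, hk'Q, WeierstrassCurve.Affine.Point.algEquiv_smul_def, Affine.Point.map_some] at e
    exact Affine.Point.some.inj e
  have hψσ : ∀ σ : AlgebraicClosure ℚ ≃ₐ[ℚ] AlgebraicClosure ℚ,
      σ (∏ k ∈ Finset.Ico 1 p, ψ k) = ∏ k ∈ Finset.Ico 1 p, ψ k := by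
    intro σ
    obtain ⟨a, ha0, hk⟩ := hgal σ
    obtain ⟨hinj, himg⟩ := image_mul_mod hp.out hQord ha0
    conv_rhs => rw [← himg, Finset.prod_image hinj]
    rw [map_prod]
    refine Finset.prod_congr rfl fun k hk' => ?_
    simp only [hψdef, map_add, map_mul, map_ofNat, map_intCast, (hk k hk').1, (hk k hk').2]
  have hgσ : ∀ σ : AlgebraicClosure ℚ ≃ₐ[ℚ] AlgebraicClosure ℚ,
      σ (∑ k ∈ Finset.Ico 1 p, (6 * ((xy k).1 + (W.b₂ : AlgebraicClosure ℚ) / 12) ^ 2 -
        (W.c₄ : AlgebraicClosure ℚ) / 24)) =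
      ∑ k ∈ Finset.Ico 1 p, (6 * ((xy k).1 + (W.b₂ : AlgebraicClosure ℚ) / 12) ^ 2 -
        (W.c₄ : AlgebraicClosure ℚ) / 24) := by
    intro σ
    obtain ⟨a, ha0, hk⟩ := hgal σ
    obtain ⟨hinj, himg⟩ := image_mul_mod hp.out hQord ha0
    conv_rhs => rw [← himg, Finset.sum_image hinj]
    rw [map_sum]
    refine Finset.sum_congr rfl fun k hk' => ?_
    simp only [map_sub, map_mul, map_add, map_pow, map_div₀, map_ofNat, map_intCast, (hk k hk').1]
  obtain ⟨cψ, hcψ⟩ := (InfiniteGalois.mem_range_algebraMap_iff_fixed _).2 hψσ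
  obtain ⟨g₀, hg₀⟩ := (InfiniteGalois.mem_range_algebraMap_iff_fixed _).2 hgσ
  rw [eq_ratCast] at hcψ hg₀
  -- complex side
  set V := W.map (Int.castRingHom ℂ) with hV
  have hVmap : ((W.map (Int.castRingHom ℚ))⁄(AlgebraicClosure ℚ)).map qbarToC = V := by
    rw [hV]
    simp only [WeierstrassCurve.baseChange, WeierstrassCurve.map_map]
    congr 1
    exact RingHom.ext_int _ _
  set ιC := sigmaPoint (V' := V) qbarToC hVmap with hιC
  have hιCinj : Function.Injective ιC := by
    rw [injective_iff_map_eq_zero]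
    rintro (_ | ⟨a, b, h⟩) e
    · rfl
    · exact absurd e (Affine.Point.some_ne_zero _)
  have hΔC : V.Δ ≠ 0 := by
    rw [hV, WeierstrassCurve.map_Δ]; simpa using hΔ
  obtain ⟨τ, u, hu, hj, h4, h6, hpts⟩ := exists_torus (p := p) V hΔC (ιC Q)
    (by rw [addOrderOf_injective ιC hιCinj, hQord])
  set L := scaledPair hu τ with hL
  set w : ℂ := u / p with hw
  have hp0 : (p : ℂ) ≠ 0 := Nat.cast_ne_zero.2 hp.out.ne_zero
  set pτ := posMat _ (det_diagN p) • τ with hpτdef
  have hpτ : (pτ : ℂ) = (p : ℂ) * τ := by rw [hpτdef, coe_posMat_smul]; simp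
  have hup : u / p ≠ 0 := div_ne_zero hu hp0
  set L' := scaledPair hup pτ with hL'
  have hext : IsCyclicExt L L' p w := by
    refine ⟨?_, ?_, ?_, ?_, ?_⟩
    · intro z hz
      obtain ⟨c, d, rfl⟩ := (mem_scaledPair_iff hu τ z).1 hz
      refine (mem_scaledPair_iff hup pτ _).2 ⟨c, d * p, ?_⟩
      rw [hpτ]; push_cast; field_simp
    · exact (mem_scaledPair_iff hup pτ _).2 ⟨0, 1, by simp [hw]⟩
    · exact (mem_scaledPair_iff hu τ _).2 ⟨0, 1, by rw [hw]; push_cast; field_simp; ring⟩
    · intro hm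
      obtain ⟨c, d, e⟩ := (mem_scaledPair_iff hu τ _).1 hm
      rw [hw, div_eq_iff hp0] at e
      have e1 : (1 : ℂ) = ((c * p : ℤ) : ℂ) * τ + ((d * p : ℤ) : ℂ) := by
        refine mul_left_cancel₀ hu ?_
        push_cast
        linear_combination e
      have him := congrArg Complex.im e1
      have hre := congrArg Complex.re e1
      simp only [Complex.add_im, Complex.mul_im, Complex.intCast_im, Complex.intCast_re,
        Complex.one_im, zero_mul, add_zero, zero_eq_mul, τ.im_pos.ne', or_false, Int.cast_eq_zero,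
        UpperHalfPlane.coe_im] at him
      simp only [him, Int.cast_zero, zero_mul, zero_add, Complex.intCast_re, Complex.one_re] at hre
      have : (d * (p : ℤ)) = 1 := by exact_mod_cast hre.symm
      have := Int.eq_one_or_neg_one_of_mul_eq_one' this
      omega
    · intro l hl
      obtain ⟨c, d, rfl⟩ := (mem_scaledPair_iff hup pτ l).1 hl
      refine ⟨d, (mem_scaledPair_iff hu τ _).2 ⟨c, 0, ?_⟩⟩
      rw [hpτ, hw]; push_cast; field_simp; ring
  -- the values at the multiples
  have hval : ∀ k ∈ Finset.Ico 1 p,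
      L.weierstrassP ((k : ℂ) * w) = qbarToC ((xy k).1 + (W.b₂ : AlgebraicClosure ℚ) / 12) ∧
      L.derivWeierstrassP ((k : ℂ) * w) = qbarToC (ψ k) := by
    intro k hk
    obtain ⟨hns, e⟩ := hpts k hk
    obtain ⟨h, hkQ⟩ := hxy k hk
    rw [← map_nsmul, hkQ, hιC, sigmaPoint_some, Affine.Point.some.injEq] at e
    have hb : V.b₂ = ((W.b₂ : ℤ) : ℂ) := by rw [hV, WeierstrassCurve.map_b₂]; simp
    have ha1 : V.a₁ = ((W.a₁ : ℤ) : ℂ) := by rw [hV, WeierstrassCurve.map_a₁]; simp
    have ha3 : V.a₃ = ((W.a₃ : ℤ) : ℂ) := by rw [hV, WeierstrassCurve.map_a₃]; simp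
    simp only [hb, ha1, ha3] at e
    obtain ⟨e1, e2⟩ := e
    refine ⟨?_, ?_⟩
    · simp only [map_add, map_div₀, map_intCast, map_ofNat]
      linear_combination -e1
    · simp only [hψdef, map_add, map_mul, map_intCast, map_ofNat]
      linear_combination -2 * e2 - (W.a₁ : ℂ) * e1
  have hc4C : V.c₄ = ((W.c₄ : ℚ) : ℂ) := by rw [hV, WeierstrassCurve.map_c₄]; simp
  have hΔCeq : V.Δ = ((W.Δ : ℚ) : ℂ) := by rw [hV, WeierstrassCurve.map_Δ]; simp
  have hdiscL : latDisc L = ((W.Δ : ℚ) : ℂ) := by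
    rw [← hΔCeq, latDisc]
    have := V.c_relation
    rw [← h4, ← h6] at this
    linear_combination (-1 / 1728 : ℂ) * this
  set P := stdHalfPeriods L
  have hdisc := hext.latDisc_mul hodd P
  have hprod : ∏ k ∈ Finset.Ico 1 p, L.derivWeierstrassP ((k : ℂ) * w) = (cψ : ℂ) := by
    rw [← map_ratCast qbarToC, hcψ, map_prod]
    exact Finset.prod_congr rfl fun k hk => (hval k hk).2
  have hψ0 : ∀ k ∈ Finset.Ico 1 p, ψ k ≠ 0 := fun k hk h0 => by
    have := hext.deriv_mul_ne_zero hodd P hk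
    rw [(hval k hk).2, h0, map_zero] at this
    exact this rfl
  have hcψ0 : cψ ≠ 0 := fun h0 => by
    rw [h0, Rat.cast_zero] at hcψ
    exact Finset.prod_ne_zero_iff.2 hψ0 hcψ.symm
  have hΔQ : (W.Δ : ℚ) ≠ 0 := Int.cast_ne_zero.2 hΔ
  set d' : ℚ := (W.Δ : ℚ) ^ p / cψ ^ 4 with hd'
  have hdiscL' : latDisc L' = (d' : ℂ) := by
    rw [hprod, hdiscL] at hdisc
    rw [hd']
    push_cast at hdisc ⊢
    rw [eq_div_iff (pow_ne_zero 4 (by exact_mod_cast hcψ0)), hdisc]
  have hπ : (2 * (Real.pi : ℂ)) ≠ 0 :=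
    mul_ne_zero two_ne_zero (Complex.ofReal_ne_zero.2 Real.pi_ne_zero)
  have huFun : uFun p τ = ((d' / W.Δ : ℚ) : ℂ) := by
    rw [Rat.cast_div, ← hdiscL, ← hdiscL', hL, hL', latDisc_scaledPair, latDisc_scaledPair, uFun]
    rw [show (2 * (Real.pi : ℂ) / (u / p)) = (p : ℂ) * (2 * Real.pi / u) by field_simp]
    have := ModularForm.discriminant_ne_zero τ
    have : (2 * (Real.pi : ℂ) / u) ≠ 0 := div_ne_zero hπ hu
    generalize (2 * (Real.pi : ℂ) / u) = s at this ⊢
    field_simp
    rfl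
  set g : ℚ := (W.c₄ : ℚ) / 12 + 10 * g₀ with hgdef
  have hg : L'.g₂ = (g : ℂ) := by
    have h4' : L.g₂ = ((W.c₄ : ℚ) : ℂ) / 12 := by rw [← hc4C, ← h4]; ring
    rw [hext.g₂_eq, hgdef]
    push_cast
    rw [← map_ratCast qbarToC g₀, hg₀, map_sum, h4']
    push_cast
    congr 1
    refine congrArg _ (Finset.sum_congr rfl fun k hk => ?_)
    rw [(hval k hk).1]
    simp only [map_sub, map_mul, map_pow, map_add, map_div₀, map_intCast, map_ofNat]
    ring
  set j' : ℚ := 1728 * g ^ 3 / d' with hj'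
  have hjN : jNFun p τ = (j' : ℂ) := by
    rw [hj']
    push_cast
    rw [← hg, ← hdiscL', hL', g₂_scaledPair, latDisc_scaledPair, jNFun, jFun]
    have hs : (2 * (Real.pi : ℂ) / (u / p)) ≠ 0 := div_ne_zero hπ hup
    have := ModularForm.discriminant_ne_zero pτ
    generalize (2 * (Real.pi : ℂ) / (u / p)) = s at hs ⊢
    rw [← hpτdef]
    field_simp
    ring
  have hjτ : jFun τ = (((W.c₄ : ℚ) ^ 3 / W.Δ : ℚ) : ℂ) := by
    rw [hj, hc4C, hΔCeq]; push_cast; rfl
  refine ⟨j', τ, hjτ, hjN, ⟨_, huFun⟩, fun q hqP hqp hqΔ hqc4 A hA => ?_⟩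
  haveI : Fact q.Prime := ⟨hqP⟩
  -- the arithmetic of the place
  have hB : (q : AlgebraicClosure ℚ) ∈ A.nonunits := hA
  set WA : WeierstrassCurve A := W.map (Int.castRingHom A) with hWA
  have hWAmap : WA.map (algebraMap A (AlgebraicClosure ℚ)) = ((W.map (Int.castRingHom ℚ))⁄(AlgebraicClosure ℚ)) := by
    rw [hWA]
    simp only [WeierstrassCurve.map_map, WeierstrassCurve.baseChange]
    congr 1
  haveI : (WA.map (algebraMap A (AlgebraicClosure ℚ))).IsElliptic := ⟨by
    rw [WeierstrassCurve.map_Δ, hWA, WeierstrassCurve.map_Δ, isUnit_iff_ne_zero]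
    simpa using hΔ⟩
  have hqA := val_q_lt_one A hB
  have hpu : IsUnit (p : A) := by
    rw [A.valuation_eq_one_iff]
    push_cast
    exact val_natCast_of_not_dvd A hB fun h => hqp ((Nat.prime_dvd_prime_iff_eq hqP hp.out).1 h)
  set ιA := sigmaPoint (V' := WA.map (algebraMap A (AlgebraicClosure ℚ)))
    (RingHom.id (AlgebraicClosure ℚ)) (by rw [WeierstrassCurve.map_id, hWAmap]) with hιA
  -- the valuations of `ψ`
  have hA_ψ : ∀ k, psiTwo WA (xy k).1 (xy k).2 = ψ k := by
    intro k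
    simp [psiTwo, hWA, hψdef]
  have hpt : ∀ k ∈ Finset.Ico 1 p, ∃ h : (WA.map (algebraMap A (AlgebraicClosure ℚ))).toAffine.Nonsingular
      (xy k).1 (xy k).2, k • ιA Q = .some _ _ h ∧ p • (Affine.Point.some _ _ h) = 0 := by
    intro k hk
    obtain ⟨h, hkQ⟩ := hxy k hk
    have hns : (WA.map (algebraMap A (AlgebraicClosure ℚ))).toAffine.Nonsingular (xy k).1 (xy k).2 := by
      rw [hWAmap]; exact h
    have e' : k • ιA Q = .some _ _ hns := by
      rw [← map_nsmul, hkQ, hιA, sigmaPoint_some, Affine.Point.some.injEq]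
      exact ⟨rfl, rfl⟩
    refine ⟨hns, e', ?_⟩
    rw [← e', smul_comm, ← map_nsmul, ← hQord, addOrderOf_nsmul_eq_zero, map_zero, nsmul_zero]
  have h1mem : 1 ∈ Finset.Ico 1 p := Finset.mem_Ico.2 ⟨le_rfl, hp.out.one_lt⟩
  have hψle : ∀ k ∈ Finset.Ico 1 p, A.valuation (ψ k) ≤ 1 := by
    intro k hk
    obtain ⟨h, -, ht⟩ := hpt k hk
    have := (psiTwo_of_reduction WA hpu hodd h ht).1
    rwa [hA_ψ] at this
  have hzero : W.InZeroComponentAt A Q ↔ A.valuation (ψ 1) = 1 := by
    obtain ⟨h, he, ht⟩ := hpt 1 h1mem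
    obtain ⟨hq1, hQe⟩ := hxy 1 h1mem
    rw [one_nsmul] at hQe
    have key := (psiTwo_of_reduction WA hpu hodd h ht).2
    rw [hA_ψ] at key
    rw [← key]
    have hmap : WA.map (IsLocalRing.residue A) =
        W.map (Int.castRingHom (IsLocalRing.ResidueField A)) := by
      rw [hWA, WeierstrassCurve.map_map]; congr 1
    rw [hmap]
    constructor
    · rintro (h0 | ⟨x, y, hns, hxy', hcond⟩)
      · rw [hQe] at h0
        exact absurd h0 (Affine.Point.some_ne_zero _)
      · rw [hQe] at hxy'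
        obtain ⟨rfl, rfl⟩ := Affine.Point.some.inj hxy'
        exact hcond
    · exact fun hcond => Or.inr ⟨_, _, hq1, hQe, hcond⟩
  -- the valuation of the unit
  set jE : ℚ := (W.c₄ : ℚ) ^ 3 / W.Δ with hjE
  have hvc4 : padicValRat q ((W.c₄ : ℚ)) = 0 := by
    rw [padicValRat.of_int, padicValInt.eq_zero_of_not_dvd hqc4]; rfl
  have hc40 : (W.c₄ : ℚ) ≠ 0 := Int.cast_ne_zero.2 fun h => hqc4 (h ▸ dvd_zero _)
  set n : ℤ := padicValRat q ((W.Δ : ℚ)) with hn
  have hn0 : 0 < n := by
    rw [hn, padicValRat.of_int, Nat.cast_pos]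
    refine Nat.pos_of_ne_zero fun h => ?_
    rcases padicValInt.eq_zero_iff.1 h with h' | h' | h'
    · exact hqP.ne_one h'
    · exact hΔ h'
    · exact h' hqΔ
  have hvj : padicValRat q jE = -n := by
    rw [hjE, padicValRat.div (pow_ne_zero 3 hc40) hΔQ, padicValRat.pow, hvc4]; simp [hn]
  have hvu : padicValRat q (d' / W.Δ) = ((p : ℤ) - 1) * n - 4 * padicValRat q cψ := by
    rw [padicValRat.div (div_ne_zero (pow_ne_zero _ hΔQ) (pow_ne_zero _ hcψ0)) hΔQ,
      padicValRat.div (pow_ne_zero _ hΔQ) (pow_ne_zero _ hcψ0), padicValRat.pow,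
      padicValRat.pow, ← hn]
    push_cast
    ring
  obtain ⟨-, hdich⟩ := padicValRat_uFun p hqp τ jE (d' / W.Δ) hjτ huFun
  have hdich := hdich (by omega)
  rw [hvj, neg_neg] at hdich
  -- the swapped point
  obtain ⟨τ', hjτ', huτ'⟩ := uFun_involution p τ
  rw [hjN] at hjτ'
  rw [huFun, ← Rat.cast_natCast, ← Rat.cast_pow, ← Rat.cast_div] at huτ'
  have hu0 : d' / (W.Δ : ℚ) ≠ 0 := div_ne_zero (div_ne_zero (pow_ne_zero _ hΔQ) (pow_ne_zero _ hcψ0)) hΔQ
  have hvu' : padicValRat q ((p : ℚ) ^ 12 / (d' / W.Δ)) = -padicValRat q (d' / W.Δ) := by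
    rw [padicValRat.div (pow_ne_zero _ (Nat.cast_ne_zero.2 hp.out.ne_zero)) hu0,
      padicValRat.pow, padicValRat.of_nat,
      padicValNat.eq_zero_of_not_dvd fun h => hqp ((Nat.prime_dvd_prime_iff_eq hqP hp.out).1 h)]
    simp
  obtain ⟨hint, hdich'⟩ := padicValRat_uFun p hqp τ' j' _ hjτ' huτ'
  rw [hvu'] at hint hdich'
  set k := padicValRat q (d' / W.Δ) with hk
  have hp1 : (0 : ℤ) < (p : ℤ) - 1 := by omega
  have hj'neg : k ≠ 0 → padicValRat q j' < 0 := fun hk0 => by
    by_contra hge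
    push Not at hge
    have := hint hge
    omega
  refine ⟨fun hoff => ?_, fun hon => ?_⟩
  · -- off the identity component
    have hsum : 0 < padicValRat q cψ := by
      rw [← val_lt_one_iff A hB hcψ0, hcψ, map_prod, ← Finset.mul_prod_erase _ _ h1mem]
      exact lt_of_le_of_lt (mul_le_of_le_one_right zero_le
        (Finset.prod_le_one' fun k hk => hψle k (Finset.mem_of_mem_erase hk)))
          (lt_of_le_of_ne (hψle 1 h1mem) fun h => hoff (hzero.2 h))
    have hA' : (p : ℤ) * k = ((p : ℤ) - 1) * -n := by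
      rcases hdich with h | h
      · rw [h] at hvu; omega
      · linarith
    have hkneg : k < 0 := by
      by_contra hge
      push Not at hge
      have h1 : 0 ≤ (p : ℤ) * k := mul_nonneg (Int.natCast_nonneg p) hge
      have h2 : ((p : ℤ) - 1) * -n < 0 := mul_neg_of_pos_of_neg hp1 (by omega)
      omega
    have hm := hdich' (hj'neg hkneg.ne)
    rw [hvj]
    rcases hm with h | h
    · -- `(p-1) m = (p-1) n / p`
      have h3 : ((p : ℤ) - 1) * ((p : ℤ) * padicValRat q j') = ((p : ℤ) - 1) * -n := by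
        linear_combination hA' + (p : ℤ) * h
      exact (mul_left_cancel₀ hp1.ne' h3).symm
    · exfalso
      have h1 : 0 < (p : ℤ) * -k := mul_pos (by omega) (by omega)
      have h2 : ((p : ℤ) - 1) * padicValRat q j' < 0 :=
        mul_neg_of_pos_of_neg hp1 (hj'neg hkneg.ne)
      omega
  · -- on the identity component
    have hψ1 := hzero.1 hon
    have hall : ∀ k ∈ Finset.Ico 1 p, A.valuation (ψ k) = 1 := by
      intro k hk
      obtain ⟨h, he, ht⟩ := hpt k hk
      obtain ⟨h1, he1, ht1⟩ := hpt 1 h1mem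
      have hΔA : A.valuation (algebraMap A (AlgebraicClosure ℚ) WA.Δ) < 1 := by
        rw [hWA, WeierstrassCurve.map_Δ, eq_intCast, map_intCast]
        rw [show ((W.Δ : AlgebraicClosure ℚ)) = ((W.Δ : ℚ) : AlgebraicClosure ℚ) by simp,
          val_lt_one_iff A hB hΔQ]
        exact hn0
      have hc4A : A.valuation (algebraMap A (AlgebraicClosure ℚ) WA.c₄) = 1 := by
        rw [hWA, WeierstrassCurve.map_c₄, eq_intCast, map_intCast]
        rw [show ((W.c₄ : AlgebraicClosure ℚ)) = ((W.c₄ : ℚ) : AlgebraicClosure ℚ) by simp,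
          val_eq_one_iff A hB hc40]
        exact hvc4
      have hΔA0 : WA.Δ ≠ 0 := by
        rw [hWA, WeierstrassCurve.map_Δ]; simpa using hΔ
      rw [one_nsmul] at he1
      have := psiTwo_nsmul WA hΔA hΔA0 hc4A hpu hodd h1 ht1
        (by rw [hA_ψ]; exact hψ1) k h (by rw [← he1, he])
      rwa [hA_ψ] at this
    have hc0 : padicValRat q cψ = 0 := by
      rw [← val_eq_one_iff A hB hcψ0, hcψ, map_prod]
      exact Finset.prod_eq_one hall
    rw [hc0] at hvu
    have hkpos : 0 < k := by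
      have : 0 < ((p : ℤ) - 1) * n := mul_pos hp1 hn0
      omega
    have hm := hdich' (hj'neg hkpos.ne')
    rw [hvj]
    rcases hm with h | h
    · exfalso
      have : 0 < ((p : ℤ) - 1) * -padicValRat q j' := mul_pos hp1 (by linarith [hj'neg hkpos.ne'])
      omega
    · refine mul_left_cancel₀ hp1.ne' ?_
      have hkv : k = ((p : ℤ) - 1) * n := by omega
      linear_combination (-1 : ℤ) * h - (p : ℤ) * hkv

/-- The same for a rational point. -/
theorem exists_isogenous_j {p : ℕ} [hp : Fact p.Prime] [NeZero p] (hp5 : 5 ≤ p)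
    (W : WeierstrassCurve ℤ) (hΔ : W.Δ ≠ 0)
    (Q : ((W.map (Int.castRingHom ℚ))⁄(AlgebraicClosure ℚ)).Point)
    (hQfix : ∀ σ : AlgebraicClosure ℚ ≃ₐ[ℚ] AlgebraicClosure ℚ, σ • Q = Q)
    (hQord : addOrderOf Q = p) :
    ∃ (j' : ℚ) (τ : UpperHalfPlane),
      jFun τ = (((W.c₄ : ℚ) ^ 3 / W.Δ : ℚ) : ℂ) ∧ jNFun p τ = (j' : ℂ) ∧
      ∀ (q : ℕ), q.Prime → q ≠ p → (q : ℤ) ∣ W.Δ → ¬ (q : ℤ) ∣ W.c₄ →
        ∀ A : ValuationSubring (AlgebraicClosure ℚ), A.LiesOverPrime q →
          (¬ W.InZeroComponentAt A Q →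
            padicValRat q ((W.c₄ : ℚ) ^ 3 / W.Δ) = p * padicValRat q j') ∧
          (W.InZeroComponentAt A Q →
            padicValRat q j' = p * padicValRat q ((W.c₄ : ℚ) ^ 3 / W.Δ)) := by
  obtain ⟨j', τ, h1, h2, -, h3⟩ := exists_isogenous_j_of_stable hp5 W hΔ Q
    (fun σ => ⟨1, by rw [one_nsmul, hQfix σ]⟩) hQord
  exact ⟨j', τ, h1, h2, h3⟩

end Fermat.Agent.Mazur3
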