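import Fermat.Agent.Mazur3.Moduli
import Fermat.Agent.ConductorMatch.NodalTorsion

/-!
# The `p`-torsion on the identity component of a nodal reduction is one line

Main result: `exists_zeroComponent_line`.
-/

set_option autoImplicit false
set_option linter.style.haveILetI false

noncomputable section

namespace Fermat.Agent.Mazur3

open WeierstrassCurve Polynomial Fermat.Agent.EC Fermat.Agent.ConductorMatch
open scoped WeierstrassCurve.Affine

variable {L : Type*} [Field L] [IsAlgClosed L] [CharZero L] [DecidableEq L]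
variable {A : ValuationSubring L} {W : WeierstrassCurve A} {p : ℕ}

omit [IsAlgClosed L] [CharZero L] [DecidableEq L] in
lemma psiTwo_nodal_iff (hred : W.map (IsLocalRing.residue A) = nodalCubic _) {x y : A} :
    A.valuation (psiTwo W (algebraMap A L x) (algebraMap A L y)) = 1 ↔
      2 * IsLocalRing.residue A y + IsLocalRing.residue A x ≠ 0 := by
  have h1 : IsLocalRing.residue A W.a₁ = 1 := by
    have := congrArg WeierstrassCurve.a₁ hred; simpa [nodalCubic] using this
  have h3 : IsLocalRing.residue A W.a₃ = 0 := by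
    have := congrArg WeierstrassCurve.a₃ hred; simpa [nodalCubic] using this
  rw [show psiTwo W (algebraMap A L x) (algebraMap A L y) =
    algebraMap A L (2 * y + W.a₁ * x + W.a₃) by simp [psiTwo]; exact Or.inl rfl]
  show A.valuation ((2 * y + W.a₁ * x + W.a₃ : A) : L) = 1 ↔ _
  refine Iff.trans (A.valuation_eq_one_iff _).symm ?_
  rw [← IsLocalRing.residue_ne_zero_iff_isUnit]
  simp [h1, h3, map_ofNat]

omit [IsAlgClosed L] [CharZero L] [DecidableEq L] in
lemma nodal_residue_equation (hred : W.map (IsLocalRing.residue A) = nodalCubic _) {x y : A}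
    (h : (W.map (algebraMap A L)).toAffine.Equation (algebraMap A L x) (algebraMap A L y)) :
    IsLocalRing.residue A y ^ 2 + IsLocalRing.residue A x * IsLocalRing.residue A y =
      IsLocalRing.residue A x ^ 3 := by
  have h' : W.toAffine.Equation x y :=
    (Affine.map_equation (W := W.toAffine) (f := algebraMap A L) (Subtype.val_injective (p := fun a => a ∈ A.toSubring)) x y).1 h
  have h'' := Affine.Equation.map (f := IsLocalRing.residue A) h'
  rw [show W.toAffine.map (IsLocalRing.residue A) = (nodalCubic _).toAffine from hred,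
    Affine.equation_iff] at h''
  simpa [nodalCubic] using h''

/-- Points with unit `ψ₂` on a nodal reduction: existence. -/
theorem nodal_exists_unit [hp : Fact p.Prime] (hodd : Odd p) (hpu : IsUnit (p : A))
    [(W.map (algebraMap A L)).IsElliptic] (hred : W.map (IsLocalRing.residue A) = nodalCubic _) :
    ∃ (x y : L) (h : (W.map (algebraMap A L)).toAffine.Nonsingular x y),
      p • Affine.Point.some x y h = 0 ∧ A.valuation (psiTwo W x y) = 1 := by
  haveI := isAlgClosed_residue A
  set res := IsLocalRing.residue A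
  have hinj : Function.Injective (algebraMap A L) := Subtype.val_injective
  obtain ⟨a, b, hab⟩ := exists_mulPair (W := W) (φ := algebraMap A L) hinj p hp.out.one_le
  have hpk : ((p : ℕ) : IsLocalRing.ResidueField A) ≠ 0 := by
    rw [← map_natCast res]; exact (IsLocalRing.residue_ne_zero_iff_isUnit _).2 hpu
  haveI : NeZero ((p : ℕ) : IsLocalRing.ResidueField A) := ⟨hpk⟩
  obtain ⟨ζ, hζ⟩ := HasEnoughRootsOfUnity.exists_primitiveRoot (IsLocalRing.ResidueField A) p
  have hζ1 : ζ - 1 ≠ 0 := sub_ne_zero.2 (hζ.ne_one hp.out.one_lt)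
  set z := (ζ - 1)⁻¹ with hz
  have hz0 : z ≠ 0 := inv_ne_zero hζ1
  have hz1 : 1 + z = ζ * z := by
    rw [hz]; field_simp; ring
  have hx0 : z ^ 2 + z ≠ 0 := by
    rw [show z ^ 2 + z = z * (1 + z) by ring, hz1]
    exact mul_ne_zero hz0 (mul_ne_zero (hζ.ne_zero hp.out.ne_zero) hz0)
  have hb : (b.map res).eval (z ^ 2 + z) = 0 := by
    have := congrArg (Polynomial.eval z) (mulPair_nodal res hinj hred p hp.out.one_le hab).2
    simpa [nodalD, hz1, mul_pow, hζ.pow_eq_one] using this
  obtain ⟨ξ, hξ, hξz⟩ := exists_root_lift (L := L) (b := b) (by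
    rw [leadingCoeff, natDegree_eq_of_le_of_coeff_ne_zero hab.natDegree_b
      (by rw [hab.coeff_b]; exact (hpu.pow 2).ne_zero), hab.coeff_b]
    exact hpu.pow 2) hb
  obtain ⟨η, hη⟩ := exists_point (W := W) (φ := algebraMap A L) (algebraMap A L ξ)
  have hηA : η ∈ A := y_mem_of_x_mem A W ξ.2 hη.1
  refine ⟨_, η, hη, (hab.eval_b_eq_zero_iff hη).1 hξ, ?_⟩
  rw [show η = algebraMap A L ⟨η, hηA⟩ from rfl, psiTwo_nodal_iff hred]
  intro e
  have he := nodal_residue_equation hred (x := ξ) (y := ⟨η, hηA⟩) hη.1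
  rw [hξz] at e he
  have hsq : (z ^ 2 + z) ^ 2 * (2 * z + 1) ^ 2 = 0 := by
    linear_combination (2 * IsLocalRing.residue A ⟨η, hηA⟩ + (z ^ 2 + z)) * e - 4 * he
  rcases mul_eq_zero.1 hsq with h' | h'
  · exact hx0 (eq_zero_of_pow_eq_zero h')
  · have h2 : 2 * z + 1 = 0 := eq_zero_of_pow_eq_zero h'
    have hζm : ζ = -1 := by
      have : (ζ + 1) * z = 0 := by linear_combination h2 - hz1
      linear_combination (mul_eq_zero.1 this).resolve_right hz0
    have := hζ.pow_eq_one
    rw [hζm, hodd.neg_one_pow] at this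
    exact hζ.ne_one hp.out.one_lt (hζm.trans this)

open scoped Classical in
/-- Points with unit `ψ₂` on a nodal reduction: at most `p - 1`. -/
theorem nodal_card_unit_le [hp : Fact p.Prime] (hodd : Odd p) (hpu : IsUnit (p : A))
    [(W.map (algebraMap A L)).IsElliptic] (hred : W.map (IsLocalRing.residue A) = nodalCubic _)
    (S : Finset (W.map (algebraMap A L)).toAffine.Point)
    (hS : ∀ P ∈ S, ∃ (x y : L) (h : (W.map (algebraMap A L)).toAffine.Nonsingular x y),
      P = Affine.Point.some x y h ∧ p • Affine.Point.some x y h = 0 ∧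
        A.valuation (psiTwo W x y) = 1) :
    S.card ≤ p - 1 := by
  set res := IsLocalRing.residue A
  have hinj : Function.Injective (algebraMap A L) := Subtype.val_injective
  obtain ⟨a, b, hab⟩ := exists_mulPair (W := W) (φ := algebraMap A L) hinj p hp.out.one_le
  have hD0 := nodalD_ne_zero (k := IsLocalRing.ResidueField A) hp.out.one_le
  set D := nodalD (IsLocalRing.ResidueField A) p with hD
  have hDdeg : D.natDegree ≤ p - 1 := by
    rw [natDegree_le_iff_coeff_eq_zero]
    intro N hN
    rw [hD, nodalD, coeff_sub, coeff_one_add_X_pow, coeff_X_pow]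
    rcases (show p ≤ N by omega).eq_or_lt with rfl | h
    · simp
    · rw [Nat.choose_eq_zero_of_lt h, if_neg h.ne']; simp
  choose x y h hPe ht hψ using hS
  have hxA : ∀ P (hP : P ∈ S), x P hP ∈ A := fun P hP => torsion_x_mem A W hpu (h P hP) (ht P hP)
  have hyA : ∀ P (hP : P ∈ S), y P hP ∈ A := fun P hP =>
    y_mem_of_x_mem A W (hxA P hP) (h P hP).1
  let f : {P // P ∈ S} → IsLocalRing.ResidueField A := fun P =>
    res ⟨y P.1 P.2, hyA P.1 P.2⟩ / res ⟨x P.1 P.2, hxA P.1 P.2⟩
  have facts : ∀ P (hP : P ∈ S), res ⟨x P hP, hxA P hP⟩ ≠ 0 ∧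
      res ⟨x P hP, hxA P hP⟩ = f ⟨P, hP⟩ ^ 2 + f ⟨P, hP⟩ := by
    intro P hP
    have he := nodal_residue_equation hred (x := ⟨x P hP, hxA P hP⟩) (y := ⟨y P hP, hyA P hP⟩)
      (h P hP).1
    have hne := (psiTwo_nodal_iff hred (x := ⟨x P hP, hxA P hP⟩) (y := ⟨y P hP, hyA P hP⟩)).1
      (hψ P hP)
    have hx0 : res ⟨x P hP, hxA P hP⟩ ≠ 0 := fun e => hne (by
      rw [e] at he ⊢
      have hy0 : res ⟨y P hP, hyA P hP⟩ = 0 := eq_zero_of_pow_eq_zero (n := 2) (by
        linear_combination he)
      rw [hy0]; ring)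
    refine ⟨hx0, ?_⟩
    simp only [f]
    field_simp
    linear_combination -he
  have hmem : ∀ P : {P // P ∈ S}, f P ∈ D.roots.toFinset := by
    rintro ⟨P, hP⟩
    obtain ⟨hx0, hxt⟩ := facts P hP
    rw [Multiset.mem_toFinset, mem_roots hD0, IsRoot]
    have hbx := hab.spec_zero _ _ (h P hP) (ht P hP)
    rw [show x P hP = algebraMap A L ⟨x P hP, hxA P hP⟩ from rfl, Polynomial.eval_map,
      Polynomial.eval₂_at_apply, map_eq_zero_iff _ hinj] at hbx
    have := congrArg (Polynomial.eval (f ⟨P, hP⟩))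
      (mulPair_nodal res hinj hred p hp.out.one_le hab).2
    simp only [eval_comp, eval_add, eval_pow, eval_X, eval_mul, ← hxt] at this
    rw [Polynomial.eval_map, Polynomial.eval₂_at_apply, hbx, map_zero] at this
    rcases mul_eq_zero.1 this.symm with e | e
    · exact absurd (eq_zero_of_pow_eq_zero e) hx0
    · exact eq_zero_of_pow_eq_zero e
  have finj : Function.Injective f := by
    rintro ⟨P, hP⟩ ⟨Q, hQ⟩ e
    obtain ⟨hx0, hxP⟩ := facts P hP
    obtain ⟨hxQ0, hxQ⟩ := facts Q hQ
    have ex : res ⟨x P hP, hxA P hP⟩ = res ⟨x Q hQ, hxA Q hQ⟩ := by rw [hxP, hxQ, e]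
    have ey : res ⟨y P hP, hyA P hP⟩ = res ⟨y Q hQ, hyA Q hQ⟩ := by
      have e' := e
      simp only [f, ex, div_left_inj' hxQ0] at e'
      exact e'
    refine Subtype.ext ?_
    show P = Q
    rw [hPe P hP, hPe Q hQ]
    refine eq_of_congr hpu hodd (h P hP) (h Q hQ) (ht P hP) (ht Q hQ) ?_
      ((residue_eq_residue_iff A _ _).1 ex) ((residue_eq_residue_iff A _ _).1 ey)
    rintro ⟨hs', -⟩
    have hlt : res (sP W (⟨x P hP, hxA P hP⟩ * ⟨x P hP, hxA P hP⟩)
        (⟨x P hP, hxA P hP⟩ + ⟨x P hP, hxA P hP⟩) 1) = 0 := by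
      rw [IsLocalRing.residue_eq_zero_iff]
      refine (A.valuation_lt_one_iff _).2 ?_
      show A.valuation (algebraMap A L (sP W (⟨x P hP, hxA P hP⟩ * ⟨x P hP, hxA P hP⟩)
        (⟨x P hP, hxA P hP⟩ + ⟨x P hP, hxA P hP⟩) 1)) < 1
      rwa [← map_sP, map_mul, map_add, map_one]
    rw [← map_sP, hred, map_mul, map_add, map_one] at hlt
    simp [sP, nodalCubic, WeierstrassCurve.b₄, WeierstrassCurve.b₆, WeierstrassCurve.b₈, hx0] at hlt
  calc S.card = (S.attach).card := S.card_attach.symm
    _ ≤ D.roots.toFinset.card := Finset.card_le_card_of_injOn f (fun P _ => hmem P) finj.injOn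
    _ ≤ D.natDegree := (Multiset.toFinset_card_le _).trans (card_roots' D)
    _ ≤ p - 1 := hDdeg

open scoped Classical in
/-- At multiplicative reduction the `p`-torsion points with unit `ψ₂` form one line without `0`. -/
theorem exists_zeroComponent_line [hp : Fact p.Prime] (W : WeierstrassCurve A)
    [(W.map (algebraMap A L)).IsElliptic] (hΔ : ¬ IsUnit W.Δ) (hΔ0 : W.Δ ≠ 0) (hc : IsUnit W.c₄)
    (hodd : Odd p) (hpu : IsUnit (p : A)) :
    ∃ (x₀ y₀ : L) (h₀ : (W.map (algebraMap A L)).toAffine.Nonsingular x₀ y₀),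
      p • Affine.Point.some x₀ y₀ h₀ = 0 ∧ A.valuation (psiTwo W x₀ y₀) = 1 ∧
      ∀ (x y : L) (h : (W.map (algebraMap A L)).toAffine.Nonsingular x y),
        p • Affine.Point.some x y h = 0 → A.valuation (psiTwo W x y) = 1 →
        ∃ i : ℕ, i • Affine.Point.some x₀ y₀ h₀ = Affine.Point.some x y h := by
  haveI := isAlgClosed_residue A
  set res := IsLocalRing.residue A
  have hd : (W.map res).Δ = 0 := by
    rw [map_Δ, IsLocalRing.residue_eq_zero_iff]; exact hΔ
  have hc' : (W.map res).c₄ ≠ 0 := by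
    rw [map_c₄, ne_eq, IsLocalRing.residue_eq_zero_iff]; exact fun h => h hc
  obtain ⟨C₀, hC₀⟩ := exists_vc_nodal (W.map res) hd hc'
  obtain ⟨u, hu⟩ := IsLocalRing.residue_surjective (C₀.u : IsLocalRing.ResidueField A)
  obtain ⟨r, hr⟩ := IsLocalRing.residue_surjective C₀.r
  obtain ⟨s, hs⟩ := IsLocalRing.residue_surjective C₀.s
  obtain ⟨t, ht⟩ := IsLocalRing.residue_surjective C₀.t
  have huu : IsUnit u := IsLocalRing.residue_ne_zero_iff_isUnit u |>.1 (hu ▸ C₀.u.ne_zero)
  set C : VariableChange A := ⟨huu.unit, r, s, t⟩ with hC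
  set W' := C • W with hW'
  have hred : W'.map res = nodalCubic _ := by
    rw [hW', ← map_variableChange, ← hC₀]
    congr 1
    ext <;> simp [hC, VariableChange.map, res, hu, hr, hs, ht]
  set CL : VariableChange L := C.map (algebraMap A L) with hCL
  have hmapW' : CL • W.map (algebraMap A L) = W'.map (algebraMap A L) :=
    map_variableChange _ _ _
  haveI : (W'.map (algebraMap A L)).IsElliptic := by rw [← hmapW']; infer_instance
  set f : (W.map (algebraMap A L)).toAffine.Point →+ (W'.map (algebraMap A L)).toAffine.Point :=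
    (sigmaPoint (RingHom.id L) (by rw [WeierstrassCurve.map_id]; exact hmapW')).comp (vcHom CL)
    with hf
  have finj : Function.Injective f := by
    rw [injective_iff_map_eq_zero]
    rintro (_ | ⟨a, b, h⟩) e
    · rfl
    · rw [hf, AddMonoidHom.comp_apply, vcHom_some, sigmaPoint_some] at e
      exact absurd e (Affine.Point.some_ne_zero _)
  have hu1 : A.valuation (CL.u : L) = 1 := (A.valuation_eq_one_iff _).1 C.u.isUnit
  have hψ : ∀ a b : L, A.valuation (psiTwo W' (vcX CL a) (vcY CL a b)) =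
      A.valuation (psiTwo W a b) := fun a b => by
    have hu0 := CL.u.ne_zero
    have e2 : psiTwo W' (vcX CL a) (vcY CL a b) = psiTwo W a b / (CL.u : L) ^ 3 := by
      simp only [psiTwo, ← hmapW', vcX, vcY, variableChange_a₁, variableChange_a₃,
        Units.val_inv_eq_inv_val]
      field_simp
      ring
    rw [e2, map_div₀, map_pow, hu1, one_pow, div_one]
  obtain ⟨x', y', h', t', hψ'⟩ := nodal_exists_unit (p := p) hodd hpu hred
  -- pull back
  set x₀ := (CL.u : L) ^ 2 * x' + CL.r with hx
  set y₀ := (CL.u : L) ^ 3 * y' + (CL.u : L) ^ 2 * CL.s * x' + CL.t with hy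
  have hvx : vcX CL x₀ = x' := by
    have := CL.u.ne_zero
    simp only [vcX, hx]; field_simp; ring
  have hvy : vcY CL x₀ y₀ = y' := by
    have := CL.u.ne_zero
    simp only [vcY, hx, hy]; field_simp; ring
  have h₀ : (W.map (algebraMap A L)).toAffine.Nonsingular x₀ y₀ := by
    refine (Affine.equation_iff_nonsingular (W := (W.map (algebraMap A L)).toAffine)).1 ?_
    have he := h'.1
    rw [Affine.equation_iff] at he ⊢
    rw [← hmapW'] at he
    have := CL.u.ne_zero
    simp only [variableChange_a₁, variableChange_a₂, variableChange_a₃, variableChange_a₄,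
      variableChange_a₆, Units.val_inv_eq_inv_val] at he
    field_simp at he
    simp only [hx, hy]
    linear_combination he
  have hf0 : f (.some x₀ y₀ h₀) = .some x' y' h' := by
    rw [hf, AddMonoidHom.comp_apply, vcHom_some, sigmaPoint_some, Affine.Point.some.injEq]
    exact ⟨hvx, hvy⟩
  have t₀ : p • Affine.Point.some x₀ y₀ h₀ = 0 := finj (by rw [map_nsmul, hf0, t', map_zero])
  have hψ0 : A.valuation (psiTwo W x₀ y₀) = 1 := by rw [← hψ, hvx, hvy, hψ']
  refine ⟨x₀, y₀, h₀, t₀, hψ0, fun x y h t hψx => ?_⟩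
  set P₀ := Affine.Point.some x₀ y₀ h₀ with hP₀
  have hord : addOrderOf P₀ = p := addOrderOf_eq_prime t₀ (Affine.Point.some_ne_zero _)
  set T := insert (Affine.Point.some x y h) ((Finset.Ico 1 p).image fun i => i • P₀) with hT
  have hcard := nodal_card_unit_le hodd hpu hred (T.image f) (by
    intro P hP
    obtain ⟨R, hR, rfl⟩ := Finset.mem_image.1 hP
    have key : ∃ (a b : L) (hn : (W.map (algebraMap A L)).toAffine.Nonsingular a b),
        R = .some a b hn ∧ p • Affine.Point.some a b hn = 0 ∧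
          A.valuation (psiTwo W a b) = 1 := by
      rcases Finset.mem_insert.1 hR with rfl | hR
      · exact ⟨x, y, h, rfl, t, hψx⟩
      · obtain ⟨i, hi, rfl⟩ := Finset.mem_image.1 hR
        rw [Finset.mem_Ico] at hi
        rcases hiP : i • P₀ with _ | ⟨a, b, hn⟩
        · have h0 := addOrderOf_dvd_of_nsmul_eq_zero (show i • P₀ = 0 from hiP)
          rw [hord] at h0
          have := Nat.le_of_dvd (by omega) h0
          omega
        · refine ⟨a, b, hn, rfl, by rw [← hiP, smul_comm, t₀, nsmul_zero], ?_⟩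
          exact psiTwo_nsmul W ((A.valuation_lt_one_iff _).1 hΔ) hΔ0
            ((A.valuation_eq_one_iff _).1 hc) hpu hodd h₀ t₀ hψ0 i hn hiP
    obtain ⟨a, b, hn, rfl, hta, hψa⟩ := key
    refine ⟨_, _, nonsingular_of_map (RingHom.id L) (by rw [WeierstrassCurve.map_id]; exact hmapW')
      (vc_nonsingular CL hn), ?_, ?_, ?_⟩
    · rw [hf, AddMonoidHom.comp_apply, vcHom_some, sigmaPoint_some]
    · rw [show (Affine.Point.some _ _ _) = f (.some a b hn) from
        (by rw [hf, AddMonoidHom.comp_apply, vcHom_some, sigmaPoint_some]), ← map_nsmul, hta,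
        map_zero]
    · simpa using (hψ a b).trans hψa)
  rw [Finset.card_image_of_injective _ finj] at hcard
  have hI : ((Finset.Ico 1 p).image fun i => i • P₀).card = p - 1 := by
    rw [Finset.card_image_of_injOn, Nat.card_Ico]
    intro i hi j hj e
    rw [Finset.coe_Ico, Set.mem_Ico] at hi hj
    have := (nsmul_eq_nsmul_iff_modEq (x := P₀)).1 e
    rw [hord, Nat.ModEq, Nat.mod_eq_of_lt hi.2, Nat.mod_eq_of_lt hj.2] at this
    exact this
  by_contra hcon
  push Not at hcon
  have hnot : Affine.Point.some x y h ∉ (Finset.Ico 1 p).image fun i => i • P₀ := by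
    rw [Finset.mem_image]
    rintro ⟨i, -, e⟩
    exact hcon i e
  rw [hT, Finset.card_insert_of_notMem hnot, hI] at hcard
  omega

end Fermat.Agent.Mazur3
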