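import Fermat.Agent.Mazur3.EisPart
import Fermat.Agent.Mazur3.Connected
import Fermat.Agent.Mazur3.Disc
import Fermat.Agent.Mazur3.BoundedInertia
import Fermat.Agent.Mazur3.Descent.Local

/-!
# The connected part of the Eisenstein part at the residual prime

The largest piece stable under the decomposition group and Hecke whose reductions are connected at
a place over `η`. It is saturated, contains the moves by inertia and by the congruence relation,
and inertia acts on it through the cyclotomic character.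
-/

set_option autoImplicit false
set_option linter.unusedSectionVars false

noncomputable section

namespace Fermat.Agent.Mazur3

open GalRep IsLocalRing
open Fermat.Agent.Galois (GQ)
open UpperHalfPlane CongruenceSubgroup
open scoped MatrixGroups

local notation "ℚb" => AlgebraicClosure ℚ

namespace Base

variable {N n : ℕ} [NeZero N] [NeZero n] {η : ℕ} {A : ValuationSubring (AlgebraicClosure ℚ)}
  {L : IntermediateField ℚ (AlgebraicClosure ℚ)} {B : Base η A L}

theorem Connected.nsmul {χ : ParHom N (ZMod n)} (h : B.Connected χ) (k : ℕ) :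
    B.Connected (k • χ) := by
  simpa only [Base.Connected, one_pow] using Part.nsmul h k

theorem powerSeries_eq_of_pow_eq (B : Base η A L) {k : ℕ} (hk : k ≠ 0) {a b : PowerSeries B.O}
    (ha : PowerSeries.constantCoeff a = 1) (hb : PowerSeries.constantCoeff b = 1)
    (h : a ^ k = b ^ k) : a = b := by
  have := B.charZero
  have h1 := geom_sum₂_mul a b k
  rw [h, sub_self, mul_eq_zero] at h1
  rcases h1 with h1 | h1
  · have := congrArg PowerSeries.constantCoeff h1
    simp only [map_sum, map_mul, map_pow, ha, hb, one_pow, mul_one, Finset.sum_const,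
      Finset.card_range, nsmul_eq_mul, map_zero] at this
    exact absurd (Nat.cast_eq_zero.mp this) hk
  · exact sub_eq_zero.mp h1

/-- A class whose multiple is connected lowers to a connected class. -/
theorem Connected.of_nsmul (hη : η.Prime) (hA : A.LiesOverPrime η) {k : ℕ} [NeZero (n * k)]
    (hk : k ≠ 0) {χ' : ParHom N (ZMod (n * k))} {χ : ParHom N (ZMod n)}
    (hc : IsCastHom (Dvd.intro k rfl) χ' χ) (hL : HasField N (n * k) L)
    (h : B.Connected (k • χ')) : B.Connected χ := by
  obtain ⟨u, hu⟩ := B.exists_part hη hA hL χ'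
  obtain ⟨y, hy, hyu⟩ := Part.unique hη hA (hu.nsmul k) h
  rw [one_mul] at hyu
  have huy : u = y ^ n := B.powerSeries_eq_of_pow_eq hk hu.constantCoeff_eq
    (by rw [map_pow, hy, one_pow]) (by rw [← pow_mul, hyu])
  exact connected_of_part (hu.cast hc) hy huy.symm

end Base

variable {p η : ℕ} [NeZero p] [Fact η.Prime] (A : ValuationSubring (AlgebraicClosure ℚ))

/-- Connected over every sufficiently large base. -/
def IsConn (k : ℕ) (χ : ParHom p (ZMod (η ^ k))) : Prop :=
  ∃ L₀ : IntermediateField ℚ ℚb, FiniteDimensional ℚ L₀ ∧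
    ∀ L, L₀ ≤ L → FiniteDimensional ℚ L → Normal ℚ L → ∀ B : Base η A L, B.Connected χ

variable (p η) in
/-- The vectors with connected reductions. -/
def connPart : Submodule ℤ_[η] (Lat p η) where
  carrier := {v | v ∈ eisPart p η ∧ ∀ k, IsConn A k (redPow k v)}
  add_mem' {v w} hv hw := ⟨add_mem hv.1 hw.1, fun k => by
    obtain ⟨L₁, h1, c1⟩ := hv.2 k
    obtain ⟨L₂, h2, c2⟩ := hw.2 k
    have := h1; have := h2
    refine ⟨L₁ ⊔ L₂, inferInstance, fun L hL hf hn B => ?_⟩
    rw [map_add]
    exact (c1 L (le_sup_left.trans hL) hf hn B).add (c2 L (le_sup_right.trans hL) hf hn B)⟩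
  zero_mem' := ⟨zero_mem _, fun k => ⟨⊥, inferInstance, fun L _ _ _ B => by
    rw [map_zero]; exact Base.Connected.zero⟩⟩
  smul_mem' c v hv := ⟨Submodule.smul_mem _ c hv.1, fun k => by
    obtain ⟨L₀, h, hc⟩ := hv.2 k
    refine ⟨L₀, h, fun L hL hf hn B => ?_⟩
    rw [redPow_smul]
    exact (hc L hL hf hn B).nsmul _⟩

theorem mem_connPart {v : Lat p η} :
    v ∈ connPart p η A ↔ v ∈ eisPart p η ∧ ∀ k, IsConn A k (redPow k v) := Iff.rfl

theorem latHeckePoly_X (ℓ : GoodPrime p) :
    latHeckePoly p η (MvPolynomial.X ℓ) = latHecke p η ℓ :=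
  polyHom_X _ _ _

theorem latAct_commute_latHeckePoly (s : GQ) (P : HeckePoly p) :
    Commute (latAct p η s) (latHeckePoly p η P) := by
  induction P using MvPolynomial.induction_on with
  | C a =>
    rw [← MvPolynomial.algebraMap_eq, AlgHom.commutes]
    exact (Algebra.commutes a (latAct p η s)).symm
  | add P Q hP hQ => rw [map_add]; exact hP.add_right hQ
  | mul_X P ℓ hP =>
    rw [map_mul]
    refine hP.mul_right ?_
    rw [latHeckePoly_X]
    exact latAct_commute_latHecke s ℓ

theorem latHeckePoly_mem_eisPart (P : HeckePoly p) :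
    ∀ {v : Lat p η}, v ∈ eisPart p η → latHeckePoly p η P v ∈ eisPart p η := by
  induction P using MvPolynomial.induction_on with
  | C a =>
    intro v hv
    rw [← MvPolynomial.algebraMap_eq, AlgHom.commutes, Module.algebraMap_end_apply]
    exact zsmul_mem hv a
  | add P Q hP hQ =>
    intro v hv
    rw [map_add, LinearMap.add_apply]
    exact add_mem (hP hv) (hQ hv)
  | mul_X P ℓ hP =>
    intro v hv
    rw [map_mul, Module.End.mul_apply, latHeckePoly_X]
    exact hP (latHecke_mem_eisPart ℓ hv)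

variable (p η) in
/-- The part at `A`. -/
def ordPart : Submodule ℤ_[η] (Lat p η) where
  carrier := {v | ∀ s ∈ A.decompositionSubgroup ℚ, ∀ P : HeckePoly p,
    latHeckePoly p η P (latAct p η s v) ∈ connPart p η A}
  add_mem' {v w} hv hw s hs P := by
    rw [map_add, map_add]; exact add_mem (hv s hs P) (hw s hs P)
  zero_mem' s hs P := by rw [map_zero, map_zero]; exact zero_mem _
  smul_mem' c v hv s hs P := by
    rw [map_smul, map_smul]; exact Submodule.smul_mem _ c (hv s hs P)

theorem ordPart_le_connPart : ordPart p η A ≤ connPart p η A := fun v hv => by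
  simpa using hv 1 (one_mem _) 1

theorem latAct_mem_ordPart {s : GQ} (hs : s ∈ A.decompositionSubgroup ℚ) {v : Lat p η}
    (hv : v ∈ ordPart p η A) : latAct p η s v ∈ ordPart p η A := fun t ht P => by
  rw [← Module.End.mul_apply (latAct p η t), ← map_mul]
  exact hv _ (mul_mem ht hs) P

theorem latHeckePoly_mem_ordPart (Q : HeckePoly p) {v : Lat p η} (hv : v ∈ ordPart p η A) :
    latHeckePoly p η Q v ∈ ordPart p η A := fun t ht P => by
  rw [← Module.End.mul_apply (latAct p η t), (latAct_commute_latHeckePoly t Q).eq,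
    Module.End.mul_apply, ← Module.End.mul_apply (latHeckePoly p η P), ← map_mul]
  exact hv t ht (P * Q)

variable {A} (hA : A.LiesOverPrime η)

theorem exists_rootField (η : ℕ) [NeZero η] :
    ∃ (ζ : ℚb) (L : IntermediateField ℚ ℚb), IsPrimitiveRoot ζ η ∧ FiniteDimensional ℚ L ∧ ζ ∈ L := by
  obtain ⟨ζ, hζ⟩ := HasEnoughRootsOfUnity.exists_primitiveRoot ℚb η
  exact ⟨ζ, IntermediateField.adjoin ℚ {ζ}, hζ,
    IntermediateField.adjoin.finiteDimensional (Algebra.IsIntegral.isIntegral ζ),
    IntermediateField.mem_adjoin_simple_self ℚ ζ⟩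

include hA

theorem connPart_saturated {v : Lat p η} (h : (η : ℤ_[η]) • v ∈ connPart p η A) :
    v ∈ connPart p η A := by
  refine ⟨mem_eisPart_of_smul (Nat.cast_ne_zero.mpr (NeZero.ne η)) h.1, fun k => ?_⟩
  obtain ⟨L₁, h1, c1⟩ := h.2 (k + 1)
  have : NeZero (η ^ k * η) := ⟨mul_ne_zero (NeZero.ne _) (NeZero.ne η)⟩
  obtain ⟨L₂, h2, f2⟩ := exists_hasField p (η ^ k * η)
  have := h1; have := h2
  refine ⟨L₁ ⊔ L₂, inferInstance, fun L hL hf hn B => ?_⟩
  have hc := c1 L (le_sup_left.trans hL) hf hn B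
  rw [Nat.cast_smul_eq_nsmul ℤ_[η], map_nsmul] at hc
  exact Base.Connected.of_nsmul (n := η ^ k) (k := η) Fact.out hA (NeZero.ne η)
    (redPow_isCast k.le_succ v) (f2 L (le_sup_right.trans hL)) hc

theorem mem_ordPart_of_smul {c : ℤ_[η]} (hc : c ≠ 0) {v : Lat p η} (h : c • v ∈ ordPart p η A) :
    v ∈ ordPart p η A := by
  have hη : ∀ (e : ℕ) (w : Lat p η), (η : ℤ_[η]) ^ e • w ∈ connPart p η A → w ∈ connPart p η A := by
    intro e
    induction e with
    | zero => intro w hw; rwa [pow_zero, one_smul] at hw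
    | succ e ih =>
      intro w hw
      rw [pow_succ', mul_smul] at hw
      exact ih w (connPart_saturated hA hw)
  intro s hs P
  obtain ⟨u, e, hu⟩ : ∃ (u : ℤ_[η]ˣ) (e : ℕ), c = (u : ℤ_[η]) * (η : ℤ_[η]) ^ e :=
    ⟨_, _, PadicInt.unitCoeff_spec hc⟩
  have h1 := h s hs P
  rw [map_smul, map_smul, hu, mul_smul, Submodule.smul_mem_iff_of_isUnit _ u.isUnit] at h1
  exact hη e _ h1

variable (hg : ¬ η ∣ p)

include hg

theorem isConn_of_resOne {k : ℕ} {χ : ParHom p (ZMod (η ^ k))}
    (hχ : ∃ w ∈ eisPart p η, redPow k w = χ)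
    (h1 : ∀ (ζ : ℚb), IsPrimitiveRoot ζ η → ∀ L : IntermediateField ℚ ℚb, ζ ∈ L →
      HasField p (η ^ k) L → Normal ℚ L → ∀ B : Base η A L, B.ResOne χ) : IsConn A k χ := by
  obtain ⟨ζ, L₁, hζ, h₁, hζL⟩ := exists_rootField η
  obtain ⟨L₂, h₂, hF⟩ := exists_hasField p (η ^ k)
  have := h₁; have := h₂
  refine ⟨L₁ ⊔ L₂, inferInstance, fun L hL _ hn B => ?_⟩
  let i : GoodPrime p := ⟨⟨η, Fact.out⟩, hg⟩
  refine B.connected_of_injective hA hζ (hL (le_sup_left (b := L₂) hζL)) (goodIndex i)
    (((eisPart p η).toAddSubgroup.map (redPow k)).toIntSubmodule) ?_ ?_ ?_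
    (h1 ζ hζ L (hL (le_sup_left (b := L₂) hζL)) (hF L (le_sup_right.trans hL)) hn B)
  · rintro _ ⟨w, hw, rfl⟩
    exact ⟨latHecke p η i w, latHecke_mem_eisPart i hw, redPow_latHecke i w k⟩
  · rintro _ ⟨w, hw, rfl⟩ h0
    obtain ⟨n, w', hn'⟩ := hw i k
    have h2 : ∀ m : ℕ, (eisOpMod k i ^ m) (redPow k w) =
        ((-((1 + η : ℕ) : ℤ)) ^ m) • redPow k w := by
      intro m
      induction m with
      | zero => rw [pow_zero, pow_zero, one_smul]; rfl
      | succ m ih =>
        have e : eisOpMod k i (redPow k w) = (-((1 + η : ℕ) : ℤ)) • redPow k w := by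
          rw [eisOpMod, LinearMap.sub_apply, show heckeHomAt i (redPow k w) = 0 from h0,
            Module.End.natCast_apply, zero_sub, neg_zsmul, natCast_zsmul]
        rw [pow_succ, Module.End.mul_apply, e, map_zsmul, ih, smul_smul, pow_succ']
    have h3 : ((-((1 + η : ℕ) : ℤ)) ^ n) • redPow k w = 0 := by
      rw [← h2, ← redPow_eisOp_pow, hn', redPow_pow_smul]
    have h4 : ((η : ℤ) ^ k) • redPow k w = 0 := by
      rw [← Nat.cast_pow, natCast_zsmul, ← map_nsmul, ← Nat.cast_smul_eq_nsmul ℤ_[η],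
        Nat.cast_pow, redPow_pow_smul]
    have hco : IsCoprime ((-((1 + η : ℕ) : ℤ)) ^ n) ((η : ℤ) ^ k) := by
      refine (IsCoprime.pow ?_)
      refine IsCoprime.neg_left ⟨1, -1, ?_⟩
      push_cast
      ring
    obtain ⟨a, b, hab⟩ := hco
    rw [← one_smul ℤ (redPow k w), ← hab, add_smul, mul_smul, mul_smul, h3, h4, smul_zero,
      smul_zero, add_zero]
  · obtain ⟨w, hw, rfl⟩ := hχ
    exact ⟨w, hw, rfl⟩

/-- Moves by inertia are connected. -/
theorem connPart_inertia {σ : GQ} (hσ : σ ∈ A.inertiaSubgroupIn ℚ) {v : Lat p η}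
    (hv : v ∈ eisPart p η) : latAct p η σ v - v ∈ connPart p η A := by
  refine ⟨sub_mem (latAct_mem_eisPart σ hv) hv, fun k => isConn_of_resOne hA hg
    ⟨_, sub_mem (latAct_mem_eisPart σ hv) hv, rfl⟩ fun ζ hζ L hζL hF hn B => ?_⟩
  rw [map_sub, redPow_latGalois]
  exact B.resOne_inertia hA hF hσ _

/-- Moves by the congruence relation are connected. -/
theorem connPart_frobenius {F : GQ} (hF : A.IsFrobeniusAt F η) {v : Lat p η}
    (hv : v ∈ eisPart p η) :
    latAct p η F (latAct p η F v) + η • v -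
      latHecke p η ⟨⟨η, Fact.out⟩, hg⟩ (latAct p η F v) ∈ connPart p η A := by
  set i : GoodPrime p := ⟨⟨η, Fact.out⟩, hg⟩
  have hmem : latAct p η F (latAct p η F v) + η • v - latHecke p η i (latAct p η F v) ∈
      eisPart p η :=
    sub_mem (add_mem (latAct_mem_eisPart F (latAct_mem_eisPart F hv)) (nsmul_mem hv η))
      (latHecke_mem_eisPart i (latAct_mem_eisPart F hv))
  refine ⟨hmem, fun k => isConn_of_resOne hA hg ⟨_, hmem, rfl⟩ fun ζ hζ L hζL hL hn B => ?_⟩
  rw [map_sub, map_add, map_nsmul, redPow_latGalois, redPow_latHecke, redPow_latGalois]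
  exact B.resOne_frobenius hA hL hζ hζL (goodIndex i) hF _

theorem ordPart_inertia {σ : GQ} (hσ : σ ∈ A.inertiaSubgroupIn ℚ) {v : Lat p η}
    (hv : v ∈ eisPart p η) : latAct p η σ v - v ∈ ordPart p η A := by
  intro s hs P
  have hconj : s * σ * s⁻¹ ∈ A.inertiaSubgroupIn ℚ := conj_mem_inertia_of_decomposition hs hσ
  have h := connPart_inertia hA hg hconj
    (latHeckePoly_mem_eisPart P (latAct_mem_eisPart s hv))
  convert h using 1
  rw [map_sub, map_sub, ← Module.End.mul_apply (latAct p η (s * σ * s⁻¹)),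
    (latAct_commute_latHeckePoly (s * σ * s⁻¹) P).eq, Module.End.mul_apply,
    ← Module.End.mul_apply (latAct p η (s * σ * s⁻¹)), ← map_mul, inv_mul_cancel_right, map_mul,
    Module.End.mul_apply]

theorem ordPart_frobenius {F : GQ} (hF : A.IsFrobeniusAt F η) {v : Lat p η}
    (hv : v ∈ eisPart p η) :
    latAct p η F (latAct p η F v) + η • v -
      latHecke p η ⟨⟨η, Fact.out⟩, hg⟩ (latAct p η F v) ∈ ordPart p η A := by
  intro s hs P
  obtain ⟨hdec, hfrob⟩ := hF
  have hconj : A.IsFrobeniusAt (s * F * s⁻¹) η := by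
    refine ⟨mul_mem (mul_mem hs hdec) (inv_mem hs), fun x => ?_⟩
    set s' : A.decompositionSubgroup ℚ := ⟨s, hs⟩
    have e : (⟨s * F * s⁻¹, mul_mem (mul_mem hs hdec) (inv_mem hs)⟩ : A.decompositionSubgroup ℚ) =
        s' * ⟨F, hdec⟩ * s'⁻¹ := rfl
    rw [e, mul_smul, mul_smul, hfrob, smul_pow', smul_inv_smul]
  have h := connPart_frobenius hA hg hconj
    (latHeckePoly_mem_eisPart P (latAct_mem_eisPart s hv))
  set i : GoodPrime p := ⟨⟨η, Fact.out⟩, hg⟩
  set G := latAct p η (s * F * s⁻¹)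
  have hG : ∀ w, G (latHeckePoly p η P (latAct p η s w)) =
      latHeckePoly p η P (latAct p η s (latAct p η F w)) := fun w => by
    rw [← Module.End.mul_apply G, (latAct_commute_latHeckePoly _ P).eq, Module.End.mul_apply,
      ← Module.End.mul_apply G, ← map_mul, inv_mul_cancel_right, map_mul, Module.End.mul_apply]
  have hT : ∀ w, latHeckePoly p η P (latAct p η s (latHecke p η i w)) =
      latHecke p η i (latHeckePoly p η P (latAct p η s w)) := fun w => by
    rw [← Module.End.mul_apply (latAct p η s), (latAct_commute_latHecke s i).eq,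
      Module.End.mul_apply, ← latHeckePoly_X i, ← Module.End.mul_apply (latHeckePoly p η P), ← map_mul,
      mul_comm P, map_mul, Module.End.mul_apply]
  convert h using 1
  rw [hG, hG, map_sub, map_sub, map_add, map_add, map_nsmul, map_nsmul, hT]

/-- Inertia is cyclotomic on the part. -/
theorem ordPart_cyc {σ : GQ} (hσ : σ ∈ A.inertiaSubgroupIn ℚ) {v : Lat p η}
    (hv : v ∈ connPart p η A) : latAct p η σ v = (cyc η σ).val • v := by
  have hp : ¬ η ∣ p := hg
  refine lat_ext fun k => ?_
  obtain ⟨L₁, h1, c1⟩ := hv.2 k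
  obtain ⟨L₂, h2, m2⟩ := exists_multDvd_field (N := p) (n := η ^ k) Fact.out hA hp
  have := h1; have := h2
  obtain ⟨L, hL, hLg, hle⟩ := exists_galois_level (L₁ ⊔ L₂)
  have := hL; have := hLg
  obtain ⟨B⟩ := nonempty_base (Fact.out : η.Prime) hA L
  have hb : IsBoundedChar p (η ^ k) A (redPow k v) :=
    (m2 L (le_sup_right.trans hle) B _).isBoundedChar Fact.out hA
      (c1 L (le_sup_left.trans hle) inferInstance inferInstance B)
  rw [redPow_latGalois, redPow_smul]
  exact boundedInertia p η hp k A hA σ hσ _ hb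

end Fermat.Agent.Mazur3
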