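import Fermat.Agent.Mazur3.Dichotomy
import Fermat.Agent.Mazur3.EisClass
import Fermat.Agent.Mazur3.Branch

/-!
# Exchanging the two degenerations of a rational point

The value of `Δ(pτ)/Δ(τ)` at a rational point is rational, so a point with a pole of `j` is on one
of the two branches.
-/

set_option autoImplicit false
set_option linter.unusedSectionVars false

noncomputable section

namespace Fermat.Agent.Mazur3

open GalRep UpperHalfPlane CongruenceSubgroup ModularGroup
open Fermat.Agent.Period (jFun)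
open scoped MatrixGroups Manifold

variable {p : ℕ} [NeZero p] [hp : Fact p.Prime]

/-- The exchanged point. -/
theorem exists_swap_uFun (τ : ℍ) :
    ∃ τ' : ℍ, jFun τ' = jNFun p τ ∧ jNFun p τ' = jFun τ ∧
      uFun p τ * uFun p τ' = (p : ℂ) ^ 12 := by
  set P := posMat _ (det_diagN p)
  have hp0 : (p : ℂ) ≠ 0 := Nat.cast_ne_zero.2 hp.out.ne_zero
  have hco : ∀ z : ℍ, ((ModularGroup.S • z : ℍ) : ℂ) = -1 / (z : ℂ) := fun z => by
    rw [UpperHalfPlane.modular_S_smul]; show (-(z : ℂ))⁻¹ = _; rw [inv_neg, neg_div, one_div]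
  have e : P • (ModularGroup.S • (P • τ)) = ModularGroup.S • τ := by
    apply UpperHalfPlane.ext
    rw [coe_posMat_smul, hco, hco, coe_posMat_smul]
    simp
    field_simp
  refine ⟨ModularGroup.S • (P • τ), Period.jFun_smul _ _, ?_, ?_⟩
  · show jFun (P • _) = _
    rw [e, Period.jFun_smul]
  have hS : ∀ z : ℍ, ModularForm.discriminant (ModularGroup.S • z) =
      (z : ℂ) ^ 12 * ModularForm.discriminant z := fun z => by
    rw [disc_smul, ModularGroup.denom_S]; norm_cast
  have hP : ((P • τ : ℍ) : ℂ) = (p : ℂ) * τ := by rw [coe_posMat_smul]; simp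
  rw [uFun, uFun, e, hS, hS, hP]
  have := τ.ne_zero
  have := ModularForm.discriminant_ne_zero τ
  have := ModularForm.discriminant_ne_zero (P • τ)
  field_simp
  rfl

/-- `Δ(pτ)/Δ(τ)` is rational at a rational point. -/
theorem exists_rat_uFun (x : RatPoint p) : ∃ u : ℚ, uFun p x.τ = (u : ℂ) := by
  have hn : (1 : ℕ) ≠ 0 := one_ne_zero
  set g : LaurentSeries ℂ := HahnSeries.C ((p : ℂ) ^ 12) * eisRootSer p 1 (p - 1) with hg
  have hser : HasQSeries 1 (uFun p) g := by
    refine ((HasQSeries.single 1 0 ((p : ℂ) ^ 12)).mul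
      (hasQSeries_eisRoot hn (mul_one (p - 1)))).congr (.of_forall fun τ => ?_)
    have h := eisRoot_pow (p := p) hn τ
    rw [pow_one] at h
    simp [Pi.mul_apply, uFun_eq_unitFun, h]
  obtain ⟨u, hu⟩ := Hecke.exists_rat_of_fixed (x := x.val (uFun p)) fun σ =>
    x.val_modFun σ (isModFun_uFun p) (isModFun_uFun p) hser (by
      rw [hg, map_mul, lmap_C, lmap_eisRootSer hn, show σ.toRingHom ((p : ℂ) ^ 12) = (p : ℂ) ^ 12
        by simp]
      exact hser)
  exact ⟨u, by rw [hu, x.val_eq_apply (uFun_ne_zero p x.τ)]⟩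

/-- A rational point with a pole of `j` at `q` is on one of the two branches, once its partner is
on a branch somewhere. -/
theorem dichotomy_branch {j j' : ℚ} {τ τ' : ℍ} (hj : jFun τ = (j : ℂ))
    (x' : RatPoint p) (hτ' : x'.τ = τ') (hj' : x'.a = j')
    (hu : uFun p τ * uFun p τ' = (p : ℂ) ^ 12) {q : ℕ} [hq : Fact q.Prime] (hqp : q ≠ p)
    (hneg : padicValRat q j < 0) :
    padicValRat q j = p * padicValRat q j' ∨ padicValRat q j' = p * padicValRat q j := by
  subst hτ' hj'
  obtain ⟨u', hu'⟩ := exists_rat_uFun x'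
  have hu0 : u' ≠ 0 := fun h => uFun_ne_zero p x'.τ (by rw [hu', h, Rat.cast_zero])
  have huτ : uFun p τ = (((p : ℚ) ^ 12 / u' : ℚ) : ℂ) := by
    push_cast
    rw [eq_div_iff (Rat.cast_ne_zero.2 hu0), ← hu', hu]
  have hvu : padicValRat q ((p : ℚ) ^ 12 / u') = -padicValRat q u' := by
    rw [padicValRat.div (pow_ne_zero _ (Nat.cast_ne_zero.2 hp.out.ne_zero)) hu0,
      padicValRat.pow, padicValRat.of_nat,
      padicValNat.eq_zero_of_not_dvd fun h => hqp ((Nat.prime_dvd_prime_iff_eq hq.out hp.out).1 h)]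
    simp
  obtain ⟨-, h1⟩ := padicValRat_uFun p hqp τ j _ hj huτ
  obtain ⟨h2, h3⟩ := padicValRat_uFun p hqp x'.τ x'.a u' x'.hj hu'
  have h1 := h1 hneg
  rw [hvu] at h1
  have hp1 : (0 : ℤ) < (p : ℤ) - 1 := by have := hp.out.two_le; omega
  set a := padicValRat q j
  set a' := padicValRat q x'.a
  set k := padicValRat q u'
  have hk : k ≠ 0 := fun h0 => by
    rw [h0] at h1
    simp only [neg_zero, mul_zero] at h1
    rcases h1 with h | h
    · have := mul_pos hp1 (show (0 : ℤ) < -a by omega); omega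
    · have := mul_pos hp1 (show (0 : ℤ) < -a by omega); linarith
  have ha' : a' < 0 := by
    by_contra h
    push Not at h
    exact hk (h2 h)
  rcases h1 with h1 | h1 <;> rcases h3 ha' with h3 | h3
  · exfalso
    have := mul_pos hp1 (show (0 : ℤ) < -a + -a' by omega)
    linarith
  · right
    refine mul_left_cancel₀ hp1.ne' ?_
    linear_combination (-(p : ℤ)) * h1 - h3
  · left
    refine mul_left_cancel₀ hp1.ne' ?_
    linear_combination -h1 - (p : ℤ) * h3
  · exfalso
    have := mul_pos hp1 (show (0 : ℤ) < -a + -a' by omega)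
    linarith

end Fermat.Agent.Mazur3
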