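import Fermat.Agent.Mazur3.Coboundary
import Fermat.Agent.Mazur3.Swap
import Fermat.Agent.Mazur3.CofixedLine

/-!
# The points of `X₀(p)` on one branch at `2` and `3` are on that branch at every pole

If not, the point and its partner both have coboundaries as classes, and the Eisenstein class
forbids this.
-/

set_option autoImplicit false
set_option linter.unusedSectionVars false

noncomputable section

namespace Fermat.Agent.Mazur3

open GalRep UpperHalfPlane CongruenceSubgroup
open Fermat.Agent.Galois (GQ)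
open Fermat.Agent.Period (jFun)
open scoped MatrixGroups

variable {p : ℕ} [NeZero p] [hp : Fact p.Prime]

variable (p) in
/-- The classes of Eisenstein translates of bounded characters vanish on inertia, at all points. -/
def EtaInput : Prop :=
  ∀ (η : ℕ) [Fact η.Prime] (hg : GoodIndex p η) (x : RatPoint p)
    (A : ValuationSubring (AlgebraicClosure ℚ)), A.LiesOverPrime η → EtaVanish p η hg x A

/-- An Eisenstein prime. -/
theorem exists_eisenstein_prime (hp' : p ∉ ({2, 3, 5, 7, 13} : Finset ℕ)) :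
    ∃ η : ℕ, η.Prime ∧ η * Nat.gcd (p - 1) 12 ∣ p - 1 ∧ ¬ η ∣ p := by
  have hp2 := hp.out.two_le
  set d := Nat.gcd (p - 1) 12 with hd
  have hdp : d ∣ p - 1 := Nat.gcd_dvd_left _ _
  have hd0 : 0 < d := Nat.gcd_pos_of_pos_right _ (by norm_num)
  set N := (p - 1) / d with hN
  have hN1 : N ≠ 1 := fun h => by
    have h1 : p - 1 = d := (Nat.eq_of_dvd_of_div_eq_one hdp h).symm
    have h12 : p - 1 ∣ 12 := h1 ▸ Nat.gcd_dvd_right _ _
    have hle := Nat.le_of_dvd (by norm_num) h12
    simp only [Finset.mem_insert, Finset.mem_singleton, not_or] at hp'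
    have hp13 : p ≤ 13 := by omega
    have hprime := hp.out
    interval_cases p <;> norm_num at *
  have hη := Nat.minFac_prime hN1
  have hdvd : N.minFac * d ∣ p - 1 := by
    rw [← Nat.div_mul_cancel hdp, ← hN]
    exact Nat.mul_dvd_mul_right (Nat.minFac_dvd N) d
  refine ⟨N.minFac, hη, hdvd, fun h => ?_⟩
  have h1 := Nat.le_of_dvd (by omega) ((dvd_mul_right _ _).trans hdvd)
  have h2 := (Nat.prime_dvd_prime_iff_eq hη hp.out).1 h
  omega

/-- The same-branch property, from the inputs at the level prime and at the residual prime. -/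
theorem sameBranch_of_inputs (hp' : p ∉ ({2, 3, 5, 7, 13} : Finset ℕ))
    (hsq : InertiaProdZero p) (hEta : EtaInput p) : SameBranch p := by
  intro j j' τ hj hj' h2 h2' h3 h3' l hl hlp hlneg
  have := Fact.mk hl
  have hp23 : (2 : ℕ) ≠ p ∧ (3 : ℕ) ≠ p := by
    simp only [Finset.mem_insert, Finset.mem_singleton, not_or] at hp'
    exact ⟨fun h => hp'.1 h.symm, fun h => hp'.2.1 h.symm⟩
  by_cases hl2 : l = 2
  · subst hl2; exact h2'
  by_cases hl3 : l = 3
  · subst hl3; exact h3'
  obtain ⟨η, hη, hηd, hηp⟩ := exists_eisenstein_prime (p := p) hp'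
  have := Fact.mk hη
  have hηp' : η ≠ p := fun h => hηp (h ▸ dvd_rfl)
  obtain ⟨τ', hτj, hτjN, hu⟩ := exists_swap_uFun (p := p) τ
  rw [hj'] at hτj
  rw [hj] at hτjN
  -- the partner is on the branch through infinity at a prime other than `η`
  obtain ⟨q, hqprime, hqp, hqη, hqneg, hqeq⟩ : ∃ q : ℕ, q.Prime ∧ q ≠ p ∧ q ≠ η ∧
      padicValRat q j < 0 ∧ padicValRat q j = p * padicValRat q j' := by
    rcases eq_or_ne η 2 with rfl | h
    · exact ⟨3, Nat.prime_three, hp23.2, by norm_num, h3, h3'⟩
    · exact ⟨2, Nat.prime_two, hp23.1, h.symm, h2, h2'⟩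
  have := Fact.mk hqprime
  have hqneg' : padicValRat q j' < 0 := by
    by_contra h
    push Not at h
    have : 0 ≤ (p : ℤ) * padicValRat q j' := mul_nonneg (Int.natCast_nonneg p) h
    omega
  set x' : RatPoint p := branchPoint hτj hτjN hqneg' hqeq with hx'
  rcases dichotomy_branch hj x' (τ' := τ') rfl (j' := j') rfl hu hlp hlneg with h | h
  · exact h
  exfalso
  set x : RatPoint p := branchPoint hj hj' hlneg h
  obtain ⟨A, hA⟩ := Galois.exists_liesOverPrime hη
  have hg : GoodIndex p η := goodIndex (⟨⟨η, hη⟩, hηp⟩ : GoodPrime p)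
  obtain ⟨b', hb'⟩ := exists_coboundary_away hηp' hsq hqp hqη x' hqneg' hqeq hA hηp
    (hEta η hg x' A hA)
  obtain ⟨b, hb⟩ : ∃ b : Module.Dual ℤ_[η] (eisPart p η),
      ∀ σ, classFun x σ = b - dualGalois p η σ b := by
    by_cases hlη : l = η
    · subst hlη
      exact exists_coboundary_at hηp' hsq hl2 x hlneg h hA hηp (hEta l hg x A hA)
    · exact exists_coboundary_away hηp' hsq hlp hlη x hlneg h hA hηp (hEta η hg x A hA)
  obtain ⟨v₀, heis, hfix, hcontra⟩ := exists_eisClass hηd
  exact hcontra x x' hu (kClass_of_coboundary x hb heis hfix) (kClass_of_coboundary x' hb' heis hfix)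

end Fermat.Agent.Mazur3
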