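import Fermat.Agent.Mazur3.ZeroComponent
import Fermat.Agent.Mazur3.AtEta.Root

/-!
# The same-branch property
-/

set_option autoImplicit false

noncomputable section

namespace Fermat.Agent.Mazur3

/-- The vanishing at the residual prime holds at every point. -/
theorem etaInput (p : ℕ) [NeZero p] [hp : Fact p.Prime] : EtaInput p :=
  fun _η _ hg x _A hA => exists_kClass_eisenstein_eq_zero hp.out hg x hA

/-- The points of `X₀(p)` on one branch at `2` and `3` are on that branch at every pole. -/
theorem same_branch {p : ℕ} [NeZero p] (hp : p.Prime)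
    (hp' : p ∉ ({2, 3, 5, 7, 13} : Finset ℕ)) : SameBranch p :=
  haveI := Fact.mk hp
  sameBranch_of_inputs hp' (GalRep.inertiaProdZero p) (etaInput p)

end Fermat.Agent.Mazur3
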