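import Mathlib

/-!
# Norm and substitution on power series

For a family of unit series permuted by an operator acting as "norm times `u(X^η)`", congruence to
`1` modulo the uniformiser already forces `η^K`-th roots.
-/

set_option autoImplicit false

noncomputable section

namespace Fermat.Agent.Mazur3

open PowerSeries

variable {O : Type*} [CommRing O]

/-- Series all of whose coefficients below `B` are divisible by `π ^ k`. -/
def nearIdeal (π : O) (k B : ℕ) : Ideal O⟦X⟧ :=
  Ideal.span {C (π ^ k)} ⊔ Ideal.span {X ^ B}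

theorem mem_nearIdeal {π : O} {k B : ℕ} {f : O⟦X⟧} :
    f ∈ nearIdeal π k B ↔ ∀ n < B, π ^ k ∣ coeff n f := by
  constructor
  · intro hf n hn
    obtain ⟨g, hg, h, hh, rfl⟩ := Submodule.mem_sup.mp hf
    obtain ⟨a, rfl⟩ := Ideal.mem_span_singleton.mp hg
    obtain ⟨b, rfl⟩ := Ideal.mem_span_singleton.mp hh
    rw [map_add, coeff_C_mul, coeff_X_pow_mul', if_neg (not_le.mpr hn), add_zero]
    exact dvd_mul_right _ _
  · intro h
    choose! a ha using h
    let g : O⟦X⟧ := C (π ^ k) * mk fun n => if n < B then a n else 0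
    have : X ^ B ∣ f - g := by
      rw [X_pow_dvd_iff]
      intro n hn
      rw [map_sub, coeff_C_mul, coeff_mk, if_pos hn, ← ha n hn, sub_self]
    rw [← add_sub_cancel g f]
    exact add_mem (Submodule.mem_sup_left (Ideal.mem_span_singleton.mpr (dvd_mul_right _ _)))
      (Submodule.mem_sup_right (Ideal.mem_span_singleton.mpr this))

theorem nearIdeal_mono {π : O} {k k' B B' : ℕ} (hk : k' ≤ k) (hB : B' ≤ B) :
    nearIdeal π k B ≤ nearIdeal π k' B' := fun f hf =>
  mem_nearIdeal.mpr fun n hn =>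
    dvd_trans (pow_dvd_pow π hk) (mem_nearIdeal.mp hf n (hn.trans_le hB))

theorem rescale_mem_nearIdeal {π : O} {k B : ℕ} (a : O) {f : O⟦X⟧} (hf : f ∈ nearIdeal π k B) :
    rescale a f ∈ nearIdeal π k B := mem_nearIdeal.mpr fun n hn => by
  rw [coeff_rescale]
  exact (mem_nearIdeal.mp hf n hn).mul_left _

theorem nearIdeal_mul_le {π : O} {k B : ℕ} (hk : 1 ≤ k) :
    nearIdeal π k B * nearIdeal π k B ≤ nearIdeal π (k + 1) B := by
  rw [Ideal.mul_le]
  intro f hf g hg
  refine mem_nearIdeal.mpr fun n hn => ?_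
  rw [coeff_mul]
  refine Finset.dvd_sum fun x hx => ?_
  have hx' := Finset.HasAntidiagonal.mem_antidiagonal.mp hx
  refine dvd_trans (pow_dvd_pow π (show k + 1 ≤ k + k by omega)) ?_
  rw [pow_add]
  exact mul_dvd_mul (mem_nearIdeal.mp hf _ (by omega)) (mem_nearIdeal.mp hg _ (by omega))

theorem mul_sub_one_mem {I : Ideal O⟦X⟧} {a b : O⟦X⟧} (ha : a - 1 ∈ I) (hb : b - 1 ∈ I) :
    a * b - 1 ∈ I := by
  rw [show a * b - 1 = a * (b - 1) + (a - 1) by ring]
  exact add_mem (I.mul_mem_left _ hb) ha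

theorem prod_one_add_sub_mem {ι : Type*} (s : Finset ι) (I : Ideal O⟦X⟧) (w : ι → O⟦X⟧)
    (h : ∀ i ∈ s, w i ∈ I) :
    ∏ i ∈ s, (1 + w i) - (1 + ∑ i ∈ s, w i) ∈ I * I := by
  classical
  induction s using Finset.induction with
  | empty => simp
  | insert i s hi ih =>
    have hs : ∑ x ∈ s, w x ∈ I := sum_mem fun x hx => h x (Finset.mem_insert_of_mem hx)
    rw [Finset.prod_insert hi, Finset.sum_insert hi]
    have h1 := ih fun x hx => h x (Finset.mem_insert_of_mem hx)
    rw [show (1 + w i) * ∏ x ∈ s, (1 + w x) - (1 + (w i + ∑ x ∈ s, w x)) =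
      (1 + w i) * (∏ x ∈ s, (1 + w x) - (1 + ∑ x ∈ s, w x)) + w i * ∑ x ∈ s, w x by ring]
    exact add_mem (Ideal.mul_mem_left _ _ h1)
      (Ideal.mul_mem_mul (h i (Finset.mem_insert_self _ _)) hs)

/-! ## Roots of series -/

section Roots

variable [IsDomain O] [CharZero O]

theorem X_pow_dvd_sub_of_pow {m n : ℕ} (hm : 0 < m) {y z : O⟦X⟧} (hy : constantCoeff y = 1)
    (hz : constantCoeff z = 1) (h : X ^ n ∣ y ^ m - z ^ m) : X ^ n ∣ y - z := by
  rw [← geom_sum₂_mul] at h
  refine X_prime.pow_dvd_of_dvd_mul_left n (fun hd => ?_) h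
  rw [X_dvd_iff, map_sum] at hd
  simp [hy, hz, hm.ne'] at hd

theorem exists_root_of_forall {m : ℕ} (hm : 0 < m) {u : O⟦X⟧}
    (h : ∀ n : ℕ, ∃ y : O⟦X⟧, constantCoeff y = 1 ∧ X ^ n ∣ y ^ m - u) :
    ∃ y : O⟦X⟧, constantCoeff y = 1 ∧ y ^ m = u := by
  choose y hy0 hy using h
  have hcompat : ∀ n N, n ≤ N → X ^ n ∣ y N - y n := fun n N hnN => by
    refine X_pow_dvd_sub_of_pow hm (hy0 N) (hy0 n) ?_
    rw [show y N ^ m - y n ^ m = (y N ^ m - u) - (y n ^ m - u) by ring]
    exact dvd_sub (dvd_trans (pow_dvd_pow X hnN) (hy N)) (hy n)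
  let z : O⟦X⟧ := mk fun n => coeff n (y (n + 1))
  have hz : ∀ N, X ^ N ∣ z - y N := fun N => X_pow_dvd_iff.mpr fun n hn => by
    have h1 := X_pow_dvd_iff.mp (hcompat (n + 1) N hn) n (Nat.lt_succ_self n)
    rw [map_sub, sub_eq_zero] at h1
    rw [map_sub, coeff_mk, h1, sub_self]
  refine ⟨z, ?_, ?_⟩
  · rw [← coeff_zero_eq_constantCoeff_apply, coeff_mk, coeff_zero_eq_constantCoeff_apply, hy0]
  · refine sub_eq_zero.mp (PowerSeries.ext fun n => ?_)
    have h2 : X ^ (n + 1) ∣ z ^ m - u := by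
      rw [show z ^ m - u = (z ^ m - y (n + 1) ^ m) + (y (n + 1) ^ m - u) by ring]
      exact dvd_add (dvd_trans (hz (n + 1)) (sub_dvd_pow_sub_pow _ _ _)) (hy (n + 1))
    rw [map_zero]
    exact X_pow_dvd_iff.mp h2 n (Nat.lt_succ_self n)

theorem exists_root_of_near {η K : ℕ} (hη : 0 < η) {u : O⟦X⟧} (hu0 : constantCoeff u = 1)
    (hu : ∀ n, (η : O) ^ (2 * K + 1) ∣ coeff n (u - 1)) :
    ∃ y : O⟦X⟧, constantCoeff y = 1 ∧ y ^ η ^ K = u := by
  refine exists_root_of_forall (pow_pos hη K) ?_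
  set m := η ^ K with hm
  suffices h : ∀ n, ∃ y : O⟦X⟧, constantCoeff y = 1 ∧ C ((η : O) ^ (K + 1)) ∣ y - 1 ∧
      X ^ n ∣ y ^ m - u from fun n => (h n).imp fun y hy => ⟨hy.1, hy.2.2⟩
  intro n
  induction n with
  | zero => exact ⟨1, by simp, by simp, by simp⟩
  | succ n ih =>
    rcases Nat.eq_zero_or_pos n with rfl | hn
    · refine ⟨1, by simp, by simp, ?_⟩
      rw [pow_one, X_dvd_iff]
      simp [hu0]
    obtain ⟨y, hy0, hyd, hy⟩ := ih
    have hm1 : C ((η : O) ^ (2 * K + 1)) ∣ y ^ m - 1 := by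
      obtain ⟨z, hz⟩ := hyd
      obtain ⟨w, hw⟩ := Polynomial.binomExpansion (Polynomial.X ^ m : Polynomial O⟦X⟧) 1
        (C ((η : O) ^ (K + 1)) * z)
      simp only [Polynomial.eval_pow, Polynomial.eval_X, one_pow,
        Polynomial.derivative_X_pow, Polynomial.eval_mul, Polynomial.eval_C, mul_one] at hw
      rw [← hz, add_sub_cancel] at hw
      rw [hw, add_assoc, add_sub_cancel_left, hz]
      refine dvd_add ?_ ?_
      · refine ⟨z, ?_⟩
        rw [hm, show 2 * K + 1 = K + (K + 1) by omega, pow_add _ K, map_mul, map_pow C _ K,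
          Nat.cast_pow, ← map_natCast C η]
        simp only [map_pow]
        ring
      · refine dvd_mul_of_dvd_right ?_ w
        rw [mul_pow, ← map_pow, ← pow_mul]
        exact dvd_mul_of_dvd_left (map_dvd C (pow_dvd_pow _ (by omega))) _
    have hd : (η : O) ^ (2 * K + 1) ∣ coeff n (u - y ^ m) := by
      rw [show u - y ^ m = (u - 1) - (y ^ m - 1) by ring, map_sub]
      refine dvd_sub (hu n) ?_
      obtain ⟨z, hz⟩ := hm1
      rw [hz, coeff_C_mul]
      exact dvd_mul_right _ _
    obtain ⟨d, hd⟩ := hd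
    let e : O⟦X⟧ := C ((η : O) ^ (K + 1) * d) * X ^ n
    refine ⟨y + e, ?_, ?_, ?_⟩
    · simp [e, hy0, hn.ne']
    · rw [add_sub_right_comm]
      exact dvd_add hyd ⟨C d * X ^ n, by simp [e, map_mul, mul_assoc]⟩
    · obtain ⟨w, hw⟩ := Polynomial.binomExpansion (Polynomial.X ^ m : Polynomial O⟦X⟧) y e
      simp only [Polynomial.eval_pow, Polynomial.eval_X, Polynomial.derivative_X_pow,
        Polynomial.eval_mul, Polynomial.eval_C] at hw
      rw [X_pow_dvd_iff]
      intro j hj
      have he2 : coeff j (w * e ^ 2) = 0 := by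
        refine X_pow_dvd_iff.mp (dvd_mul_of_dvd_right ?_ w) j hj
        rw [mul_pow, ← pow_mul]
        exact dvd_mul_of_dvd_right (pow_dvd_pow X (by omega)) _
      rw [hw, show y ^ m + (m : O⟦X⟧) * y ^ (m - 1) * e + w * e ^ 2 - u =
        (y ^ m - u) + ((m : O⟦X⟧) * y ^ (m - 1) * C ((η : O) ^ (K + 1) * d)) * X ^ n + w * e ^ 2 by
          simp only [e]; ring, map_add, map_add, he2, add_zero, coeff_mul_X_pow']
      rcases Nat.lt_succ_iff_lt_or_eq.mp hj with hj | rfl
      · rw [if_neg (not_le.mpr hj), add_zero]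
        exact X_pow_dvd_iff.mp hy j hj
      · rw [if_pos le_rfl, Nat.sub_self, coeff_zero_eq_constantCoeff_apply,
          show coeff j (y ^ m - u) = -coeff j (u - y ^ m) by rw [← map_neg, neg_sub], hd]
        simp only [map_mul, map_natCast, map_pow, hy0, one_pow, mul_one, constantCoeff_C, hm,
          Nat.cast_pow]
        ring

end Roots

/-! ## The norm along `X ↦ X^η` -/

section Norm

variable (η : ℕ) (ζ : O)

/-- The product of `u(ζ^b X)`. -/
def twistProd : O⟦X⟧ →* O⟦X⟧ where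
  toFun u := ∏ b ∈ Finset.range η, rescale (ζ ^ b) u
  map_one' := by simp
  map_mul' u v := by simp [Finset.prod_mul_distrib]

theorem twistProd_apply (u : O⟦X⟧) :
    twistProd η ζ u = ∏ b ∈ Finset.range η, rescale (ζ ^ b) u := rfl

theorem constantCoeff_rescale_apply (a : O) (u : O⟦X⟧) :
    constantCoeff (rescale a u) = constantCoeff u := by
  rw [← coeff_zero_eq_constantCoeff_apply, coeff_rescale, pow_zero, one_mul,
    coeff_zero_eq_constantCoeff_apply]

theorem constantCoeff_twistProd (u : O⟦X⟧) :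
    constantCoeff (twistProd η ζ u) = constantCoeff u ^ η := by
  rw [twistProd_apply, map_prod]
  simp [constantCoeff_rescale_apply]

variable [hη : Fact η.Prime]

/-- Substitution `X ↦ X^η`. -/
def subPow : O⟦X⟧ →+* O⟦X⟧ := (expand η hη.out.ne_zero).toRingHom

theorem coeff_subPow_mul (u : O⟦X⟧) (n : ℕ) : coeff (η * n) (subPow η u) = coeff n u :=
  coeff_expand_mul η hη.out.ne_zero u n

theorem coeff_subPow_of_not_dvd (u : O⟦X⟧) {n : ℕ} (hn : ¬ η ∣ n) :
    coeff n (subPow η u) = 0 :=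
  coeff_expand_of_not_dvd η hη.out.ne_zero u hn

theorem subPow_injective : Function.Injective (subPow (O := O) η) := fun u v h =>
  PowerSeries.ext fun n => by rw [← coeff_subPow_mul η u n, h, coeff_subPow_mul]

theorem constantCoeff_subPow (u : O⟦X⟧) : constantCoeff (subPow η u) = constantCoeff u := by
  have h := coeff_subPow_mul η u 0
  rwa [mul_zero, coeff_zero_eq_constantCoeff_apply, coeff_zero_eq_constantCoeff_apply] at h

variable [IsDomain O]

theorem rescale_twistProd (hζ : ζ ^ η = 1) (u : O⟦X⟧) :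
    rescale ζ (twistProd η ζ u) = twistProd η ζ u := by
  rw [twistProd_apply, map_prod]
  simp only [rescale_rescale, ← pow_succ]
  set g : ℕ → O⟦X⟧ := fun b => rescale (ζ ^ b) u with hg
  show ∏ b ∈ Finset.range η, g (b + 1) = ∏ b ∈ Finset.range η, g b
  have h1 : (∏ b ∈ Finset.range η, g (b + 1)) * g 0 = (∏ b ∈ Finset.range η, g b) * g η := by
    rw [← Finset.prod_range_succ', ← Finset.prod_range_succ]
  have h2 : g η = g 0 := by simp [hg, hζ]
  rcases eq_or_ne (g 0) 0 with h0 | h0
  · rw [Finset.prod_eq_zero (Finset.mem_range.mpr hη.out.pos) h0]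
    obtain ⟨d, hd⟩ := Nat.exists_eq_succ_of_ne_zero hη.out.ne_zero
    refine Finset.prod_eq_zero (i := d) (Finset.mem_range.mpr (by omega)) ?_
    rw [← Nat.succ_eq_add_one, ← hd, h2, h0]
  · rw [h2] at h1
    exact mul_right_cancel₀ h0 h1

theorem coeff_twistProd_of_not_dvd (hζ : IsPrimitiveRoot ζ η) (u : O⟦X⟧) {n : ℕ} (hn : ¬ η ∣ n) :
    coeff n (twistProd η ζ u) = 0 := by
  have h := congrArg (coeff n) (rescale_twistProd η ζ hζ.pow_eq_one u)
  rw [coeff_rescale] at h
  have h' : (ζ ^ n - 1) * coeff n (twistProd η ζ u) = 0 := by rw [sub_mul, h, one_mul, sub_self]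
  exact (mul_eq_zero.mp h').resolve_left
    (sub_ne_zero.mpr fun h1 => hn (hζ.pow_eq_one_iff_dvd n |>.mp h1))

/-- The norm: the series `N` with `N(X^η) = ∏ u(ζ^b X)`. -/
def normPow (u : O⟦X⟧) : O⟦X⟧ := mk fun n => coeff (η * n) (twistProd η ζ u)

variable {η ζ} (hζ : IsPrimitiveRoot ζ η)

include hζ in
theorem subPow_normPow (u : O⟦X⟧) : subPow η (normPow η ζ u) = twistProd η ζ u := by
  refine PowerSeries.ext fun n => ?_
  by_cases hn : η ∣ n
  · obtain ⟨k, rfl⟩ := hn
    rw [coeff_subPow_mul, normPow, coeff_mk]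
  · rw [coeff_subPow_of_not_dvd η _ hn, coeff_twistProd_of_not_dvd η ζ hζ u hn]

include hζ in
theorem normPow_mul (u v : O⟦X⟧) : normPow η ζ (u * v) = normPow η ζ u * normPow η ζ v :=
  subPow_injective η (by
    rw [subPow_normPow hζ, map_mul, map_mul, subPow_normPow hζ, subPow_normPow hζ])

include hζ in
theorem normPow_pow (u : O⟦X⟧) (k : ℕ) : normPow η ζ (u ^ k) = normPow η ζ u ^ k :=
  subPow_injective η (by rw [subPow_normPow hζ, map_pow, map_pow, subPow_normPow hζ])

theorem constantCoeff_normPow (u : O⟦X⟧) :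
    constantCoeff (normPow η ζ u) = constantCoeff u ^ η := by
  rw [← coeff_zero_eq_constantCoeff_apply, normPow, coeff_mk, mul_zero,
    coeff_zero_eq_constantCoeff_apply, constantCoeff_twistProd]

variable {π : O}

include hζ in
theorem normPow_sub_one_mem (hπη : π ∣ (η : O)) {k B : ℕ} (hk : 1 ≤ k) {u : O⟦X⟧}
    (hu : u - 1 ∈ nearIdeal π k (η * B)) : normPow η ζ u - 1 ∈ nearIdeal π (k + 1) B := by
  have hmem : twistProd η ζ u - 1 ∈ nearIdeal π (k + 1) (η * B) := by
    set w : ℕ → O⟦X⟧ := fun b => rescale (ζ ^ b) (u - 1)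
    have h1 := nearIdeal_mul_le hk (prod_one_add_sub_mem (Finset.range η)
      (nearIdeal π k (η * B)) w fun b _ => rescale_mem_nearIdeal _ hu)
    have h2 : ∑ b ∈ Finset.range η, w b ∈ nearIdeal π (k + 1) (η * B) := by
      refine mem_nearIdeal.mpr fun n hn => ?_
      simp only [w, map_sum, coeff_rescale, ← pow_mul, ← Finset.sum_mul]
      by_cases hd : η ∣ n
      · have : ∀ b ∈ Finset.range η, ζ ^ (b * n) = 1 := fun b _ => by
          rw [hζ.pow_eq_one_iff_dvd]; exact hd.mul_left b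
        rw [Finset.sum_congr rfl this, Finset.sum_const, Finset.card_range, nsmul_one, pow_succ']
        exact mul_dvd_mul hπη (mem_nearIdeal.mp hu n hn)
      · have h0 : (∑ b ∈ Finset.range η, (ζ ^ n) ^ b) * (ζ ^ n - 1) = 0 := by
          rw [geom_sum_mul, ← pow_mul, mul_comm n, pow_mul, hζ.pow_eq_one, one_pow, sub_self]
        have h3 := (mul_eq_zero.mp h0).resolve_right
          (sub_ne_zero.mpr fun h1 => hd (hζ.pow_eq_one_iff_dvd n |>.mp h1))
        simp only [← pow_mul, mul_comm n] at h3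
        rw [h3, zero_mul]
        exact dvd_zero _
    have h4 : twistProd η ζ u = ∏ b ∈ Finset.range η, (1 + w b) := by
      simp [w, twistProd_apply, map_sub]
    rw [h4]
    have h5 := add_mem h1 h2
    rwa [show ∏ i ∈ Finset.range η, (1 + w i) - (1 + ∑ i ∈ Finset.range η, w i) +
      ∑ b ∈ Finset.range η, w b = ∏ b ∈ Finset.range η, (1 + w b) - 1 by ring] at h5
  refine mem_nearIdeal.mpr fun n hn => ?_
  have h := mem_nearIdeal.mp hmem (η * n) (Nat.mul_lt_mul_of_pos_left hn hη.out.pos)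
  rw [map_sub, normPow, coeff_mk]
  rw [map_sub] at h
  convert h using 2
  simp [hη.out.ne_zero]

theorem subPow_sub_one_mem {k B : ℕ} {u : O⟦X⟧} (hu : u - 1 ∈ nearIdeal π k B) :
    subPow η u - 1 ∈ nearIdeal π k (η * B) := by
  rw [← map_one (subPow (O := O) η), ← map_sub]
  refine mem_nearIdeal.mpr fun n hn => ?_
  by_cases hd : η ∣ n
  · obtain ⟨j, rfl⟩ := hd
    rw [coeff_subPow_mul]
    exact mem_nearIdeal.mp hu j (Nat.lt_of_mul_lt_mul_left hn)
  · rw [coeff_subPow_of_not_dvd η _ hd]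
    exact dvd_zero _

include hζ in
/-- The norm is congruent to the Frobenius twist. -/
theorem dvd_coeff_normPow_sub (hπζ : π ∣ ζ - 1) (u : O⟦X⟧) (n : ℕ) :
    π ∣ coeff n (normPow η ζ u) - coeff (η * n) (u ^ η) := by
  have h : C π ∣ twistProd η ζ u - u ^ η := by
    rw [show u ^ η = ∏ _b ∈ Finset.range η, u by rw [Finset.prod_const, Finset.card_range],
      twistProd_apply]
    generalize Finset.range η = s
    induction s using Finset.induction with
    | empty => simp
    | insert b s hb ih =>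
      rw [Finset.prod_insert hb, Finset.prod_insert hb]
      rw [show rescale (ζ ^ b) u * ∏ i ∈ s, rescale (ζ ^ i) u - u * ∏ _i ∈ s, u =
        rescale (ζ ^ b) u * (∏ i ∈ s, rescale (ζ ^ i) u - ∏ _i ∈ s, u) +
          (rescale (ζ ^ b) u - u) * ∏ _i ∈ s, u by ring]
      refine dvd_add (ih.mul_left _) (Dvd.dvd.mul_right ?_ _)
      have hco : ∀ j, π ∣ coeff j (rescale (ζ ^ b) u - u) := fun j => by
        rw [map_sub, coeff_rescale, ← sub_one_mul, ← pow_mul]
        exact (dvd_trans hπζ (sub_one_dvd_pow_sub_one ζ _)).mul_right _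
      choose a ha using hco
      exact ⟨mk a, PowerSeries.ext fun j => by rw [ha, coeff_C_mul, coeff_mk]⟩
  obtain ⟨z, hz⟩ := h
  refine ⟨coeff (η * n) z, ?_⟩
  rw [normPow, coeff_mk, ← map_sub, hz, coeff_C_mul]

end Norm

/-! ## The iteration -/

section Trick

variable [IsDomain O] [CharZero O] {η : ℕ} [hη : Fact η.Prime] {ζ π : O}

/-- If `v (T s)` is the norm times the substitution of `v s` up to `η^K`-th powers, `T` is onto
and all `v s` are `1` modulo `π`, then every `v s` is an `η^K`-th power. -/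
theorem exists_root_of_surjective (hζ : IsPrimitiveRoot ζ η) (hπη : π ∣ (η : O)) {K A : ℕ}
    (hA : (η : O) ^ (2 * K + 1) ∣ π ^ A) {S : Type*} (T : S → S) (hT : Function.Surjective T)
    (v : S → O⟦X⟧) (hv0 : ∀ s, constantCoeff (v s) = 1) (h1 : ∀ s n, π ∣ coeff n (v s - 1))
    (hrel : ∀ s, ∃ y : O⟦X⟧, constantCoeff y = 1 ∧
      v (T s) * y ^ η ^ K = normPow η ζ (v s) * subPow η (v s))
    (s : S) : ∃ y : O⟦X⟧, constantCoeff y = 1 ∧ y ^ η ^ K = v s := by
  set m := η ^ K
  have key : ∀ k, 1 ≤ k → ∀ B (s : S), ∃ y : O⟦X⟧, constantCoeff y = 1 ∧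
      v s * y ^ m - 1 ∈ nearIdeal π k B := by
    intro k hk
    induction k, hk using Nat.le_induction with
    | base =>
      exact fun B s => ⟨1, by simp, mem_nearIdeal.mpr fun n _ => by
        rw [one_pow, mul_one, pow_one]; exact h1 s n⟩
    | succ k hk ih =>
      intro B
      induction B using Nat.strong_induction_on with
      | _ B ihB =>
        intro s
        rcases le_or_gt B 1 with hB | hB
        · refine ⟨1, by simp, mem_nearIdeal.mpr fun n hn => ?_⟩
          obtain rfl : n = 0 := by omega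
          simp [hv0]
        obtain ⟨t, rfl⟩ := hT s
        set B' := (B + η - 1) / η
        have hB'lt : B' < B := by
          have h2 := hη.out.two_le
          rw [Nat.div_lt_iff_lt_mul hη.out.pos]
          have h3 : B * 2 ≤ B * η := Nat.mul_le_mul_left B h2
          have h4 : 2 * η ≤ B * η := Nat.mul_le_mul_right η hB
          omega
        have hB'le : B ≤ η * B' := by
          have h2 := Nat.div_add_mod (B + η - 1) η
          have h3 := Nat.mod_lt (B + η - 1) hη.out.pos
          simp only [B']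
          omega
        obtain ⟨y1, hy10, hy1⟩ := ih (η * B) t
        obtain ⟨y2, hy20, hy2⟩ := ihB B' hB'lt t
        obtain ⟨y0, hy00, hy0⟩ := hrel t
        refine ⟨y0 * normPow η ζ y1 * subPow η y2, ?_, ?_⟩
        · rw [map_mul, map_mul, constantCoeff_normPow, constantCoeff_subPow, hy00, hy10, hy20]
          simp
        · rw [show v (T t) * (y0 * normPow η ζ y1 * subPow η y2) ^ m =
              normPow η ζ (v t * y1 ^ m) * subPow η (v t * y2 ^ m) by
            rw [normPow_mul hζ, normPow_pow hζ, map_mul, map_pow, mul_pow, mul_pow]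
            linear_combination (normPow η ζ y1 ^ m * subPow η y2 ^ m) * hy0]
          exact mul_sub_one_mem (normPow_sub_one_mem hζ hπη hk hy1)
            (nearIdeal_mono le_rfl hB'le (subPow_sub_one_mem hy2))
  have hm : 0 < m := pow_pos hη.out.pos K
  refine exists_root_of_forall hm fun B => ?_
  obtain ⟨y, hy0, hy⟩ := key (A + 1) (by omega) B s
  set w := v s * y ^ m
  have hw0 : constantCoeff w = 1 := by simp [w, hv0, hy0]
  let w' : O⟦X⟧ := mk fun n => if n < B then coeff n w else if n = 0 then 1 else 0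
  obtain ⟨r, hr0, hr⟩ := exists_root_of_near (η := η) (K := K) hη.out.pos (u := w') (by
      rw [← coeff_zero_eq_constantCoeff_apply, coeff_mk]
      split_ifs with h h'
      · rw [coeff_zero_eq_constantCoeff_apply, hw0]
      · rfl
      · exact absurd rfl h')
    (fun n => by
      rw [map_sub, coeff_mk, coeff_one]
      split_ifs with h h' h'
      · refine dvd_trans (dvd_trans hA (pow_dvd_pow π A.le_succ)) ?_
        simpa [coeff_one, h'] using mem_nearIdeal.mp hy n h
      · refine dvd_trans (dvd_trans hA (pow_dvd_pow π A.le_succ)) ?_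
        simpa [coeff_one, h'] using mem_nearIdeal.mp hy n h
      · simp
      · simp)
  let yi : O⟦X⟧ := invOfUnit y 1
  have hyi : y * yi = 1 := mul_invOfUnit y 1 (by simp [hy0])
  refine ⟨r * yi, by simp [yi, hr0], ?_⟩
  have : X ^ B ∣ w' - w := X_pow_dvd_iff.mpr fun n hn => by simp [w', hn]
  rw [mul_pow, hr, show w' * yi ^ m - v s = (w' - w) * yi ^ m + v s * ((y * yi) ^ m - 1) by
    simp only [w]; ring, hyi, one_pow, sub_self, mul_zero, add_zero]
  exact this.mul_right _

end Trick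

end Fermat.Agent.Mazur3
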