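import Fermat.Agent.Mazur3.SeriesTrick

/-!
# The unit part of a Laurent series with bounded coefficients

`HasUnitPart φ f u` says that `f` is a monomial times a distinguished polynomial times the unit
series `u`, normalised by `u(0) = 1`.
-/

set_option autoImplicit false

noncomputable section

namespace Fermat.Agent.Mazur3

open PowerSeries IsLocalRing

variable {O K : Type*} [CommRing O] [Field K] (φ : O →+* K)

/-- The image of a power series. -/
def toLaurent : O⟦X⟧ →+* LaurentSeries K :=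
  (HahnSeries.ofPowerSeries ℤ K).comp (PowerSeries.map φ)

theorem coeff_toLaurent_nat (f : O⟦X⟧) (n : ℕ) :
    (toLaurent φ f).coeff (n : ℤ) = φ (coeff n f) := by
  rw [toLaurent, RingHom.comp_apply, HahnSeries.ofPowerSeries_apply_coeff, coeff_map]

theorem coeff_toLaurent_neg (f : O⟦X⟧) {j : ℤ} (hj : j < 0) : (toLaurent φ f).coeff j = 0 := by
  rw [toLaurent, RingHom.comp_apply, HahnSeries.ofPowerSeries_apply,
    HahnSeries.embDomain_of_notMem_range]
  rintro ⟨k, hk⟩
  change (k : ℤ) = j at hk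
  omega

theorem toLaurent_injective {φ : O →+* K} (hφ : Function.Injective φ) :
    Function.Injective (toLaurent φ) :=
  fun f g h => by
    rw [toLaurent, RingHom.comp_apply, RingHom.comp_apply] at h
    exact map_injective φ hφ (HahnSeries.ofPowerSeries_injective h)

theorem toLaurent_X_pow (n : ℕ) :
    toLaurent φ (X ^ n) = HahnSeries.single (n : ℤ) 1 := by
  rw [toLaurent, RingHom.comp_apply, map_pow, map_X, HahnSeries.ofPowerSeries_X_pow]

theorem toLaurent_C (a : O) : toLaurent φ (C a) = HahnSeries.C (φ a) := by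
  rw [toLaurent, RingHom.comp_apply, map_C, HahnSeries.ofPowerSeries_C]

variable [IsLocalRing O]

/-- `f` is a monomial times a distinguished polynomial times `u`, and `u(0) = 1`. -/
def HasUnitPart (f : LaurentSeries K) (u : O⟦X⟧) : Prop :=
  constantCoeff u = 1 ∧ ∃ (c : K) (a : ℤ) (P : Polynomial O), c ≠ 0 ∧
    P.IsDistinguishedAt (maximalIdeal O) ∧
    f = HahnSeries.single a c * toLaurent φ ((P : O⟦X⟧) * u)

theorem isDistinguishedAt_X_pow (n : ℕ) :
    (Polynomial.X ^ n : Polynomial O).IsDistinguishedAt (maximalIdeal O) := by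
  refine ⟨⟨fun {i} hi => ?_⟩, Polynomial.monic_X_pow n⟩
  rw [Polynomial.natDegree_X_pow] at hi
  rw [Polynomial.coeff_X_pow, if_neg hi.ne]
  exact zero_mem _

theorem constantCoeff_isUnit {u : O⟦X⟧} (hu : constantCoeff u = 1) : IsUnit u :=
  isUnit_iff_constantCoeff.mpr (hu ▸ isUnit_one)

theorem isUnit_coeff_natDegree {P : Polynomial O} (hP : P.IsDistinguishedAt (maximalIdeal O))
    {u : O⟦X⟧} (hu : constantCoeff u = 1) : IsUnit (coeff P.natDegree ((P : O⟦X⟧) * u)) := by
  rw [← notMem_maximalIdeal, ← residue_eq_zero_iff, ← coeff_map, map_mul,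
    ← Polynomial.polynomial_map_coe]
  have h1 : P.map (residue O) = Polynomial.X ^ P.natDegree := hP.map_eq_X_pow
  rw [h1, Polynomial.coe_pow, Polynomial.coe_X, coeff_X_pow_mul', if_pos le_rfl, Nat.sub_self,
    coeff_zero_eq_constantCoeff_apply, ← coeff_zero_eq_constantCoeff_apply, coeff_map, coeff_zero_eq_constantCoeff_apply, hu, map_one]
  exact one_ne_zero

namespace HasUnitPart

variable {φ} {f f' : LaurentSeries K} {u u' : O⟦X⟧}

theorem constantCoeff_eq (h : HasUnitPart φ f u) : constantCoeff u = 1 := h.1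

theorem mul (h : HasUnitPart φ f u) (h' : HasUnitPart φ f' u') :
    HasUnitPart φ (f * f') (u * u') := by
  obtain ⟨hu, c, a, P, hc, hP, rfl⟩ := h
  obtain ⟨hu', c', a', P', hc', hP', rfl⟩ := h'
  refine ⟨by simp [hu, hu'], c * c', a + a', P * P', mul_ne_zero hc hc', hP.mul hP', ?_⟩
  rw [mul_mul_mul_comm, HahnSeries.single_mul_single, ← map_mul, Polynomial.coe_mul]
  congr 2
  ring

theorem one : HasUnitPart φ (1 : LaurentSeries K) (1 : O⟦X⟧) :=
  ⟨map_one _, 1, 0, 1, one_ne_zero, by simpa using isDistinguishedAt_X_pow (O := O) 0, by simp⟩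

theorem pow (h : HasUnitPart φ f u) : ∀ k : ℕ, HasUnitPart φ (f ^ k) (u ^ k)
  | 0 => by rw [pow_zero, pow_zero]; exact one
  | k + 1 => by rw [pow_succ, pow_succ]; exact (h.pow k).mul h

theorem monomial {c : K} (hc : c ≠ 0) (a : ℤ) :
    HasUnitPart φ (HahnSeries.single a c) (1 : O⟦X⟧) :=
  ⟨map_one _, c, a, 1, hc, by simpa using isDistinguishedAt_X_pow (O := O) 0, by simp⟩

/-- Shifting the monomial into the polynomial. -/
theorem exists_shift (hu : constantCoeff u = 1) {c : K} {a : ℤ} {P : Polynomial O}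
    (hP : P.IsDistinguishedAt (maximalIdeal O)) (b : ℤ) (hb : b ≤ a) :
    ∃ P' : Polynomial O, P'.IsDistinguishedAt (maximalIdeal O) ∧
      HahnSeries.single a c * toLaurent φ ((P : O⟦X⟧) * u) =
        HahnSeries.single b c * toLaurent φ ((P' : O⟦X⟧) * u) ∧ constantCoeff u = 1 := by
  obtain ⟨i, hi⟩ := Int.eq_ofNat_of_zero_le (sub_nonneg.mpr hb)
  refine ⟨Polynomial.X ^ i * P, (isDistinguishedAt_X_pow i).mul hP, ?_, hu⟩
  rw [Polynomial.coe_mul, Polynomial.coe_pow, Polynomial.coe_X, mul_assoc (X ^ i : O⟦X⟧),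
    map_mul (toLaurent φ) (X ^ i), toLaurent_X_pow, ← mul_assoc (HahnSeries.single b c),
    HahnSeries.single_mul_single, mul_one, show b + (i : ℤ) = a by omega]

theorem unique [IsHausdorff (maximalIdeal O) O] (hφ : Function.Injective φ)
    (h : HasUnitPart φ f u) (h' : HasUnitPart φ f u') : u = u' := by
  obtain ⟨hu, c, a, P, hc, hP, rfl⟩ := h
  obtain ⟨hu', c', a', P', hc', hP', he⟩ := h'
  obtain ⟨Q, hQ, hQe, -⟩ := exists_shift (φ := φ) (c := c) hu hP (min a a') (min_le_left _ _)
  obtain ⟨Q', hQ', hQe', -⟩ := exists_shift (φ := φ) (c := c') hu' hP' (min a a') (min_le_right _ _)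
  rw [hQe, hQe'] at he
  have hcoef : ∀ n : ℕ, c * φ (coeff n ((Q : O⟦X⟧) * u)) = c' * φ (coeff n ((Q' : O⟦X⟧) * u')) :=
    fun n => by
      have := congrArg (fun s : LaurentSeries K => s.coeff ((n : ℤ) + min a a')) he
      simpa only [HahnSeries.coeff_single_mul_add, coeff_toLaurent_nat] using this
  obtain ⟨x, hx⟩ := isUnit_coeff_natDegree hQ hu
  obtain ⟨x', hx'⟩ := isUnit_coeff_natDegree hQ' hu'
  have h1 : c = c' * φ (coeff Q.natDegree ((Q' : O⟦X⟧) * u') * ((x⁻¹ : Oˣ) : O)) := by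
    rw [map_mul, ← mul_assoc, ← hcoef, ← hx, mul_assoc, ← map_mul, Units.mul_inv, map_one, mul_one]
  have h2 : c' = c * φ (coeff Q'.natDegree ((Q : O⟦X⟧) * u) * ((x'⁻¹ : Oˣ) : O)) := by
    rw [map_mul, ← mul_assoc, hcoef, ← hx', mul_assoc, ← map_mul, Units.mul_inv, map_one, mul_one]
  set r := coeff Q.natDegree ((Q' : O⟦X⟧) * u') * ((x⁻¹ : Oˣ) : O) with hr
  set r' := coeff Q'.natDegree ((Q : O⟦X⟧) * u) * ((x'⁻¹ : Oˣ) : O) with hr'
  have hrr : r * r' = 1 := hφ (mul_left_cancel₀ hc (by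
    rw [map_mul, map_one, mul_one, mul_comm (φ r), ← mul_assoc, ← h2, ← h1]))
  have heq : (Q : O⟦X⟧) * (C r * u) = (Q' : O⟦X⟧) * u' := by
    refine PowerSeries.ext fun n => hφ ?_
    have := hcoef n
    rw [h1, mul_assoc, ← map_mul] at this
    rw [← mul_left_cancel₀ hc' this, mul_left_comm, coeff_C_mul]
  have hru : IsUnit (C r * u) :=
    ((IsUnit.of_mul_eq_one r' hrr).map _).mul (constantCoeff_isUnit hu)
  obtain ⟨-, h4⟩ := IsWeierstrassFactorization.elim (g := (Q : O⟦X⟧) * (C r * u))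
    ⟨hQ, hru, rfl⟩ ⟨hQ', constantCoeff_isUnit hu', heq⟩
  have h5 : r = 1 := by
    have := congrArg constantCoeff h4
    simpa [hu, hu'] using this
  rw [← h4, h5, map_one, one_mul]

end HasUnitPart

/-- A primitive series has a unit part, whose reduction is the reduction of the series divided by
its leading term. -/
theorem exists_hasUnitPart [IsAdicComplete (maximalIdeal O) O] {c : K} (hc : c ≠ 0)
    (hφ : Function.Injective φ) (a : ℤ) {g : O⟦X⟧} (hg : g.map (residue O) ≠ 0) :
    ∃ (u : O⟦X⟧) (e : O) (d : ℕ), IsUnit e ∧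
      HasUnitPart φ (HahnSeries.single a c * toLaurent φ g) u ∧
      g.map (residue O) = C (residue O e) * X ^ d * u.map (residue O) := by
  obtain ⟨P, h, H⟩ := exists_isWeierstrassFactorization hg
  obtain ⟨e, he⟩ := isUnit_iff_constantCoeff.mp H.isUnit
  set u := C ((e⁻¹ : Oˣ) : O) * h with hu
  have hh : h = C (e : O) * u := by rw [hu, ← mul_assoc, ← map_mul, Units.mul_inv, map_one, one_mul]
  refine ⟨u, e, P.natDegree, e.isUnit, ⟨?_, c * φ e, a, P, ?_, H.isDistinguishedAt, ?_⟩, ?_⟩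
  · rw [hu, map_mul, constantCoeff_C, ← he, Units.inv_mul]
  · exact mul_ne_zero hc ((map_ne_zero_iff φ hφ).mpr e.isUnit.ne_zero)
  · rw [H.eq_mul, hh, mul_left_comm, map_mul, toLaurent_C, ← mul_assoc, HahnSeries.C_apply,
      HahnSeries.single_mul_single, add_zero]
  · rw [H.eq_mul, hh, map_mul, map_mul, map_C, ← Polynomial.polynomial_map_coe,
      show P.map (residue O) = Polynomial.X ^ P.natDegree from H.isDistinguishedAt.map_eq_X_pow,
      Polynomial.coe_pow, Polynomial.coe_X]
    ring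

/-- Two reduced unit parts of congruent series agree. -/
theorem map_unit_eq_of_red_eq {k : Type*} [Field k] {e e' : k} {d d' : ℕ} {u u' : k⟦X⟧}
    (he : e ≠ 0) (hu : constantCoeff u = 1) (hu' : constantCoeff u' = 1)
    (h : C e * X ^ d * u = C e' * X ^ d' * u') : u = u' := by
  wlog hdd : d ≤ d' generalizing e e' d d' u u'
  · refine (this (e := e') (e' := e) ?_ hu' hu h.symm (Nat.le_of_not_le hdd)).symm
    rintro rfl
    rw [map_zero, zero_mul, zero_mul] at h
    have h1 := congrArg (coeff d) h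
    rw [mul_assoc, coeff_C_mul, coeff_X_pow_mul', if_pos le_rfl, Nat.sub_self,
      coeff_zero_eq_constantCoeff_apply, hu, mul_one, map_zero] at h1
    exact he h1
  have h1 := congrArg (coeff d) h
  rw [mul_assoc, coeff_C_mul, mul_assoc, coeff_C_mul, coeff_X_pow_mul', coeff_X_pow_mul',
    if_pos le_rfl, Nat.sub_self, coeff_zero_eq_constantCoeff_apply, hu, mul_one] at h1
  split_ifs at h1 with h2
  · obtain rfl := le_antisymm hdd h2
    rw [Nat.sub_self, coeff_zero_eq_constantCoeff_apply, hu', mul_one] at h1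
    subst h1
    exact mul_left_cancel₀ (mul_ne_zero ((map_ne_zero_iff C C_injective).mpr he)
      (pow_ne_zero d X_ne_zero)) h
  · rw [mul_zero] at h1
    exact absurd h1 he

end Fermat.Agent.Mazur3
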