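import Fermat.Agent.Mazur3.UnitPart
import Fermat.Agent.GalRep.KummerHecke

/-!
# Unit parts and the substitutions `X ↦ X^η`, `X ↦ ζ X`
-/

set_option autoImplicit false

noncomputable section

namespace Fermat.Agent.Mazur3

open PowerSeries IsLocalRing
open GalRep (expand twist expand_coeff_mul expand_coeff_of_not_dvd twist_coeff)

variable {O K : Type*} [CommRing O] [Field K] (φ : O →+* K) {η : ℕ} [hη : Fact η.Prime]

theorem expand_toLaurent (g : O⟦X⟧) :
    expand η hη.out.ne_zero (toLaurent φ g) = toLaurent φ (subPow η g) := by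
  ext j
  by_cases hj : (η : ℤ) ∣ j
  · obtain ⟨i, rfl⟩ := hj
    rw [expand_coeff_mul]
    rcases lt_or_ge i 0 with hi | hi
    · rw [coeff_toLaurent_neg φ _ hi, coeff_toLaurent_neg φ _
        (mul_neg_of_pos_of_neg (by exact_mod_cast hη.out.pos) hi)]
    · obtain ⟨n, rfl⟩ := Int.eq_ofNat_of_zero_le hi
      rw [coeff_toLaurent_nat, ← Nat.cast_mul, coeff_toLaurent_nat, coeff_subPow_mul]
  · rw [expand_coeff_of_not_dvd _ _ _ _ hj]
    rcases lt_or_ge j 0 with hi | hi
    · rw [coeff_toLaurent_neg φ _ hi]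
    · obtain ⟨n, rfl⟩ := Int.eq_ofNat_of_zero_le hi
      rw [coeff_toLaurent_nat, coeff_subPow_of_not_dvd η _ (fun h => hj (by exact_mod_cast h)),
        map_zero]

theorem expand_single_eq (a : ℤ) (c : K) :
    expand η hη.out.ne_zero (HahnSeries.single a c) = HahnSeries.single ((η : ℤ) * a) c := by
  ext j
  by_cases hj : (η : ℤ) ∣ j
  · obtain ⟨i, rfl⟩ := hj
    rw [expand_coeff_mul]
    rcases eq_or_ne i a with rfl | h
    · rw [HahnSeries.coeff_single_same, HahnSeries.coeff_single_same]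
    · rw [HahnSeries.coeff_single_of_ne h, HahnSeries.coeff_single_of_ne fun h' =>
        h (mul_left_cancel₀ (Int.natCast_ne_zero.mpr hη.out.ne_zero) h')]
  · rw [expand_coeff_of_not_dvd _ _ _ _ hj, HahnSeries.coeff_single_of_ne]
    rintro rfl
    exact hj (dvd_mul_right _ _)

theorem twist_toLaurent {ζ : Kˣ} {z : O} (hz : φ z = ζ) (g : O⟦X⟧) :
    twist ζ (toLaurent φ g) = toLaurent φ (rescale z g) := by
  ext j
  rw [twist_coeff]
  rcases lt_or_ge j 0 with hi | hi
  · rw [coeff_toLaurent_neg φ _ hi, coeff_toLaurent_neg φ _ hi, zero_mul]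
  · obtain ⟨n, rfl⟩ := Int.eq_ofNat_of_zero_le hi
    rw [coeff_toLaurent_nat, coeff_toLaurent_nat, coeff_rescale, map_mul, map_pow, hz,
      zpow_natCast, Units.val_pow_eq_pow_val, mul_comm]

theorem twist_single_eq (ζ : Kˣ) (a : ℤ) (c : K) :
    twist ζ (HahnSeries.single a c) = HahnSeries.single a (c * ((ζ ^ a : Kˣ) : K)) := by
  ext j
  rw [twist_coeff]
  rcases eq_or_ne j a with rfl | h
  · simp
  · simp [HahnSeries.coeff_single_of_ne h]

theorem subPow_coe (P : Polynomial O) :
    subPow η (P : O⟦X⟧) = (Polynomial.expand O η P : Polynomial O) := by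
  refine PowerSeries.ext fun n => ?_
  by_cases hn : η ∣ n
  · obtain ⟨i, rfl⟩ := hn
    rw [coeff_subPow_mul, Polynomial.coeff_coe, Polynomial.coeff_coe,
      Polynomial.coeff_expand_mul' hη.out.pos]
  · rw [coeff_subPow_of_not_dvd η _ hn, Polynomial.coeff_coe,
      Polynomial.coeff_expand hη.out.pos, if_neg hn]

variable [IsLocalRing O]

theorem isDistinguishedAt_expand {P : Polynomial O}
    (hP : P.IsDistinguishedAt (maximalIdeal O)) :
    (Polynomial.expand O η P).IsDistinguishedAt (maximalIdeal O) := by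
  refine ⟨⟨fun {i} hi => ?_⟩, hP.monic.expand hη.out.pos⟩
  rw [Polynomial.natDegree_expand] at hi
  rw [Polynomial.coeff_expand hη.out.pos]
  split_ifs with h
  · exact hP.mem (Nat.div_lt_of_lt_mul (by rwa [mul_comm] at hi))
  · exact zero_mem _

theorem exists_rescale_eq {P : Polynomial O} (hP : P.IsDistinguishedAt (maximalIdeal O))
    (z : Oˣ) : ∃ P' : Polynomial O, P'.IsDistinguishedAt (maximalIdeal O) ∧
      rescale (z : O) (P : O⟦X⟧) = C ((z : O) ^ P.natDegree) * (P' : O⟦X⟧) := by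
  set d := P.natDegree
  let P' : Polynomial O :=
    ∑ i ∈ Finset.range (d + 1), Polynomial.monomial i (P.coeff i * ((z⁻¹ : Oˣ) : O) ^ (d - i))
  have hc : ∀ i, P'.coeff i = if i ≤ d then P.coeff i * ((z⁻¹ : Oˣ) : O) ^ (d - i) else 0 := by
    intro i
    simp only [P', Polynomial.finsetSum_coeff, Polynomial.coeff_monomial, Finset.sum_ite_eq',
      Finset.mem_range, Nat.lt_succ_iff]
  have hd : P'.coeff d = 1 := by rw [hc, if_pos le_rfl, hP.monic.coeff_natDegree]; simp
  have hle : P'.natDegree ≤ d :=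
    Polynomial.natDegree_le_iff_coeff_eq_zero.mpr fun i hi => by
      rw [hc, if_neg (not_le.mpr hi)]
  have hdeg : P'.natDegree = d :=
    le_antisymm hle (Polynomial.le_natDegree_of_ne_zero (by rw [hd]; exact one_ne_zero))
  refine ⟨P', ⟨⟨fun {i} hi => ?_⟩, ?_⟩, PowerSeries.ext fun i => ?_⟩
  · rw [hdeg] at hi
    rw [hc, if_pos hi.le]
    exact Ideal.mul_mem_right _ _ (hP.mem hi)
  · exact Polynomial.monic_of_natDegree_le_of_coeff_eq_one d hle hd
  · rw [coeff_rescale, coeff_C_mul, Polynomial.coeff_coe, Polynomial.coeff_coe, hc]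
    split_ifs with h
    · obtain ⟨k, hk⟩ := Nat.exists_eq_add_of_le h
      rw [show d - i = k by omega, hk, pow_add]
      calc (z : O) ^ i * P.coeff i = (z : O) ^ i * P.coeff i * ((z : O) * ((z⁻¹ : Oˣ) : O)) ^ k := by
            rw [Units.mul_inv, one_pow, mul_one]
        _ = _ := by rw [mul_pow]; ring
    · rw [Polynomial.coeff_eq_zero_of_natDegree_lt (not_le.mp h), mul_zero, mul_zero]

variable {φ}

theorem HasUnitPart.expand_of {f : LaurentSeries K} {u : O⟦X⟧} (h : HasUnitPart φ f u) :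
    HasUnitPart φ (expand η hη.out.ne_zero f) (subPow η u) := by
  obtain ⟨hu, c, a, P, hc, hP, rfl⟩ := h
  refine ⟨by rw [constantCoeff_subPow, hu], c, (η : ℤ) * a, Polynomial.expand O η P, hc,
    isDistinguishedAt_expand hP, ?_⟩
  rw [map_mul, expand_single_eq, expand_toLaurent, map_mul, subPow_coe]

theorem HasUnitPart.twist_of (hφ : Function.Injective φ) {f : LaurentSeries K} {u : O⟦X⟧}
    (h : HasUnitPart φ f u) {ζ : Kˣ} (z : Oˣ) (hz : φ z = ζ) :
    HasUnitPart φ (twist ζ f) (rescale (z : O) u) := by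
  obtain ⟨hu, c, a, P, hc, hP, rfl⟩ := h
  obtain ⟨P', hP', hPe⟩ := exists_rescale_eq hP z
  refine ⟨by rw [constantCoeff_rescale_apply, hu],
    c * ((ζ ^ a : Kˣ) : K) * φ ((z : O) ^ P.natDegree), a, P', ?_, hP', ?_⟩
  · exact mul_ne_zero (mul_ne_zero hc (Units.ne_zero _))
      ((map_ne_zero_iff φ hφ).mpr (z.isUnit.pow _).ne_zero)
  · rw [map_mul (twist ζ), twist_single_eq, twist_toLaurent φ hz, map_mul (rescale (z : O)), hPe,
      mul_assoc (C _), map_mul (toLaurent φ) (C _), toLaurent_C, ← mul_assoc, HahnSeries.C_apply,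
      HahnSeries.single_mul_single, add_zero]

theorem HasUnitPart.prod {ι : Type*} (s : Finset ι) {f : ι → LaurentSeries K} {u : ι → O⟦X⟧}
    (h : ∀ i ∈ s, HasUnitPart φ (f i) (u i)) :
    HasUnitPart φ (∏ i ∈ s, f i) (∏ i ∈ s, u i) := by
  classical
  induction s using Finset.induction with
  | empty => simpa using HasUnitPart.one
  | insert i s hi ih =>
    rw [Finset.prod_insert hi, Finset.prod_insert hi]
    exact (h i (Finset.mem_insert_self _ _)).mul
      (ih fun j hj => h j (Finset.mem_insert_of_mem hj))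

end Fermat.Agent.Mazur3
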