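import Fermat.Agent.Moduli.Uniform

/-!
# The quotient of a complex torus by a cyclic subgroup

For lattices `L ⊆ L'` with `L' = L + ℤ w` of odd prime index `p`: the formula for `℘` of `L'` by
translates, its consequence for `g₂`, and the product formula for the discriminant.
-/

set_option autoImplicit false
set_option linter.style.haveILetI false

noncomputable section

namespace Fermat.Agent.Mazur3

open Filter Topology PeriodPair Fermat.Agent.GalRep.Model Fermat.Agent.Moduli

/-- A function periodic and holomorphic off the lattice, with a limit at `0`, is constant. -/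
theorem eq_of_periodic_of_tendsto (L : PeriodPair) {f : ℂ → ℂ}
    (hper : ∀ z, z ∉ L.lattice → ∀ l ∈ L.lattice, f (z + l) = f z)
    (han : ∀ z, z ∉ L.lattice → DifferentiableAt ℂ f z) {v : ℂ}
    (h0 : Tendsto f (𝓝[≠] 0) (𝓝 v)) {z : ℂ} (hz : z ∉ L.lattice) : f z = v := by
  classical
  set F : ℂ → ℂ := fun x => if x ∈ L.lattice then v else f x with hF
  have hFper : ∀ x, ∀ l ∈ L.lattice, F (x + l) = F x := by
    intro x l hl
    have hiff : x + l ∈ L.lattice ↔ x ∈ L.lattice := L.lattice.add_mem_iff_left hl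
    by_cases hx : x ∈ L.lattice
    · simp [hF, hx, hiff.2 hx]
    · simp [hF, hx, mt hiff.1 hx, hper x hx l hl]
  have hFoff : ∀ x, x ∉ L.lattice → DifferentiableAt ℂ F x := fun x hx => by
    refine (han x hx).congr_of_eventuallyEq ?_
    filter_upwards [L.isClosed_lattice.isOpen_compl.mem_nhds hx] with y hy
    simp [hF, show y ∉ L.lattice from hy]
  have hcont0 : ContinuousAt F 0 := by
    rw [← continuousWithinAt_compl_self]
    show Tendsto F (𝓝[≠] 0) (𝓝 (F 0))
    rw [show F 0 = v by simp [hF]]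
    refine h0.congr' ?_
    filter_upwards [eventually_notMem_lattice L] with y hy
    simp [hF, hy]
  have hdiff : Differentiable ℂ F := by
    intro x
    by_cases hx : x ∈ L.lattice
    · have hd0 : DifferentiableAt ℂ F 0 := by
        refine (Complex.analyticAt_of_differentiable_on_punctured_nhds_of_continuousAt ?_
          hcont0).differentiableAt
        filter_upwards [eventually_notMem_lattice L] with y hy using hFoff y hy
      have hF0 : F = fun y => F (y + (-x)) := funext fun y => (hFper y _ (L.lattice.neg_mem hx)).symm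
      rw [hF0]
      have hd0' : DifferentiableAt ℂ F (x + (-x)) := by rwa [add_neg_cancel]
      exact hd0'.comp x (differentiableAt_id.add_const (-x))
    · exact hFoff x hx
  have := hdiff.apply_eq_apply_of_bounded (IsZLattice.isCompact_range_of_periodic L.lattice _
    hdiff.continuous fun x l hl => hFper x l hl).isBounded z 0
  simpa [hF, hz] using this

/-- `L' = L + ℤ w` with `p w ∈ L`, `w ∉ L`. -/
structure IsCyclicExt (L L' : PeriodPair) (p : ℕ) (w : ℂ) : Prop where
  le : L.lattice ≤ L'.lattice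
  mem : w ∈ L'.lattice
  mul_mem : (p : ℂ) * w ∈ L.lattice
  notMem : w ∉ L.lattice
  decomp : ∀ l ∈ L'.lattice, ∃ k : ℤ, l - (k : ℂ) * w ∈ L.lattice

variable {L L' : PeriodPair} {p : ℕ} [hp : Fact p.Prime] {w : ℂ}

theorem intCast_mul_mem (L : PeriodPair) (k : ℤ) {z : ℂ} (hz : z ∈ L.lattice) :
    (k : ℂ) * z ∈ L.lattice := by
  have := L.lattice.smul_mem k hz
  rwa [zsmul_eq_mul] at this

namespace IsCyclicExt

variable (h : IsCyclicExt L L' p w)
include h

theorem int_mul_mem_iff (k : ℤ) : (k : ℂ) * w ∈ L.lattice ↔ (p : ℤ) ∣ k := by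
  constructor
  · intro hk
    by_contra hdvd
    obtain ⟨a, b, hab⟩ : IsCoprime (p : ℤ) k :=
      (Nat.prime_iff_prime_int.1 hp.out).irreducible.coprime_iff_not_dvd.2 hdvd
    refine h.notMem ?_
    have e : w = (a : ℂ) * ((p : ℂ) * w) + (b : ℂ) * ((k : ℂ) * w) := by
      have := congrArg (fun n : ℤ => (n : ℂ)) hab
      push_cast at this
      linear_combination (-w) * this
    rw [e]
    exact L.lattice.add_mem (intCast_mul_mem L a h.mul_mem) (intCast_mul_mem L b hk)
  · rintro ⟨m, rfl⟩
    have := intCast_mul_mem L m h.mul_mem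
    push_cast
    rwa [show (p : ℂ) * (m : ℂ) * w = (m : ℂ) * ((p : ℂ) * w) by ring]

theorem nat_mul_notMem {k : ℕ} (hk : k ∈ Finset.Ico 1 p) : (k : ℂ) * w ∉ L.lattice := by
  rw [Finset.mem_Ico] at hk
  intro hm
  have := (h.int_mul_mem_iff k).1 (by simpa using hm)
  have := Nat.le_of_dvd (by omega) (Int.natCast_dvd_natCast.1 this)
  omega

theorem add_notMem {z : ℂ} (hz : z ∉ L'.lattice) (k : ℕ) : z + (k : ℂ) * w ∉ L.lattice := by
  intro hm
  refine hz ?_
  have := L'.lattice.sub_mem (h.le hm) (intCast_mul_mem L' k h.mem)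
  simpa using this

theorem notMem_of_notMem {z : ℂ} (hz : z ∉ L'.lattice) : z ∉ L.lattice := fun hm => hz (h.le hm)

omit hp in
/-- Functions invariant under `L` and `w` are invariant under `L'`. -/
theorem periodic {F : ℂ → ℂ} (hL : ∀ z, ∀ l ∈ L.lattice, F (z + l) = F z)
    (hw : ∀ z, F (z + w) = F z) (z : ℂ) {l : ℂ} (hl : l ∈ L'.lattice) : F (z + l) = F z := by
  obtain ⟨k, hk⟩ := h.decomp l hl
  have hz : ∀ (k : ℤ) (x : ℂ), F (x + (k : ℂ) * w) = F x := by
    intro k
    induction k using Int.induction_on with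
    | zero => simp
    | succ i ih =>
      intro x
      rw [Int.cast_add, add_mul, Int.cast_one, one_mul, ← add_assoc, hw, ih]
    | pred i ih =>
      intro x
      have h2 := hw (x + ((-(i : ℤ) - 1 : ℤ) : ℂ) * w)
      rw [← ih x, ← h2]
      congr 1
      push_cast
      ring
  rw [show z + l = (z + (k : ℂ) * w) + (l - (k : ℂ) * w) by ring, hL _ _ hk, hz]

/-- Invariance of the translate family. -/
theorem range_translate {M : Type*} [CommMonoid M] {f : ℂ → M}
    (hf : ∀ z, ∀ l ∈ L.lattice, f (z + l) = f z) (z : ℂ) :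
    ∏ k ∈ Finset.range p, f (z + w + (k : ℂ) * w) = ∏ k ∈ Finset.range p, f (z + (k : ℂ) * w) := by
  have e : ∀ k : ℕ, f (z + w + (k : ℂ) * w) = f (z + ((k + 1 : ℕ) : ℂ) * w) := fun k => by
    congr 1; push_cast; ring
  simp only [e]
  obtain ⟨m, rfl⟩ : ∃ m, p = m + 1 := ⟨p - 1, by have := hp.out.pos; omega⟩
  rw [Finset.prod_range_succ, Finset.prod_range_succ' (fun k : ℕ => f (z + (k : ℂ) * w))]
  congr 1
  rw [hf z _ h.mul_mem]
  simp

/-- `℘` of the larger lattice as a sum of translates. -/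
theorem weierstrassP_eq {z : ℂ} (hz : z ∉ L'.lattice) :
    L'.weierstrassP z = L.weierstrassP z +
      ∑ k ∈ Finset.Ico 1 p, (L.weierstrassP (z + (k : ℂ) * w) - L.weierstrassP ((k : ℂ) * w)) := by
  have hsplit : ∀ x : ℂ, ∑ k ∈ Finset.range p, L.weierstrassP (x + (k : ℂ) * w) =
      L.weierstrassP x + ∑ k ∈ Finset.Ico 1 p, L.weierstrassP (x + (k : ℂ) * w) := fun x => by
    rw [Finset.range_eq_Ico, Finset.sum_eq_sum_Ico_succ_bot hp.out.pos]
    simp
  set G : ℂ → ℂ := fun x => ∑ k ∈ Finset.range p, L.weierstrassP (x + (k : ℂ) * w) -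
    ∑ k ∈ Finset.Ico 1 p, L.weierstrassP ((k : ℂ) * w) - L'.weierstrassP x with hG
  have hGsplit : ∀ x, G x = L.weierstrassP x - L'.weierstrassP x +
      ∑ k ∈ Finset.Ico 1 p, (L.weierstrassP (x + (k : ℂ) * w) - L.weierstrassP ((k : ℂ) * w)) :=
    fun x => by simp only [hG, hsplit, Finset.sum_sub_distrib]; ring
  have hcongr : ∀ x : ℂ, ∀ l ∈ L.lattice, L.weierstrassP (x + l) = L.weierstrassP x :=
    fun x l hl => L.weierstrassP_add_coe x ⟨l, hl⟩
  have hsum : ∀ x, ∀ l ∈ L'.lattice, ∑ k ∈ Finset.range p, L.weierstrassP (x + l + (k : ℂ) * w) =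
      ∑ k ∈ Finset.range p, L.weierstrassP (x + (k : ℂ) * w) := fun x l hl =>
    h.periodic (F := fun x => ∑ k ∈ Finset.range p, L.weierstrassP (x + (k : ℂ) * w))
      (fun x l hl => Finset.sum_congr rfl fun k _ => by
        rw [add_right_comm, hcongr _ _ hl])
      (fun x => h.range_translate (M := Multiplicative ℂ)
        (f := fun y => Multiplicative.ofAdd (L.weierstrassP y))
        (fun y l hl => by rw [hcongr _ _ hl]) x) x hl
  have key : G z = 0 := by
    refine eq_of_periodic_of_tendsto L' (fun x _ l hl => ?_) (fun x hx => ?_) ?_ hz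
    · simp only [hG, hsum x l hl, L'.weierstrassP_add_coe x ⟨l, hl⟩]
    · refine ((DifferentiableAt.fun_sum fun k _ => ?_).sub_const _).sub
        (hasDerivAt_wp L' hx).differentiableAt
      exact (hasDerivAt_wp L (h.add_notMem hx k)).differentiableAt.comp x
        (differentiableAt_id.add_const _)
    · have hE : ContinuousAt (fun x => L.weierstrassPExcept 0 x - L'.weierstrassPExcept 0 x +
          ∑ k ∈ Finset.Ico 1 p, (L.weierstrassP (x + (k : ℂ) * w) - L.weierstrassP ((k : ℂ) * w)))
          0 := by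
        refine (((L.analyticAt_weierstrassPExcept 0).continuousAt).sub
          (L'.analyticAt_weierstrassPExcept 0).continuousAt).add ?_
        refine tendsto_finsetSum _ fun k hk => ?_
        exact ((L.analyticOnNhd_weierstrassP _ (h.nat_mul_notMem hk)).continuousAt.comp_of_eq
          (continuousAt_id.add continuousAt_const) (zero_add _)).sub continuousAt_const
      have h0 := hE.tendsto.mono_left (nhdsWithin_le_nhds (s := {(0 : ℂ)}ᶜ))
      simp only [weierstrassPExcept_zero, sub_self, zero_add, Finset.sum_const_zero, add_zero] at h0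
      refine h0.congr' (eventually_nhdsWithin_of_forall fun x hx => ?_)
      rw [hGsplit, weierstrassP_eq_except L x, weierstrassP_eq_except L' x]
      ring
  rw [hGsplit] at key
  linear_combination -key

/-- `g₂` of the larger lattice. -/
theorem g₂_eq : L'.g₂ = L.g₂ + 10 * ∑ k ∈ Finset.Ico 1 p,
    (6 * L.weierstrassP ((k : ℂ) * w) ^ 2 - L.g₂ / 2) := by
  set E := L.weierstrassPExcept 0 with hEdef
  set E' := L'.weierstrassPExcept 0 with hE'def
  have hev : ∀ᶠ x in 𝓝 (0 : ℂ), ∀ k ∈ Finset.Ico 1 p, x + (k : ℂ) * w ∉ L.lattice := by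
    refine (Finset.eventually_all _).2 fun k hk => ?_
    exact ((L.isClosed_lattice.preimage (continuous_add_const _)).isOpen_compl).mem_nhds
      (show (0 : ℂ) + (k : ℂ) * w ∉ (L.lattice : Set ℂ) by simpa using h.nat_mul_notMem hk)
  have heq : E' =ᶠ[𝓝 0] fun x => E x +
      ∑ k ∈ Finset.Ico 1 p, (L.weierstrassP (x + (k : ℂ) * w) - L.weierstrassP ((k : ℂ) * w)) := by
    rw [EventuallyEq, ← nhdsNE_sup_pure (0 : ℂ), eventually_sup, eventually_pure]
    refine ⟨?_, ?_⟩
    · filter_upwards [eventually_notMem_lattice L'] with x hx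
      have := h.weierstrassP_eq hx
      rw [weierstrassP_eq_except L x, weierstrassP_eq_except L' x] at this
      simp only [hEdef, hE'def]
      linear_combination this
    · simp [hEdef, hE'def]
  have hd1 : deriv E' =ᶠ[𝓝 0] fun x => deriv E x +
      ∑ k ∈ Finset.Ico 1 p, L.derivWeierstrassP (x + (k : ℂ) * w) := by
    refine heq.deriv.trans ?_
    filter_upwards [hev, (L.analyticAt_weierstrassPExcept 0).eventually_analyticAt] with x hx hxa
    refine (hxa.differentiableAt.hasDerivAt.add (HasDerivAt.fun_sum fun k hk => ?_)).deriv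
    exact ((hasDerivAt_wp L (hx k hk)).comp_add_const x _).sub_const _
  have hd2 : deriv (deriv E') 0 = deriv (deriv E) 0 +
      ∑ k ∈ Finset.Ico 1 p, (6 * L.weierstrassP ((k : ℂ) * w) ^ 2 - L.g₂ / 2) := by
    rw [hd1.deriv_eq]
    refine ((L.analyticAt_weierstrassPExcept 0).deriv.differentiableAt.hasDerivAt.add
      (HasDerivAt.fun_sum fun k hk => ?_)).deriv
    have h0 : (0 : ℂ) + (k : ℂ) * w ∉ L.lattice := by simpa using h.nat_mul_notMem hk
    simpa using (hasDerivAt_wp' h0).comp_add_const (0 : ℂ) ((k : ℂ) * w)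
  have hG : ∀ M : PeriodPair, deriv (deriv (M.weierstrassPExcept 0)) 0 = 6 * M.G 4 := fun M => by
    have h2 := M.iteratedDeriv_weierstrassPExcept_self 0 (n := 2)
    rw [iteratedDeriv_succ, iteratedDeriv_one] at h2
    rw [h2]
    simp [Nat.factorial]
  rw [hEdef, hE'def, hG, hG] at hd2
  rw [g₂, g₂]
  simp only [g₂] at hd2
  linear_combination 10 * hd2

end IsCyclicExt

/-! ## Half periods -/

/-- The roots' derivative values of the Weierstrass cubic. -/
def cubicDeriv (L : PeriodPair) (e : ℂ) : ℂ := 3 * e ^ 2 - L.g₂ / 4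

/-- The discriminant of a lattice. -/
def latDisc (L : PeriodPair) : ℂ := L.g₂ ^ 3 - 27 * L.g₃ ^ 2

theorem prod_cubicDeriv (P : HalfPeriods L) :
    ∏ i, cubicDeriv L (P.e i) = -latDisc L / 16 := by
  have hc0 := P.cubic_eq 0
  have hc1 := P.cubic_eq 1
  have hc2 := P.cubic_eq (-1)
  have s1 : P.e 2 = -P.e 0 - P.e 1 := by linear_combination (hc1 + hc2 - 2 * hc0) / 8
  rw [s1] at hc0 hc1 hc2
  have s3 : L.g₃ = -(4 * P.e 0 * P.e 1 * (P.e 0 + P.e 1)) := by linear_combination -hc0
  have s2 : L.g₂ = 4 * (P.e 0 ^ 2 + P.e 0 * P.e 1 + P.e 1 ^ 2) := by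
    linear_combination -hc1 / 2 + hc2 / 2
  rw [Fin.prod_univ_three, s1, latDisc, cubicDeriv, cubicDeriv, cubicDeriv, s2, s3]
  ring

/-- `℘'` at a half period translate. -/
theorem derivWeierstrassP_half_add (P : HalfPeriods L) (i : Fin 3) {u : ℂ} (hu : u ∉ L.lattice)
    (hu' : L.derivWeierstrassP u ≠ 0) :
    L.derivWeierstrassP (P.h i + u) =
      -cubicDeriv L (P.e i) * L.derivWeierstrassP u / (L.weierstrassP u - P.e i) ^ 2 := by
  have hne : L.weierstrassP (P.h i) ≠ L.weierstrassP u := fun e => hu' (by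
    have := L.derivWeierstrassP_sq u hu
    rw [← e] at this
    have hc := P.cubic_eq_zero i
    rw [HalfPeriods.e] at hc
    rw [hc] at this
    exact pow_eq_zero_iff two_ne_zero |>.1 this)
  obtain ⟨hx, hy⟩ := weierstrassP_add (P.notMem i) hu hne
  have hq := L.derivWeierstrassP_sq u hu
  have hc := P.cubic_eq_zero i
  have h0 : L.weierstrassP (P.h i) = P.e i := rfl
  rw [wpSlope, P.deriv_eq_zero, h0] at hx hy
  rw [h0] at hne
  have hd : L.weierstrassP u - P.e i ≠ 0 := sub_ne_zero.2 hne.symm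
  have hd' : P.e i - L.weierstrassP u ≠ 0 := sub_ne_zero.2 hne
  rw [cubicDeriv]
  generalize L.derivWeierstrassP u = q at hx hy hq ⊢
  generalize L.weierstrassP (P.h i + u) = X at hx hy ⊢
  generalize L.derivWeierstrassP (P.h i + u) = Y at hy ⊢
  generalize L.weierstrassP u = x at hx hy hq hd hd' ⊢
  generalize P.e i = e at hx hy hd hd' hc ⊢
  have hs : (0 - q) / (e - x) = q / (x - e) := by
    rw [div_eq_div_iff hd' hd]; ring
  rw [hs] at hx hy
  have hY : Y = -(q / (x - e) * ((q / (x - e)) ^ 2 / 4 - e - x - e)) := by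
    rw [hx] at hy; linear_combination (-1 : ℂ) * hy
  have key : q ^ 2 - 4 * (x - e) ^ 2 * (2 * e + x) = 4 * (3 * e ^ 2 - L.g₂ / 4) * (x - e) := by
    linear_combination hq + hc
  calc Y = -(q * (q ^ 2 - 4 * (x - e) ^ 2 * (2 * e + x))) / (4 * (x - e) ^ 3) := by
        rw [hY]; field_simp; ring
    _ = _ := by rw [key]; field_simp

theorem prod_half_add (P : HalfPeriods L) {u : ℂ} (hu : u ∉ L.lattice)
    (hu' : L.derivWeierstrassP u ≠ 0) :
    ∏ i, L.derivWeierstrassP (P.h i + u) = latDisc L / L.derivWeierstrassP u := by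
  have hsq := L.derivWeierstrassP_sq u hu
  rw [P.cubic_eq] at hsq
  set q := L.derivWeierstrassP u
  set x := L.weierstrassP u
  have hne : ∀ i, x - P.e i ≠ 0 := by
    intro i hi
    refine pow_ne_zero 2 hu' ?_
    rw [hsq]
    fin_cases i <;> simp_all
  have hD : latDisc L = -16 * ∏ i, cubicDeriv L (P.e i) := by rw [prod_cubicDeriv]; ring
  simp only [derivWeierstrassP_half_add P _ hu hu', Fin.prod_univ_three] at hD ⊢
  have h0 := hne 0
  have h1 := hne 1
  have h2 := hne 2
  have hden : (x - P.e 0) ^ 2 * (x - P.e 1) ^ 2 * (x - P.e 2) ^ 2 = (q ^ 2 / 4) ^ 2 := by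
    rw [hsq]; ring
  rw [hD, div_mul_div_comm, div_mul_div_comm, hden]
  field_simp
  ring

namespace IsCyclicExt

variable (h : IsCyclicExt L L' p w)
include h

theorem half_notMem (hodd : Odd p) {x : ℂ} (h2 : 2 * x ∈ L.lattice) (hx : x ∉ L.lattice) (l : ℂ)
    (hl : (p : ℂ) * l ∈ L.lattice) : x + l ∉ L.lattice := by
  obtain ⟨m, hm⟩ := hodd
  intro hxl
  refine hx ?_
  have h1 := intCast_mul_mem L p hxl
  have h3 := intCast_mul_mem L m h2
  have h4 := L.lattice.sub_mem (L.lattice.sub_mem h1 hl) h3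
  rw [hm] at h4
  push_cast at h4
  rwa [show (2 * (m : ℂ) + 1) * (x + l) - (2 * (m : ℂ) + 1) * l - (m : ℂ) * (2 * x) = x by ring] at h4

theorem mul_mem_of_mem' {l : ℂ} (hl : l ∈ L'.lattice) : (p : ℂ) * l ∈ L.lattice := by
  obtain ⟨k, hk⟩ := h.decomp l hl
  have h1 := intCast_mul_mem L p hk
  have h2 := intCast_mul_mem L k h.mul_mem
  have h3 := L.lattice.add_mem h1 h2
  push_cast at h3
  rwa [show (p : ℂ) * (l - (k : ℂ) * w) + (k : ℂ) * ((p : ℂ) * w) = (p : ℂ) * l by ring] at h3

/-- The half periods of `L` are half periods of `L'`. -/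
def halfPeriods (hodd : Odd p) (P : HalfPeriods L) : HalfPeriods L' where
  h := P.h
  two_mul_mem i := h.le (P.two_mul_mem i)
  notMem i hm := h.half_notMem hodd (P.two_mul_mem i) (P.notMem i) (-P.h i)
    (by rw [mul_neg]; exact L.lattice.neg_mem (h.mul_mem_of_mem' hm)) (by simp)
  sub_notMem i j hij hm := h.half_notMem hodd (x := P.h i - P.h j)
    (by rw [mul_sub]; exact L.lattice.sub_mem (P.two_mul_mem i) (P.two_mul_mem j))
    (P.sub_notMem i j hij) (-(P.h i - P.h j))
    (by rw [mul_neg]; exact L.lattice.neg_mem (h.mul_mem_of_mem' hm)) (by simp)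

theorem deriv_mul_ne_zero (hodd : Odd p) (P : HalfPeriods L) {k : ℕ} (hk : k ∈ Finset.Ico 1 p) :
    L.derivWeierstrassP ((k : ℂ) * w) ≠ 0 := by
  intro h0
  have hn := h.nat_mul_notMem hk
  have hsq := L.derivWeierstrassP_sq _ hn
  rw [h0, P.cubic_eq, zero_pow two_ne_zero, eq_comm, mul_eq_zero, mul_eq_zero, mul_eq_zero] at hsq
  have : ∃ i, L.weierstrassP ((k : ℂ) * w) = P.e i := by
    rcases hsq with ((h4 | h4) | h4) | h4
    · norm_num at h4
    · exact ⟨0, sub_eq_zero.1 h4⟩
    · exact ⟨1, sub_eq_zero.1 h4⟩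
    · exact ⟨2, sub_eq_zero.1 h4⟩
  obtain ⟨i, hi⟩ := this
  have hl : (p : ℂ) * ((k : ℂ) * w) ∈ L.lattice := by
    rw [show (p : ℂ) * ((k : ℂ) * w) = (k : ℂ) * ((p : ℂ) * w) by ring]
    simpa using intCast_mul_mem L k h.mul_mem
  rcases wp_eq_iff_mem L hn (P.notMem i) hi with e | e
  · refine h.half_notMem hodd (P.two_mul_mem i) (P.notMem i) (-((k : ℂ) * w))
      (by rw [mul_neg]; exact L.lattice.neg_mem hl) ?_
    simpa [neg_sub] using (show P.h i + -((k : ℂ) * w) ∈ L.lattice by
      have := L.lattice.neg_mem e; rwa [neg_sub, sub_eq_add_neg] at this)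
  · exact h.half_notMem hodd (P.two_mul_mem i) (P.notMem i) _ hl (by rwa [add_comm])

/-- The product formula for `℘'`. -/
theorem derivWeierstrassP_mul (hodd : Odd p) (P : HalfPeriods L) {z : ℂ} (hz : z ∉ L'.lattice) :
    (∏ k ∈ Finset.Ico 1 p, L.derivWeierstrassP ((k : ℂ) * w)) * L'.derivWeierstrassP z =
      L.derivWeierstrassP z * ∏ k ∈ Finset.Ico 1 p, L.derivWeierstrassP (z + (k : ℂ) * w) := by
  set c := ∏ k ∈ Finset.Ico 1 p, L.derivWeierstrassP ((k : ℂ) * w) with hc
  set R : ℂ → ℂ := fun x => ∏ k ∈ Finset.Ico 1 p, L.derivWeierstrassP (x + (k : ℂ) * w) with hR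
  set H : ℂ → ℂ := fun x => L.derivWeierstrassP x * R x - c * L'.derivWeierstrassP x with hH
  have hcongr : ∀ x : ℂ, ∀ l ∈ L.lattice, L.derivWeierstrassP (x + l) = L.derivWeierstrassP x :=
    fun x l hl => L.derivWeierstrassP_add_coe x ⟨l, hl⟩
  have hsplit : ∀ x : ℂ, ∏ k ∈ Finset.range p, L.derivWeierstrassP (x + (k : ℂ) * w) =
      L.derivWeierstrassP x * R x := fun x => by
    rw [Finset.range_eq_Ico, Finset.prod_eq_prod_Ico_succ_bot hp.out.pos]
    simp [hR]
  have hper : ∀ x, ∀ l ∈ L'.lattice, H (x + l) = H x := fun x l hl => by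
    simp only [hH, ← hsplit, L'.derivWeierstrassP_add_coe x ⟨l, hl⟩]
    congr 1
    exact h.periodic (F := fun x => ∏ k ∈ Finset.range p, L.derivWeierstrassP (x + (k : ℂ) * w))
      (fun x l hl => Finset.prod_congr rfl fun k _ => by rw [add_right_comm, hcongr _ _ hl])
      (fun x => h.range_translate hcongr x) x hl
  have hReven : ∀ x, R (-x) = R x := fun x => by
    have hev : Even (Finset.Ico 1 p).card := by
      rw [Nat.card_Ico]; exact Nat.Odd.sub_odd hodd odd_one
    calc R (-x) = ∏ k ∈ Finset.Ico 1 p, -L.derivWeierstrassP (x + ((p - k : ℕ) : ℂ) * w) := by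
          refine Finset.prod_congr rfl fun k hk => ?_
          rw [Finset.mem_Ico] at hk
          rw [show -x + (k : ℂ) * w = -(x - (k : ℂ) * w) by ring, L.derivWeierstrassP_neg,
            Nat.cast_sub hk.2.le, show x + ((p : ℂ) - k) * w = x - (k : ℂ) * w + (p : ℂ) * w by ring,
            hcongr _ _ h.mul_mem]
      _ = ∏ k ∈ Finset.Ico 1 p, L.derivWeierstrassP (x + ((p - k : ℕ) : ℂ) * w) := by
          rw [Finset.prod_neg, hev.neg_one_pow, one_mul]
      _ = R x := by
          refine Finset.prod_nbij' (fun k => p - k) (fun k => p - k) ?_ ?_ ?_ ?_ fun k _ => rfl <;>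
            intro k hk <;> simp only [Finset.mem_Ico, Finset.mem_coe] at * <;> omega
  have hodd' : ∀ x, H (-x) = -H x := fun x => by
    simp only [hH, hReven, L.derivWeierstrassP_neg, L'.derivWeierstrassP_neg]; ring
  have hRan : AnalyticAt ℂ R 0 := by
    refine Finset.analyticAt_fun_prod _ fun k hk => ?_
    exact (L.analyticOnNhd_derivWeierstrassP _ (h.nat_mul_notMem hk)).comp_of_eq
      (analyticAt_id.add analyticAt_const) (zero_add _)
  have hR0 : R 0 = c := by simp [hR, hc]
  have hderiv_even : ∀ f : ℂ → ℂ, DifferentiableAt ℂ f 0 → (∀ x, f (-x) = f x) → deriv f 0 = 0 := by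
    intro f hf he
    have h1 := deriv_comp_neg (f := f) (x := (0 : ℂ))
    rw [funext he, neg_zero] at h1
    linear_combination h1 / 2
  have hds : ∀ f : ℂ → ℂ, AnalyticAt ℂ f 0 → AnalyticAt ℂ (dslope (dslope f 0) 0) 0 := fun f hf => by
    obtain ⟨s, hs⟩ := hf
    exact hs.has_fpower_series_dslope_fslope.has_fpower_series_dslope_fslope.analyticAt
  set r := dslope (dslope R 0) 0 with hr
  have hran : AnalyticAt ℂ r 0 := hds R hRan
  have hRexp : ∀ x, R x = c + x ^ 2 * r x := fun x => by
    have h1 := sub_smul_dslope R 0 x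
    have h2 := sub_smul_dslope (dslope R 0) 0 x
    rw [dslope_same, hderiv_even R hRan.differentiableAt hReven] at h2
    simp only [sub_zero, smul_eq_mul, hR0] at h1 h2
    rw [hr]
    linear_combination (-1 : ℂ) * h1 - x * h2
  set E := L.derivWeierstrassPExcept 0
  set E' := L'.derivWeierstrassPExcept 0
  set m : ℂ → ℂ := fun x => -2 * r x + x * (E x * R x - c * E' x) with hm
  have hman : AnalyticAt ℂ m 0 :=
    ((analyticAt_const.mul hran)).add (analyticAt_id.mul
      (((L.analyticAt_derivWeierstrassPExcept 0).mul hRan).sub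
        (analyticAt_const.mul (L'.analyticAt_derivWeierstrassPExcept 0))))
  have hmH : ∀ x, x ≠ 0 → x * H x = m x := fun x hx => by
    simp only [hH, hm, E, E', derivWeierstrassP_eq_except L x, derivWeierstrassP_eq_except L' x]
    rw [hRexp]
    field_simp
    ring
  have hmeven : ∀ x, m (-x) = m x := fun x => by
    rcases eq_or_ne x 0 with rfl | hx
    · simp
    rw [← hmH x hx, ← hmH (-x) (neg_ne_zero.2 hx), hodd', neg_mul_neg]
  set α := m 0 with hα
  set m2 := dslope (dslope m 0) 0 with hm2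
  have hm2an : AnalyticAt ℂ m2 0 := hds m hman
  have hmexp : ∀ x, m x = α + x ^ 2 * m2 x := fun x => by
    have h1 := sub_smul_dslope m 0 x
    have h2 := sub_smul_dslope (dslope m 0) 0 x
    rw [dslope_same, hderiv_even m hman.differentiableAt hmeven] at h2
    simp only [sub_zero, smul_eq_mul] at h1 h2
    rw [hm2, hα]
    linear_combination (-1 : ℂ) * h1 - x * h2
  set K : ℂ → ℂ := fun x => H x ^ 2 - α ^ 2 * L'.weierstrassP x with hK
  set e' := L'.weierstrassPExcept 0
  have hK0 : ContinuousAt (fun x => m2 x * (2 * α + x ^ 2 * m2 x) - α ^ 2 * e' x) 0 :=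
    (hm2an.continuousAt.mul (continuousAt_const.add
      ((continuousAt_id.pow 2).mul hm2an.continuousAt))).sub
      (continuousAt_const.mul (L'.analyticAt_weierstrassPExcept 0).continuousAt)
  have hKconst : ∀ x, x ∉ L'.lattice →
      K x = m2 0 * (2 * α + 0 ^ 2 * m2 0) - α ^ 2 * e' 0 := by
    intro x hx
    refine eq_of_periodic_of_tendsto L' (fun y _ l hl => ?_) (fun y hy => ?_)
      ((hK0.tendsto.mono_left nhdsWithin_le_nhds).congr' ?_) hx
    · simp only [hK, hper y l hl, L'.weierstrassP_add_coe y ⟨l, hl⟩]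
    · refine (DifferentiableAt.pow ?_ 2).sub
        ((hasDerivAt_wp L' hy).differentiableAt.const_mul _)
      refine ((hasDerivAt_wp' (h.notMem_of_notMem hy)).differentiableAt.mul
        (DifferentiableAt.fun_finsetProd fun k _ => ?_)).sub
          ((hasDerivAt_wp' hy).differentiableAt.const_mul _)
      exact ((hasDerivAt_wp' (h.add_notMem hy k)).comp_add_const y _).differentiableAt
    · refine eventually_nhdsWithin_of_forall fun y hy => ?_
      have hy' : y ≠ 0 := hy
      have hHy : H y = m y / y := by rw [← hmH y hy', mul_div_cancel_left₀ _ hy']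
      simp only [hK, hHy, hmexp, e', weierstrassP_eq_except L' y]
      field_simp
      ring
  set κ := m2 0 * (2 * α + 0 ^ 2 * m2 0) - α ^ 2 * e' 0
  set P' := h.halfPeriods hodd P
  have hhalf : ∀ i, -α ^ 2 * P'.e i = κ := fun i => by
    have h1 := hKconst _ (P'.notMem i)
    have h2 : H (P'.h i) = 0 := by
      simp only [hH, P'.deriv_eq_zero, show P'.h i = P.h i from rfl, P.deriv_eq_zero]
      rw [show L'.derivWeierstrassP (P.h i) = 0 from P'.deriv_eq_zero i]
      ring
    simp only [hK, h2] at h1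
    rw [← h1, HalfPeriods.e]
    ring
  have hα0 : α ^ 2 = 0 := by
    have hne : P'.e 0 - P'.e 1 ≠ 0 := sub_ne_zero.2 (P'.e_injective.ne (by decide))
    refine (mul_eq_zero.1 (show α ^ 2 * (P'.e 0 - P'.e 1) = 0 by
      linear_combination (-1 : ℂ) * hhalf 0 + hhalf 1)).resolve_right hne
  have hκ : κ = 0 := by rw [← hhalf 0, hα0]; ring
  have := hKconst z hz
  simp only [hK, hα0, hκ, zero_mul, sub_zero] at this
  have hz0 := (pow_eq_zero_iff two_ne_zero).1 this
  simp only [hH, hR] at hz0
  linear_combination -hz0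

/-- The discriminant of the larger lattice. -/
theorem latDisc_mul (hodd : Odd p) (P : HalfPeriods L) :
    latDisc L' * (∏ k ∈ Finset.Ico 1 p, L.derivWeierstrassP ((k : ℂ) * w)) ^ 4 =
      latDisc L ^ p := by
  set c := ∏ k ∈ Finset.Ico 1 p, L.derivWeierstrassP ((k : ℂ) * w) with hc
  set P' := h.halfPeriods hodd P
  have key : ∀ i, c * (2 * cubicDeriv L' (P'.e i)) = 2 * cubicDeriv L (P.e i) *
      ∏ k ∈ Finset.Ico 1 p, L.derivWeierstrassP (P.h i + (k : ℂ) * w) := by
    intro i
    have hi : P.h i ∉ L'.lattice := P'.notMem i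
    have heq : (fun x => c * L'.derivWeierstrassP x) =ᶠ[𝓝 (P.h i)] fun x => L.derivWeierstrassP x *
        ∏ k ∈ Finset.Ico 1 p, L.derivWeierstrassP (x + (k : ℂ) * w) := by
      filter_upwards [L'.isClosed_lattice.isOpen_compl.mem_nhds hi] with x hx
      exact h.derivWeierstrassP_mul hodd P hx
    have h1 := (hasDerivAt_wp' hi).const_mul c
    have hR : DifferentiableAt ℂ (fun x => ∏ k ∈ Finset.Ico 1 p,
        L.derivWeierstrassP (x + (k : ℂ) * w)) (P.h i) :=
      DifferentiableAt.fun_finsetProd fun k _ =>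
        ((hasDerivAt_wp' (h.add_notMem hi k)).comp_add_const (P.h i) _).differentiableAt
    have h2 := ((hasDerivAt_wp' (P.notMem i)).mul hR.hasDerivAt).congr_of_eventuallyEq heq
    have := h1.unique h2
    rw [P.deriv_eq_zero, zero_mul, add_zero] at this
    have e' : P'.e i = L'.weierstrassP (P.h i) := rfl
    have e : P.e i = L.weierstrassP (P.h i) := rfl
    rw [cubicDeriv, cubicDeriv, e', e]
    linear_combination this
  have hprod := Finset.prod_congr rfl (fun i (_ : i ∈ (Finset.univ : Finset (Fin 3))) => key i)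
  simp only [Finset.prod_mul_distrib, Finset.prod_const, Finset.card_univ, Fintype.card_fin,
    prod_cubicDeriv] at hprod
  rw [Finset.prod_comm, Finset.prod_congr rfl fun k hk =>
    prod_half_add P (h.nat_mul_notMem hk) (h.deriv_mul_ne_zero hodd P hk)] at hprod
  rw [Finset.prod_div_distrib, Finset.prod_const, Nat.card_Ico, ← hc] at hprod
  have hc0 : c ≠ 0 := Finset.prod_ne_zero_iff.2 fun k hk => h.deriv_mul_ne_zero hodd P hk
  obtain ⟨m, hm⟩ : ∃ m, p = m + 1 := ⟨p - 1, by have := hp.out.pos; omega⟩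
  rw [hm] at hprod ⊢
  rw [Nat.add_sub_cancel] at hprod
  field_simp at hprod
  rw [pow_succ]
  linear_combination (-1 : ℂ) * hprod

end IsCyclicExt

end Fermat.Agent.Mazur3
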