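import Fermat.Agent.Mazur3.SameBranch
import Fermat.Agent.GalRep.InertiaZero
import Fermat.Prelude.Def_FLTPrelim_CofixedLine

/-!
# A rational point of prime order off the identity component at `2` and `3`

Such a point gives a point of `X₀(p)` on one branch at `2` and `3`, so it is off the identity
component at every place of multiplicative reduction away from `p`.
-/

set_option autoImplicit false

noncomputable section

namespace Fermat.Agent.Mazur3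

open WeierstrassCurve WeierstrassCurve.Affine GalRep
open Fermat.Agent.Galois (GQ)

local notation "Qb" => AlgebraicClosure ℚ

theorem padicValRat_j_neg {q : ℕ} [Fact q.Prime] (W : WeierstrassCurve ℤ) (hΔ : W.Δ ≠ 0)
    (hq : (q : ℤ) ∣ W.Δ) (hc : ¬ (q : ℤ) ∣ W.c₄) :
    padicValRat q ((W.c₄ : ℚ) ^ 3 / W.Δ) < 0 := by
  have hc0 : W.c₄ ≠ 0 := fun h => hc (h ▸ dvd_zero _)
  rw [padicValRat.div (pow_ne_zero _ (Int.cast_ne_zero.2 hc0)) (Int.cast_ne_zero.2 hΔ),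
    padicValRat.pow, padicValRat.of_int, padicValRat.of_int,
    padicValInt.eq_zero_of_not_dvd hc]
  have h1 : 1 ≤ padicValInt q W.Δ := by
    rw [padicValInt]
    exact one_le_padicValNat_of_dvd (Int.natAbs_ne_zero.2 hΔ) (Int.natCast_dvd.1 hq)
  omega

/-- The conclusion of the statement, from the same-branch property. -/
theorem not_inZeroComponent_of_sameBranch {p : ℕ} [hp : Fact p.Prime] [NeZero p] (hp5 : 5 ≤ p)
    (hsb : SameBranch p) (W : WeierstrassCurve ℤ) (hΔ : W.Δ ≠ 0)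
    (Q : ((W.map (Int.castRingHom ℚ))⁄Qb).Point) (hQfix : ∀ σ : Qb ≃ₐ[ℚ] Qb, σ • Q = Q)
    (hQord : addOrderOf Q = p)
    (h2Δ : (2 : ℤ) ∣ W.Δ) (h2c₄ : ¬ (2 : ℤ) ∣ W.c₄)
    (h2 : ∀ A : ValuationSubring Qb, A.LiesOverPrime 2 → ¬ W.InZeroComponentAt A Q)
    (h3Δ : (3 : ℤ) ∣ W.Δ) (h3c₄ : ¬ (3 : ℤ) ∣ W.c₄)
    (h3 : ∀ A : ValuationSubring Qb, A.LiesOverPrime 3 → ¬ W.InZeroComponentAt A Q)
    {ℓ : ℕ} (hℓ : ℓ.Prime) (hℓp : ℓ ≠ p) (hℓΔ : (ℓ : ℤ) ∣ W.Δ) (hℓc₄ : ¬ (ℓ : ℤ) ∣ W.c₄)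
    (A : ValuationSubring Qb) (hA : A.LiesOverPrime ℓ) :
    ¬ W.InZeroComponentAt A Q := by
  intro hin
  obtain ⟨j', τ, hj, hj', hmod⟩ := exists_isogenous_j hp5 W hΔ Q hQfix hQord
  obtain ⟨A2, hA2⟩ := Galois.exists_liesOverPrime Nat.prime_two
  obtain ⟨A3, hA3⟩ := Galois.exists_liesOverPrime Nat.prime_three
  have := Fact.mk hℓ
  have hneg := padicValRat_j_neg W hΔ hℓΔ hℓc₄
  have hv := hsb _ j' τ hj hj'
    (padicValRat_j_neg (q := 2) W hΔ h2Δ h2c₄)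
    ((hmod 2 Nat.prime_two (by omega) h2Δ h2c₄ A2 hA2).1 (h2 A2 hA2))
    (padicValRat_j_neg (q := 3) W hΔ h3Δ h3c₄)
    ((hmod 3 Nat.prime_three (by omega) h3Δ h3c₄ A3 hA3).1 (h3 A3 hA3))
    ℓ hℓ hℓp hneg
  have hin' := (hmod ℓ hℓ hℓp hℓΔ hℓc₄ A hA).2 hin
  rw [hin', ← mul_assoc] at hv
  have hpp : (1 : ℤ) < (p : ℤ) * p := by nlinarith
  nlinarith

/-- The statement, from the vanishing at the residual prime. -/
theorem not_inZeroComponent_of_etaInput {p : ℕ} [hp : Fact p.Prime] [NeZero p]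
    (hp' : p ∉ ({2, 3, 5, 7, 13} : Finset ℕ)) (hEta : EtaInput p) (W : WeierstrassCurve ℤ)
    (hΔ : W.Δ ≠ 0)
    (Q : ((W.map (Int.castRingHom ℚ))⁄Qb).Point) (hQfix : ∀ σ : Qb ≃ₐ[ℚ] Qb, σ • Q = Q)
    (hQord : addOrderOf Q = p)
    (h2Δ : (2 : ℤ) ∣ W.Δ) (h2c₄ : ¬ (2 : ℤ) ∣ W.c₄)
    (h2 : ∀ A : ValuationSubring Qb, A.LiesOverPrime 2 → ¬ W.InZeroComponentAt A Q)
    (h3Δ : (3 : ℤ) ∣ W.Δ) (h3c₄ : ¬ (3 : ℤ) ∣ W.c₄)
    (h3 : ∀ A : ValuationSubring Qb, A.LiesOverPrime 3 → ¬ W.InZeroComponentAt A Q)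
    {ℓ : ℕ} (hℓ : ℓ.Prime) (hℓp : ℓ ≠ p) (hℓΔ : (ℓ : ℤ) ∣ W.Δ) (hℓc₄ : ¬ (ℓ : ℤ) ∣ W.c₄)
    (A : ValuationSubring Qb) (hA : A.LiesOverPrime ℓ) :
    ¬ W.InZeroComponentAt A Q := by
  refine not_inZeroComponent_of_sameBranch ?_ (sameBranch_of_inputs hp' (inertiaProdZero p) hEta)
    W hΔ Q hQfix hQord h2Δ h2c₄ h2 h3Δ h3c₄ h3 hℓ hℓp hℓΔ hℓc₄ A hA
  have h2 := hp.out.two_le
  by_contra h
  push Not at h
  have hprime := hp.out
  simp only [Finset.mem_insert, Finset.mem_singleton, not_or] at hp'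
  interval_cases p <;> norm_num at *

end Fermat.Agent.Mazur3
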